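import Fermat.Agent.Mazur.PointCount
import Fermat.Agent.Frob.VarChange
import Fermat.Agent.Local.Primes
import Fermat.Agent.EC.TorsionCard

/-!
# A Frobenius-fixed point of order `p ≥ 2 l + 1` makes `j` non-integral at `l`
-/

set_option autoImplicit false
set_option linter.unusedSectionVars false

noncomputable section

namespace FA.Mazur

open WeierstrassCurve FA.Local FA.LocalDef

local notation "Qb" => AlgebraicClosure ℚ
local notation "GQ" => AlgebraicClosure ℚ ≃ₐ[ℚ] AlgebraicClosure ℚ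

set_option maxHeartbeats 1000000

/-- A unit in the valuation of `l`. -/
theorem valuation_natCast_eq_one {A : ValuationSubring Qb} {l : ℕ} (hl : l.Prime)
    (hA : A.LiesOverPrime l) {n : ℕ} (hn : ¬ l ∣ n) : A.valuation (n : Qb) = 1 := by
  have := natCast_eq_one_of_not_dvd hl (valuation_p_lt_one hA) (n := (n : ℤ))
    (fun h => hn (Int.natCast_dvd_natCast.1 h))
  rwa [Int.cast_natCast] at this

/-- The coordinates of a fixed point. -/
theorem fixed_coords {W : WeierstrassCurve ℚ} {σ : GQ} {x y : Qb}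
    {h : (W⁄Qb).toAffine.Nonsingular x y}
    (hfix : σ • (Affine.Point.some x y h : (W⁄Qb).toAffine.Point) = .some x y h) :
    σ x = x ∧ σ y = y :=
  Affine.Point.some.inj hfix

/-- **A Frobenius fixed point of order `p` gives a pole of `j`.** -/
theorem one_lt_valuation_j (W : WeierstrassCurve ℚ) [W.IsElliptic] {l p : ℕ} (hl : l.Prime)
    (hl5 : 5 ≤ l) (hp : p.Prime) (hlp : l ≠ p) (hp2 : 2 * l + 1 ≤ p) {A : ValuationSubring Qb}
    (hA : A.LiesOverPrime l) {F : GQ} (hF : F ∈ A.decompositionSubgroup ℚ)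
    (hFrob : ∀ x : Qb, A.valuation x ≤ 1 → res A (F x) = res A x ^ l)
    {P : (W⁄Qb).toAffine.Point} (hP : P ≠ 0) (hpP : p • P = 0) (hfix : F • P = P) :
    1 < A.valuation (algebraMap ℚ Qb W.j) := by
  by_contra hj
  push Not at hj
  haveI := res_charP hl hA
  have h48 : A.valuation (48 : Qb) = 1 := by
    exact_mod_cast valuation_natCast_eq_one hl hA (n := 48) fun h => by
      rcases (Nat.Prime.dvd_mul hl).1 (show l ∣ 16 * 3 by simpa using h) with h | h
      · have := (Nat.prime_dvd_prime_iff_eq hl Nat.prime_two).1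
          (hl.dvd_of_dvd_pow (show l ∣ 2 ^ 4 by simpa using h))
        omega
      · have := Nat.le_of_dvd (by norm_num) h
        omega
  have h864 : A.valuation (864 : Qb) = 1 := by
    exact_mod_cast valuation_natCast_eq_one hl hA (n := 864) fun h => by
      rcases (Nat.Prime.dvd_mul hl).1 (show l ∣ 32 * 27 by simpa using h) with h | h
      · have := (Nat.prime_dvd_prime_iff_eq hl Nat.prime_two).1
          (hl.dvd_of_dvd_pow (show l ∣ 2 ^ 5 by simpa using h))
        omega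
      · have := (Nat.prime_dvd_prime_iff_eq hl Nat.prime_three).1
          (hl.dvd_of_dvd_pow (show l ∣ 3 ^ 3 by simpa using h))
        omega
  haveI : (W⁄Qb).IsElliptic := inferInstanceAs (W.map (algebraMap ℚ Qb)).IsElliptic
  obtain ⟨u, hu⟩ := IsAlgClosed.exists_pow_nat_eq (W⁄Qb).Δ (show 0 < 12 by norm_num)
  have hΔ0 : (W⁄Qb).Δ ≠ 0 := (W⁄Qb).isUnit_Δ.ne_zero
  have hu0 : u ≠ 0 := fun h => hΔ0 (by rw [← hu, h, zero_pow (by norm_num)])
  set C : VariableChange Qb :=
    ⟨Units.mk0 u hu0, -(W⁄Qb).b₂ / 12, -(W⁄Qb).a₁ / 2, -((W⁄Qb).a₃ + -(W⁄Qb).b₂ / 12 * (W⁄Qb).a₁) / 2⟩ with hC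
  set V' : WeierstrassCurve Qb := C • (W⁄Qb) with hV'
  have e1 : V'.a₁ = 0 := by
    simp only [hV', variableChange_a₁, hC]; ring
  have e2 : V'.a₂ = 0 := by
    simp only [hV', variableChange_a₂, hC, WeierstrassCurve.b₂]; ring
  have e3 : V'.a₃ = 0 := by
    simp only [hV', variableChange_a₃, hC]; ring
  have hc4' : V'.c₄ = (W⁄Qb).c₄ / u ^ 4 := by
    rw [hV', variableChange_c₄, hC, Units.val_inv_eq_inv_val, Units.val_mk0, inv_pow,
      div_eq_inv_mul]
  have hc6' : V'.c₆ = (W⁄Qb).c₆ / u ^ 6 := by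
    rw [hV', variableChange_c₆, hC, Units.val_inv_eq_inv_val, Units.val_mk0, inv_pow,
      div_eq_inv_mul]
  have hΔ' : V'.Δ = 1 := by
    rw [hV', variableChange_Δ, hC, Units.val_inv_eq_inv_val, Units.val_mk0, inv_pow, hu,
      inv_mul_cancel₀ hΔ0]
  have ha4 : V'.c₄ = -48 * V'.a₄ := by
    simp only [WeierstrassCurve.c₄, WeierstrassCurve.b₂, WeierstrassCurve.b₄, e1, e2, e3]; ring
  have ha6 : V'.c₆ = -864 * V'.a₆ := by
    simp only [WeierstrassCurve.c₆, WeierstrassCurve.b₂, WeierstrassCurve.b₄, WeierstrassCurve.b₆,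
      e1, e2, e3]; ring
  have hjV : algebraMap ℚ Qb W.j = V'.c₄ ^ 3 := by
    have h1 : W.j = W.c₄ ^ 3 / W.Δ := by
      rw [WeierstrassCurve.j, div_eq_inv_mul, Units.val_inv_eq_inv_val, coe_Δ']
    rw [h1, map_div₀, map_pow, hc4', div_pow, ← pow_mul, hu]
    simp only [baseChange, map_c₄, map_Δ]
  have h4 : A.valuation V'.a₄ ≤ 1 := by
    have h1 : A.valuation V'.c₄ ≤ 1 := by
      rw [← pow_le_one_iff (n := 3) (by norm_num), ← map_pow, ← hjV]
      exact hj
    rwa [ha4, map_mul, Valuation.map_neg, h48, one_mul] at h1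
  have h6 : A.valuation V'.a₆ ≤ 1 := by
    have hrel : V'.c₆ ^ 2 = V'.c₄ ^ 3 - 1728 := by
      have := V'.c_relation
      rw [hΔ'] at this
      linear_combination this
    have h1 : A.valuation V'.c₆ ≤ 1 := by
      rw [← pow_le_one_iff (n := 2) two_ne_zero, ← map_pow, hrel, ← hjV]
      refine A.valuation.map_sub_le hj ?_
      exact_mod_cast natCast_le_one (v := A.valuation) 1728
    rwa [ha6, map_mul, Valuation.map_neg, h864, one_mul] at h1
  have hI : IntCoeff A.valuation V'.toAffine :=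
    ⟨by rw [show V'.toAffine.a₁ = 0 from e1, map_zero]; exact zero_le,
      by rw [show V'.toAffine.a₂ = 0 from e2, map_zero]; exact zero_le,
      by rw [show V'.toAffine.a₃ = 0 from e3, map_zero]; exact zero_le, h4, h6⟩
  haveI : V'.IsElliptic := ⟨by rw [hΔ']; exact isUnit_one⟩
  have hpv : A.valuation (p : Qb) = 1 :=
    valuation_natCast_eq_one hl hA fun h => hlp ((Nat.prime_dvd_prime_iff_eq hl hp).1 h)
  obtain ⟨P', hP'⟩ := (FA.Frob.vcEquiv C hV'.symm).surjective P
  replace hP : FA.Frob.vcEquiv C hV'.symm P' ≠ 0 := fun h => hP (hP'.symm.trans h)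
  replace hpP : p • FA.Frob.vcEquiv C hV'.symm P' = 0 := (congrArg (p • ·) hP').trans hpP
  replace hfix : F • FA.Frob.vcEquiv C hV'.symm P' = FA.Frob.vcEquiv C hV'.symm P' :=
    ((congrArg (F • ·) hP').trans hfix).trans hP'.symm
  have hodd : Odd p := hp.odd_of_ne_two (by omega)
  have hb1 : A.valuation ((u / F u) ^ 2) = 1 := by
    rw [map_pow, map_div₀, decomp_map_eq hF,
      div_self (A.valuation.ne_zero_iff.2 hu0), one_pow]
  have he1 : A.valuation ((u / F u) ^ 3) = 1 := by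
    rw [map_pow, map_div₀, decomp_map_eq hF,
      div_self (A.valuation.ne_zero_iff.2 hu0), one_pow]
  have hb : res A ((u / F u) ^ 2) ≠ 0 := fun h => by
    rw [res_eq_zero_iff hb1.le, hb1] at h; exact lt_irrefl _ h
  have he : res A ((u / F u) ^ 3) ≠ 0 := fun h => by
    rw [res_eq_zero_iff he1.le, he1] at h; exact lt_irrefl _ h
  refine absurd hp2 (not_le.2 (lt_of_residue_twist hI (by rw [show V'.toAffine.Δ = 1 from hΔ', map_one])
    hp hodd hpv (P := P') (fun h => hP (by rw [h, map_zero]))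
    ((FA.Frob.vcEquiv C hV'.symm).injective (by rw [map_nsmul, hpP, map_zero])) hl hl5 hb he
    fun m x y h hm hx => ?_))
  have hy : A.valuation y ≤ 1 := le_y_of_le_x hI h.1 hx
  have hn : F • (m • FA.Frob.vcEquiv C hV'.symm P') = m • FA.Frob.vcEquiv C hV'.symm P' := by
    rw [← Nat.cast_smul_eq_nsmul ℤ, Affine.Point.algEquiv_smul_zsmul, hfix]
  rw [← map_nsmul, hm, FA.Frob.vcEquiv_some] at hn
  obtain ⟨hX, hY⟩ := fixed_coords hn
  have hr : ∀ c : ℚ, F (algebraMap ℚ Qb c) = algebraMap ℚ Qb c := fun c => F.commutes c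
  have hVr : F C.r = C.r ∧ F C.s = C.s ∧ F C.t = C.t := by
    have f1 : F (W⁄Qb).a₁ = (W⁄Qb).a₁ := hr W.a₁
    have f2 : F (W⁄Qb).a₂ = (W⁄Qb).a₂ := hr W.a₂
    have f3 : F (W⁄Qb).a₃ = (W⁄Qb).a₃ := hr W.a₃
    refine ⟨?_, ?_, ?_⟩ <;>
      simp only [hC, WeierstrassCurve.b₂, map_div₀, map_neg, map_add, map_mul, map_pow, map_ofNat,
        f1, f2, f3]
  obtain ⟨fr, fs, ft⟩ := hVr
  have hFu : F u ≠ 0 := by simpa using hu0
  simp only [FA.Frob.vcX, FA.Frob.vcY, map_add, map_mul, map_pow, fr, fs, ft,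
    show ((C.u : Qbˣ) : Qb) = u from rfl] at hX hY
  have hx' : F x = (u / F u) ^ 2 * x := by
    field_simp
    linear_combination hX
  have hy' : F y = (u / F u) ^ 3 * y := by
    have : F u ^ 3 * F y = u ^ 3 * y := by
      linear_combination hY - C.s * hX
    field_simp
    linear_combination this
  constructor
  · rw [← hFrob x hx, hx', res_mul hb1.le hx]
  · have hfy : fy V'.toAffine x y = 2 * y := by
      simp only [fy, show V'.toAffine.a₁ = 0 from e1, show V'.toAffine.a₃ = 0 from e3]; ring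
    have h2y : A.valuation (2 * y) ≤ 1 := map_mul_le_one le_two hy
    rw [hfy, ← hFrob _ h2y, map_mul, map_ofNat, hy', mul_left_comm, res_mul he1.le h2y]

end FA.Mazur

end
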