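import Fermat.Prelude.Def_ModularCurve_ModularUnit

/-!
# The prime divisors of the Eisenstein numerator
-/

set_option autoImplicit false

noncomputable section

namespace FA.Mazur

open ModularCurve

theorem exists_prime_dvd_eisensteinNumerator {p : ℕ} (hp : p.Prime) (h11 : 11 ≤ p) (h13 : p ≠ 13) :
    ∃ l : ℕ, l.Prime ∧ l ∣ eisensteinNumerator p ∧ l ≠ p ∧ 2 * l + 1 ≤ p := by
  set g := Nat.gcd (p - 1) 12 with hg
  have hgd : g ∣ p - 1 := Nat.gcd_dvd_left _ _
  have hg12 : g ≤ 12 := Nat.le_of_dvd (by norm_num) (Nat.gcd_dvd_right _ _)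
  have hg2 : 2 ∣ g := by
    refine Nat.dvd_gcd ?_ (by norm_num)
    obtain ⟨k, hk⟩ := hp.odd_of_ne_two (by omega)
    exact ⟨k, by omega⟩
  have hdef : eisensteinNumerator p = (p - 1) / g := rfl
  obtain ⟨k, hk⟩ := hgd
  have hgpos : 0 < g := Nat.gcd_pos_of_pos_right _ (by norm_num)
  have hnum : eisensteinNumerator p = k := by rw [hdef, hk, Nat.mul_div_cancel_left _ hgpos]
  have hk2 : k ≠ 1 := by
    intro h1
    rw [h1, mul_one] at hk
    have h12 : g ∣ 12 := Nat.gcd_dvd_right _ _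
    rw [← hk] at h12
    have : p ≤ 13 := by omega
    interval_cases p <;> norm_num at *
  obtain ⟨l, hl, hlk⟩ := Nat.exists_prime_and_dvd hk2
  have hk0 : 0 < k := Nat.pos_of_ne_zero fun h => by rw [h, mul_zero] at hk; omega
  have hlk' := Nat.le_of_dvd hk0 hlk
  have h2k : 2 * k ≤ g * k := Nat.mul_le_mul_right k (Nat.le_of_dvd hgpos hg2)
  exact ⟨l, hl, hnum ▸ hlk, by omega, by omega⟩

end FA.Mazur

end
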