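import Fermat.Agent.ModField.Congruence.Export
import Mathlib.RingTheory.Polynomial.Content
import Mathlib.RingTheory.RootsOfUnity.AlgebraicallyClosed
import Mathlib.FieldTheory.Finite.Basic

/-!
# Residues lift to roots of unity fixed by inertia
-/

set_option autoImplicit false
set_option linter.style.haveILetI false

noncomputable section

open Polynomial

namespace FA.Mazur

local notation "Qb" => AlgebraicClosure ℚ

variable {A : ValuationSubring Qb} {q : ℕ} [hq : Fact q.Prime]

/-- Residues at a place over `q` are algebraic over the prime field. -/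
theorem exists_poly_residue (a : A) : ∃ P : Polynomial ℤ, (P.map (Int.castRingHom (ZMod q))) ≠ 0 ∧
    Polynomial.eval₂ (Int.castRingHom (IsLocalRing.ResidueField A)) (IsLocalRing.residue A a) P = 0 := by
  haveI : Algebra.IsAlgebraic ℚ Qb := AlgebraicClosure.isAlgebraic ℚ
  obtain ⟨P, hP, hPa⟩ : IsAlgebraic ℤ (a : Qb) :=
    (IsFractionRing.isAlgebraic_iff ℤ ℚ Qb).2 (Algebra.IsAlgebraic.isAlgebraic _)
  have hroot : aeval (a : Qb) P.primPart = 0 := aeval_primPart_eq_zero hP hPa
  refine ⟨P.primPart, fun h => ?_, ?_⟩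
  · have hd : C (q : ℤ) ∣ P.primPart := by
      rw [C_dvd_iff_dvd_coeff]
      intro i
      have := congrArg (fun R : Polynomial (ZMod q) => R.coeff i) h
      simp only [coeff_map, coeff_zero, eq_intCast, ZMod.intCast_zmod_eq_zero_iff_dvd] at this
      exact this
    have := isPrimitive_primPart P (q : ℤ) hd
    rw [Int.isUnit_iff_natAbs_eq, Int.natAbs_natCast] at this
    exact hq.out.one_lt.ne' this
  · have h1 : eval₂ (Int.castRingHom A) a P.primPart = 0 := by
      refine Subtype.val_injective ?_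
      show A.subtype (eval₂ (Int.castRingHom A) a P.primPart) = 0
      rw [hom_eval₂, show A.subtype.comp (Int.castRingHom A) = algebraMap ℤ Qb from RingHom.ext_int _ _]
      exact hroot
    have h2 := congrArg (IsLocalRing.residue A) h1
    rwa [hom_eval₂, map_zero, show (IsLocalRing.residue A).comp (Int.castRingHom A) =
      Int.castRingHom (IsLocalRing.ResidueField A) from RingHom.ext_int _ _] at h2

/-- Roots of unity of order prime to `q` are separated by the residue map. -/
theorem eq_one_of_near {N : ℕ} (hN : N ≠ 0) (hqN : ¬ q ∣ N) (hA : A.LiesOverPrime q) {μ : Qb}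
    (hμ : μ ^ N = 1) (h : A.valuation (μ - 1) < 1) : μ = 1 := by
  by_contra hne
  have hle : A.valuation μ ≤ 1 := by
    have : A.valuation μ ^ N = 1 := by rw [← map_pow, hμ, map_one]
    exact ((pow_eq_one_iff.mp this).resolve_right hN).le
  have hpow : ∀ i : ℕ, A.valuation (μ ^ i - 1) < 1 := fun i => by
    rw [← geom_sum_mul μ i, map_mul]
    refine lt_of_le_of_lt (mul_le_of_le_one_left' (A.valuation.map_sum_le fun j _ => ?_)) h
    rw [map_pow]
    exact pow_le_one₀ zero_le hle
  have hs : A.valuation (∑ i ∈ Finset.range N, (μ ^ i - 1)) < 1 :=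
    A.valuation.map_sum_lt one_ne_zero fun i _ => hpow i
  rw [Finset.sum_sub_distrib, geom_sum_eq hne, hμ, sub_self, zero_div, Finset.sum_const,
    Finset.card_range, nsmul_one, zero_sub, A.valuation.map_neg,
    FA.ModField.valuation_natCast_eq_one hA hqN] at hs
  exact lt_irrefl _ hs

/-- Every residue has a lift fixed by inertia. -/
theorem exists_fixed_lift (hA : A.LiesOverPrime q) (c : IsLocalRing.ResidueField A) :
    ∃ a : A, IsLocalRing.residue A a = c ∧
      ∀ σ ∈ A.inertiaSubgroupIn ℚ, σ (a : Qb) = a := by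
  classical
  rcases eq_or_ne c 0 with rfl | hc
  · exact ⟨0, map_zero _, fun σ _ => map_zero σ⟩
  haveI := FA.ModField.residueAt_charP (ℓ := q) hA
  letI : Algebra (ZMod q) (IsLocalRing.ResidueField A) := ZMod.algebra _ q
  obtain ⟨a₀, rfl⟩ := IsLocalRing.residue_surjective c
  obtain ⟨P, hP, hPc⟩ := exists_poly_residue (q := q) a₀
  set c := IsLocalRing.residue A a₀
  have halg : IsAlgebraic (ZMod q) c := ⟨_, hP, by
    rw [aeval_def, eval₂_map, show (algebraMap (ZMod q) (IsLocalRing.ResidueField A)).comp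
      (Int.castRingHom (ZMod q)) = Int.castRingHom _ from RingHom.ext_int _ _, hPc]⟩
  let E := IntermediateField.adjoin (ZMod q) ({c} : Set (IsLocalRing.ResidueField A))
  haveI : FiniteDimensional (ZMod q) E := IntermediateField.adjoin.finiteDimensional halg.isIntegral
  haveI : Finite E := Module.finite_of_finite (ZMod q)
  haveI := Fintype.ofFinite E
  set N := Fintype.card E - 1 with hNdef
  have hcN : c ^ N = 1 := by
    have h1 : (⟨c, IntermediateField.mem_adjoin_simple_self _ c⟩ : E) ≠ 0 := fun h =>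
      hc (congrArg Subtype.val h)
    exact congrArg Subtype.val (FiniteField.pow_card_sub_one_eq_one _ h1)
  haveI : CharP E q := charP_of_injective_algebraMap (algebraMap (ZMod q) E).injective q
  obtain ⟨f, hf⟩ := FiniteField.card E q
  have hN : N ≠ 0 := by
    have := Fintype.one_lt_card (α := E)
    omega
  have hqN : ¬ q ∣ N := fun h => by
    have h1 : q ∣ Fintype.card E := hf.2 ▸ dvd_pow_self q f.pos.ne'
    have h2 := Nat.dvd_sub h1 h
    rw [hNdef, Nat.sub_sub_self Fintype.card_pos] at h2
    exact hq.out.not_dvd_one h2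
  haveI : NeZero N := ⟨hN⟩
  obtain ⟨ζ, hζ⟩ := HasEnoughRootsOfUnity.exists_primitiveRoot Qb N
  have hprod := hζ.pow_sub_pow_eq_prod_sub_mul (a₀ : Qb) 1 (Nat.pos_of_ne_zero hN)
  simp only [one_pow, mul_one] at hprod
  have hlt : A.valuation ((a₀ : Qb) ^ N - 1) < 1 := by
    have : IsLocalRing.residue A (a₀ ^ N - 1) = 0 := by
      rw [map_sub, map_pow, map_one, sub_eq_zero]; exact hcN
    have h := (FA.ModField.residueAt_eq_zero _).1 this
    simpa using h
  have hμle : ∀ μ ∈ nthRootsFinset N (1 : Qb), μ ∈ A := fun μ hμ => by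
    rw [← A.valuation_le_one_iff]
    have h1 : A.valuation μ ^ N = 1 := by
      rw [← map_pow, (mem_nthRootsFinset (Nat.pos_of_ne_zero hN) 1).1 hμ, map_one]
    exact ((pow_eq_one_iff.mp h1).resolve_right hN).le
  obtain ⟨μ, hμ, hμlt⟩ : ∃ μ ∈ nthRootsFinset N (1 : Qb), A.valuation ((a₀ : Qb) - μ) < 1 := by
    by_contra hno
    push Not at hno
    rw [hprod, map_prod] at hlt
    exact (lt_irrefl _ ((Finset.one_le_prod' fun μ hμ => hno μ hμ).trans_lt hlt))
  refine ⟨⟨μ, hμle μ hμ⟩, ?_, fun σ hσ => ?_⟩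
  · rw [← sub_eq_zero, ← map_sub, FA.ModField.residueAt_eq_zero]
    show A.valuation (μ - (a₀ : Qb)) < 1
    rwa [← Valuation.map_neg, neg_sub]
  · show σ μ = μ
    have hμN : μ ^ N = 1 := (mem_nthRootsFinset (Nat.pos_of_ne_zero hN) 1).1 hμ
    have hμ0 : μ ≠ 0 := fun h => by rw [h, zero_pow hN] at hμN; exact zero_ne_one hμN
    obtain ⟨b, hb, hb'⟩ := FA.ModField.inducesOn_inertia hσ ⟨μ, hμle μ hμ⟩
    rw [RingHom.id_apply, ← sub_eq_zero, ← map_sub, FA.ModField.residueAt_eq_zero] at hb'
    have hb'' : A.valuation (σ μ - μ) < 1 := by rwa [show σ μ = (b : Qb) from hb.symm]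
    have hv : A.valuation μ = 1 := by
      have h1 : A.valuation μ ^ N = 1 := by rw [← map_pow, hμN, map_one]
      exact (pow_eq_one_iff.mp h1).resolve_right hN
    have h1 : σ μ / μ = 1 := by
      refine eq_one_of_near hN hqN hA (by rw [div_pow, ← map_pow, hμN, map_one, div_one]) ?_
      rw [div_sub_one hμ0, map_div₀, hv, div_one]; exact hb''
    exact (div_eq_one_iff_eq hμ0).1 h1

end FA.Mazur

end
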