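import Fermat.Agent.Mazur.LocalField
import Fermat.Agent.Mazur.UnitLift
import Mathlib.RingTheory.AdicCompletion.Basic
import Mathlib.Analysis.SpecificLimits.Basic

/-!
# The completed ring of integers fixed by inertia

`intO` is the closure in `ℂ_l` of the integers fixed by inertia: `l` generates its maximal ideal,
its residue field is that of the place, and Frobenius acts with `F - 1` surjective.
-/

set_option autoImplicit false
set_option linter.style.haveILetI false
set_option linter.unusedSectionVars false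

noncomputable section

namespace FA.Mazur

open ModularCurve Filter Topology FA.ModField

set_option maxHeartbeats 1000000

local notation "Qb" => AlgebraicClosure ℚ
local notation "GQ" => AlgebraicClosure ℚ ≃ₐ[ℚ] AlgebraicClosure ℚ

variable (l : ℕ) [hl : Fact l.Prime] [Algebra (AlgebraicClosure ℚ) (PadicComplex l)]

/-- The integers fixed by inertia. -/
def fixedInt : Subring Qb where
  carrier := {a | a ∈ placeAt l ∧ ∀ σ ∈ inGp l, σ a = a}
  mul_mem' := fun ha hb => ⟨mul_mem ha.1 hb.1, fun σ hσ => by rw [map_mul, ha.2 σ hσ, hb.2 σ hσ]⟩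
  one_mem' := ⟨one_mem _, fun σ _ => map_one σ⟩
  add_mem' := fun ha hb => ⟨add_mem ha.1 hb.1, fun σ hσ => by rw [map_add, ha.2 σ hσ, hb.2 σ hσ]⟩
  zero_mem' := ⟨zero_mem _, fun σ _ => map_zero σ⟩
  neg_mem' := fun ha => ⟨neg_mem ha.1, fun σ hσ => by rw [map_neg, ha.2 σ hσ]⟩

/-- Their closure. -/
def intO : Subring (Cl l) := ((fixedInt l).map (emb l)).topologicalClosure

theorem isClosed_intO : IsClosed (intO l : Set (Cl l)) :=
  Subring.isClosed_topologicalClosure _

variable {l}

theorem emb_mem_intO {a : Qb} (ha : a ∈ fixedInt l) : emb l a ∈ intO l :=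
  Subring.le_topologicalClosure _ ⟨a, ha, rfl⟩

theorem exists_approx_intO {x : Cl l} (hx : x ∈ intO l) {δ : ℝ} (hδ : 0 < δ) :
    ∃ a ∈ fixedInt l, ‖x - emb l a‖ < δ := by
  have hx' : x ∈ closure (((fixedInt l).map (emb l) : Subring (Cl l)) : Set (Cl l)) := hx
  obtain ⟨y, ⟨a, ha, rfl⟩, hy⟩ := Metric.mem_closure_iff.1 hx' δ hδ
  exact ⟨a, ha, by rwa [← dist_eq_norm]⟩

theorem mem_intO_of_approx {x : Cl l} (h : ∀ δ > 0, ∃ a ∈ fixedInt l, ‖x - emb l a‖ < δ) :
    x ∈ intO l := by
  show x ∈ closure (((fixedInt l).map (emb l) : Subring (Cl l)) : Set (Cl l))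
  refine Metric.mem_closure_iff.2 fun δ hδ => ?_
  obtain ⟨a, ha, had⟩ := h δ hδ
  exact ⟨emb l a, ⟨a, ha, rfl⟩, by rwa [dist_eq_norm]⟩

theorem norm_le_one_of_intO {x : Cl l} (hx : x ∈ intO l) : ‖x‖ ≤ 1 := by
  obtain ⟨a, ha, had⟩ := exists_approx_intO hx one_pos
  rw [← sub_add_cancel x (emb l a)]
  exact (IsUltrametricDist.norm_add_le_max _ _).trans (max_le had.le ha.1)

theorem galExt_intO_fix {x : Cl l} (hx : x ∈ intO l) {σ : GQ} (hσ : σ ∈ inGp l) :
    galExt (inGp_le l hσ) x = x := by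
  have hx' : x ∈ closure (((fixedInt l).map (emb l) : Subring (Cl l)) : Set (Cl l)) := hx
  refine closure_minimal (t := {y | galExt (inGp_le l hσ) y = y}) ?_
    (isClosed_eq (continuous_galExt _) continuous_id) hx'
  rintro _ ⟨a, ha, rfl⟩
  show galExt _ (emb l a) = emb l a
  rw [galExt_emb, ha.2 σ hσ]

theorem smul_mem_fixedInt {σ : GQ} (hσ : σ ∈ decGp l) {a : Qb} (ha : a ∈ fixedInt l) :
    σ a ∈ fixedInt l := by
  refine ⟨mem_placeAt_smul hσ ha.1, fun τ hτ => ?_⟩
  have h1 := ha.2 _ (inGp_conj l (inv_mem hσ) hτ)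
  rw [inv_inv, AlgEquiv.mul_apply, AlgEquiv.mul_apply] at h1
  have h2 := congrArg σ h1
  rwa [show σ (σ⁻¹ (τ (σ a))) = τ (σ a) from σ.apply_symm_apply _] at h2

theorem galExt_mem_intO {σ : GQ} (hσ : σ ∈ decGp l) {x : Cl l} (hx : x ∈ intO l) :
    galExt hσ x ∈ intO l := by
  refine mem_intO_of_approx fun δ hδ => ?_
  obtain ⟨a, ha, had⟩ := exists_approx_intO hx hδ
  refine ⟨σ a, smul_mem_fixedInt hσ ha, ?_⟩
  rwa [← galExt_emb hσ, ← map_sub, norm_galExt]

theorem natCast_inv_mem {k : ℕ} (hk : ¬ l ∣ k) : ((k : Cl l))⁻¹ ∈ intO l := by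
  have h : ((k : Qb))⁻¹ ∈ fixedInt l := by
    refine ⟨?_, fun σ _ => by rw [map_inv₀, map_natCast]⟩
    rw [← ValuationSubring.valuation_le_one_iff, map_inv₀,
      valuation_natCast_eq_one (placeAt_liesOver l) hk, inv_one]
  have := emb_mem_intO h
  rwa [map_inv₀, map_natCast] at this

theorem padicEmb_mem (x : ℤ_[l]) : padicEmb l x ∈ intO l :=
  PadicInt.denseRange_natCast.induction_on x
    ((isClosed_intO l).preimage isometry_padicEmb.continuous)
    fun n => by rw [map_natCast]; exact natCast_mem _ n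

theorem exists_eq_mul_of_fixed {a : Qb} (ha : a ∈ fixedInt l) (h : ‖emb l a‖ < 1) :
    ∃ b ∈ fixedInt l, a = (l : Qb) * b := by
  have hl0 : (l : Qb) ≠ 0 := Nat.cast_ne_zero.2 hl.out.ne_zero
  refine ⟨a / l, ⟨?_, fun σ hσ => by rw [map_div₀, map_natCast, ha.2 σ hσ]⟩, by field_simp⟩
  have h1 := valuation_le_of_fixed (placeAt_liesOver l) ha.2 ((valuation_lt_one_iff' l).2 h)
  rw [valuation_le_iff] at h1
  rw [mem_placeAt, map_div₀, norm_div]
  exact div_le_one_of_le₀ h1 (norm_nonneg _)

theorem exists_eq_mul_of_lt {x : Cl l} (hx : x ∈ intO l) (h : ‖x‖ < 1) :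
    ∃ y ∈ intO l, x = (l : Cl l) * y := by
  have hl0 : (l : Cl l) ≠ 0 := norm_pos_iff.1 (norm_natCast_pos l)
  refine ⟨x / l, mem_intO_of_approx fun δ hδ => ?_, by field_simp⟩
  obtain ⟨a, ha, had⟩ := exists_approx_intO hx
    (lt_min (mul_pos hδ (norm_natCast_pos l)) (zero_lt_one' ℝ))
  have hlt : ‖emb l a‖ < 1 := by
    rw [show emb l a = -(x - emb l a) + x by ring]
    refine (IsUltrametricDist.norm_add_le_max _ _).trans_lt (max_lt ?_ h)
    rw [norm_neg]
    exact had.trans_le (min_le_right _ _)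
  obtain ⟨b, hb, rfl⟩ := exists_eq_mul_of_fixed ha hlt
  refine ⟨b, hb, ?_⟩
  rw [map_mul, map_natCast] at had
  rw [show x / (l : Cl l) - emb l b = (x - (l : Cl l) * emb l b) / (l : Cl l) by field_simp,
    norm_div, div_lt_iff₀ (norm_natCast_pos l)]
  exact had.trans_le (min_le_left _ _)

theorem exists_eq_pow_mul : ∀ {n : ℕ} {x : Cl l}, x ∈ intO l → ‖x‖ ≤ ‖(l : Cl l)‖ ^ n →
    ∃ y ∈ intO l, x = (l : Cl l) ^ n * y
  | 0, x, hx, _ => ⟨x, hx, by rw [pow_zero, one_mul]⟩
  | n + 1, x, hx, h => by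
    have hlt : ‖x‖ < 1 :=
      h.trans_lt (pow_lt_one₀ (norm_nonneg _) (norm_natCast_lt_one l) (Nat.succ_ne_zero n))
    obtain ⟨y, hy, rfl⟩ := exists_eq_mul_of_lt hx hlt
    rw [norm_mul, pow_succ'] at h
    obtain ⟨z, hz, rfl⟩ := exists_eq_pow_mul hy (le_of_mul_le_mul_left h (norm_natCast_pos l))
    exact ⟨z, hz, by rw [pow_succ', mul_assoc]⟩

variable (l)

/-- The residue field. -/
abbrev kRes : Type := IsLocalRing.ResidueField (placeAt l)

instance kRes_charP : CharP (kRes l) l := residueAt_charP (placeAt_liesOver l)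

instance kRes_isAlgClosed : IsAlgClosed (kRes l) :=
  haveI : Algebra.IsAlgebraic ℚ Qb := AlgebraicClosure.isAlgebraic ℚ
  FA.Frob.residueField_isAlgClosed (placeAt l)

theorem exists_resO (x : intO l) :
    ∃ c : kRes l, ∀ (a : Qb) (ha : a ∈ fixedInt l), ‖(x : Cl l) - emb l a‖ < 1 →
      IsLocalRing.residue (placeAt l) ⟨a, ha.1⟩ = c := by
  obtain ⟨a₀, ha₀, h₀⟩ := exists_approx_intO x.2 one_pos
  refine ⟨IsLocalRing.residue (placeAt l) ⟨a₀, ha₀.1⟩, fun a ha h => ?_⟩
  rw [← sub_eq_zero, ← map_sub, residueAt_eq_zero]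
  show (placeAt l).valuation (a - a₀) < 1
  rw [valuation_lt_one_iff', map_sub,
    show emb l a - emb l a₀ = ((x : Cl l) - emb l a₀) - ((x : Cl l) - emb l a) by ring]
  rw [sub_eq_add_neg]
  exact (IsUltrametricDist.norm_add_le_max _ _).trans_lt (max_lt h₀ (by rwa [norm_neg]))

/-- The residue map, as a function. -/
def resFun (x : intO l) : kRes l := (exists_resO l x).choose

theorem resFun_eq {x : intO l} {a : Qb} (ha : a ∈ fixedInt l) (h : ‖(x : Cl l) - emb l a‖ < 1) :
    resFun l x = IsLocalRing.residue (placeAt l) ⟨a, ha.1⟩ :=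
  ((exists_resO l x).choose_spec a ha h).symm

/-- The residue map. -/
def resO : intO l →+* kRes l where
  toFun := resFun l
  map_one' := by
    rw [resFun_eq l (one_mem (fixedInt l))
      (by rw [OneMemClass.coe_one, map_one, sub_self, norm_zero]; exact one_pos)]
    exact map_one _
  map_zero' := by
    rw [resFun_eq l (zero_mem (fixedInt l))
      (by rw [ZeroMemClass.coe_zero, map_zero, sub_self, norm_zero]; exact one_pos)]
    exact map_zero _
  map_add' x y := by
    obtain ⟨a, ha, hxa⟩ := exists_approx_intO x.2 one_pos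
    obtain ⟨b, hb, hyb⟩ := exists_approx_intO y.2 one_pos
    rw [resFun_eq l ha hxa, resFun_eq l hb hyb, resFun_eq l (add_mem ha hb) ?_, ← map_add]
    · rfl
    · rw [AddMemClass.coe_add, map_add, show (x : Cl l) + y - (emb l a + emb l b) =
        ((x : Cl l) - emb l a) + ((y : Cl l) - emb l b) by ring]
      exact (IsUltrametricDist.norm_add_le_max _ _).trans_lt (max_lt hxa hyb)
  map_mul' x y := by
    obtain ⟨a, ha, hxa⟩ := exists_approx_intO x.2 one_pos
    obtain ⟨b, hb, hyb⟩ := exists_approx_intO y.2 one_pos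
    rw [resFun_eq l ha hxa, resFun_eq l hb hyb, resFun_eq l (mul_mem ha hb) ?_, ← map_mul]
    · rfl
    · rw [MulMemClass.coe_mul, map_mul, show (x : Cl l) * y - emb l a * emb l b =
        ((x : Cl l) - emb l a) * y + emb l a * ((y : Cl l) - emb l b) by ring]
      refine (IsUltrametricDist.norm_add_le_max _ _).trans_lt (max_lt ?_ ?_)
      · rw [norm_mul]
        exact lt_of_le_of_lt (mul_le_of_le_one_right (norm_nonneg _) (norm_le_one_of_intO y.2)) hxa
      · rw [norm_mul]
        exact lt_of_le_of_lt (mul_le_of_le_one_left (norm_nonneg _) ha.1) hyb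

theorem resO_eq {x : intO l} {a : Qb} (ha : a ∈ fixedInt l) (h : ‖(x : Cl l) - emb l a‖ < 1) :
    resO l x = IsLocalRing.residue (placeAt l) ⟨a, ha.1⟩ := resFun_eq l ha h

theorem resO_surjective : Function.Surjective (resO l) := fun c => by
  obtain ⟨a, rfl, ha⟩ := exists_fixed_lift (q := l) (placeAt_liesOver l) c
  exact ⟨⟨_, emb_mem_intO (a := (a : Qb)) ⟨a.2, ha⟩⟩,
    resO_eq l ⟨a.2, ha⟩ (by rw [sub_self, norm_zero]; exact one_pos)⟩

theorem norm_lt_one_iff_resO (x : intO l) : ‖(x : Cl l)‖ < 1 ↔ resO l x = 0 := by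
  obtain ⟨a, ha, hxa⟩ := exists_approx_intO x.2 one_pos
  rw [resO_eq l ha hxa, residueAt_eq_zero]
  show _ ↔ (placeAt l).valuation a < 1
  rw [valuation_lt_one_iff']
  constructor <;> intro h
  · rw [show emb l a = -((x : Cl l) - emb l a) + x by ring]
    refine (IsUltrametricDist.norm_add_le_max _ _).trans_lt (max_lt ?_ h)
    rwa [norm_neg]
  · rw [show (x : Cl l) = ((x : Cl l) - emb l a) + emb l a by ring]
    exact (IsUltrametricDist.norm_add_le_max _ _).trans_lt (max_lt hxa h)

theorem resO_eq_zero_iff (x : intO l) : resO l x = 0 ↔ (l : intO l) ∣ x := by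
  rw [← norm_lt_one_iff_resO]
  constructor
  · intro h
    obtain ⟨y, hy, he⟩ := exists_eq_mul_of_lt x.2 h
    exact ⟨⟨y, hy⟩, Subtype.ext (by rw [he, MulMemClass.coe_mul, SubringClass.coe_natCast])⟩
  · rintro ⟨y, rfl⟩
    rw [MulMemClass.coe_mul, SubringClass.coe_natCast, norm_mul]
    exact lt_of_le_of_lt (mul_le_of_le_one_right (norm_nonneg _) (norm_le_one_of_intO y.2))
      (norm_natCast_lt_one l)

theorem exists_frobEl : ∃ σ : GQ, (placeAt l).IsFrobeniusAt σ l :=
  FA.Deform.exists_isFrobeniusAt hl.out (placeAt_liesOver l)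

/-- A Frobenius element. -/
def frobEl : GQ := (exists_frobEl l).choose

theorem frobEl_spec : (placeAt l).IsFrobeniusAt (frobEl l) l := (exists_frobEl l).choose_spec

theorem frobEl_mem : frobEl l ∈ decGp l := (frobEl_spec l).mem_decompositionSubgroup

/-- The `l`-adic integers inside `intO`. -/
instance intO_algebra : Algebra ℤ_[l] (intO l) :=
  ((padicEmb l).codRestrict (intO l) padicEmb_mem).toAlgebra

theorem coe_algebraMap_intO (c : ℤ_[l]) :
    ((algebraMap ℤ_[l] (intO l) c : intO l) : Cl l) = padicEmb l c := rfl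

/-- Frobenius on `intO`. -/
def frobO : intO l ≃ₐ[ℤ_[l]] intO l where
  toFun x := ⟨galExt (frobEl_mem l) x, galExt_mem_intO _ x.2⟩
  invFun x := ⟨galExt (inv_mem (frobEl_mem l)) x, galExt_mem_intO _ x.2⟩
  left_inv x := Subtype.ext (galExt_apply_inv _ _)
  right_inv x := Subtype.ext (galExt_inv_apply _ _)
  map_mul' x y := Subtype.ext (map_mul _ _ _)
  map_add' x y := Subtype.ext (map_add _ _ _)
  commutes' c := Subtype.ext (galExt_padicEmb _ _)

theorem coe_frobO (x : intO l) : ((frobO l x : intO l) : Cl l) = galExt (frobEl_mem l) x := rfl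

theorem coe_frobO_symm (x : intO l) :
    (((frobO l).symm x : intO l) : Cl l) = galExt (inv_mem (frobEl_mem l)) x := rfl

theorem resO_frobO (x : intO l) : resO l (frobO l x) = resO l x ^ l := by
  obtain ⟨a, ha, hxa⟩ := exists_approx_intO x.2 one_pos
  rw [resO_eq l ha hxa, resO_eq l (smul_mem_fixedInt (frobEl_mem l) ha)
    (by rwa [coe_frobO, ← galExt_emb (frobEl_mem l), ← map_sub, norm_galExt])]
  obtain ⟨b, hb1, hb2⟩ := inducesOn_frobenius (frobEl_spec l) ⟨a, ha.1⟩
  rw [frobenius_def] at hb2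
  rw [← hb2]
  exact congrArg _ (Subtype.ext hb1.symm)

theorem resO_algebraMap (c : ℤ_[l]) :
    resO l (algebraMap ℤ_[l] (intO l) c) = (ZMod.castHom (dvd_refl l) (kRes l))
      (PadicInt.toZMod c) := by
  obtain ⟨n, hn⟩ : ∃ n : ℕ, PadicInt.toZMod c = (n : ZMod l) :=
    ⟨_, (ZMod.natCast_zmod_val _).symm⟩
  have hd : c - n ∈ RingHom.ker (PadicInt.toZMod (p := l)) := by
    rw [RingHom.mem_ker, map_sub, map_natCast, hn, sub_self]
  rw [PadicInt.ker_toZMod, PadicInt.maximalIdeal_eq_span_p, Ideal.mem_span_singleton] at hd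
  obtain ⟨d, hd⟩ := hd
  rw [hn, map_natCast, ← map_natCast (resO l), ← sub_eq_zero, ← map_sub, resO_eq_zero_iff]
  exact ⟨algebraMap ℤ_[l] (intO l) d, by
    rw [← map_natCast (algebraMap ℤ_[l] (intO l)) n, ← map_sub, hd, map_mul, map_natCast]⟩

theorem exists_algebraMap_of_pow_eq {z : kRes l} (hz : z ^ l = z) :
    ∃ c : ℤ_[l], resO l (algebraMap ℤ_[l] (intO l) c) = z := by
  classical
  have hmem : z ∈ (ZMod.castHom (dvd_refl l) (kRes l)).fieldRange := by
    rw [RingHom.mem_fieldRange]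
    by_contra hno
    push Not at hno
    set P : Polynomial (kRes l) := Polynomial.X ^ l - Polynomial.X
    have hroots : ∀ y : kRes l, y ^ l = y → y ∈ P.roots.toFinset := fun y hy => by
      rw [Multiset.mem_toFinset, Polynomial.mem_roots (FiniteField.X_pow_card_sub_X_ne_zero _ hl.out.one_lt),
        Polynomial.IsRoot]
      simp [hy]
    have hsub : insert z (Finset.univ.image (ZMod.castHom (dvd_refl l) (kRes l))) ⊆ P.roots.toFinset := by
      intro y hy
      rcases Finset.mem_insert.1 hy with rfl | hy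
      · exact hroots _ hz
      · obtain ⟨c, -, rfl⟩ := Finset.mem_image.1 hy
        exact hroots _ (by rw [← map_pow, ZMod.pow_card])
    have hcard := (Finset.card_le_card hsub).trans (Multiset.toFinset_card_le _)
    rw [Finset.card_insert_of_notMem (fun h => by
        obtain ⟨c, -, hc⟩ := Finset.mem_image.1 h
        exact hno c hc),
      Finset.card_image_of_injective _ (ZMod.castHom_injective _), Finset.card_univ, ZMod.card] at hcard
    have := hcard.trans (Polynomial.card_roots' P)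
    rw [FiniteField.X_pow_card_sub_X_natDegree_eq _ hl.out.one_lt] at this
    omega
  obtain ⟨c, rfl⟩ := RingHom.mem_fieldRange.1 hmem
  exact ⟨(c.val : ℤ_[l]), by rw [resO_algebraMap, map_natCast, ZMod.natCast_zmod_val]⟩

theorem isUnit_of_resO_ne_zero {c : ℤ_[l]} (h : resO l (algebraMap ℤ_[l] (intO l) c) ≠ 0) :
    IsUnit c := by
  by_contra hc
  rw [← mem_nonunits_iff, ← IsLocalRing.mem_maximalIdeal, ← PadicInt.ker_toZMod,
    RingHom.mem_ker] at hc
  rw [resO_algebraMap, hc, map_zero] at h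
  exact h rfl

theorem dvd_of_resO_eq_zero {c : ℤ_[l]} (h : resO l (algebraMap ℤ_[l] (intO l) c) = 0) :
    (l : ℤ_[l]) ∣ c := by
  rw [resO_algebraMap, map_eq_zero_iff _ (ZMod.castHom_injective _), ← RingHom.mem_ker,
    PadicInt.ker_toZMod, PadicInt.maximalIdeal_eq_span_p, Ideal.mem_span_singleton] at h
  exact h

theorem mem_span_pow_iff {n : ℕ} {x : intO l} :
    x ∈ (Ideal.span {(l : intO l)}) ^ n ↔ ‖(x : Cl l)‖ ≤ ‖(l : Cl l)‖ ^ n := by
  rw [Ideal.span_singleton_pow, Ideal.mem_span_singleton']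
  constructor
  · rintro ⟨y, rfl⟩
    rw [MulMemClass.coe_mul, SubmonoidClass.coe_pow, SubringClass.coe_natCast, norm_mul, norm_pow]
    exact mul_le_of_le_one_left (pow_nonneg (norm_nonneg _) _) (norm_le_one_of_intO y.2)
  · intro h
    obtain ⟨y, hy, he⟩ := exists_eq_pow_mul x.2 h
    exact ⟨⟨y, hy⟩, Subtype.ext (by
      rw [MulMemClass.coe_mul, SubmonoidClass.coe_pow, SubringClass.coe_natCast, he, mul_comm])⟩

/-- `intO` is complete. -/
instance intO_complete : IsAdicComplete (Ideal.span {(l : intO l)}) (intO l) where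
  haus' x hx := by
    have h : ∀ n, ‖(x : Cl l)‖ ≤ ‖(l : Cl l)‖ ^ n := fun n => by
      have h1 := hx n
      rw [SModEq.zero, smul_eq_mul, Ideal.mul_top] at h1
      exact (mem_span_pow_iff l).1 h1
    have h0 : ‖(x : Cl l)‖ ≤ 0 :=
      ge_of_tendsto' (tendsto_pow_atTop_nhds_zero_of_lt_one (norm_nonneg _) (norm_natCast_lt_one l)) h
    exact Subtype.ext (norm_le_zero_iff.1 h0)
  prec' f hf := by
    have hstep : ∀ {m n : ℕ}, m ≤ n → ‖(f m : Cl l) - (f n : Cl l)‖ ≤ ‖(l : Cl l)‖ ^ m :=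
      fun {m n} hmn => by
        have h1 := hf hmn
        rw [SModEq.sub_mem, smul_eq_mul, Ideal.mul_top] at h1
        exact (mem_span_pow_iff l).1 h1
    have hc : CauchySeq fun n => (f n : Cl l) :=
      cauchySeq_of_le_geometric ‖(l : Cl l)‖ 1 (norm_natCast_lt_one l) fun n => by
        rw [dist_eq_norm, one_mul]
        exact hstep (Nat.le_succ n)
    obtain ⟨y, hy⟩ := cauchySeq_tendsto_of_complete hc
    refine ⟨⟨y, (isClosed_intO l).mem_of_tendsto hy (Eventually.of_forall fun n => (f n).2)⟩,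
      fun n => ?_⟩
    rw [SModEq.sub_mem, smul_eq_mul, Ideal.mul_top, mem_span_pow_iff]
    exact le_of_tendsto ((tendsto_const_nhds.sub hy).norm)
      (eventually_atTop.2 ⟨n, fun k hk => hstep hk⟩)

/-- **Frobenius minus one is surjective.** -/
theorem exists_frobO_sub_eq (c : intO l) : ∃ x, frobO l x - x = c := by
  have step : ∀ c : intO l, ∃ x y : intO l, frobO l x - x = c + (l : intO l) * y := fun c => by
    obtain ⟨z, hz⟩ := IsAlgClosed.exists_root (Polynomial.X ^ l - Polynomial.X -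
      Polynomial.C (resO l c)) (by
      rw [Polynomial.degree_sub_eq_left_of_degree_lt, Polynomial.degree_sub_eq_left_of_degree_lt,
        Polynomial.degree_X_pow]
      · exact_mod_cast hl.out.ne_zero
      · rw [Polynomial.degree_X_pow, Polynomial.degree_X]; exact_mod_cast hl.out.one_lt
      · refine lt_of_le_of_lt Polynomial.degree_C_le ?_
        rw [Polynomial.degree_sub_eq_left_of_degree_lt, Polynomial.degree_X_pow]
        · exact_mod_cast hl.out.pos
        · rw [Polynomial.degree_X_pow, Polynomial.degree_X]; exact_mod_cast hl.out.one_lt)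
    obtain ⟨x, rfl⟩ := resO_surjective l z
    simp only [Polynomial.IsRoot, Polynomial.eval_sub, Polynomial.eval_pow, Polynomial.eval_X,
      Polynomial.eval_C] at hz
    obtain ⟨y, hy⟩ := (resO_eq_zero_iff l (frobO l x - x - c)).1
      (by rw [map_sub, map_sub, resO_frobO, hz])
    exact ⟨x, y, by rw [← hy]; ring⟩
  choose X Y hXY using step
  set u : ℕ → intO l := fun n => (fun d => -Y d)^[n] c
  have hu : ∀ n, u (n + 1) = -Y (u n) := fun n => Function.iterate_succ_apply' _ n c
  set s : ℕ → intO l := fun n => ∑ i ∈ Finset.range n, (l : intO l) ^ i * X (u i)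
  have hs : ∀ n, frobO l (s n) - s n = c - (l : intO l) ^ n * u n := by
    intro n
    induction n with
    | zero => simp [s, u]
    | succ n ih =>
      have e : s (n + 1) = s n + (l : intO l) ^ n * X (u n) := Finset.sum_range_succ _ _
      rw [e, map_add, map_mul, map_pow, map_natCast, hu]
      linear_combination ih + (l : intO l) ^ n * hXY (u n)
  obtain ⟨x, hx⟩ := IsPrecomplete.prec (I := Ideal.span {(l : intO l)}) inferInstance (f := s)
    fun {m n} hmn => by
      rw [SModEq.sub_mem, smul_eq_mul, Ideal.mul_top]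
      induction n, hmn using Nat.le_induction with
      | base => rw [sub_self]; exact zero_mem _
      | succ n hmn ih =>
        rw [show s m - s (n + 1) = (s m - s n) - (l : intO l) ^ n * X (u n) by
          simp only [s, Finset.sum_range_succ]; ring]
        exact sub_mem ih (Ideal.mul_mem_right _ _ (Ideal.pow_le_pow_right hmn
          (Ideal.pow_mem_pow (Ideal.mem_span_singleton_self _) n)))
  refine ⟨x, sub_eq_zero.1 (IsHausdorff.haus (I := Ideal.span {(l : intO l)}) inferInstance _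
    fun n => ?_)⟩
  rw [SModEq.zero, smul_eq_mul, Ideal.mul_top]
  have h1 := hx n
  rw [SModEq.sub_mem, smul_eq_mul, Ideal.mul_top, Ideal.span_singleton_pow,
    Ideal.mem_span_singleton'] at h1
  obtain ⟨d, hd⟩ := h1
  rw [Ideal.span_singleton_pow, Ideal.mem_span_singleton']
  refine ⟨d - frobO l d - u n, ?_⟩
  have hd' : frobO l (s n) - frobO l x = frobO l d * (l : intO l) ^ n := by
    rw [← map_sub, ← hd, map_mul, map_pow, map_natCast]
  linear_combination hd + hd' - hs n

end FA.Mazur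

end
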