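import Fermat.Agent.Mazur.DiscExp
import Fermat.Agent.JTorsion.GaloisTors

/-!
# The good operators as endomorphisms of the Jacobian

They commute with Galois, preserve the disc classes at every prime off the level, and act on the
values of the twists at `l` through the twists.
-/

set_option autoImplicit false
set_option linter.style.haveILetI false
set_option linter.unusedSectionVars false

noncomputable section

namespace FA.Mazur

open ModularCurve AlgebraicCurve FA.Curve FA.CurveRed FA.ModField FA.Level FA.JTorsion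

set_option synthInstance.maxHeartbeats 400000
set_option maxHeartbeats 2000000

local notation "Qb" => AlgebraicClosure ℚ
local notation "GQ" => AlgebraicClosure ℚ ≃ₐ[ℚ] AlgebraicClosure ℚ

variable [Algebra (AlgebraicClosure ℚ) ℂ]
variable {p : ℕ} [Fact p.Prime]

/-- The operators away from the level preserve the classes of the disc. -/
theorem heckeLvl_mem_discJ {q : ℕ} [hq : Fact q.Prime] [Algebra Qb (PadicComplex q)]
    (hqp : ¬ q ∣ p) {r : ℕ} [hr : Fact r.Prime] (hrp : ¬ r ∣ p) {x : JZero p}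
    (hx : x ∈ discJ (p := p) (l := q) hqp) :
    haveI : NeZero r := ⟨hr.out.ne_zero⟩
    heckeLvl p r x ∈ discJ (p := p) (l := q) hqp := by
  haveI : NeZero r := ⟨hr.out.ne_zero⟩
  refine (exists_apply_eq_of_generators (heckeLvl p r : JZero p →+ JZero p)
    (0 : discJ (p := p) (l := q) hqp →+ ℤ) 0 _ (discJ_le_closure hqp)
    (discClass_mem_discJ hqp) (fun t => ⟨?_, rfl⟩) hx).1
  set hA := isEmbAt_placeAt q
  obtain ⟨hd, hT⟩ := heckeOperatorAlong_mk p Qb r
    (⟨Finsupp.single (discPlace p hA t) 1 - Finsupp.single (discPlace p hA t0) 1, by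
      simp [Divisor.mem_degZero, (isFunctionField_up (L := Qb) p).deg_eq_one]⟩ :
      Divisor.degZero (K := Qb) (F := levelField p Qb))
  show heckeOperatorAlong Qb p r (discClass hA t) ∈ discJ (p := p) (l := q) hqp
  rw [show heckeOperatorAlong Qb p r (discClass hA t) = _ from hT]
  have hE : IsExpOf (0 : PowerSeries (Cl q))
      (PowerSeries.map (unitBall (Cl q)).subtype 1) :=
    ⟨by rw [map_one, map_one], by rw [map_one, PowerSeries.derivative_one, map_zero, zero_mul]⟩
  have hs := fun s : Param Qb (Cl q) => (discU_heckeDiv hA hrp hE hE (by simp) s).2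
  refine ⟨⟨_, hd⟩, fun P hP => ?_, rfl⟩
  change heckeDiv p Qb r
    (Finsupp.single (discPlace p hA t) 1 - Finsupp.single (discPlace p hA t0) 1) P ≠ 0 at hP
  rw [map_sub, Finsupp.sub_apply] at hP
  obtain ⟨t', rfl⟩ : ∃ t', discPlace p hA t' = P := by
    by_cases h : heckeDiv p Qb r (Finsupp.single (discPlace p hA t) 1) P = 0
    · exact hs t0 P fun h' => hP (by rw [h, h', sub_zero])
    · exact hs t P h
  exact spl_discPlace hA (isSeriesRed_locRed q p hqp) (isFunctionField_locRed q p hqp) t'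

variable {l : ℕ} [hl : Fact l.Prime] [Algebra (AlgebraicClosure ℚ) (PadicComplex l)]
variable {q : ℕ} [hq : Fact q.Prime] [Algebra (AlgebraicClosure ℚ) (PadicComplex q)]

/-- **The action of a good operator.** -/
theorem exists_goodAct (hn : l ∣ eisensteinNumerator p) (hlp : ¬ l ∣ p) (hqp : ¬ q ∣ p)
    {t : TAlg p} (ht : t ∈ goodSub p) :
    ∃ φ : JZero p →+ JZero p,
      (∀ (n : ℕ) [NeZero n] (x : ModN p (∅ : Set ℕ) n),
        φ (toTors p ∅ n x) = toTors p ∅ n (t • x)) ∧
      (∀ (σ : GQ) (x : JZero p), φ (σ • x) = σ • φ x) ∧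
      (∀ x ∈ discJ (p := p) (l := q) hqp, φ x ∈ discJ (p := p) (l := q) hqp) ∧
      ∀ (L : twistSub p l hn) (x : JZero p) (hx : x ∈ discJ (p := p) (l := l) hlp),
        ∃ h : φ x ∈ discJ (p := p) (l := l) hlp, discExp hn hlp L ⟨_, h⟩ =
          discExp hn hlp (twistMul hn (heckeR p l hn t) L) ⟨x, hx⟩ := by
  induction ht using Algebra.adjoin_induction with
  | mem t ht =>
    obtain ⟨r, hr, rfl⟩ := ht
    haveI : NeZero (r : ℕ) := ⟨r.2.ne_zero⟩
    haveI : Fact (r : ℕ).Prime := ⟨r.2⟩
    have hrp : ¬ (r : ℕ) ∣ p := fun h => hr ((Nat.prime_dvd_prime_iff_eq r.2 Fact.out).1 h)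
    refine ⟨heckeLvl p (r : ℕ), fun n _ x => ?_, fun σ x => heckeLvl_galois_smul p r σ x,
      fun x hx => heckeLvl_mem_discJ hqp hrp hx, fun L x hx => discExp_heckeLvl hn hlp L hr hx⟩
    rw [tGen_eq_T hrp]
    exact (toTors_T_smul p n r.2 hrp (Set.notMem_empty _) x).symm
  | algebraMap z =>
    refine ⟨z • AddMonoidHom.id _, fun n _ x => ?_, fun σ x => ?_, fun x hx => zsmul_mem hx z,
      fun L x hx => ⟨zsmul_mem hx z, ?_⟩⟩
    · rw [algebraMap_smul, map_zsmul]; rfl
    · exact (map_zsmul (DistribSMul.toAddMonoidHom (JZero p) σ) z x).symm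
    · have e2 : twistMul hn (heckeR p l hn (algebraMap ℤ (TAlg p) z)) L = z • L := by
        refine Subtype.ext (LinearMap.ext fun y => ?_)
        rw [twistMul_apply, eq_intCast, map_intCast, ← zsmul_eq_mul, map_zsmul]
        rfl
      rw [e2, map_zsmul (discExp hn hlp)]
      exact apply_eq_zsmul _ z hx _ rfl
  | add a b _ _ iha ihb =>
    obtain ⟨f, hf1, hf2, hf3, hf4⟩ := iha
    obtain ⟨g, hg1, hg2, hg3, hg4⟩ := ihb
    refine ⟨f + g, fun n _ x => ?_, fun σ x => ?_, fun x hx => add_mem (hf3 x hx) (hg3 x hx),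
      fun L x hx => ?_⟩
    · rw [AddMonoidHom.add_apply, hf1, hg1, add_smul, map_add]
    · rw [AddMonoidHom.add_apply, AddMonoidHom.add_apply, hf2, hg2, smul_add]
    · obtain ⟨h1, e1⟩ := hf4 L x hx
      obtain ⟨h2, e2⟩ := hg4 L x hx
      refine ⟨add_mem h1 h2, ?_⟩
      have e3 : twistMul hn (heckeR p l hn (a + b)) L =
          twistMul hn (heckeR p l hn a) L + twistMul hn (heckeR p l hn b) L := by
        refine Subtype.ext (LinearMap.ext fun y => ?_)
        rw [Submodule.coe_add, LinearMap.add_apply, twistMul_apply, twistMul_apply, twistMul_apply,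
          map_add, add_mul, map_add]
      refine (apply_eq_add _ h1 h2 _ rfl).trans ?_
      rw [e1, e2, e3, map_add (discExp hn hlp)]
      rfl
  | mul a b _ _ iha ihb =>
    obtain ⟨f, hf1, hf2, hf3, hf4⟩ := iha
    obtain ⟨g, hg1, hg2, hg3, hg4⟩ := ihb
    refine ⟨f.comp g, fun n _ x => ?_, fun σ x => ?_, fun x hx => hf3 _ (hg3 x hx),
      fun L x hx => ?_⟩
    · rw [AddMonoidHom.comp_apply, hg1, hf1, mul_smul]
    · rw [AddMonoidHom.comp_apply, AddMonoidHom.comp_apply, hg2, hf2]
    · obtain ⟨h1, e1⟩ := hg4 (twistMul hn (heckeR p l hn a) L) x hx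
      obtain ⟨h2, e2⟩ := hf4 L (g x) h1
      refine ⟨h2, e2.trans ?_⟩
      have e3 : twistMul hn (heckeR p l hn (a * b)) L =
          twistMul hn (heckeR p l hn b) (twistMul hn (heckeR p l hn a) L) := by
        refine Subtype.ext (LinearMap.ext fun y => ?_)
        rw [twistMul_apply, twistMul_apply, twistMul_apply, map_mul (heckeR p l hn), mul_assoc]
      rw [e3]
      exact e1

end FA.Mazur

end
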