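import Fermat.Agent.Mazur.Vanish

/-!
# A rational point in the disc at infinity is the cusp

The value of a twist with unit linear coefficient at a rational class of the disc is a root of
unity congruent to one, hence one, and the parameter vanishes.
-/

set_option autoImplicit false
set_option linter.style.haveILetI false
set_option linter.unusedSectionVars false

noncomputable section

namespace FA.Mazur

open ModularCurve AlgebraicCurve FA.Curve FA.CurveRed FA.ModField FA.Level FA.JTorsion

set_option synthInstance.maxHeartbeats 400000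
set_option maxHeartbeats 2000000

local notation "Qb" => AlgebraicClosure ℚ
local notation "GQ" => AlgebraicClosure ℚ ≃ₐ[ℚ] AlgebraicClosure ℚ

section Field

variable {K : Type} [NormedField K] [IsUltrametricDist K] [CompleteSpace K]

/-- A root of unity congruent to one modulo `l` has prime power order. -/
theorem exists_pow_prime_pow_eq_one {x : K} {l : ℕ} (hl : l.Prime) (hl1 : ‖(l : K)‖ < 1)
    (hx : ‖x - 1‖ ≤ ‖(l : K)‖) {m : ℕ} (hm : m ≠ 0) (h : x ^ m = 1) :
    ∃ n : ℕ, x ^ l ^ n = 1 := by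
  obtain ⟨n, m', hm', rfl⟩ := Nat.exists_eq_pow_mul_and_not_dvd hm l hl.ne_one
  refine ⟨n, ?_⟩
  set V := x ^ l ^ n
  have hV : V ^ m' = 1 := by rw [← pow_mul, h]
  have hV1 : ‖V - 1‖ ≤ ‖(l : K)‖ :=
    (norm_pow_prime_pow_sub_one_le hl hl1.le hx n).trans
      (pow_le_of_le_one (norm_nonneg _) hl1.le (Nat.succ_ne_zero n))
  have hmod : ∀ k, l ^ (m'.totient * k) % m' = 1 % m' := fun k => by
    have h1 := (Nat.ModEq.pow_totient ((hl.coprime_iff_not_dvd).2 hm')).pow k
    rwa [one_pow, ← pow_mul] at h1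
  have hVk : ∀ k, ‖V - 1‖ ≤ ‖(l : K)‖ ^ (m'.totient * k + 1) := fun k => by
    have h1 : V ^ l ^ (m'.totient * k) = V := by
      rw [pow_eq_pow_mod _ hV, hmod k, ← pow_eq_pow_mod _ hV, pow_one]
    have h2 := norm_pow_prime_pow_sub_one_le hl hl1.le hV1 (m'.totient * k)
    rwa [h1] at h2
  have htot : 1 ≤ m'.totient := Nat.totient_pos.2 (Nat.pos_of_ne_zero (right_ne_zero_of_mul hm))
  refine sub_eq_zero.1 (norm_le_zero_iff.1 (ge_of_tendsto' (tendsto_pow_atTop_nhds_zero_of_lt_one
    (norm_nonneg _) hl1) fun k => (hVk k).trans (pow_le_pow_of_le_one (norm_nonneg _) hl1.le ?_)))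
  have h3 : 1 * k ≤ m'.totient * k := Nat.mul_le_mul_right k htot
  omega

/-- A root of unity of two power order congruent to one modulo four is one. -/
theorem eq_one_of_pow_two_pow [CharZero K] {x : K} (h2 : ‖(2 : K)‖ < 1)
    (hx : ‖x - 1‖ ≤ ‖(4 : K)‖) : ∀ {n : ℕ}, x ^ 2 ^ n = 1 → x = 1 := by
  have h20 : 0 < ‖(2 : K)‖ := norm_pos_iff.2 two_ne_zero
  have h4 : ‖(4 : K)‖ = ‖(2 : K)‖ * ‖(2 : K)‖ := by rw [← norm_mul]; norm_num
  have h41 : ‖(4 : K)‖ < ‖(2 : K)‖ := by rw [h4]; exact mul_lt_of_lt_one_left h20 h2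
  intro n
  induction n with
  | zero => exact fun h => by simpa using h
  | succ n ih =>
    intro h
    refine ih ?_
    set z := x ^ 2 ^ n
    have hzz : z * z = 1 := by rw [← pow_two, ← pow_mul, ← pow_succ, h]
    rcases mul_self_eq_one_iff.1 hzz with hz | hz
    · exact hz
    exfalso
    have h1 : ‖z - 1‖ ≤ ‖(4 : K)‖ := by
      have := norm_add_one_pow_sub_one_le (x := x - 1) ((hx.trans h41.le).trans h2.le) (2 ^ n)
      rw [sub_add_cancel] at this
      exact this.trans hx
    rw [hz, show (-1 : K) - 1 = -2 by ring, norm_neg] at h1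
    exact absurd h1 (not_le.2 h41)

end Field

variable [Algebra (AlgebraicClosure ℚ) ℂ]
variable {p : ℕ} [Fact p.Prime] {l : ℕ} [hl : Fact l.Prime]
  [Algebra (AlgebraicClosure ℚ) (PadicComplex l)]
variable (hn : l ∣ eisensteinNumerator p) (hlp : ¬ l ∣ p)
include hlp

/-- A twist with unit linear coefficient. -/
theorem exists_twist_unit : ∃ L : twistSub p l hn,
    ‖(((L : EisR p l hn →ₗ[ℤ_[l]] intO l) 1 : intO l) : Cl l)‖ = 1 := by
  classical
  set b := Module.Free.chooseBasis ℤ_[l] (EisR p l hn)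
  obtain ⟨K, r, hK⟩ := exists_pow_eq_mul p l hn (x := tEll hn - 1) (by
    rw [map_sub, map_one, tEll, psiR_heckeR, psi0_tGen,
      if_neg (show (l : ℕ) ≠ p from ne_level hlp), ZMod.natCast_self, add_zero, sub_self])
  obtain ⟨L, hL, hdet⟩ := exists_twist_basis (F := frobO l) (t := tEll hn) (exists_frobO_sub_eq l) K
    ⟨r, hK⟩ hl.out.two_le (resO l) (resO_surjective l) (resO_eq_zero_iff l) (resO_frobO l)
    (fun z hz => exists_algebraMap_of_pow_eq l hz) (fun c hc => isUnit_of_resO_ne_zero l hc)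
    (fun c hc => dvd_of_resO_eq_zero l hc) b
  suffices ∃ i, resO l (L i 1) ≠ 0 by
    obtain ⟨i, hi⟩ := this
    exact ⟨⟨L i, hL i⟩, le_antisymm (norm_le_one_of_intO (L i 1).2)
      (not_lt.1 fun h => hi ((norm_lt_one_iff_resO l _).1 h))⟩
  by_contra hall
  push Not at hall
  have hdet' := hdet.map (resO l)
  rw [RingHom.map_det] at hdet'
  have h := Matrix.eq_zero_of_mulVec_eq_zero hdet'.ne_zero
    (v := fun j => resO l (algebraMap ℤ_[l] (intO l) (b.repr 1 j))) (funext fun i => by
      rw [Pi.zero_apply, ← hall i]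
      conv_rhs => rw [← b.sum_repr 1, map_sum, map_sum]
      simp only [Matrix.mulVec, dotProduct, RingHom.mapMatrix_apply, Matrix.map_apply,
        Matrix.of_apply]
      exact Finset.sum_congr rfl fun j _ => by rw [map_smul, Algebra.smul_def, map_mul, mul_comm])
  choose c hc using fun j => dvd_of_resO_eq_zero l (congrFun h j)
  have h1 : (1 : EisR p l hn) = (l : EisR p l hn) * ∑ j, c j • b j := by
    conv_lhs => rw [← b.sum_repr 1]
    rw [Finset.mul_sum]
    refine Finset.sum_congr rfl fun j _ => ?_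
    rw [hc j, mul_smul, Nat.cast_smul_eq_nsmul, nsmul_eq_mul]
  have h2 := congrArg (psiR p l hn) h1
  rw [map_one, map_mul, map_natCast, ZMod.natCast_self, zero_mul] at h2
  exact one_ne_zero h2

/-- The linear coefficient of the exponential of a twist. -/
theorem coeff_one_twE (L : twistSub p l hn) :
    ((PowerSeries.coeff 1 (twE hn hlp L) : unitBall (Cl l)) : Cl l) =
      (((L : EisR p l hn →ₗ[ℤ_[l]] intO l) 1 : intO l) : Cl l) := by
  obtain ⟨h0, h1⟩ := isExpOf_twE hn hlp L
  have h := congrArg (PowerSeries.coeff 0) h1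
  rw [PowerSeries.coeff_derivative, PowerSeries.coeff_zero_eq_constantCoeff_apply (φ := _ * _),
    map_mul, h0, mul_one, ← PowerSeries.coeff_zero_eq_constantCoeff_apply,
    PowerSeries.coeff_derivative, PowerSeries.coeff_map] at h
  simp only [twistPrimitive, PowerSeries.coeff_mk, zero_add, Nat.cast_zero, Nat.cast_one, div_one,
    mul_one, twC, hCoeff_one, map_one] at h
  exact h

/-- **A parameter of a rational class in the disc vanishes.** -/
theorem eq_zero_of_rational_discClass {Ap : ValuationSubring Qb} (hAp : Ap.LiesOverPrime p)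
    (hn : l ∣ eisensteinNumerator p) (t : Param Qb (Cl l))
    (hrat : ∀ σ : GQ, σ • (discClass (isEmbAt_placeAt l) t : JZero p) =
      discClass (isEmbAt_placeAt l) t)
    (hsmall : l ≠ 2 ∨ ‖algebraMap Qb (Cl l) t.1‖ ≤ ‖(4 : Cl l)‖) : t.1 = 0 := by
  classical
  set hz := discClass_mem_discJ (p := p) (l := l) hlp t
  obtain ⟨L, hL⟩ := exists_twist_unit hn hlp
  obtain ⟨m, hm, hall⟩ := exists_pow_discExp_eq_one hn hlp hAp hz hrat
  have hUm := hall L
  have hfix : ∀ σ (hσ : σ ∈ inGp l), galExt (inGp_le l hσ)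
      (((discExp hn hlp L ⟨_, hz⟩).toMul : Cl l) ^ 1) =
        ((discExp hn hlp L ⟨_, hz⟩).toMul : Cl l) ^ 1 := by
    intro σ hσ
    have h1 := discExp_inertia_add hn hlp L hσ hz
    rw [show (⟨σ • _ - _, smul_sub_mem_discJ hlp hσ _⟩ : discJ (p := p) (l := l) hlp) = 0 from
      Subtype.ext (sub_eq_zero.2 (hrat σ)), map_zero, zero_add] at h1
    rw [pow_one]
    exact congrArg (fun a : Additive (Cl l)ˣ => (a.toMul : Cl l)) h1
  obtain ⟨-, hnear⟩ := discExp_near_one hn hlp L hz hfix
  rw [pow_one] at hnear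
  set E := twE hn hlp L
  set a := qPar t
  set U : Cl l := ((evalHom a (norm_qPar_lt t) E : unitBall (Cl l)) : Cl l)
  have hU : ((discExp hn hlp L ⟨_, hz⟩).toMul : Cl l) = U := by
    rw [discExp_discClass, toMul_ofMul, valUnit_coe (constantCoeff_twE hn hlp L)]
  rw [hU] at hnear hUm
  obtain ⟨n, hn1⟩ := exists_pow_prime_pow_eq_one hl.out (norm_natCast_lt_one l) hnear hm hUm
  have hU1 : U = 1 := by
    by_cases h2 : l = 2
    · subst h2
      refine eq_one_of_pow_two_pow (by exact_mod_cast norm_natCast_lt_one 2) ?_ hn1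
      have h3 := norm_evalHom_sub_constant_le a (norm_qPar_lt t) E
      rw [constantCoeff_twE, OneMemClass.coe_one, norm_qPar] at h3
      exact h3.trans (hsmall.resolve_left (by simp))
    · exact eq_one_of_pow_prime_pow hl.out h2 (norm_natCast_lt_one l) hnear hn1
  -- the linear coefficient
  obtain ⟨f, hf⟩ : PowerSeries.X ∣ E - 1 :=
    PowerSeries.X_dvd_iff.2 (by rw [map_sub, map_one, constantCoeff_twE, sub_self])
  have hf0 : ‖((PowerSeries.constantCoeff f : unitBall (Cl l)) : Cl l)‖ = 1 := by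
    have h := congrArg (PowerSeries.coeff 1) hf
    rw [map_sub, PowerSeries.coeff_one, if_neg one_ne_zero, sub_zero,
      PowerSeries.coeff_succ_X_mul, PowerSeries.coeff_zero_eq_constantCoeff_apply] at h
    rw [← h, coeff_one_twE]
    exact hL
  have hX : evalHom a (norm_qPar_lt t) (PowerSeries.X : PowerSeries (unitBall (Cl l))) = a := by
    rw [← Polynomial.coe_X, evalHom_coe, Polynomial.eval_X]
  have h := congrArg (evalHom a (norm_qPar_lt t)) hf
  rw [map_sub, map_one, map_mul, hX] at h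
  have h' := congrArg (fun x : unitBall (Cl l) => (x : Cl l)) h
  simp only [AddSubgroupClass.coe_sub, OneMemClass.coe_one, Subring.coe_mul] at h'
  rw [show ((evalHom a (norm_qPar_lt t) E : unitBall (Cl l)) : Cl l) = 1 from hU1, sub_self,
    eq_comm, mul_eq_zero] at h'
  refine (qPar_eq_zero_iff t).1 (Subtype.ext (h'.resolve_right fun hf1 => ?_))
  have h4 := norm_evalHom_eq_one (norm_qPar_lt t) hf0
  rw [hf1, norm_zero] at h4
  exact zero_ne_one h4

end FA.Mazur

end
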