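import Fermat.Agent.Mazur.Vanish
import Fermat.Agent.Mazur.VanishPoint
import Fermat.Agent.Mazur.GoodAct

/-!
# Rational classes in the discs of two primes

When the idempotents of the Eisenstein completion at `l` are good operators, their images of a
rational class in the disc are, up to a bounded multiple, divisible among the rational classes.
If the class also reduces to zero at a second prime, the multiple can be taken prime to `l`, so
the values of the twists at the class are one.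
-/

set_option autoImplicit false
set_option linter.style.haveILetI false
set_option linter.unusedSectionVars false

noncomputable section

namespace FA.Mazur

open ModularCurve AlgebraicCurve FA.Curve FA.CurveRed FA.ModField FA.Level FA.JTorsion

set_option synthInstance.maxHeartbeats 400000
set_option maxHeartbeats 2000000

local notation "Qb" => AlgebraicClosure ℚ
local notation "GQ" => AlgebraicClosure ℚ ≃ₐ[ℚ] AlgebraicClosure ℚ

variable [Algebra (AlgebraicClosure ℚ) ℂ]
variable {p : ℕ} [Fact p.Prime] {l : ℕ} [hl : Fact l.Prime]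
  [Algebra (AlgebraicClosure ℚ) (PadicComplex l)]
variable (hn : l ∣ eisensteinNumerator p) (hlp : ¬ l ∣ p)
  (hgood : ∀ j, idemSeq p l hn j ∈ goodSub p)
include hlp

omit hgood in
/-- The values at rational classes are near one. -/
theorem norm_discExp_sub_one_le (X : twistSub p l hn) {x : JZero p}
    (hx : x ∈ discJ (p := p) (l := l) hlp) (hxr : ∀ σ : GQ, σ • x = x) :
    ‖((discExp hn hlp X ⟨x, hx⟩).toMul : Cl l) - 1‖ ≤ ‖(l : Cl l)‖ := by
  have hfix : ∀ σ (hσ : σ ∈ inGp l), galExt (inGp_le l hσ)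
      (((discExp hn hlp X ⟨x, hx⟩).toMul : Cl l) ^ 1) =
        ((discExp hn hlp X ⟨x, hx⟩).toMul : Cl l) ^ 1 := by
    intro σ hσ
    have h1 := discExp_inertia_add hn hlp X hσ hx
    rw [show (⟨σ • x - x, smul_sub_mem_discJ hlp hσ x⟩ : discJ (p := p) (l := l) hlp) = 0 from
      Subtype.ext (sub_eq_zero.2 (hxr σ)), map_zero, zero_add] at h1
    rw [pow_one]
    exact congrArg (fun a : Additive (Cl l)ˣ => (a.toMul : Cl l)) h1
  have h := (discExp_near_one hn hlp X hx hfix).2
  rwa [pow_one] at h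

omit hgood in
/-- The values at related classes. -/
theorem nsmul_discExp_eq (L : twistSub p l hn) {x y : JZero p}
    (hx : x ∈ discJ (p := p) (l := l) hlp) (hy : y ∈ discJ (p := p) (l := l) hlp) {m m' : ℕ}
    (h : m • x = m' • y) : m • discExp hn hlp L ⟨x, hx⟩ = m' • discExp hn hlp L ⟨y, hy⟩ := by
  rw [← map_nsmul, ← map_nsmul]
  exact congrArg _ (Subtype.ext h)

/-- The bound on a power of a value. -/
theorem norm_pow_sub_one_le_of_twist (L : twistSub p l hn) {z x w : JZero p}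
    (hz : z ∈ discJ (p := p) (l := l) hlp) (hx : x ∈ discJ (p := p) (l := l) hlp)
    (hw : w ∈ discJ (p := p) (l := l) hlp) (hzr : ∀ σ : GQ, σ • z = z)
    (hwr : ∀ σ : GQ, σ • w = w) {j o s : ℕ}
    (hX : discExp hn hlp L ⟨x, hx⟩ =
      discExp hn hlp (twistMul hn (heckeR p l hn (idemSeq p l hn j)) L) ⟨z, hz⟩)
    (hrel : o • x = l ^ s • w) :
    ‖((discExp hn hlp L ⟨z, hz⟩).toMul : Cl l) ^ o - 1‖ ≤
      max (‖(l : Cl l)‖ ^ (s + 1)) (‖(l : Cl l)‖ ^ (j + 1)) := by
  have hrel' := nsmul_discExp_eq hn hlp L hx hw hrel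
  obtain ⟨y, hy⟩ := heckeR_idemSeq p l hn j
  obtain ⟨X, hXdef⟩ : ∃ X, X = twistMul hn y L := ⟨_, rfl⟩
  have eL : twistMul hn (heckeR p l hn (idemSeq p l hn j)) L = L + l ^ j • X := by
    rw [hXdef]
    refine Subtype.ext (LinearMap.ext fun x => ?_)
    rw [Submodule.coe_add, Submodule.coe_smul_of_tower, LinearMap.add_apply,
      LinearMap.smul_apply, twistMul_apply, twistMul_apply, sub_eq_iff_eq_add'.1 hy, add_mul,
      one_mul, map_add, mul_assoc, ← Nat.cast_pow, ← nsmul_eq_mul, map_nsmul]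
  have e1 : discExp hn hlp L ⟨x, hx⟩ =
      discExp hn hlp L ⟨z, hz⟩ + l ^ j • discExp hn hlp X ⟨z, hz⟩ := by
    rw [hX]
    have e4 := congrArg ((discExp hn hlp).flip ⟨z, hz⟩) eL
    rw [map_add, map_nsmul] at e4
    exact e4
  rw [e1, nsmul_add] at hrel'
  have hV := norm_discExp_sub_one_le hn hlp L hw hwr
  have hXn := norm_discExp_sub_one_le hn hlp X hz hzr
  generalize discExp hn hlp L ⟨z, hz⟩ = A at hrel' ⊢
  generalize discExp hn hlp X ⟨z, hz⟩ = B at hrel' hXn
  generalize discExp hn hlp L ⟨w, hw⟩ = D at hrel' hV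
  have h3 := congrArg (fun a : Additive (Cl l)ˣ => (a.toMul : Cl l)) hrel'
  simp only [toMul_add, Units.val_mul, toMul_nsmul, Units.val_pow_eq_pow_val] at h3
  set U := (A.toMul : Cl l)
  set V := (D.toMul : Cl l)
  set Q := (((B.toMul : Cl l)) ^ l ^ j) ^ o
  have hQ : ‖Q - 1‖ ≤ ‖(l : Cl l)‖ ^ (j + 1) := by
    have h1 := norm_pow_prime_pow_sub_one_le hl.out (norm_natCast_lt_one l).le hXn j
    have h2 := norm_add_one_pow_sub_one_le (x := (B.toMul : Cl l) ^ l ^ j - 1)
      (h1.trans (pow_le_one₀ (norm_nonneg _) (norm_natCast_lt_one l).le)) o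
    rw [sub_add_cancel] at h2
    exact h2.trans h1
  have hVp := norm_pow_prime_pow_sub_one_le hl.out (norm_natCast_lt_one l).le hV s
  have hlt1 : ‖(l : Cl l)‖ ^ (j + 1) < 1 :=
    pow_lt_one₀ (norm_nonneg _) (norm_natCast_lt_one l) (Nat.succ_ne_zero j)
  have hQ1 : ‖Q‖ = 1 := norm_eq_one_of_sub norm_one (hQ.trans_lt hlt1)
  have e : ‖U ^ o - 1‖ = ‖(V ^ l ^ s - 1) + (1 - Q)‖ := by
    rw [← h3, show (U ^ o * Q - 1) + (1 - Q) = (U ^ o - 1) * Q by ring, norm_mul, hQ1, mul_one]
  rw [e]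
  exact (IsUltrametricDist.norm_add_le_max _ _).trans
    (max_le_max hVp (by rw [norm_sub_rev]; exact hQ))

include hgood

/-- **The images are divisible among the rational classes.** -/
theorem exists_rational_division {Ap : ValuationSubring Qb} (hAp : Ap.LiesOverPrime p)
    {z : JZero p} (hrat : ∀ σ : GQ, σ • z = z) :
    ∃ N : ℕ, N ≠ 0 ∧ ∀ (j : ℕ) (φ : JZero p →+ JZero p),
      (∀ (n : ℕ) [NeZero n] (x : ModN p (∅ : Set ℕ) n),
        φ (toTors p ∅ n x) = toTors p ∅ n (idemSeq p l hn j • x)) →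
      (∀ (σ : GQ) (x : JZero p), φ (σ • x) = σ • φ x) →
      ∃ w : JZero p, (∀ σ : GQ, σ • w = w) ∧ l ^ j • w = N • φ z := by
  classical
  obtain ⟨M₀, hM₀, hdiv⟩ := exists_disc_division (p := p) (l := l) hlp
  obtain ⟨cb, hcb⟩ := exists_discStep_bound hn hlp
  obtain ⟨d, hd⟩ := exists_twist_hom hn hlp
  obtain ⟨Ep, hEp, hloc⟩ := exists_local_bound hn hlp hAp
  obtain ⟨-, μ, hμ, hcount⟩ := exists_count_bound hn hlp hAp
  have hl0 := hl.out.ne_zero
  set E₁ := l ^ cb * (l ^ d * Ep) with hE₁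
  refine ⟨μ * E₁ * M₀, mul_ne_zero (mul_ne_zero hμ (mul_ne_zero (pow_ne_zero _ hl0)
    (mul_ne_zero (pow_ne_zero _ hl0) hEp))) hM₀, fun j φ hφt hφσ => ?_⟩
  obtain ⟨y', hy'⟩ := exists_pow_nsmul_eq (p := p) (l := l) j z
  obtain ⟨u, hu, hw⟩ := hdiv j z y' (hrat _) hy'
  set w := M₀ • y' - u
  have hlw : l ^ j • w = M₀ • z := by rw [nsmul_sub, hu, sub_zero, smul_comm, hy']
  have hc0 : ∀ σ : GQ, l ^ j • (σ • w - w) = 0 := fun σ => by
    rw [nsmul_sub, nsmul_gal, hlw, ← nsmul_gal, hrat σ, sub_self]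
  clear_value w
  obtain ⟨c, hcoc, hq0, hcφ, hdisc⟩ := exists_level_cocycle hn hlp (M := 1) j
    (by rw [Nat.cast_one, one_mul]; exact hgood j) hc0
  obtain ⟨g, hg⟩ := hloc j c hcoc
  obtain ⟨h, hh⟩ := hcount j _ (level_mem_selPairs hn hlp hcb hd
    (fun j => ((1 : ℕ) : TAlg p) * idemSeq p l hn j) j hw hc0 hcoc hq0 hdisc hg)
  have hc : ∀ σ, ((c σ : tauG hn j) : JZero p) = φ (σ • w - w) :=
    hcφ φ (fun n _ x => by rw [Nat.cast_one, one_mul]; exact hφt n x)
  refine ⟨(μ * E₁) • φ w - ((h : tauG hn j) : JZero p), fun σ => sub_eq_zero.1 ?_, ?_⟩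
  · have h1 := congrArg Subtype.val (hh σ)
    simp only [AddSubgroupClass.coe_nsmul, AddSubgroupClass.coe_sub, coe_tauG_smul] at h1
    rw [hc, map_sub, hφσ, ← mul_nsmul', nsmul_sub] at h1
    rw [smul_sub, ← nsmul_gal, ← sub_eq_zero.2 h1]
    abel
  · rw [nsmul_sub, show l ^ j • ((h : tauG hn j) : JZero p) = 0 by
      rw [← AddSubgroupClass.coe_nsmul, pow_nsmul_tauG, ZeroMemClass.coe_zero], sub_zero,
      smul_comm, ← map_nsmul, hlw, map_nsmul, ← mul_nsmul']

/-- **At a class which also reduces to zero at a second prime the twists are one.** -/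
theorem exists_coprime_pow_discExp_eq_one {Ap : ValuationSubring Qb} (hAp : Ap.LiesOverPrime p)
    {q : ℕ} [hq : Fact q.Prime] [Algebra (AlgebraicClosure ℚ) (PadicComplex q)] (hqp : ¬ q ∣ p)
    (hql : q ≠ l) {z : JZero p} (hz : z ∈ discJ (p := p) (l := l) hlp)
    (hzq : z ∈ discJ (p := p) (l := q) hqp) (hrat : ∀ σ : GQ, σ • z = z) :
    ∃ o : ℕ, ¬ l ∣ o ∧ ∀ L : twistSub p l hn,
      ((discExp hn hlp L ⟨z, hz⟩).toMul : Cl l) ^ o = 1 := by
  classical
  obtain ⟨N, hN, hdivn⟩ := exists_rational_division hn hlp hgood hAp hrat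
  obtain ⟨k, o₁, ho₁, hNk⟩ := Nat.exists_eq_pow_mul_and_not_dvd hN l hl.out.ne_one
  obtain ⟨m₂, hm₂, hkill⟩ := exists_nsmul_mem_discJ (p := p) (l := l) hlp
  obtain ⟨b, o₂, ho₂, hmb⟩ := Nat.exists_eq_pow_mul_and_not_dvd hm₂ l hl.out.ne_one
  -- the rational classes at the second prime
  let F : AddSubgroup (JZero p) :=
    (discJ (p := p) (l := q) hqp).comap
      (DistribSMul.toAddMonoidHom (JZero p) (frobEl q) - AddMonoidHom.id (JZero p))
  set I := F.map (reductionModL (placeAt q) p)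
  haveI : Finite I := by
    refine Set.Finite.to_subtype
      ((finite_reduction_frobStable p hqp (placeAt_liesOver q) (frobEl_spec q)).subset ?_)
    rintro _ ⟨x, hx, rfl⟩
    have hx' : frobEl q • x - x ∈ discJ (p := p) (l := q) hqp := hx
    rw [mem_discClasses_iff, map_sub, sub_eq_zero] at hx'
    exact ⟨x, hx', rfl⟩
  obtain ⟨a, e', he', hIa⟩ := Nat.exists_eq_pow_mul_and_not_dvd (Nat.card_pos (α := I)).ne' l
    hl.out.ne_one
  refine ⟨o₂ * o₁, fun h => (hl.out.dvd_mul.1 h).elim ho₂ ho₁, fun L => ?_⟩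
  suffices hsmall : ∀ i, ‖((discExp hn hlp L ⟨z, hz⟩).toMul : Cl l) ^ (o₂ * o₁) - 1‖ ≤
      ‖(l : Cl l)‖ ^ (i + 1) by
    exact sub_eq_zero.1 (norm_le_zero_iff.1 (ge_of_tendsto'
      ((tendsto_pow_atTop_nhds_zero_of_lt_one (norm_nonneg _)
        (norm_natCast_lt_one l)).comp (Filter.tendsto_add_atTop_nat 1)) hsmall))
  intro i
  set j := k + a + b + i with hj
  obtain ⟨φ, hφt, hφσ, hφq, hφl⟩ := exists_goodAct (q := q) hn hlp hqp (hgood j)
  obtain ⟨w, hwrat, hw⟩ := hdivn j φ hφt hφσ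
  -- the error vanishes
  have hT : l ^ (a + b + i) • w = o₁ • φ z := by
    refine sub_eq_zero.1 ?_
    set T := l ^ (a + b + i) • w - o₁ • φ z
    have hTk : l ^ k • T = 0 := by
      rw [nsmul_sub, ← mul_nsmul', ← mul_nsmul', ← pow_add, ← hNk,
        show k + (a + b + i) = j by omega, hw, sub_self]
    refine eq_zero_of_reductionModL p hqp (placeAt_liesOver q)
      (FA.CurveRed.Modular.reductionInputsModL p hq.out hqp (placeAt q) (placeAt_liesOver q))
      (m := l ^ k) (fun h => hql ((Nat.prime_dvd_prime_iff_eq hq.out hl.out).1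
        (hq.out.dvd_of_dvd_pow h))) hTk ?_
    have hzero : reductionModL (placeAt q) p (φ z) = 0 :=
      (mem_discClasses_iff q p hqp _).1 (hφq z hzq)
    set R := reductionModL (placeAt q) p T with hR
    have hR1 : l ^ k • R = 0 := by rw [hR, ← map_nsmul, hTk, map_zero]
    have hR2 : e' • R = 0 := by
      have hwI : reductionModL (placeAt q) p w ∈ I :=
        ⟨w, (by show frobEl q • w - w ∈ discJ (p := p) (l := q) hqp; rw [hwrat, sub_self]; exact zero_mem _), rfl⟩
      have h1 : (l ^ a * e') • reductionModL (placeAt q) p w = 0 := by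
        rw [← hIa]
        exact congrArg Subtype.val (card_nsmul_eq_zero' (x := (⟨_, hwI⟩ : I)))
      rw [hR, map_sub, map_nsmul, map_nsmul, hzero, nsmul_zero, sub_zero, ← mul_nsmul',
        show e' * l ^ (a + b + i) = l ^ (b + i) * (l ^ a * e') by ring, mul_nsmul', h1, nsmul_zero]
    have hd := Nat.dvd_gcd (addOrderOf_dvd_of_nsmul_eq_zero hR1)
      (addOrderOf_dvd_of_nsmul_eq_zero hR2)
    rw [Nat.Coprime.gcd_eq_one ((Nat.Prime.coprime_pow_of_not_dvd hl.out he').symm), Nat.dvd_one,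
      AddMonoid.addOrderOf_eq_one_iff] at hd
    exact hd
  -- into the disc
  have hwd : m₂ • w ∈ discJ (p := p) (l := l) hlp :=
    hkill w (by rw [hwrat, sub_self]; exact zero_mem _)
  obtain ⟨hφz, hX⟩ := hφl L z hz
  refine (norm_pow_sub_one_le_of_twist hn hlp L hz hφz hwd hrat
    (fun σ => by rw [← nsmul_gal, hwrat]) (j := j) (o := o₂ * o₁) (s := a + i) hX ?_).trans
    (max_le (pow_le_pow_of_le_one (norm_nonneg _) (norm_natCast_lt_one l).le (by omega))
      (pow_le_pow_of_le_one (norm_nonneg _) (norm_natCast_lt_one l).le (by omega)))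
  rw [mul_nsmul', ← hT, hmb, ← mul_nsmul', ← mul_nsmul']
  congr 1
  ring

omit hgood in
/-- A parameter at which every twist is one vanishes. -/
theorem eq_zero_of_discExp_eq_one (t : Param Qb (Cl l))
    (h : ∀ L : twistSub p l hn, ((discExp hn hlp L ⟨_, discClass_mem_discJ hlp t⟩).toMul : Cl l) = 1) :
    t.1 = 0 := by
  obtain ⟨L, hL⟩ := exists_twist_unit hn hlp
  have hU := h L
  set E := twE hn hlp L
  set a := qPar t
  rw [discExp_discClass, toMul_ofMul, valUnit_coe (constantCoeff_twE hn hlp L)] at hU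
  obtain ⟨f, hf⟩ : PowerSeries.X ∣ E - 1 :=
    PowerSeries.X_dvd_iff.2 (by rw [map_sub, map_one, constantCoeff_twE, sub_self])
  have hf0 : ‖((PowerSeries.constantCoeff f : unitBall (Cl l)) : Cl l)‖ = 1 := by
    have h := congrArg (PowerSeries.coeff 1) hf
    rw [map_sub, PowerSeries.coeff_one, if_neg one_ne_zero, sub_zero,
      PowerSeries.coeff_succ_X_mul, PowerSeries.coeff_zero_eq_constantCoeff_apply] at h
    rw [← h, coeff_one_twE]
    exact hL
  have hX : evalHom a (norm_qPar_lt t) (PowerSeries.X : PowerSeries (unitBall (Cl l))) = a := by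
    rw [← Polynomial.coe_X, evalHom_coe, Polynomial.eval_X]
  have h := congrArg (evalHom a (norm_qPar_lt t)) hf
  rw [map_sub, map_one, map_mul, hX] at h
  have h' := congrArg (fun x : unitBall (Cl l) => (x : Cl l)) h
  simp only [AddSubgroupClass.coe_sub, OneMemClass.coe_one, Subring.coe_mul] at h'
  rw [show ((evalHom a (norm_qPar_lt t) E : unitBall (Cl l)) : Cl l) = 1 from hU, sub_self,
    eq_comm, mul_eq_zero] at h'
  refine (qPar_eq_zero_iff t).1 (Subtype.ext (h'.resolve_right fun hf1 => ?_))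
  have h4 := norm_evalHom_eq_one (norm_qPar_lt t) hf0
  rw [hf1, norm_zero] at h4
  exact zero_ne_one h4

/-- **A rational class in the discs at two primes is the cusp.** -/
theorem eq_zero_of_two_discs {Ap : ValuationSubring Qb} (hAp : Ap.LiesOverPrime p)
    {q : ℕ} [hq : Fact q.Prime] [Algebra (AlgebraicClosure ℚ) (PadicComplex q)] (hqp : ¬ q ∣ p)
    (hql : q ≠ l) (t : Param Qb (Cl l))
    (hrat : ∀ σ : GQ, σ • (discClass (isEmbAt_placeAt l) t : JZero p) =
      discClass (isEmbAt_placeAt l) t)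
    (hzq : (discClass (isEmbAt_placeAt l) t : JZero p) ∈ discJ (p := p) (l := q) hqp) :
    t.1 = 0 := by
  have hz := discClass_mem_discJ (p := p) (l := l) hlp t
  obtain ⟨o, ho, hall⟩ := exists_coprime_pow_discExp_eq_one hn hlp hgood hAp hqp hql hz hzq hrat
  refine eq_zero_of_discExp_eq_one hn hlp t fun L => ?_
  have hnear := norm_discExp_sub_one_le hn hlp L hz hrat
  have ho' : o ≠ 0 := fun h => ho (h ▸ dvd_zero _)
  obtain ⟨n, hn1⟩ := exists_pow_prime_pow_eq_one hl.out (norm_natCast_lt_one l) hnear ho' (hall L)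
  have hd := Nat.dvd_gcd (orderOf_dvd_of_pow_eq_one hn1) (orderOf_dvd_of_pow_eq_one (hall L))
  rw [Nat.Coprime.gcd_eq_one ((hl.out.coprime_iff_not_dvd.2 ho).pow_left n), Nat.dvd_one,
    orderOf_eq_one_iff] at hd
  exact hd

end FA.Mazur

end
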