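import Fermat.Agent.Mazur.NoLine
import Fermat.Agent.Mazur.BadPrime
import Fermat.Agent.Mazur.EisPrime
import Fermat.Agent.Mazur.TwoThree
import Fermat.Agent.Mazur.Moduli.StableLine

/-!
# No rational point of order `p` on a curve multiplicative at two and three

At an odd Eisenstein prime the place of the line of the point is in one of the two discs, so it
is a cusp.  When `2` is an Eisenstein prime the place is outside the disc at infinity at `2` and
`3`, so its image under the involution gives a class in both discs, which vanishes.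
-/

set_option autoImplicit false
set_option linter.style.haveILetI false
set_option linter.unusedSectionVars false

noncomputable section

namespace FA.Mazur

open ModularCurve AlgebraicCurve FA.Curve FA.CurveRed FA.ModField FA.Level FA.JTorsion
open WeierstrassCurve WeierstrassCurve.Affine

set_option synthInstance.maxHeartbeats 400000
set_option maxHeartbeats 1000000

local notation "Qb" => AlgebraicClosure ℚ
local notation "GQ" => AlgebraicClosure ℚ ≃ₐ[ℚ] AlgebraicClosure ℚ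

theorem gal_t0_eq [Algebra (AlgebraicClosure ℚ) ℂ] (N : ℕ) [NeZero N] {l : ℕ} [Fact l.Prime]
    [Algebra Qb (PadicComplex l)] {q : ℕ} [Fact q.Prime] [Algebra Qb (PadicComplex q)] :
    discPlace N (isEmbAt_placeAt l) t0 = discPlace N (isEmbAt_placeAt q) t0 := by
  refine (place_eq_of_ord one_pos one_pos fun f => ?_).1
  rw [ord_cusp, ord_cusp]

/-- The norm of `1 / j` at a prime of multiplicative reduction. -/
theorem norm_inv_j_lt_one {W : WeierstrassCurve ℤ} [(W.map (Int.castRingHom ℚ)).IsElliptic]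
    (q : ℕ) [hq : Fact q.Prime] (hΔ : (q : ℤ) ∣ W.Δ) (hc₄ : ¬ (q : ℤ) ∣ W.c₄) :
    ‖(((W.map (Int.castRingHom ℚ)).j⁻¹ : ℚ) : Cl q)‖ < 1 := by
  have hcast : ∀ n : ℤ, ‖((n : ℤ) : Cl q)‖ = ‖((n : ℤ) : ℚ_[q])‖ := fun n => by
    rw [← map_intCast (algebraMap ℚ_[q] (Cl q)), show algebraMap ℚ_[q] (Cl q) (n : ℚ_[q]) =
      ((((n : ℚ_[q]) : PadicAlgCl q)) : Cl q) from rfl, PadicComplex.norm_extends']
  have hj : (W.map (Int.castRingHom ℚ)).j = (W.c₄ : ℚ) ^ 3 / (W.Δ : ℚ) := by
    rw [WeierstrassCurve.j, Units.val_inv_eq_inv_val, coe_Δ', ← div_eq_inv_mul, map_c₄, map_Δ]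
    simp
  have h4 : ‖((W.c₄ : ℤ) : Cl q)‖ = 1 := by
    rw [hcast]
    exact le_antisymm (Padic.norm_int_le_one _) (not_lt.1 fun h =>
      hc₄ (Padic.norm_intCast_lt_one_iff.1 h))
  rw [hj, inv_div, Rat.cast_div, Rat.cast_intCast, Rat.cast_pow, Rat.cast_intCast, norm_div,
    norm_pow, h4, one_pow, div_one, hcast]
  exact Padic.norm_intCast_lt_one_iff.2 hΔ

set_option maxHeartbeats 2000000 in
/-- **No rational point of order `p`.** -/
theorem false_of_rational_point {p : ℕ} (hp : p.Prime) (hp' : p ∉ ({2, 3, 5, 7, 13} : Finset ℕ))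
    (W : WeierstrassCurve ℤ) (hΔ : W.Δ ≠ 0)
    (Q : ((W.map (Int.castRingHom ℚ))⁄Qb).toAffine.Point)
    (hQfix : ∀ σ : GQ, σ • Q = Q) (hQord : addOrderOf Q = p)
    (h2Δ : (2 : ℤ) ∣ W.Δ) (h2c₄ : ¬ (2 : ℤ) ∣ W.c₄)
    (h3Δ : (3 : ℤ) ∣ W.Δ) (h3c₄ : ¬ (3 : ℤ) ∣ W.c₄) : False := by
  haveI := Fact.mk hp
  simp only [Finset.mem_insert, Finset.mem_singleton, not_or] at hp'
  obtain ⟨hn2, hn3, hn5, hn7, hn13⟩ := hp'
  have hp11 : 11 ≤ p := by
    by_contra h
    interval_cases p <;> first | omega | norm_num at hp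
  haveI : Fact (Nat.Prime 2) := ⟨Nat.prime_two⟩
  haveI : Fact (Nat.Prime 3) := ⟨Nat.prime_three⟩
  haveI : Algebra.IsAlgebraic ℚ Qb := AlgebraicClosure.isAlgebraic ℚ
  letI : Algebra Qb ℂ := (IsAlgClosed.lift (R := ℚ) (S := Qb) (M := ℂ)).toRingHom.toAlgebra
  haveI : (W.map (Int.castRingHom ℚ)).IsElliptic :=
    ⟨isUnit_iff_ne_zero.2 (by rw [map_Δ, eq_intCast]; exact Int.cast_ne_zero.2 hΔ)⟩
  set C := AddSubgroup.zmultiples Q
  have hcard : Nat.card C = p := by rw [Nat.card_zmultiples, hQord]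
  have hpt : ∀ σ : GQ, ∀ P ∈ C, σ • P = P := by
    rintro σ _ ⟨m, rfl⟩
    show σ • (m • Q) = m • Q
    rw [Affine.Point.algEquiv_smul_zsmul, hQfix]
  have hst : ∀ σ : GQ, ∀ P ∈ C, σ • P ∈ C := fun σ P hP => (hpt σ P hP).symm ▸ hP
  have hQ0 : Q ≠ 0 := fun h => by rw [h, addOrderOf_zero] at hQord; omega
  have hj0 : (W.map (Int.castRingHom ℚ)).j ≠ 0 := by
    intro h
    rw [WeierstrassCurve.j, mul_eq_zero, pow_eq_zero_iff (by norm_num), map_c₄, eq_intCast,
      Int.cast_eq_zero] at h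
    rcases h with h | h
    · exact Units.ne_zero _ h
    · exact h2c₄ (h ▸ dvd_zero _)
  by_cases h2 : 2 ∣ eisensteinNumerator p
  · -- the two discs
    obtain ⟨i2⟩ := exists_algebra_local 2
    obtain ⟨i3⟩ := exists_algebra_local 3
    letI := i2
    letI := i3
    letI : Algebra Qb (PadicComplex p) :=
      (IsAlgClosed.lift : Qb →ₐ[ℚ] PadicComplex p).toRingHom.toAlgebra
    have hp2 : ¬ 2 ∣ p := fun h => by
      have := (Nat.prime_dvd_prime_iff_eq Nat.prime_two hp).1 h; omega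
    have hp3 : ¬ 3 ∣ p := fun h => by
      have := (Nat.prime_dvd_prime_iff_eq Nat.prime_three hp).1 h; omega
    have h1728 : (W.map (Int.castRingHom ℚ)).j ≠ 1728 := fun h => by
      have h' := norm_inv_j_lt_one 2 (by exact_mod_cast h2Δ) (by exact_mod_cast h2c₄)
      rw [h, Rat.cast_inv, norm_inv, inv_lt_one_iff₀,
        show ((1728 : ℚ) : Cl 2) = ((1728 : ℕ) : Cl 2) by norm_num] at h'
      rcases h' with h1 | h1
      · rw [norm_le_zero_iff, Nat.cast_eq_zero] at h1; norm_num at h1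
      · exact absurd h1 (not_lt.2 (norm_natCast_le_one 2 1728))
    obtain ⟨v, hfix, hv, hC⟩ := stableLinePlace (p := p) _ hj0 h1728 C hcard hst
    have hside : ∀ (q : ℕ) [Fact q.Prime] [Algebra Qb (PadicComplex q)], q ≠ p →
        ¬ p ∣ q ^ 2 - 1 → (q : ℤ) ∣ W.Δ → ¬ (q : ℤ) ∣ W.c₄ →
        ∃ τ : Param Qb (Cl q), τ.1 ≠ 0 ∧
          swapPlace p (one_mul p).symm v = discPlace p (isEmbAt_placeAt q) τ ∧
          ∀ σ : GQ, galAut p Qb σ • discPlace p (isEmbAt_placeAt q) τ =
            discPlace p (isEmbAt_placeAt q) τ := by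
      intro q _ _ hqp hq1 hqΔ hqc
      set t : Param Qb (Cl q) := ⟨algebraMap ℚ Qb (W.map (Int.castRingHom ℚ)).j⁻¹, by
        rw [eq_ratCast, map_ratCast]; exact norm_inv_j_lt_one q hqΔ hqc⟩
      have ht : t.1 ≠ 0 := by simpa [t] using hj0
      rcases rational_place_cases_level ht hfix hv with h | ⟨τ, -, hτ0, -, hsw, hτfix⟩
      · exact absurd h (hC hpt q hqp hq1 t)
      · exact ⟨τ, hτ0, hsw, hτfix⟩
    obtain ⟨τ, hτ0, hsw, hτfix⟩ := hside 2 (by omega)
      (fun h => by have := Nat.le_of_dvd (by norm_num) h; omega) (by exact_mod_cast h2Δ)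
      (by exact_mod_cast h2c₄)
    obtain ⟨τ', -, hsw', -⟩ := hside 3 (by omega)
      (fun h => by have := Nat.le_of_dvd (by norm_num) h; omega) (by exact_mod_cast h3Δ)
      (by exact_mod_cast h3c₄)
    refine hτ0 (eq_zero_of_two_discs h2 hp2 (idemSeq_mem p 2 h2 rfl) (placeAt_liesOver p)
      (q := 3) hp3 (by norm_num) τ (smul_discClass_eq hτfix) ?_)
    have heq : (discClass (isEmbAt_placeAt 2) τ : JZero p) = discClass (isEmbAt_placeAt 3) τ' := by
      rw [discClass, discClass]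
      refine congrArg Pic0.mk (Subtype.ext ?_)
      show Finsupp.single _ (1 : ℤ) - Finsupp.single _ 1 = _
      rw [← hsw, hsw', gal_t0_eq p (q := 3)]
    rw [heq]
    exact discClass_mem_discJ hp3 τ'
  · -- an odd Eisenstein prime
    obtain ⟨l, hl, hln, hlp, hl2p⟩ := exists_prime_dvd_eisensteinNumerator hp hp11 hn13
    haveI := Fact.mk hl
    obtain ⟨il⟩ := exists_algebra_local l
    letI := il
    have hl2 : l ≠ 2 := fun h => h2 (h ▸ hln)
    refine false_of_stable_line stableLinePlace (W.map (Int.castRingHom ℚ)) C hcard hst hlp hln hj0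
      ?_ fun h => absurd h hl2
    rcases lt_or_ge l 5 with h5 | h5
    · have hl3 : l = 3 := by interval_cases l <;> first | omega | norm_num at hl
      subst hl3
      exact norm_inv_j_lt_one 3 (by exact_mod_cast h3Δ) (by exact_mod_cast h3c₄)
    · obtain ⟨F, hF, hFrob⟩ := FA.LocalDef.exists_frobenius hl (placeAt_liesOver l)
      have h := one_lt_valuation_j (W.map (Int.castRingHom ℚ)) hl h5 hp hlp hl2p
        (placeAt_liesOver l) hF hFrob hQ0 (hQord ▸ addOrderOf_nsmul_eq_zero Q) (hQfix F)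
      rw [← not_le, ValuationSubring.valuation_le_one_iff, mem_placeAt, not_le, eq_ratCast,
        map_ratCast] at h
      rw [Rat.cast_inv, norm_inv]
      exact inv_lt_one_of_one_lt₀ h

end FA.Mazur

end
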