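import Fermat.Agent.Mazur.FixedClasses
import Fermat.Agent.ModField.Congruence.Export
import Fermat.Agent.JTorsion.GoodRedAll
import Mathlib.FieldTheory.Perfect

/-!
# Reductions of classes fixed by Frobenius are finite in number
-/

set_option autoImplicit false
set_option linter.style.haveILetI false
set_option linter.unusedSectionVars false
set_option synthInstance.maxHeartbeats 200000
set_option maxHeartbeats 1600000

noncomputable section

namespace FA.Mazur

open ModularCurve AlgebraicCurve FA.Curve FA.CurveRed FA.ModField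

section Down

variable (k : Type) [Field k] (N : ℕ) [NeZero N]

theorem coeffMap_mem_fullC (θ : k →+* k) {x : LaurentSeries k}
    (hx : x ∈ modularFunctionFieldFullC k N) : coeffMap θ x ∈ modularFunctionFieldFullC k N := by
  induction hx using IntermediateField.adjoin_induction with
  | mem x hx =>
    obtain ⟨d, hne, hd, rfl⟩ := hx
    rw [coeffMap_qExpand, coeffMap_jqModC]
    exact IntermediateField.subset_adjoin k _ ⟨d, hne, hd, rfl⟩
  | algebraMap a =>
    rw [coeffMap_algebraMap]
    exact (modularFunctionFieldFullC k N).algebraMap_mem _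
  | add x y _ _ hx hy => rw [map_add]; exact add_mem hx hy
  | inv x _ hx => rw [map_inv₀]; exact inv_mem hx
  | mul x y _ _ hx hy => rw [map_mul]; exact mul_mem hx hy

/-- An automorphism of the constants acting on coefficients. -/
def coeffRingAut (θ : k ≃+* k) : modularFunctionFieldFullC k N ≃+* modularFunctionFieldFullC k N where
  toFun x := ⟨coeffMap (θ : k →+* k) x.1, coeffMap_mem_fullC k N _ x.2⟩
  invFun x := ⟨coeffMap (θ.symm : k →+* k) x.1, coeffMap_mem_fullC k N _ x.2⟩
  left_inv x := Subtype.ext <| by
    show coeffMap (θ.symm : k →+* k) (coeffMap (θ : k →+* k) x.1) = x.1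
    rw [coeffMap_coeffMap, coeffMap_congr (g := RingHom.id k) (RingHom.ext fun a => θ.symm_apply_apply a),
      coeffMap_id]
  right_inv x := Subtype.ext <| by
    show coeffMap (θ : k →+* k) (coeffMap (θ.symm : k →+* k) x.1) = x.1
    rw [coeffMap_coeffMap, coeffMap_congr (g := RingHom.id k) (RingHom.ext fun a => θ.apply_symm_apply a),
      coeffMap_id]
  map_mul' x y := Subtype.ext (map_mul (coeffMap (θ : k →+* k)) x.1 y.1)
  map_add' x y := Subtype.ext (map_add (coeffMap (θ : k →+* k)) x.1 y.1)

/-- The semilinear automorphism of the special fibre. -/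
def coeffAut (θ : k ≃+* k) : SemilinearAut k (modularFunctionFieldFullC k N) :=
  ⟨(coeffRingAut k N θ, θ), fun a => Subtype.ext (coeffMap_algebraMap (θ : k →+* k) a)⟩

theorem baseAut_coeffAut (θ : k ≃+* k) (a : k) :
    SemilinearAut.baseAut (coeffAut k N θ) a = θ a := rfl

theorem coeffAut_redGen (θ : k ≃+* k) (i : Fin N) :
    coeffAut k N θ • redGen N k i = redGen N k i := Subtype.ext (by
  show coeffMap (θ : k →+* k) (qExpand k (genDiv N i) (jqModC k)) = _
  rw [coeffMap_qExpand, coeffMap_jqModC]
  rfl)

variable [IsAlgClosed k]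

theorem isSep_smul (θ : k ≃+* k) {Q : Place k (modularFunctionFieldFullC k N)}
    (hQ : IsSep N k Q) : IsSep N k (coeffAut k N θ • Q) := by
  set g := coeffAut k N θ
  have hk := isFunctionField_fullC k N
  refine ⟨?_, fun Q' hQ' => ?_⟩
  · rcases hQ.1 with h | h
    · exact Or.inl h
    · refine Or.inr ?_
      rw [← coeffAut_redGen k N θ 0, SemilinearAut.ord_smul]
      exact h
  · have h1 : g⁻¹ • Q' = Q := hQ.2 _ fun i => by
      obtain ⟨c, hc, hc'⟩ := hQ' i
      refine ⟨SemilinearAut.baseAut g⁻¹ c, ?_, ?_⟩
      · have := Reduction.hasValue_smul hk g⁻¹ hc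
        rwa [inv_smul_smul, show g⁻¹ • redGen N k i = redGen N k i by
          rw [inv_smul_eq_iff]; exact (coeffAut_redGen k N θ i).symm] at this
      · have := Reduction.hasValue_smul hk g⁻¹ hc'
        rwa [show g⁻¹ • redGen N k i = redGen N k i by
          rw [inv_smul_eq_iff]; exact (coeffAut_redGen k N θ i).symm] at this
    rw [← h1, smul_inv_smul]

end Down

local notation "AQ" => AlgebraicClosure ℚ
local notation "GQ" => AlgebraicClosure ℚ ≃ₐ[ℚ] AlgebraicClosure ℚ

variable (N : ℕ) [NeZero N] {ℓ : ℕ} [hℓ : Fact ℓ.Prime] (hℓN : ¬ ℓ ∣ N)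
  {A : ValuationSubring AQ} (hA : A.LiesOverPrime ℓ)

include hℓN hA in
/-- **The reductions fixed by a Frobenius element are finite in number.** -/
theorem finite_reduction_frobStable {σ : GQ} (hσ : A.IsFrobeniusAt σ ℓ) :
    (reductionModL A N '' {x : JZero N |
      reductionModL A N (σ • x) = reductionModL A N x}).Finite := by
  classical
  haveI : Algebra.IsAlgebraic ℚ AQ := AlgebraicClosure.isAlgebraic ℚ
  letI : Algebra AQ ℂ := (IsAlgClosed.lift (R := ℚ) (S := AQ) (M := ℂ)).toRingHom.toAlgebra
  haveI := residueAt_charP hA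
  haveI : IsAlgClosed (IsLocalRing.ResidueField A) := FA.Frob.residueField_isAlgClosed A
  obtain ⟨hin, hg⟩ := FA.CurveRed.Modular.reductionInputsModL N hℓ.out hℓN A hA
  set k := IsLocalRing.ResidueField A
  set π := IsLocalRing.residue A
  have hπs : Function.Surjective π := IsLocalRing.residue_surjective
  have hπ0 : ∀ a : A, π a = 0 ↔ A.valuation a < 1 := residueAt_eq_zero
  set R := redOf N AQ hπs hπ0 hin
  have hk := isFunctionField_fullC k N
  set θ := frobeniusEquiv k ℓ
  set g := coeffAut k N θ
  have hσ' := inducesOn_frobenius hσ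
  have hspl : ∀ P : Place AQ (levelField N AQ), IsSep N k (R.spl P) →
      R.spl (galAut N AQ σ • P) = g • R.spl P := fun P hP => by
    obtain ⟨u, hu⟩ := exists_values N AQ ℓ hℓN hπs hπ0 hin hP.1
    obtain ⟨-, hu'⟩ := values_gal N AQ ℓ hℓN hπs hπ0 hin hσ' hP.1 hu
    refine IsSep.eq N (isSep_smul k N θ hP) (fun i => ?_) hu'
    have := Reduction.hasValue_smul hk g (hu i)
    rwa [coeffAut_redGen, baseAut_coeffAut] at this
  have hequiv : ∀ x : JZero N, reductionAlong A π N (σ • x) = g • reductionAlong A π N x := by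
    intro x
    obtain ⟨D, rfl, hD⟩ := exists_clean_rep N AQ hπs hπ0 hin hg _ (finite_not_isSep N k) x
    rw [galois_smul_pic0_def, SemilinearAut.pic0_smul_mk]
    obtain ⟨_, e1⟩ := reductionAlong_eq_push N AQ hπs hπ0 hin D
    obtain ⟨_, e2⟩ := reductionAlong_eq_push N AQ hπs hπ0 hin
      (SemilinearAut.degZeroSMulHom (arithmeticGalois (modularFunctionFieldFull N) σ) D)
    rw [e1, e2, SemilinearAut.pic0_smul_mk]
    refine congrArg Pic0.mk (Subtype.ext ?_)
    show R.push (galAut N AQ σ • (D : Divisor AQ (levelField N AQ))) =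
      g • R.push (D : Divisor AQ (levelField N AQ))
    show Finsupp.mapDomain _ (Finsupp.mapDomain _ (D : Divisor AQ (levelField N AQ))) =
      Finsupp.mapDomain _ (Finsupp.mapDomain _ _)
    rw [← Finsupp.mapDomain_comp, ← Finsupp.mapDomain_comp]
    refine Finsupp.mapDomain_congr fun P hP => hspl P ?_
    by_contra hbad
    exact Finsupp.mem_support_iff.1 hP (hD P hbad)
  refine (finite_fixed_classes hk g hℓ.out.two_le (q := ℓ) (fun a => by
    rw [baseAut_coeffAut, frobeniusEquiv_apply, frobenius_def]) (redGen_zero_transcendental N (k := k))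
    (coeffAut_redGen k N θ 0)).subset ?_
  rintro _ ⟨x, hx, rfl⟩
  show g • reductionAlong A π N x = reductionAlong A π N x
  rw [← hequiv]
  exact hx

include hℓN hA in
/-- The reductions of the classes fixed by a Frobenius element are finite in number. -/
theorem finite_reduction_frobFixed {σ : GQ} (hσ : A.IsFrobeniusAt σ ℓ) :
    (reductionModL A N '' {x : JZero N | σ • x = x}).Finite :=
  (finite_reduction_frobStable N hℓN hA hσ).subset
    (Set.image_mono fun _ hx => congrArg (reductionModL A N) hx)

end FA.Mazur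

end
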