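import Fermat.Agent.Mazur.DiscSpl
import Fermat.Agent.CurveRed.Torsion

/-!
# The exponential map on classes supported in the residue disc of the cusp
-/

set_option autoImplicit false
set_option linter.style.haveILetI false
set_option linter.unusedSectionVars false
set_option synthInstance.maxHeartbeats 200000
set_option maxHeartbeats 1000000

noncomputable section

namespace FA.Mazur

open ModularCurve AlgebraicCurve FA.Curve FA.CurveRed HahnSeries

variable {L : Type} [Field L] [Algebra ℚ L] [IsAlgClosed L] {A : ValuationSubring L}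
  {k : Type} [Field k] [IsAlgClosed k]
  {K : Type} [NormedField K] [IsUltrametricDist K] [CompleteSpace K] [Algebra L K]
  {N : ℕ} [NeZero N] {π : A →+* k}
  {R : Reduction L (upField (L := L) N) k (modularFunctionFieldFullC k N) A}
  (hA : IsEmbAt A K)

/-- A series whose logarithm integrates a differential without residue against functions with
poles only at the cusp. -/
def IsCuspExp [CharZero K] (E : PowerSeries (unitBall K)) : Prop :=
  ∃ G : PowerSeries K, PowerSeries.constantCoeff G = 0 ∧
    PowerSeries.map (unitBall K).subtype E = expSeries G ∧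
    ∀ f : upField (L := L) N, (∀ P, P ≠ discPlace N hA t0 → AtLeast P 0 f) →
      (coeffMap (algebraMap L K) (f : LaurentSeries L) *
        FA.ModField.thetaFun (ofPowerSeries ℤ K G)).coeff 0 = 0

theorem qPar_injective : Function.Injective (qPar : Param L K → unitBall K) := by
  intro t t' h
  have h1 := qPar_eq t
  have h2 := qPar_eq t'
  have e : ∀ {a b : unitBall K} (ha : ‖(a : K)‖ < 1) (hb : ‖(b : K)‖ < 1), a = b →
      evalHom a ha (jU (unitBall K)) = evalHom b hb (jU (unitBall K)) := by
    intro a b ha hb hab; subst hab; rfl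
  rw [← e (norm_qPar_lt t) (norm_qPar_lt t') h, ← h] at h2
  have h3 : tBall t = tBall t' := by
    refine Subtype.ext ?_
    have h4 := congrArg (fun z : unitBall K => (z : K)) (h1.symm.trans h2)
    simp only [MulMemClass.coe_mul] at h4
    refine mul_right_cancel₀ (norm_ne_zero_iff.mp ?_) h4
    rw [norm_evalHom_eq_one (norm_qPar_lt t)
      (by rw [constantCoeff_jU, OneMemClass.coe_one, norm_one])]
    exact one_ne_zero
  exact Subtype.ext ((algebraMap L K).injective (congrArg Subtype.val h3))

theorem evalHom_congr {a b : unitBall K} (h : a = b) (ha : ‖(a : K)‖ < 1) (hb : ‖(b : K)‖ < 1)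
    (f : PowerSeries (unitBall K)) : evalHom a ha f = evalHom b hb f := by
  subst h; rfl

/-- The value of a series at a parameter, as a unit (one if the constant term is not a unit). -/
def valUnit (E : PowerSeries (unitBall K)) (t : Param L K) : Kˣ :=
  open scoped Classical in
  if h : ((evalHom (qPar t) (norm_qPar_lt t) E : unitBall K) : K) = 0 then 1 else Units.mk0 _ h

theorem valUnit_coe {E : PowerSeries (unitBall K)} (hE : PowerSeries.constantCoeff E = 1)
    (t : Param L K) :
    (valUnit E t : K) = evalHom (qPar t) (norm_qPar_lt t) E := by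
  rw [valUnit, dif_neg, Units.val_mk0]
  intro h
  have h1 := norm_evalHom_eq_one (norm_qPar_lt t) (f := E)
    (by rw [hE, OneMemClass.coe_one, norm_one])
  rw [h, norm_zero] at h1
  exact zero_ne_one h1

/-- The value at a place: one outside the disc. -/
def placeVal (E : PowerSeries (unitBall K)) (P : Place L (upField (L := L) N)) : Kˣ :=
  open scoped Classical in
  if h : ∃ t : Param L K, discPlace N hA t = P then valUnit E h.choose else 1

theorem placeVal_discPlace (E : PowerSeries (unitBall K)) (t : Param L K) :
    placeVal hA E (discPlace N hA t) = valUnit E t := by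
  have h : ∃ t' : Param L K, discPlace N hA t' = discPlace N hA t := ⟨t, rfl⟩
  rw [placeVal, dif_pos h, discPlace_injective N hA h.choose_spec]

/-- The product of the values over a divisor. -/
def discU (E : PowerSeries (unitBall K)) : Divisor L (upField (L := L) N) →+ Additive Kˣ :=
  Finsupp.liftAddHom fun P => zmultiplesHom _ (Additive.ofMul (placeVal hA E P))

theorem discU_single (E : PowerSeries (unitBall K)) (P : Place L (upField (L := L) N)) (n : ℤ) :
    discU hA E (Finsupp.single P n) = n • Additive.ofMul (placeVal hA E P) := by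
  simp [discU]

variable (hR : IsSeriesRed π R) (hk : IsFunctionField k (modularFunctionFieldFullC k N))
include hR hk

omit hk in
/-- A function congruent to one is `1 + c g` with `c` small. -/
theorem exists_congr_one {f : upField (L := L) N}
    (hf : ∀ P, P ≠ discPlace N hA t0 → AtLeast P 0 f) (hf1 : R.Red f 1) :
    ∃ (c : A) (y : intSeries A π N), A.valuation (c : L) < 1 ∧
      f = 1 + algebraMap L (upField (L := L) N) (c : L) * toUp A π N y ∧
      ∀ P, P ≠ discPlace N hA t0 → AtLeast P 0 (toUp A π N y) := by
  have hF := isFunctionField_up (L := L) N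
  rcases eq_or_ne (f - 1) 0 with h0 | h0
  · refine ⟨0, 0, by simp, ?_, fun P _ => by rw [map_zero]; exact atLeast_zero⟩
    rw [sub_eq_zero] at h0
    simp [h0]
  obtain ⟨c, g, r, hc, hfg, hg, hr⟩ := Reduction.exists_scale' (R := R) h0
  have hg0 : ∀ P, P ≠ discPlace N hA t0 → AtLeast P 0 g := fun P hP => by
    have h1 := ((hf P hP).sub (atLeast_algebraMap (v := P) (1 : L))).smul c⁻¹
    rw [map_one, hfg, ← mul_assoc, ← map_mul, inv_mul_cancel₀ hc, map_one, one_mul] at h1
    exact h1
  obtain ⟨y, hy, hyr⟩ := exists_series_of_red hA hR (mem_bddSub_of_noPole hA fun t ht =>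
    hg0 _ fun h => ht (congrArg Subtype.val (discPlace_injective N hA h))) hg
  have hred := hf1.sub (Reduction.red_one (R := R))
  rw [sub_self, hfg] at hred
  have hcA : c ∈ A ∧ A.valuation c < 1 := by
    by_cases hcA : c ∈ A
    · refine ⟨hcA, ?_⟩
      have h1 := hred.unique ((Reduction.red_const (R := R) ⟨c, hcA⟩).mul hg)
      rw [eq_comm, mul_eq_zero, map_eq_zero] at h1
      exact (R.π_eq_zero _).mp (h1.resolve_right hr)
    · exfalso
      have hci : c⁻¹ ∈ A := (A.mem_or_inv_mem c).resolve_left hcA
      have h1 := (Reduction.red_const (R := R) ⟨c⁻¹, hci⟩).mul hred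
      rw [mul_zero] at h1
      have e : algebraMap L (upField (L := L) N) ((⟨c⁻¹, hci⟩ : A) : L) *
          (algebraMap L (upField (L := L) N) c * g) = g := by
        rw [← mul_assoc, ← map_mul, inv_mul_cancel₀ hc, map_one, one_mul]
      rw [e] at h1
      exact hr (hg.unique h1)
  refine ⟨⟨c, hcA.1⟩, y, hcA.2, ?_, fun P hP => hy.symm ▸ hg0 P hP⟩
  rw [hy, ← hfg]
  ring

/-- The divisor of a function congruent to one is supported in the disc. -/
theorem ord_eq_zero_of_congr_one {f : upField (L := L) N}
    (hf : ∀ P, P ≠ discPlace N hA t0 → AtLeast P 0 f) (hf1 : R.Red f 1)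
    {P : Place L (upField (L := L) N)} (hP : R.spl P ≠ inftyDown k N) : P.ord f = 0 := by
  classical
  have hF := isFunctionField_up (L := L) N
  have hne : ∀ P', R.spl P' = R.spl P → P' ≠ discPlace N hA t0 := fun P' h h' =>
    hP (by rw [← h, h', spl_cusp hA hR hk])
  have h := Reduction.sum_le_ord hF hf1 one_ne_zero (Q := R.spl P)
    (fun P' hP' => hf P' (hne P' hP')) {P} (fun _ h => by rw [Finset.mem_singleton.mp h])
  rw [Finset.sum_singleton, Place.ord_one] at h
  exact le_antisymm h ((atLeast_iff (hf1.ne_zero one_ne_zero)).mp (hf P (hne P rfl)))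

/-- **The product over the zeros of a function congruent to one is one.** -/
theorem discU_divOf_congr_one [CharZero K] [IsAlgClosed K] {E : PowerSeries (unitBall K)}
    (hE : IsCuspExp (N := N) hA E) {f : upField (L := L) N}
    (hf : ∀ P, P ≠ discPlace N hA t0 → AtLeast P 0 f) (hf1 : R.Red f 1) :
    discU hA E (divOf (isFunctionField_up N) f) = 0 := by
  classical
  have hF := isFunctionField_up (L := L) N
  obtain ⟨c, y, hc, hfy, hyP⟩ := exists_congr_one hA hR hf hf1
  obtain ⟨G, hG, hEG, hvan⟩ := hE
  have hf0 : f ≠ 0 := hf1.ne_zero one_ne_zero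
  -- the series
  obtain ⟨M, hM, hlow⟩ : ∃ M : ℕ, 0 < M ∧ ∀ i < -(M : ℤ), (y : LaurentSeries A).coeff i = 0 :=
    ⟨(-(y : LaurentSeries A).order).toNat + 1, by omega, fun i hi =>
      coeff_eq_zero_of_lt_order (by omega)⟩
  set Ψ : PowerSeries (unitBall K) :=
    PowerSeries.mk fun n => hA.toBall ((y : LaurentSeries A).coeff ((n : ℤ) - M))
  set c' : unitBall K := hA.toBall c
  have hc' : ‖(c' : K)‖ < 1 := (hA.valuation_lt_one_iff c).mp hc
  have hyΨ : coeffMap hA.toBall (y : LaurentSeries A) =
      single (-(M : ℤ)) 1 * ofPowerSeries ℤ (unitBall K) Ψ := by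
    ext i
    rw [show i = (i + (M : ℤ)) + (-(M : ℤ)) by ring, coeff_single_mul_add, one_mul, coeffMap_coeff]
    rcases lt_or_ge (i + (M : ℤ)) 0 with hi | hi
    · rw [ofPowerSeries_coeff_of_neg _ hi, hlow _ (by omega), map_zero]
    · obtain ⟨n, hn⟩ := Int.eq_ofNat_of_zero_le hi
      rw [hn, ofPowerSeries_apply_coeff, PowerSeries.coeff_mk]
      congr 2
  have hser : ∀ t : Param L K, evHom N hA (qPar t) (norm_qPar_lt t) f =
      shiftL (qPar t) (norm_qPar_lt t) (single (-(M : ℤ)) 1) *
        shiftPS (qPar t) (norm_qPar_lt t) (PowerSeries.X ^ M + PowerSeries.C c' * Ψ) := fun t => by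
    rw [hfy, map_add, map_one, map_mul, AlgHom.commutes, algebraMap_laurentK, evHom_toUp, hyΨ,
      map_mul, shiftL_ofPowerSeries, map_add (shiftPS _ _), map_mul (shiftPS _ _), mul_add,
      ← shiftL_ofPowerSeries _ _ (PowerSeries.X ^ M), ← map_mul, ofPowerSeries_X_pow,
      single_mul_single, neg_add_cancel, one_mul]
    rw [show (single (0 : ℤ)) (1 : unitBall K) = 1 from single_zero_one, map_one (shiftL _ _)]
    rw [← shiftL_ofPowerSeries _ _ (PowerSeries.C c'), ofPowerSeries_C, shiftL_C]
    simp only [c', hA.coe_toBall]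
    ring
  obtain ⟨a, ha, hord, hprod⟩ := exists_roots_prod_eval_eq_one hM c' hc' Ψ
  have hEprod : ∏ i, evalHom (a i) (ha i) E = 1 := by
    refine hprod E G hG hEG fun j => ?_
    have hg := hvan (toUp A π N y ^ (j + 1)) fun P hP => by
      simpa using FA.Curve.atLeast_pow (hyP P hP) (j + 1)
    convert hg using 3
    rw [SubmonoidClass.coe_pow, map_pow]
    congr 1
    show _ = coeffMap (algebraMap L K) (coeffMap A.subtype (y : LaurentSeries A))
    rw [coeffMap_coeffMap, show (algebraMap L K).comp A.subtype =
      (unitBall K).subtype.comp hA.toBall from rfl, ← coeffMap_coeffMap, hyΨ, map_mul,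
      coeffMap_single, map_one, coeffMap_ofPowerSeries]
    rfl
  -- the order at a parameter
  have hord' : ∀ t : Param L K, (discPlace N hA t).ord f =
      (({i | a i = qPar t}.ncard : ℕ) : ℤ) - (if t.1 = 0 then (M : ℤ) else 0) := by
    intro t
    set sh := shiftHom (qPar t) (norm_qPar_lt t) (PowerSeries.X ^ M + PowerSeries.C c' * Ψ)
    have h1 := hord (qPar t) (norm_qPar_lt t)
    have hsh : sh ≠ 0 := fun h => by
      rw [show shiftHom (qPar t) (norm_qPar_lt t) (PowerSeries.X ^ M + PowerSeries.C c' * Ψ) = 0
        from h, PowerSeries.order_zero] at h1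
      exact ENat.top_ne_natCast _ h1
    obtain ⟨hcoef, hmin⟩ := (PowerSeries.order_eq_nat
      (φ := sh) (n := {i | a i = qPar t}.ncard)).mp h1
    set S := shiftPS (qPar t) (norm_qPar_lt t) (PowerSeries.X ^ M + PowerSeries.C c' * Ψ) with hS
    have hSc : ∀ n : ℕ, S.coeff (n : ℤ) = ((PowerSeries.coeff n sh : unitBall K) : K) := fun n => by
      simp only [S, shiftPS, RingHom.comp_apply, ofPowerSeries_apply_coeff, PowerSeries.coeff_map]
      rfl
    have hS0 : S.coeff (({i | a i = qPar t}.ncard : ℕ) : ℤ) ≠ 0 := by
      rw [hSc, Ne, ZeroMemClass.coe_eq_zero]; exact hcoef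
    have hSne : S ≠ 0 := fun h => hS0 (by rw [h, coeff_zero])
    have horder : S.order = (({i | a i = qPar t}.ncard : ℕ) : ℤ) := by
      refine le_antisymm (order_le_of_coeff_ne_zero hS0) ?_
      by_contra hlt
      have h3 := HahnSeries.coeff_order_eq_zero.not.mpr hSne
      rcases lt_or_ge S.order 0 with h4 | h4
      · exact h3 (by simp only [S, shiftPS, RingHom.comp_apply]; exact ofPowerSeries_coeff_of_neg _ h4)
      · obtain ⟨n, hn⟩ := Int.eq_ofNat_of_zero_le h4
        rw [hn, hSc, hmin n (by omega), ZeroMemClass.coe_zero] at h3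
        exact h3 rfl
    have hXM : shiftL (qPar t) (norm_qPar_lt t) (single (-(M : ℤ)) 1) *
        shiftPS (qPar t) (norm_qPar_lt t) (PowerSeries.X ^ M) = 1 := by
      rw [← shiftL_ofPowerSeries, ← map_mul, ofPowerSeries_X_pow, single_mul_single,
        neg_add_cancel, one_mul]
      exact map_one _
    have hne2 : shiftPS (qPar t) (norm_qPar_lt t) (PowerSeries.X ^ M) ≠ 0 := fun h => by
      rw [h, mul_zero] at hXM; exact zero_ne_one hXM
    have hne1 : shiftL (qPar t) (norm_qPar_lt t) (single (-(M : ℤ)) 1) ≠ 0 := fun h => by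
      rw [h, zero_mul] at hXM; exact zero_ne_one hXM
    have hX : (shiftPS (qPar t) (norm_qPar_lt t) PowerSeries.X).order =
        if t.1 = 0 then 1 else 0 := by
      have e : shiftPS (qPar t) (norm_qPar_lt t) PowerSeries.X =
          HahnSeries.C ((qPar t : unitBall K) : K) + single (1 : ℤ) 1 := by
        simp only [shiftPS, RingHom.comp_apply, shiftHom_X, map_add, PowerSeries.map_C,
          PowerSeries.map_X, ofPowerSeries_C, ofPowerSeries_X]
        rfl
      rw [e]
      split_ifs with h
      · rw [(qPar_eq_zero_iff t).mpr h, ZeroMemClass.coe_zero, map_zero, zero_add,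
          order_single one_ne_zero]
      · have hq : ((qPar t : unitBall K) : K) ≠ 0 := by
          rw [Ne, ZeroMemClass.coe_eq_zero, qPar_eq_zero_iff]; exact h
        refine le_antisymm (order_le_of_coeff_ne_zero (by simpa [C_apply] using hq)) ?_
        have hne : (HahnSeries.C ((qPar t : unitBall K) : K) + single (1 : ℤ) (1 : K)) ≠ 0 :=
          fun h0 => hq (by simpa [C_apply] using congrArg (fun s : LaurentSeries K => s.coeff 0) h0)
        by_contra hlt
        refine HahnSeries.coeff_order_eq_zero.not.mpr hne ?_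
        have hlt' := not_le.mp hlt
        rw [C_apply] at hlt' ⊢
        rw [coeff_add, coeff_single_of_ne hlt'.ne, coeff_single_of_ne (by omega), add_zero]
    have h5 := congrArg HahnSeries.order hXM
    rw [order_mul hne1 hne2, map_pow, order_pow, hX, order_one] at h5
    rw [ord_discPlace, hser, order_mul hne1 hSne, horder]
    split_ifs at h5 ⊢ with h
    · simp only [nsmul_eq_mul, mul_one] at h5
      omega
    · simp only [nsmul_zero, add_zero] at h5
      omega
  -- collect the support
  set D := divOf hF f with hD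
  have hsupp : ∀ P ∈ D.support, ∃ t : Param L K, discPlace N hA t = P := fun P hP => by
    refine exists_param_of_spl hA hR hk (by_contra fun h => ?_)
    rw [Finsupp.mem_support_iff, hD, divOf_apply] at hP
    exact hP (ord_eq_zero_of_congr_one hA hR hk hf hf1 h)
  haveI : Nonempty (Param L K) := ⟨t0⟩
  choose! tp htp using hsupp
  set T : Finset (Param L K) := insert t0 (D.support.image tp)
  have hsub : D.support ⊆ T.image (discPlace N hA) := fun P hP =>
    Finset.mem_image.mpr ⟨tp P, Finset.mem_insert_of_mem (Finset.mem_image_of_mem _ hP), htp P hP⟩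
  have hinj : Set.InjOn (discPlace N hA) (T : Set (Param L K)) :=
    fun x _ y _ h => discPlace_injective N hA h
  have hdeg : ∑ t ∈ T, D (discPlace N hA t) = 0 := by
    rw [← Finset.sum_image hinj, ← degree_eq_finset_sum hF D hsub, hD, degree_divOf hF f]
  have hcount : ∀ t : Param L K, {i | a i = qPar t}.ncard = (Finset.univ.filter fun i => a i = qPar t).card :=
    fun t => by rw [Set.ncard_eq_toFinset_card', Set.toFinset_ofPred]
  have ht0 : t0 ∈ T := Finset.mem_insert_self _ _
  have hall : ∀ i, a i ∈ T.image qPar := by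
    have hsum : ∑ t ∈ T, (({i | a i = qPar t}.ncard : ℕ) : ℤ) = M := by
      have h := hdeg
      simp only [hD, divOf_apply, hord', Finset.sum_sub_distrib, sub_eq_zero] at h
      rw [h, Finset.sum_eq_single_of_mem t0 ht0 fun (t : Param L K) _ hne =>
        if_neg fun (h0 : t.1 = 0) => hne (Subtype.ext h0)]
      exact if_pos rfl
    have hcard : (Finset.univ.filter fun i => a i ∈ T.image qPar).card = M := by
      have h1 := Finset.card_eq_sum_card_fiberwise (f := a)
        (s := Finset.univ.filter fun i => a i ∈ T.image qPar) (t := T.image qPar)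
        (fun i hi => (Finset.mem_filter.mp hi).2)
      rw [Finset.sum_image fun x _ y _ h => qPar_injective h] at h1
      rw [h1]
      have h2 : ∀ t ∈ T, ((Finset.univ.filter fun i => a i ∈ T.image qPar).filter
          fun i => a i = qPar t).card = {i | a i = qPar t}.ncard := fun t ht => by
        rw [hcount, Finset.filter_filter]
        congr 1
        ext i
        simp only [Finset.mem_filter, Finset.mem_univ, true_and, and_iff_right_iff_imp]
        exact fun h => h ▸ Finset.mem_image_of_mem _ ht
      rw [Finset.sum_congr rfl h2]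
      exact_mod_cast hsum
    intro i
    have h2 : (Finset.univ.filter fun i => a i ∈ T.image qPar) = Finset.univ :=
      Finset.eq_univ_of_card _ (by rw [hcard, Fintype.card_fin])
    exact (Finset.mem_filter.mp (h2.ge (Finset.mem_univ i))).2
  have hE1 : PowerSeries.constantCoeff E = 1 := by
    have h1 := congrArg PowerSeries.constantCoeff hEG
    rw [(isExpOf_expSeries hG).1, ← PowerSeries.coeff_zero_eq_constantCoeff_apply,
      PowerSeries.coeff_map, PowerSeries.coeff_zero_eq_constantCoeff_apply] at h1
    exact Subtype.ext h1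
  -- evaluate
  have h2 : discU hA E D = ∑ t ∈ T, D (discPlace N hA t) • Additive.ofMul (valUnit E t) := by
    conv_lhs => rw [← Finsupp.sum_single D, Finsupp.sum, map_sum]
    rw [Finset.sum_subset hsub fun P _ hP => by
      rw [Finsupp.notMem_support_iff.mp hP, Finsupp.single_zero, map_zero], Finset.sum_image hinj]
    exact Finset.sum_congr rfl fun t _ => by rw [discU_single, placeVal_discPlace]
  have hu0 : valUnit E (t0 : Param L K) = 1 := by
    refine Units.ext ?_
    rw [valUnit_coe hE1, Units.val_one]
    have h3 := norm_evalHom_sub_constant_le (qPar (t0 : Param L K)) (norm_qPar_lt _) E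
    rw [hE1, OneMemClass.coe_one, show ‖((qPar (t0 : Param L K) : unitBall K) : K)‖ = 0 by
      rw [qPar_t0, ZeroMemClass.coe_zero, norm_zero]] at h3
    exact sub_eq_zero.mp (norm_le_zero_iff.mp h3)
  rw [h2]
  refine Additive.toMul.injective ?_
  rw [toMul_sum, toMul_zero]
  refine Units.ext ?_
  rw [Units.coe_prod, Units.val_one]
  have h4 : ∀ t ∈ T, ((Additive.toMul (D (discPlace N hA t) • Additive.ofMul (valUnit E t)) : Kˣ) : K)
      = ∏ i ∈ Finset.univ.filter (fun i => a i = qPar t), (evalHom (a i) (ha i) E : K) := by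
    intro t _
    rw [toMul_zsmul, toMul_ofMul, hD, divOf_apply, hord', hcount,
      Finset.prod_congr rfl (g := fun _ => (valUnit E t : K)) fun i hi => by
        have hai := (Finset.mem_filter.mp hi).2
        rw [valUnit_coe hE1]
        congr 1
        exact evalHom_congr hai _ _ E]
    rw [Finset.prod_const]
    split_ifs with h
    · rw [show t = t0 from Subtype.ext h, hu0]; simp
    · rw [sub_zero, zpow_natCast, Units.val_pow_eq_pow_val]
  rw [Finset.prod_congr rfl h4, ← Finset.prod_image (g := qPar)
      (f := fun b => ∏ i ∈ Finset.univ.filter (fun i => a i = b), (evalHom (a i) (ha i) E : K))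
      fun x _ y _ h => qPar_injective h,
    Finset.prod_fiberwise_of_maps_to (fun i _ => hall i)]
  exact_mod_cast congrArg (fun z : unitBall K => (z : K)) hEprod

/-- Divisors supported in the disc. -/
def IsDiscDiv (R : Reduction L (upField (L := L) N) k (modularFunctionFieldFullC k N) A)
    (D : Divisor L (upField (L := L) N)) : Prop :=
  ∀ P, D P ≠ 0 → R.spl P = inftyDown k N

omit hR hk in
theorem IsDiscDiv.push_eq {D : Divisor L (upField (L := L) N)} (h : IsDiscDiv R D) :
    R.push D = Finsupp.single (inftyDown k N) (D.sum fun _ n => n) := by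
  classical
  rw [Reduction.push, Finsupp.mapDomain, Finsupp.sum, Finsupp.sum, Finsupp.single_finsetSum]
  exact Finset.sum_congr rfl fun P hP => by rw [h P (Finsupp.mem_support_iff.mp hP)]

omit hR in
theorem IsDiscDiv.push_eq_zero {D : Divisor L (upField (L := L) N)} (h : IsDiscDiv R D)
    (h0 : Divisor.degree D = 0) : R.push D = 0 := by
  rw [degree_eq_sum (isFunctionField_up N)] at h0
  rw [h.push_eq, h0, Finsupp.single_zero]

/-- **The product over a principal divisor supported in the disc is one.** -/
theorem discU_divOf [CharZero K] [IsAlgClosed K] {E : PowerSeries (unitBall K)}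
    (hE : IsCuspExp (N := N) hA E) {h : upField (L := L) N} (h0 : h ≠ 0)
    (hh : IsDiscDiv R (divOf (isFunctionField_up N) h)) :
    discU hA E (divOf (isFunctionField_up N) h) = 0 := by
  classical
  have hF := isFunctionField_up (L := L) N
  obtain ⟨c, g, r, hc, hfg, hg, hr⟩ := Reduction.exists_scale' (R := R) h0
  -- the reduction is a constant
  have hpush : R.push (divOf hF h) = 0 := hh.push_eq_zero hk (degree_divOf hF h)
  have hdiv : divOf hF h = divOf hF g := by
    refine Finsupp.ext fun P => ?_
    rw [divOf_apply, divOf_apply, hfg, P.ord_mul ((map_ne_zero _).mpr hc) (hg.ne_zero hr),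
      FA.ModField.place_ord_algebraMap, zero_add]
  obtain ⟨b, hb⟩ := Reduction.eq_const_of_ord_eq_zero hk (r := r) fun Q => by
    rw [← Reduction.push_divOf hF hg hr Q, ← hdiv, hpush, Finsupp.zero_apply]
  obtain ⟨a, rfl⟩ := R.π_surjective b
  have hb0 : R.π a ≠ 0 := fun e => hr (by rw [hb, e, map_zero])
  have ha : A.valuation (a : L) = 1 := (Reduction.π_ne_zero_iff a).mp hb0
  have ha0 : (a : L) ≠ 0 := fun e => by rw [e, map_zero] at ha; exact zero_ne_one ha
  have hai : (a : L)⁻¹ ∈ A := by
    rw [← A.valuation_le_one_iff, map_inv₀, ha, inv_one]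
  set g' := algebraMap L (upField (L := L) N) (a : L)⁻¹ * g with hg'
  have hg'red : R.Red g' 1 := by
    have h1 := (Reduction.red_const (R := R) ⟨_, hai⟩).mul hg
    rw [hb, ← map_mul, ← map_mul, show (⟨_, hai⟩ : A) * a = 1 from Subtype.ext
      (inv_mul_cancel₀ ha0), map_one, map_one] at h1
    exact h1
  have hdiv' : divOf hF h = divOf hF g' := by
    rw [hdiv]
    refine Finsupp.ext fun P => ?_
    rw [divOf_apply, divOf_apply, hg', P.ord_mul ((map_ne_zero _).mpr (inv_ne_zero ha0))
      (hg.ne_zero hr), FA.ModField.place_ord_algebraMap, zero_add]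
  rw [hdiv'] at hh ⊢
  -- a function congruent to one absorbing the poles
  set Dm : Divisor L (upField (L := L) N) := (-(divOf hF g')).mapRange (fun n => max n 0) (by simp)
    with hDm
  obtain ⟨c₀, hc₀⟩ := exists_degree_bound hR hk
  set M : ℕ := c₀ + (Divisor.degree Dm).toNat
  set D : Divisor L (upField (L := L) N) := Finsupp.single (discPlace N hA t0) (M : ℤ) - Dm
  have hD : IsDiscDiv R D := fun P hP => by
    rcases eq_or_ne P (discPlace N hA t0) with rfl | hne
    · exact spl_cusp hA hR hk
    · refine hh P fun h1 => hP ?_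
      simp [D, hDm, Finsupp.single_eq_of_ne hne, h1]
  obtain ⟨hell, -⟩ := hc₀ D (by simp [D, hF.deg_eq_one, M]; omega)
  have hdeg : (0 : ℤ) ≤ Divisor.degree D := by simp [D, hF.deg_eq_one, M]; omega
  have hone : (1 : modularFunctionFieldFullC k N) ∈ riemannRochSpace (R.push D) := by
    rw [FA.Curve.mem_riemannRochSpace, hD.push_eq]
    intro Q
    refine Or.inr ?_
    rw [Place.ord_one, Finsupp.single_apply, ← degree_eq_sum hF]
    split_ifs <;> omega
  obtain ⟨φ, hφ, hφ1⟩ := Reduction.exists_lift hF hk hell hone
  have hφ0 : φ ≠ 0 := hφ1.ne_zero one_ne_zero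
  have hg0 : g' ≠ 0 := hg'red.ne_zero one_ne_zero
  have hφP : ∀ P, P ≠ discPlace N hA t0 → max (-(P.ord g')) 0 ≤ P.ord φ := fun P hP => by
    have h1 := (atLeast_iff hφ0).1 (FA.Curve.mem_riemannRochSpace.1 hφ P)
    simp [D, hDm, Finsupp.single_eq_of_ne hP] at h1
    omega
  have e1 := discU_divOf_congr_one hA hR hk hE (f := φ)
    (fun P hP => Or.inr (le_trans (le_max_right _ _) (hφP P hP))) hφ1
  have e2 := discU_divOf_congr_one hA hR hk hE (f := φ * g')
    (fun P hP => Or.inr (by
      rw [P.ord_mul hφ0 hg0]
      have := hφP P hP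
      omega)) (by simpa using hφ1.mul hg'red)
  have hmul : divOf hF (φ * g') = divOf hF φ + divOf hF g' := Finsupp.ext fun P => by
    simp [P.ord_mul hφ0 hg0]
  rw [hmul, map_add, e1, zero_add] at e2
  exact e2

/-- Classes with a representative supported in the disc. -/
def discClasses (R : Reduction L (upField (L := L) N) k (modularFunctionFieldFullC k N) A) :
    AddSubgroup (Pic0 L (upField (L := L) N)) where
  carrier := {x | ∃ D : Divisor.degZero (K := L) (F := upField (L := L) N),
    IsDiscDiv R D ∧ Pic0.mk D = x}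
  zero_mem' := ⟨0, fun P hP => absurd rfl hP, rfl⟩
  add_mem' := by
    rintro _ _ ⟨D, hD, rfl⟩ ⟨D', hD', rfl⟩
    refine ⟨D + D', fun P hP => ?_, rfl⟩
    rcases eq_or_ne ((D : Divisor L (upField (L := L) N)) P) 0 with h | h
    · exact hD' P (by simpa [h] using hP)
    · exact hD P h
  neg_mem' := by
    rintro _ ⟨D, hD, rfl⟩
    exact ⟨-D, fun P hP => hD P (by simpa using hP), rfl⟩

/-- The product over a representative in the disc. -/
theorem discU_eq_of_mk_eq [CharZero K] [IsAlgClosed K] {E : PowerSeries (unitBall K)}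
    (hE : IsCuspExp (N := N) hA E) {D D' : Divisor.degZero (K := L) (F := upField (L := L) N)}
    (hD : IsDiscDiv R (D : Divisor L (upField (L := L) N)))
    (hD' : IsDiscDiv R (D' : Divisor L (upField (L := L) N)))
    (h : Pic0.mk D = Pic0.mk D') :
    discU hA E (D : Divisor L (upField (L := L) N)) =
      discU hA E (D' : Divisor L (upField (L := L) N)) := by
  have h1 := QuotientAddGroup.eq_iff_sub_mem.mp h
  rw [AddSubgroup.mem_addSubgroupOf] at h1
  obtain ⟨f, hf, hfd⟩ := h1
  have e : ((D - D' : Divisor.degZero (K := L) (F := upField (L := L) N)) :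
      Divisor L (upField (L := L) N)) = divOf (isFunctionField_up N) f :=
    Finsupp.ext fun P => by rw [divOf_apply, hfd]
  have h2 := discU_divOf hA hR hk hE hf fun P hP => by
    rw [← e] at hP
    by_cases h : (D : Divisor L (upField (L := L) N)) P = 0
    · exact hD' P (by simpa [h] using hP)
    · exact hD P h
  rw [← e, AddSubgroupClass.coe_sub, map_sub, sub_eq_zero] at h2
  exact h2

/-- **The exponential map on classes supported in the disc.** -/
def expMap [CharZero K] [IsAlgClosed K] {E : PowerSeries (unitBall K)}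
    (hE : IsCuspExp (N := N) hA E) : discClasses R →+ Additive Kˣ :=
  AddMonoidHom.mk' (fun x => discU hA E (x.2.choose : Divisor L (upField (L := L) N))) fun x y => by
    rw [← map_add]
    refine discU_eq_of_mk_eq hA hR hk hE (x + y).2.choose_spec.1 (D' := x.2.choose + y.2.choose)
      (fun P hP => ?_) ?_
    · by_cases h : (x.2.choose : Divisor L (upField (L := L) N)) P = 0
      · exact y.2.choose_spec.1 P (by simpa [h] using hP)
      · exact x.2.choose_spec.1 P h
    · rw [(x + y).2.choose_spec.2, Pic0.mk_add, x.2.choose_spec.2, y.2.choose_spec.2]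
      rfl

theorem expMap_mk [CharZero K] [IsAlgClosed K] {E : PowerSeries (unitBall K)}
    (hE : IsCuspExp (N := N) hA E) (D : Divisor.degZero (K := L) (F := upField (L := L) N))
    (hD : IsDiscDiv R (D : Divisor L (upField (L := L) N))) :
    expMap hA hR hk hE ⟨Pic0.mk D, ⟨D, hD, rfl⟩⟩ = discU hA E (D : Divisor L (upField (L := L) N)) :=
  discU_eq_of_mk_eq hA hR hk hE
    (Exists.choose_spec (⟨D, hD, rfl⟩ : Pic0.mk D ∈ discClasses R)).1 hD
    (Exists.choose_spec (⟨D, hD, rfl⟩ : Pic0.mk D ∈ discClasses R)).2

/-- The value on the difference of a place of the disc and the cusp. -/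
theorem discU_sub_cusp {E : PowerSeries (unitBall K)} (hE : PowerSeries.constantCoeff E = 1)
    (t : Param L K) :
    discU hA E (Finsupp.single (discPlace N hA t) 1 - Finsupp.single (discPlace N hA t0) 1) =
      Additive.ofMul (valUnit E t) := by
  have hu0 : valUnit E (t0 : Param L K) = 1 := by
    refine Units.ext ?_
    rw [valUnit_coe hE, Units.val_one]
    have h3 := norm_evalHom_sub_constant_le (qPar (t0 : Param L K)) (norm_qPar_lt _) E
    rw [hE, OneMemClass.coe_one, show ‖((qPar (t0 : Param L K) : unitBall K) : K)‖ = 0 by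
      rw [qPar_t0, ZeroMemClass.coe_zero, norm_zero]] at h3
    exact sub_eq_zero.mp (norm_le_zero_iff.mp h3)
  rw [map_sub, discU_single, discU_single, placeVal_discPlace, placeVal_discPlace, hu0, one_smul,
    one_smul, ofMul_one, sub_zero]

include hA in
/-- Classes with principal push forward come from the disc. -/
theorem mk_mem_discClasses {D : Divisor.degZero (K := L) (F := upField (L := L) N)}
    (hD : R.push (D : Divisor L (upField (L := L) N)) ∈
      Divisor.principal (K := k) (F := modularFunctionFieldFullC k N)) :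
    Pic0.mk D ∈ discClasses R := by
  classical
  obtain ⟨r, hr, hrd⟩ := hD
  have hF := isFunctionField_up (L := L) N
  obtain ⟨c₀, hc₀⟩ := exists_degree_bound hR hk
  set P₀ := discPlace N hA t0 (A := A)
  set D' : Divisor L (upField (L := L) N) :=
    (D : Divisor L (upField (L := L) N)) + Finsupp.single P₀ (c₀ : ℤ)
  have hD0 : Divisor.degree (D : Divisor L (upField (L := L) N)) = 0 := D.2
  obtain ⟨hell, -⟩ := hc₀ D' (by simp [D', hD0, hF.deg_eq_one])
  have hpush : R.push D' = R.push (D : Divisor L (upField (L := L) N)) +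
      Finsupp.single (inftyDown k N) (c₀ : ℤ) := by
    rw [Reduction.push_add, Reduction.push_single, spl_cusp hA hR hk]
  have hmem : r⁻¹ ∈ riemannRochSpace (R.push D') := by
    rw [FA.Curve.mem_riemannRochSpace, hpush]
    intro Q
    refine Or.inr ?_
    rw [Q.ord_inv, Finsupp.add_apply, hrd, Finsupp.single_apply]
    split_ifs <;> omega
  obtain ⟨f, hf, hfr⟩ := Reduction.exists_lift hF hk hell hmem
  have hf0 : f ≠ 0 := hfr.ne_zero (inv_ne_zero hr)
  set E := D' + divOf hF f with hE
  have hEnn : ∀ P, 0 ≤ E P := fun P => by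
    have := (atLeast_iff hf0).1 (FA.Curve.mem_riemannRochSpace.1 hf P)
    simp only [hE, Finsupp.add_apply, divOf_apply]
    omega
  have hEdisc : ∀ P, E P ≠ 0 → R.spl P = inftyDown k N := fun P hP => by
    by_contra hne
    have h1 : R.push E (R.spl P) = 0 := by
      rw [hE, Reduction.push_add, Finsupp.add_apply,
        Reduction.push_divOf hF hfr (inv_ne_zero hr), hpush, Finsupp.add_apply,
        Finsupp.single_eq_of_ne hne, hrd, Place.ord_inv]
      ring
    rw [Reduction.push_apply, Finset.sum_eq_zero_iff_of_nonneg fun P' _ => by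
      split_ifs <;> [exact hEnn P'; rfl]] at h1
    exact hP (by simpa using h1 P (Finsupp.mem_support_iff.mpr hP))
  refine ⟨⟨(D : Divisor L (upField (L := L) N)) + divOf hF f, by
    rw [Divisor.mem_degZero, map_add, hD0, degree_divOf hF f, add_zero]⟩, fun P hP => ?_, ?_⟩
  · rcases eq_or_ne P P₀ with rfl | hne
    · exact spl_cusp hA hR hk
    · refine hEdisc P fun h => hP ?_
      simpa [hE, D', Finsupp.single_eq_of_ne hne] using h
  · refine QuotientAddGroup.eq_iff_sub_mem.mpr ?_
    rw [AddSubgroup.mem_addSubgroupOf]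
    exact ⟨f, hf0, fun P => by simp⟩

omit hR in
/-- Classes from the disc have principal push forward. -/
theorem push_mem_principal_of_mem {D : Divisor.degZero (K := L) (F := upField (L := L) N)}
    (hD : Pic0.mk D ∈ discClasses R) :
    R.push (D : Divisor L (upField (L := L) N)) ∈
      Divisor.principal (K := k) (F := modularFunctionFieldFullC k N) := by
  classical
  have hF := isFunctionField_up (L := L) N
  obtain ⟨D', hD', h⟩ := hD
  have h1 := QuotientAddGroup.eq_iff_sub_mem.mp h.symm
  rw [AddSubgroup.mem_addSubgroupOf] at h1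
  obtain ⟨f, hf, hfd⟩ := h1
  obtain ⟨c, g, r, hc, hfg, hg, hr⟩ := Reduction.exists_scale' (R := R) hf
  refine ⟨r, hr, fun Q => ?_⟩
  have e : (D : Divisor L (upField (L := L) N)) = (D' : Divisor L (upField (L := L) N)) + divOf hF g :=
    Finsupp.ext fun P => by
      have h2 := hfd P
      rw [AddSubgroupClass.coe_sub, Finsupp.sub_apply, hfg,
        P.ord_mul ((map_ne_zero _).mpr hc) (hg.ne_zero hr), FA.ModField.place_ord_algebraMap, zero_add] at h2
      rw [Finsupp.add_apply, divOf_apply]
      omega
  rw [e, Reduction.push_add, hD'.push_eq_zero hk D'.2, zero_add, Reduction.push_divOf hF hg hr]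

end FA.Mazur
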