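import Fermat.Agent.Mazur.HeckeSeries
import Fermat.Agent.Mazur.Rep
import Fermat.Agent.ModField.Congruence.Pic
import Fermat.Agent.JTorsion.GaloisHecke

/-!
# The correspondence `T_r` on places of the disc
-/

set_option autoImplicit false
set_option linter.style.haveILetI false
set_option linter.unusedSectionVars false
set_option synthInstance.maxHeartbeats 400000
set_option maxHeartbeats 1600000

noncomputable section

namespace FA.Mazur

open ModularCurve AlgebraicCurve FA.Curve FA.CurveRed HahnSeries FA.ModField FA.Level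

variable {L : Type} [Field L] [Algebra ℚ L] [IsAlgClosed L] [Algebra L ℂ] {A : ValuationSubring L}
  {K : Type} [NormedField K] [IsUltrametricDist K] [CompleteSpace K] [CharZero K] [Algebra L K]
  {N r : ℕ} [NeZero N] [hr : Fact r.Prime] (hA : IsEmbAt A K)

theorem place_eq_of_ord {F : Type*} [Field F] [Algebra L F] {v w : Place L F} {c e : ℤ}
    (hc : 0 < c) (he : 0 < e) (h : ∀ f : F, c * v.ord f = e * w.ord f) : v = w ∧ c = e := by
  have hv : v = w := by
    ext1
    ext f
    rw [← atLeast_zero_iff_mem, ← atLeast_zero_iff_mem]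
    rcases eq_or_ne f 0 with rfl | hf
    · exact ⟨fun _ => atLeast_zero, fun _ => atLeast_zero⟩
    rw [atLeast_iff hf, atLeast_iff hf]
    have h1 := h f
    constructor <;> intro h2
    · exact nonneg_of_mul_nonneg_right (h1 ▸ mul_nonneg hc.le h2) he
    · exact nonneg_of_mul_nonneg_right (h1 ▸ mul_nonneg he.le h2) hc
  refine ⟨hv, ?_⟩
  subst hv
  obtain ⟨π, hπ⟩ := IsDiscreteValuationRing.exists_irreducible v.toValuationSubring
  have h1 := h (π : F)
  rw [v.ord_coe_irreducible hπ, mul_one, mul_one] at h1
  exact h1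

theorem eq_of_subset_of_sum_eq {ι : Type*} {s t : Finset ι} {f : ι → ℤ} (hst : s ⊆ t) {n : ℤ}
    (ht : ∑ x ∈ t, f x = n) (hs : ∑ x ∈ s, f x = n) (hpos : ∀ x ∈ t, 0 < f x) : t = s := by
  classical
  refine (Finset.Subset.antisymm hst fun x hx => by_contra fun hxs => ?_).symm
  have h1 := Finset.sum_sdiff hst (f := f)
  rw [ht, hs] at h1
  have h2 : 0 < ∑ y ∈ t \ s, f y :=
    Finset.sum_pos (fun y hy => hpos y (Finset.mem_sdiff.mp hy).1)
      ⟨x, Finset.mem_sdiff.mpr ⟨hx, hxs⟩⟩
  omega

theorem ramificationIndexAlong_pos {F F' : Type*} [Field F] [Field F'] [Algebra L F] [Algebra L F']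
    (φ : F →ₐ[L] F') (hφ : φ.toRingHom.IsIntegral) (w : Place L F') :
    0 < Place.ramificationIndexAlong φ w := by
  letI := algebraAlong φ
  haveI := isScalarTower_along φ
  haveI := isIntegral_along φ hφ
  exact w.ramificationIndex_pos (F := F)

theorem hasPrincipalDivisors_up (M : ℕ) [NeZero M] : HasPrincipalDivisors L (upField (L := L) M) :=
  hasPrincipalDivisors (isFunctionField_up M)

theorem isIntegral_alpha : (heckeAlphaBar L N r).toRingHom.IsIntegral :=
  isIntegral_toRingHom (isFunctionField_level L N) (isFunctionField_level L (N * r)) _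

theorem isIntegral_beta : (heckeBetaBar L N r).toRingHom.IsIntegral :=
  isIntegral_toRingHom (isFunctionField_level L N) (isFunctionField_level L (N * r)) _

omit [CharZero K] in
/-- The inclusion of level `N` does not change re-expansions. -/
theorem evHom_alpha (a : unitBall K) (ha : ‖(a : K)‖ < 1) (f : upField (L := L) N) :
    evHom (N * r) hA a ha (heckeAlphaBar L N r f) = evHom N hA a ha f := by
  obtain ⟨y, z, hz, hf⟩ := exists_quotient A N f
  have key : ∀ y : intW A N,
      evHom (N * r) hA a ha (heckeAlphaBar L N r (wUp A N y)) = evHom N hA a ha (wUp A N y) := by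
    intro y
    have hy : (y : LaurentSeries A) ∈ intW A (N * r) := by
      show coeffMap A.subtype (y : LaurentSeries A) ∈ upField (L := L) (N * r)
      rw [← coe_wUp A N y, ← coe_heckeAlphaBar N r (wUp A N y)]
      exact SetLike.coe_mem _
    rw [show heckeAlphaBar L N r (wUp A N y) = wUp A (N * r) ⟨_, hy⟩ from
      Subtype.ext ((coe_heckeAlphaBar N r _).trans
        ((coe_wUp A N y).trans (coe_wUp A (N * r) ⟨_, hy⟩).symm)), evHom_wUp, evHom_wUp]
  have hz0 : wUp A N z ≠ 0 := fun h0 => hz (wUp_injective A N (h0.trans (map_zero _).symm))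
  have h := key y
  rw [← hf, map_mul, map_mul, map_mul, key z] at h
  exact mul_right_cancel₀ ((_root_.map_ne_zero _).2 hz0) h

/-- Orders along `q ↦ q ^ r`. -/
theorem order_evHom_beta {a b : unitBall K} (ha : ‖(a : K)‖ < 1) (hb : ‖(b : K)‖ < 1)
    (hab : b ^ r = a) (f : upField (L := L) N) :
    (evHom (N * r) hA b hb (heckeBetaBar L N r f)).order =
      (ramC r b : ℤ) * (evHom N hA a ha f).order := by
  haveI : NeZero r := ⟨hr.out.ne_zero⟩
  rcases eq_or_ne f 0 with rfl | hf0
  · simp
  obtain ⟨y, z, hz, hf⟩ := exists_quotient A N f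
  have key : ∀ y : intW A N,
      (evHom (N * r) hA b hb (heckeBetaBar L N r (wUp A N y))).order =
        (ramC r b : ℤ) * (evHom N hA a ha (wUp A N y)).order := by
    intro y
    have hy : qExpand A r (y : LaurentSeries A) ∈ intW A (N * r) := by
      show coeffMap A.subtype (qExpand A r (y : LaurentSeries A)) ∈ upField (L := L) (N * r)
      rw [coeffMap_qExpand, ← coe_wUp, ← coe_heckeBetaBar N r (wUp A N y)]
      exact SetLike.coe_mem _
    rw [show heckeBetaBar L N r (wUp A N y) = wUp A (N * r) ⟨_, hy⟩ from Subtype.ext (by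
      rw [coe_heckeBetaBar, coe_wUp, coe_wUp, coeffMap_qExpand]), evHom_wUp, evHom_wUp,
      coeffMap_qExpand]
    exact order_shiftL_qExpand ha hb hab _
  have hz0 : wUp A N z ≠ 0 := fun h0 => hz (wUp_injective A N (h0.trans (map_zero _).symm))
  have hi : ∀ (M : ℕ) [NeZero M] (c : unitBall K) (hc : ‖(c : K)‖ < 1) (g : upField (L := L) M),
      g ≠ 0 → evHom M hA c hc g ≠ 0 := fun M _ c hc g hg => (_root_.map_ne_zero _).2 hg
  have h1 := key y
  rw [← hf, map_mul, map_mul, map_mul, order_mul (hi _ _ _ _ ((_root_.map_ne_zero _).2 hf0))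
    (hi _ _ _ _ ((_root_.map_ne_zero _).2 hz0)), order_mul (hi _ _ _ _ hf0) (hi _ _ _ _ hz0),
    key z] at h1
  linarith [h1]

/-- The place of the disc above along `β`. -/
theorem restrict_beta {t t' : Param L K} (h : qPar t' ^ r = qPar t) :
    (discPlace (N * r) hA t').restrictAlong (heckeBetaBar L N r) isIntegral_beta =
        discPlace N hA t ∧
      Place.ramificationIndexAlong (heckeBetaBar L N r) (discPlace (N * r) hA t') =
        ramC r (qPar t') := by
  haveI := hasPrincipalDivisors_up (L := L) (N * r)
  set w := (discPlace (N * r) hA t').restrictAlong (heckeBetaBar L N r) isIntegral_beta with hw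
  set e := Place.ramificationIndexAlong (heckeBetaBar L N r) (discPlace (N * r) hA t') with hedef
  have key : ∀ f, (e : ℤ) * w.ord f = (ramC r (qPar t') : ℤ) * (discPlace N hA t).ord f := by
    intro f
    rw [← Place.ord_restrictAlong, ord_discPlace, ord_discPlace,
      order_evHom_beta hA (norm_qPar_lt t) (norm_qPar_lt t') h]
  have hc : (0 : ℤ) < ramC r (qPar t') := by exact_mod_cast ramC_pos hr.out.ne_zero _
  have he : (0 : ℤ) < e := by
    obtain ⟨π, hπ⟩ := IsDiscreteValuationRing.exists_irreducible
      (discPlace N hA t).toValuationSubring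
    have h1 := key π
    rw [(discPlace N hA t).ord_coe_irreducible hπ, mul_one] at h1
    rcases Nat.eq_zero_or_pos e with h0 | h0
    · rw [h0, Nat.cast_zero, zero_mul] at h1; omega
    · exact_mod_cast h0
  obtain ⟨h1, h2⟩ := place_eq_of_ord he hc key
  exact ⟨h1, by exact_mod_cast h2⟩

omit [CharZero K] in
/-- The place of the disc along `α`. -/
theorem restrict_alpha (t : Param L K) :
    (discPlace (N * r) hA t).restrictAlong (heckeAlphaBar L N r) isIntegral_alpha =
      discPlace N hA t := by
  haveI := hasPrincipalDivisors_up (L := L) (N * r)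
  set w := (discPlace (N * r) hA t).restrictAlong (heckeAlphaBar L N r) isIntegral_alpha
  set e := Place.ramificationIndexAlong (heckeAlphaBar L N r) (discPlace (N * r) hA t)
  have key : ∀ f, (e : ℤ) * w.ord f = 1 * (discPlace N hA t).ord f := by
    intro f
    rw [← Place.ord_restrictAlong, ord_discPlace, ord_discPlace, evHom_alpha, one_mul]
  have he : (0 : ℤ) < e := by
    obtain ⟨π, hπ⟩ := IsDiscreteValuationRing.exists_irreducible
      (discPlace N hA t).toValuationSubring
    have h1 := key π
    rw [(discPlace N hA t).ord_coe_irreducible hπ, mul_one] at h1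
    rcases Nat.eq_zero_or_pos e with h0 | h0
    · rw [h0, Nat.cast_zero, zero_mul] at h1; omega
    · exact_mod_cast h0
  exact (place_eq_of_ord he one_pos key).1

omit [CharZero K] in
/-- A point of the disc where a nonconstant function vanishes has an algebraic parameter. -/
theorem exists_param_of_order_pos {M : ℕ} [NeZero M] (b : unitBall K) (hb : ‖(b : K)‖ < 1)
    {g : upField (L := L) M} (hg : 0 < (evHom M hA b hb g).order) :
    ∃ t : Param L K, qPar t = b := by
  set j' := (upJ (L := L) M)⁻¹
  have hord : 0 ≤ (evHom M hA b hb j').order := by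
    rw [evHom_jInv]
    rcases eq_or_ne (shiftPS b hb (PowerSeries.X * jV (unitBall K))) 0 with h | h
    · rw [h, order_zero]
    · by_contra hlt
      exact HahnSeries.coeff_order_eq_zero.not.mpr h
        (ofPowerSeries_coeff_of_neg _ (not_le.mp hlt))
  rcases FA.Level.exists_place_of_embedding (evHom M hA b hb) with h | ⟨v, e, he, h⟩
  · rw [h g] at hg; exact absurd hg (lt_irrefl _)
  have hv : AtLeast v 0 j' := Or.inr (by rw [h] at hord; exact nonneg_of_mul_nonneg_right hord he)
  obtain ⟨c, hc⟩ := exists_hasValue (isFunctionField_up M) hv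
  set s : unitBall K := evalHom b hb (PowerSeries.X * jV (unitBall K))
  have hcs : algebraMap L K c = s := by
    have h0 : (evHom M hA b hb (j' - algebraMap L (upField (L := L) M) c)).coeff 0 = 0 := by
      rcases hc with hc | hc
      · rw [hc, map_zero, coeff_zero]
      · refine coeff_eq_zero_of_lt_order ?_
        rw [h]
        exact mul_pos he (by omega)
    rw [map_sub, AlgHom.commutes, algebraMap_laurentK, evHom_jInv, coeff_sub, C_apply,
      coeff_single_same, show (0 : ℤ) = ((0 : ℕ) : ℤ) from rfl, shiftPS_coeff,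
      PowerSeries.coeff_zero_eq_constantCoeff_apply, constantCoeff_shiftHom, sub_eq_zero] at h0
    exact h0.symm
  have hsv : s = b * evalHom b hb (jV (unitBall K)) := by
    simp only [s, map_mul, evalHom_X]
  have hlt : ‖algebraMap L K c‖ < 1 := by
    rw [hcs, hsv, MulMemClass.coe_mul, norm_mul]
    exact (mul_le_of_le_one_right (norm_nonneg _) (evalHom b hb (jV (unitBall K))).2).trans_lt hb
  refine ⟨⟨c, hlt⟩, (qPar_unique _ b hb ?_).symm⟩
  rw [show tBall (⟨c, hlt⟩ : Param L K) = s from Subtype.ext hcs, hsv, mul_assoc, ← map_mul,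
    mul_comm (jV (unitBall K)), jU_mul_jV, map_one, mul_one]

include hA in
/-- Parameters of `r`-th roots. -/
theorem exists_param_root (t : Param L K) (b : unitBall K) (hb : ‖(b : K)‖ < 1)
    (hab : b ^ r = qPar t) : ∃ t' : Param L K, qPar t' = b := by
  refine exists_param_of_order_pos hA b hb (M := 1 * r) (g := heckeBetaBar L 1 r
    ((upJ (L := L) 1)⁻¹ - algebraMap L (upField (L := L) 1) t.1)) ?_
  rw [order_evHom_beta hA (norm_qPar_lt t) hb hab, order_evHom_param]
  have := ramC_pos hr.out.ne_zero b
  omega

include hA in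
/-- Parameters of `r`-th powers. -/
theorem exists_param_pow (t : Param L K) : ∃ t' : Param L K, qPar t' = qPar t ^ r := by
  have hlt := norm_pow_lt_one (norm_qPar_lt t) hr.out.ne_zero
  set h := (upJ (L := L) 1)⁻¹
  have h1 : AtLeast (discPlace (1 * r) hA t) 0 (heckeBetaBar L 1 r h) := by
    refine Or.inr ?_
    rw [ord_discPlace, order_evHom_beta hA hlt (norm_qPar_lt t) rfl, evHom_jInv]
    refine mul_nonneg (Int.natCast_nonneg _) ?_
    rcases eq_or_ne (shiftPS (qPar t ^ r) hlt (PowerSeries.X * jV (unitBall K))) 0 with h | h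
    · rw [h, order_zero]
    · by_contra hlt'
      exact HahnSeries.coeff_order_eq_zero.not.mpr h
        (ofPowerSeries_coeff_of_neg _ (not_le.mp hlt'))
  obtain ⟨c, hc⟩ := exists_hasValue (isFunctionField_up (L := L) (1 * r)) h1
  rw [HasValue, ← (heckeBetaBar L 1 r).commutes c, ← map_sub] at hc
  refine exists_param_of_order_pos hA _ hlt (M := 1) (g := h - algebraMap L (upField (L := L) 1) c) ?_
  rcases hc with hc | hc
  · exfalso
    have h2 : h = algebraMap L (upField (L := L) 1) c :=
      sub_eq_zero.mp ((_root_.map_eq_zero _).mp hc)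
    exact upJ_transcendental (L := L) 1
      (by rw [← inv_inv (upJ (L := L) 1), show (upJ (L := L) 1)⁻¹ = h from rfl, h2, ← map_inv₀]
          exact isAlgebraic_algebraMap _)
  · rw [ord_discPlace, order_evHom_beta hA hlt (norm_qPar_lt t) rfl] at hc
    by_contra hle
    have : (ramC r (qPar t) : ℤ) * (evHom 1 hA (qPar t ^ r) hlt
        (h - algebraMap L (upField (L := L) 1) c)).order ≤ 0 :=
      mul_nonpos_of_nonneg_of_nonpos (Int.natCast_nonneg _) (not_lt.mp hle)
    exact absurd (hc.trans this) (by norm_num)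

variable (hrN : ¬ r ∣ N)

omit [Algebra L K] in
include hrN in
/-- The involution exchanging the two degeneracy maps. -/
theorem exists_swap : ∃ w : upField (L := L) (N * r) →ₐ[L] upField (L := L) (N * r),
    (∀ x, w (heckeAlphaBar L N r x) = heckeBetaBar L N r x) ∧
      ∀ x, w (heckeBetaBar L N r x) = heckeAlphaBar L N r x := by
  haveI : NeZero r := ⟨hr.out.ne_zero⟩
  set σ : levelField (N * r) L →+* LaurentSeries ℂ :=
    (cosEmb N r L hrN (some ⟨0, hr.out.pos⟩)).toRingHom
  set τ : levelField (N * r) L →+* LaurentSeries ℂ := (qExpand ℂ N).comp (toCSer L)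
  have hτinj : Function.Injective τ := (qExpand_injective N).comp (toCSer_injective L)
  have hα : ∀ x : levelField N L, σ (heckeAlphaBar L N r x) = τ (heckeBetaBar L N r x) := fun x => by
    refine (cosEmb_alpha N r L hrN _ x).trans ?_
    simp only [τ, RingHom.comp_apply, toCSer_beta, qExpand_qExpand]
    rfl
  have hβ : ∀ x : levelField N L, σ (heckeBetaBar L N r x) = τ (heckeAlphaBar L N r x) := fun x => by
    refine (cosEmb_beta N r L hrN _ x).trans ?_
    simp only [τ, RingHom.comp_apply, toCSer_alpha, conjMap, pow_zero, twist_one_apply]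
    rfl
  have hrange : ∀ y : levelField (N * r) L, σ y ∈ τ.fieldRange := by
    intro y
    letI := algebraAlong (heckeBetaBar L N r)
    have hy : y ∈ Algebra.adjoin (levelField N L)
        (Set.range fun i => heckeAlphaBar L N r (levelGen N L i)) := by
      rw [adjoin_alpha_gens N r L]; exact Algebra.mem_top
    induction hy using Algebra.adjoin_induction with
    | mem x hx =>
      obtain ⟨i, rfl⟩ := hx
      exact ⟨_, (hα _).symm⟩
    | algebraMap x => exact ⟨_, (hβ x).symm⟩
    | add x y _ _ hx hy =>
      show σ (x + y) ∈ τ.fieldRange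
      rw [map_add]; exact add_mem hx hy
    | mul x y _ _ hx hy =>
      show σ (x * y) ∈ τ.fieldRange
      rw [map_mul]; exact mul_mem hx hy
  choose w hw using hrange
  refine ⟨{ toFun := w
            map_one' := hτinj (by rw [hw, map_one, map_one])
            map_mul' := fun x y => hτinj (by rw [hw, map_mul, map_mul, hw, hw])
            map_zero' := hτinj (by rw [hw, map_zero, map_zero])
            map_add' := fun x y => hτinj (by rw [hw, map_add, map_add, hw, hw])
            commutes' := fun c => hτinj ?_ }, fun x => hτinj ?_, fun x => hτinj ?_⟩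
  · show τ (w _) = _
    rw [hw]
    have h1 := hα (algebraMap L (levelField N L) c)
    rwa [AlgHom.commutes, AlgHom.commutes] at h1
  · show τ (w _) = _
    rw [hw]; exact hα x
  · show τ (w _) = _
    rw [hw]; exact hβ x

include hrN in
/-- The remaining place above a place of the disc. -/
theorem exists_other_place {t t'' : Param L K} (h : qPar t'' = qPar t ^ r) :
    ∃ v : Place L (upField (L := L) (N * r)),
      v.restrictAlong (heckeBetaBar L N r) isIntegral_beta = discPlace N hA t ∧
      Place.ramificationIndexAlong (heckeBetaBar L N r) v = 1 ∧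
      v.restrictAlong (heckeAlphaBar L N r) isIntegral_alpha = discPlace N hA t'' := by
  haveI := hasPrincipalDivisors_up (L := L) (N * r)
  obtain ⟨w, hwα, hwβ⟩ := exists_swap (L := L) hrN
  set σ := (evHom (N * r) hA (qPar t) (norm_qPar_lt t)).comp w
  have hσβ : ∀ f, (σ (heckeBetaBar L N r f)).order = (discPlace N hA t).ord f := fun f => by
    simp only [σ, AlgHom.comp_apply, hwβ, evHom_alpha, ord_discPlace]
  have hσα : ∀ f, (σ (heckeAlphaBar L N r f)).order =
      (ramC r (qPar t) : ℤ) * (discPlace N hA t'').ord f := fun f => by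
    simp only [σ, AlgHom.comp_apply, hwα, ord_discPlace,
      order_evHom_beta hA (norm_qPar_lt t'') (norm_qPar_lt t) h.symm]
  obtain ⟨π, hπ⟩ := IsDiscreteValuationRing.exists_irreducible
    (discPlace N hA t).toValuationSubring
  have hπ1 := (discPlace N hA t).ord_coe_irreducible hπ
  rcases FA.Level.exists_place_of_embedding σ with h0 | ⟨v, k, hk, hv⟩
  · have := hσβ π; rw [h0, hπ1] at this; omega
  refine ⟨v, ?_⟩
  set e := Place.ramificationIndexAlong (heckeBetaBar L N r) v
  have key : ∀ f, k * (e : ℤ) * (v.restrictAlong (heckeBetaBar L N r) isIntegral_beta).ord f =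
      1 * (discPlace N hA t).ord f := fun f => by
    rw [mul_assoc, ← Place.ord_restrictAlong, ← hv, hσβ, one_mul]
  have hke : 0 < k * (e : ℤ) := by
    have h1 := key π
    rw [hπ1, one_mul] at h1
    rcases Nat.eq_zero_or_pos e with h0 | h0
    · rw [h0, Nat.cast_zero, mul_zero, zero_mul] at h1; omega
    · exact mul_pos hk (by exact_mod_cast h0)
  obtain ⟨h1, h2⟩ := place_eq_of_ord hke one_pos key
  have hk1 : k = 1 := Int.eq_one_of_mul_eq_one_right hk.le h2
  rw [hk1, one_mul] at h2
  refine ⟨h1, by exact_mod_cast h2, ?_⟩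
  set e' := Place.ramificationIndexAlong (heckeAlphaBar L N r) v
  have key' : ∀ f, (e' : ℤ) * (v.restrictAlong (heckeAlphaBar L N r) isIntegral_alpha).ord f =
      (ramC r (qPar t) : ℤ) * (discPlace N hA t'').ord f := fun f => by
    rw [← Place.ord_restrictAlong, ← hσα, hv, hk1, one_mul]
  have hc : (0 : ℤ) < ramC r (qPar t) := by exact_mod_cast ramC_pos hr.out.ne_zero _
  have he' : (0 : ℤ) < e' := by
    obtain ⟨ϖ, hϖ⟩ := IsDiscreteValuationRing.exists_irreducible
      (discPlace N hA t'').toValuationSubring
    have h1 := key' ϖ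
    rw [(discPlace N hA t'').ord_coe_irreducible hϖ, mul_one] at h1
    rcases Nat.eq_zero_or_pos e' with h0 | h0
    · rw [h0, Nat.cast_zero, zero_mul] at h1; omega
    · exact_mod_cast h0
  exact (place_eq_of_ord he' hc key').1

include hrN in
/-- `T_r` of a place of the disc. -/
theorem heckeDiv_discPlace {t t'' : Param L K} (h'' : qPar t'' = qPar t ^ r) {ζ : unitBall K}
    (hζ : IsPrimitiveRoot (ζ : K) r) {b : unitBall K} (hb : b ^ r = qPar t)
    {τ : Fin r → Param L K} (hτ : ∀ i, qPar (τ i) = ζ ^ (i : ℕ) * b) :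
    heckeDiv N L r (Finsupp.single (discPlace N hA t) 1) =
      Finsupp.single (discPlace N hA t'') 1 + ∑ i, Finsupp.single (discPlace N hA (τ i)) 1 := by
  classical
  haveI := hasPrincipalDivisors_up (L := L) (N * r)
  have hF := isFunctionField_level L N
  have hF' := isFunctionField_level L (N * r)
  set φ := heckeBetaBar L N r
  have hroot : ∀ i, qPar (τ i) ^ r = qPar t := fun i => by
    have h1 : (ζ ^ (i : ℕ)) ^ r = 1 := by
      rw [← pow_mul, mul_comm, pow_mul]
      rw [show ζ ^ r = 1 from Subtype.ext hζ.pow_eq_one, one_pow]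
    rw [hτ, mul_pow, h1, one_mul, hb]
  obtain ⟨v, hvβ, hve, hvα⟩ := exists_other_place hA hrN h''
  set W : Option (Fin r) → Place L (upField (L := L) (N * r)) :=
    fun i => i.elim v fun i => discPlace (N * r) hA (τ i)
  set S : Finset (Place L (upField (L := L) (N * r))) := Finset.univ.image W
  set Tfib := Place.fiberAlong φ isIntegral_beta (discPlace N hA t)
  have hsub : S ⊆ Tfib := fun X hX => by
    obtain ⟨i, -, rfl⟩ := Finset.mem_image.mp hX
    rw [Place.mem_fiberAlong]
    cases i with
    | none => exact hvβ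
    | some i => exact (restrict_beta hA (hroot i)).1
  have hdeg : (∑ X ∈ Tfib, (Place.ramificationIndexAlong φ X : ℤ)) = r + 1 := by
    have h1 := Divisor.degree_pullbackAlong φ isIntegral_beta
      (fundamentalIdentityAlong hF hF' φ isIntegral_beta) (Finsupp.single (discPlace N hA t) 1)
    rw [Divisor.pullbackAlong_single, map_sum, Divisor.degree_single, hF.deg_eq_one,
      finrank_beta N r hrN L] at h1
    simpa [hF'.deg_eq_one] using h1
  have hvne : ∀ i, v ≠ discPlace (N * r) hA (τ i) := by
    intro i hvi
    rcases eq_or_ne (qPar t) 0 with h0 | h0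
    · have hτ0 : qPar (τ i) = 0 := pow_eq_zero_iff hr.out.ne_zero |>.mp ((hroot i).trans h0)
      have := (restrict_beta (N := N) hA (hroot i)).2
      rw [← hvi, hve, hτ0, ramC_zero] at this
      exact hr.out.ne_one this.symm
    · have h1 := hvα
      rw [hvi, restrict_alpha] at h1
      have h2 := congrArg qPar (discPlace_injective N hA h1)
      rw [h''] at h2
      have h3 := hroot i
      rw [h2, ← pow_mul] at h3
      have hq : ((qPar t : unitBall K) : K) ≠ 0 := fun e => h0 (Subtype.ext e)
      have h4 := congrArg (fun z : unitBall K => ‖(z : K)‖) h3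
      simp only [SubmonoidClass.coe_pow, norm_pow] at h4
      have h5 : ‖((qPar t : unitBall K) : K)‖ ^ (r * r) < ‖((qPar t : unitBall K) : K)‖ ^ 1 :=
        pow_lt_pow_right_of_lt_one₀ (norm_pos_iff.mpr hq) (norm_qPar_lt t)
          (one_lt_mul'' hr.out.one_lt hr.out.one_lt)
      rw [h4, pow_one] at h5
      exact lt_irrefl _ h5
  have hsum : ∑ X ∈ Tfib, Finsupp.single (X.restrictAlong (heckeAlphaBar L N r) isIntegral_alpha)
      (Place.ramificationIndexAlong φ X : ℤ) =
      Finsupp.single (discPlace N hA t'') 1 + ∑ i, Finsupp.single (discPlace N hA (τ i)) 1 := by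
    rcases eq_or_ne b 0 with hb0 | hb0
    · have hτ0 : ∀ i, qPar (τ i) = 0 := fun i => by rw [hτ, hb0, mul_zero]
      have hall : ∀ i, discPlace (N * r) hA (τ i) = discPlace (N * r) hA (τ ⟨0, hr.out.pos⟩) :=
        fun i => by rw [qPar_injective ((hτ0 i).trans (hτ0 ⟨0, hr.out.pos⟩).symm)]
      set P0 := discPlace (N * r) hA (τ ⟨0, hr.out.pos⟩)
      have he0 : Place.ramificationIndexAlong φ P0 = r := by
        rw [(restrict_beta hA (hroot _)).2, hτ0, ramC_zero]
      have hSeq : S = {v, P0} := by
        ext X
        simp only [S, W, Finset.mem_image, Finset.mem_univ, true_and, Finset.mem_insert,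
          Finset.mem_singleton, Option.exists, Option.elim]
        constructor
        · rintro (h | ⟨i, h⟩)
          · exact Or.inl h.symm
          · exact Or.inr (h.symm.trans (hall i))
        · rintro (rfl | rfl)
          · exact Or.inl rfl
          · exact Or.inr ⟨_, rfl⟩
      have hne : v ≠ P0 := hvne _
      have hTS : Tfib = S := by
        refine (eq_of_subset_of_sum_eq hsub hdeg ?_ fun X hX => ?_)
        · rw [hSeq, Finset.sum_pair hne, hve, he0]; push_cast; ring
        · exact_mod_cast ramificationIndexAlong_pos φ isIntegral_beta X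
      rw [hTS, hSeq, Finset.sum_pair hne, hvα, restrict_alpha, hve, he0, Nat.cast_one]
      congr 1
      rw [Finset.sum_congr rfl fun i _ => by
        rw [show τ i = τ ⟨0, hr.out.pos⟩ from qPar_injective ((hτ0 i).trans (hτ0 _).symm)]]
      rw [Finset.sum_const, Finset.card_univ, Fintype.card_fin, Finsupp.smul_single, nsmul_eq_mul,
        mul_one]
    · have hWinj : Function.Injective W := by
        rintro (_ | i) (_ | j) h
        · rfl
        · exact absurd h (hvne j)
        · exact absurd h.symm (hvne i)
        · have h1 := congrArg qPar (discPlace_injective (N * r) hA h)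
          rw [hτ, hτ] at h1
          have h2 := congrArg (fun z : unitBall K => (z : K)) (mul_right_cancel₀ hb0 h1)
          simp only [SubmonoidClass.coe_pow] at h2
          exact congrArg some (Fin.ext (hζ.pow_inj i.2 j.2 h2))
      have he : ∀ i, Place.ramificationIndexAlong φ (W i) = 1 := by
        rintro (_ | i)
        · exact hve
        · show Place.ramificationIndexAlong φ (discPlace (N * r) hA (τ i)) = 1
          rw [(restrict_beta hA (hroot i)).2, ramC_of_ne]
          rw [hτ]
          exact mul_ne_zero (pow_ne_zero _ fun e => hζ.ne_zero hr.out.ne_zero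
            (by rw [e]; rfl)) hb0
      have hTS : Tfib = S := by
        refine (eq_of_subset_of_sum_eq hsub hdeg ?_ fun X hX => ?_)
        · rw [Finset.sum_image fun x _ y _ h => hWinj h,
            Finset.sum_congr rfl fun i _ => by rw [he i]]
          simp
        · exact_mod_cast ramificationIndexAlong_pos φ isIntegral_beta X
      rw [hTS, Finset.sum_image fun x _ y _ h => hWinj h, Fintype.sum_option]
      simp only [he, Nat.cast_one]
      simp only [W, Option.elim, hvα, restrict_alpha]
  rw [← hsum]
  show Divisor.pushforwardAlong (heckeAlphaBar L N r) isIntegral_alpha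
    (Divisor.pullbackAlong φ isIntegral_beta (Finsupp.single (discPlace N hA t) 1)) = _
  rw [Divisor.pullbackAlong_single, map_sum]
  refine Finset.sum_congr rfl fun X _ => ?_
  rw [Divisor.pushforwardAlong_single, FA.JTorsion.inertiaDegAlong_eq_one hF hF',
    Nat.cast_one, mul_one, one_mul]

variable [IsAlgClosed K]

include hA hrN in
/-- The exponential of `T_r` of a place of the disc is the exponential of the transform. -/
theorem discU_heckeDiv {G G' : PowerSeries K} {E E' : PowerSeries (unitBall K)}
    (hE : IsExpOf G (PowerSeries.map (unitBall K).subtype E))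
    (hE' : IsExpOf G' (PowerSeries.map (unitBall K).subtype E'))
    (hrel : ∀ n, PowerSeries.coeff n G' =
      (if r ∣ n then PowerSeries.coeff (n / r) G else 0) + r * PowerSeries.coeff (r * n) G)
    (t : Param L K) :
    discU hA E (heckeDiv N L r (Finsupp.single (discPlace N hA t) 1)) =
        Additive.ofMul (valUnit E' t) ∧
      ∀ P, (heckeDiv N L r (Finsupp.single (discPlace N hA t) 1)) P ≠ 0 →
        ∃ t' : Param L K, discPlace N hA t' = P := by
  classical
  have hr0 := hr.out.ne_zero
  haveI : NeZero r := ⟨hr0⟩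
  obtain ⟨b₀, hb₀⟩ := IsAlgClosed.exists_pow_nat_eq ((qPar t : unitBall K) : K) hr.out.pos
  have hb₀lt : ‖b₀‖ < 1 := by
    refine (pow_lt_one_iff_of_nonneg (norm_nonneg _) hr0).mp ?_
    rw [← norm_pow, hb₀]; exact norm_qPar_lt t
  set b : unitBall K := ⟨b₀, hb₀lt.le⟩
  have hb : b ^ r = qPar t := Subtype.ext hb₀
  haveI : NeZero (r : K) := ⟨Nat.cast_ne_zero.mpr hr0⟩
  obtain ⟨ζ₀, hζ₀⟩ := HasEnoughRootsOfUnity.exists_primitiveRoot K r
  have hζ1 : ‖ζ₀‖ = 1 :=
    (pow_eq_one_iff_of_nonneg (norm_nonneg _) hr0).mp
      (by rw [← norm_pow, hζ₀.pow_eq_one, norm_one])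
  set ζ : unitBall K := ⟨ζ₀, hζ1.le⟩
  have hlt : ∀ i : Fin r, ‖((ζ ^ (i : ℕ) * b : unitBall K) : K)‖ < 1 := fun i => by
    rw [MulMemClass.coe_mul, SubmonoidClass.coe_pow, norm_mul, norm_pow, hζ1, one_pow, one_mul]
    exact hb₀lt
  have hroot : ∀ i : Fin r, (ζ ^ (i : ℕ) * b) ^ r = qPar t := fun i => by
    rw [mul_pow, ← pow_mul, mul_comm _ r, pow_mul,
      show ζ ^ r = 1 from Subtype.ext hζ₀.pow_eq_one, one_pow, one_mul, hb]
  choose τ hτ using fun i => exists_param_root hA t _ (hlt i) (hroot i)
  obtain ⟨t'', ht''⟩ := exists_param_pow (r := r) hA t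
  have hdiv := heckeDiv_discPlace hA hrN ht'' (ζ := ζ) hζ₀ hb hτ
  have hc : ∀ {F : PowerSeries (unitBall K)} {H : PowerSeries K},
      IsExpOf H (PowerSeries.map (unitBall K).subtype F) → PowerSeries.constantCoeff F = 1 := by
    intro F H hF
    have h1 := hF.1
    rw [← PowerSeries.coeff_zero_eq_constantCoeff_apply, PowerSeries.coeff_map,
      PowerSeries.coeff_zero_eq_constantCoeff_apply] at h1
    exact Subtype.ext h1
  refine ⟨?_, fun P hP => ?_⟩
  · rw [hdiv, map_add, map_sum, discU_single, placeVal_discPlace, one_smul]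
    simp only [discU_single, placeVal_discPlace, one_smul]
    refine Additive.toMul.injective ?_
    rw [toMul_add, toMul_sum]
    refine Units.ext ?_
    simp only [toMul_ofMul, Units.val_mul, Units.coe_prod, valUnit_coe (hc hE),
      valUnit_coe (hc hE')]
    rw [evalHom_congr hb.symm _ (norm_pow_lt_one hb₀lt hr0),
      evalHom_exp_hecke hr0 hE hE' hrel (ζ := ζ) hζ₀ b hb₀lt,
      evalHom_congr ht'' _ (norm_pow_lt_one (norm_qPar_lt t) hr0)]
    rw [MulMemClass.coe_mul, SubmonoidClass.coe_finsetProd]
    congr 1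
    · rw [evalHom_congr (congrArg (· ^ r) hb.symm)]
    · exact Finset.prod_congr rfl fun i _ => by rw [evalHom_congr (hτ i) _ (hlt i)]
  · by_contra hno
    push Not at hno
    refine hP ?_
    rw [hdiv, Finsupp.add_apply, Finsupp.single_eq_of_ne (hno t'').symm, zero_add,
      Finsupp.finsetSum_apply]
    exact Finset.sum_eq_zero fun i _ => Finsupp.single_eq_of_ne (hno (τ i)).symm

variable {k : Type} [Field k] [IsAlgClosed k] {π : A →+* k}
  {R : Reduction L (upField (L := L) N) k (modularFunctionFieldFullC k N) A}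
  (hR : IsSeriesRed π R) (hk : IsFunctionField k (modularFunctionFieldFullC k N))

/-- The class of a place of the disc minus the cusp. -/
def discClass (t : Param L K) : Pic0 L (upField (L := L) N) :=
  Pic0.mk ⟨Finsupp.single (discPlace N hA t) 1 - Finsupp.single (discPlace N hA t0) 1, by
    simp [Divisor.mem_degZero, (isFunctionField_up (L := L) N).deg_eq_one]⟩

include hR hk in
omit [Algebra L ℂ] [CharZero K] [IsAlgClosed K] in
theorem discClass_mem (t : Param L K) : discClass hA t ∈ discClasses R := by
  refine ⟨_, fun P hP => ?_, rfl⟩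
  by_cases h : P = discPlace N hA t
  · exact h ▸ spl_discPlace hA hR hk t
  · by_cases h0 : P = discPlace N hA t0
    · exact h0 ▸ spl_discPlace hA hR hk t0
    · refine absurd ?_ hP
      simp [Finsupp.single_eq_of_ne h, Finsupp.single_eq_of_ne h0]

omit [Algebra L ℂ] in
theorem expMap_discClass {E : PowerSeries (unitBall K)} (hE : IsCuspExp (N := N) hA E)
    (t : Param L K) :
    expMap hA hR hk hE ⟨discClass hA t, discClass_mem hA hR hk t⟩ =
      Additive.ofMul (valUnit E t) := by
  obtain ⟨G, hG, hEG, -⟩ := id hE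
  have hc : PowerSeries.constantCoeff E = 1 := by
    have h1 := congrArg PowerSeries.constantCoeff hEG
    rw [(isExpOf_expSeries hG).1, ← PowerSeries.coeff_zero_eq_constantCoeff_apply,
      PowerSeries.coeff_map, PowerSeries.coeff_zero_eq_constantCoeff_apply] at h1
    exact Subtype.ext h1
  refine (expMap_mk hA hR hk hE _ fun P hP => ?_).trans (discU_sub_cusp hA hR hk hc t)
  by_cases h : P = discPlace N hA t
  · exact h ▸ spl_discPlace hA hR hk t
  · by_cases h0 : P = discPlace N hA t0
    · exact h0 ▸ spl_discPlace hA hR hk t0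
    · refine absurd ?_ hP
      simp [Finsupp.single_eq_of_ne h, Finsupp.single_eq_of_ne h0]

include hR hk hrN in
/-- **`T_r` commutes with the exponential map.** -/
theorem expMap_hecke {G G' : PowerSeries K} {E E' : PowerSeries (unitBall K)}
    (hcE : IsCuspExp (N := N) hA E) (hE : IsExpOf G (PowerSeries.map (unitBall K).subtype E))
    (hE' : IsExpOf G' (PowerSeries.map (unitBall K).subtype E'))
    (hrel : ∀ n, PowerSeries.coeff n G' =
      (if r ∣ n then PowerSeries.coeff (n / r) G else 0) + r * PowerSeries.coeff (r * n) G)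
    (t : Param L K) :
    haveI : NeZero r := ⟨hr.out.ne_zero⟩
    ∃ h : heckeOperatorAlong L N r (discClass hA t) ∈ discClasses R,
      expMap hA hR hk hcE ⟨_, h⟩ = Additive.ofMul (valUnit E' t) := by
  haveI : NeZero r := ⟨hr.out.ne_zero⟩
  obtain ⟨hd, hT⟩ := heckeOperatorAlong_mk N L r
    (⟨Finsupp.single (discPlace N hA t) 1 - Finsupp.single (discPlace N hA t0) 1, by
      simp [Divisor.mem_degZero, (isFunctionField_up (L := L) N).deg_eq_one]⟩ :
      Divisor.degZero (K := L) (F := levelField N L))
  rw [show heckeOperatorAlong L N r (discClass hA t) = _ from hT]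
  obtain ⟨h1, hs1⟩ := discU_heckeDiv hA hrN hE hE' hrel t
  obtain ⟨h0, hs0⟩ := discU_heckeDiv hA hrN hE hE' hrel t0
  have hdisc : IsDiscDiv R (heckeDiv N L r
      (Finsupp.single (discPlace N hA t) 1 - Finsupp.single (discPlace N hA t0) 1)) := fun P hP => by
    rw [map_sub, Finsupp.sub_apply] at hP
    obtain ⟨t', rfl⟩ : ∃ t', discPlace N hA t' = P := by
      by_cases h : heckeDiv N L r (Finsupp.single (discPlace N hA t) 1) P = 0
      · exact hs0 P fun h' => hP (by rw [h, h', sub_zero])
      · exact hs1 P h
    exact spl_discPlace hA hR hk t'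
  refine ⟨⟨⟨_, hd⟩, hdisc, rfl⟩, (expMap_mk hA hR hk hcE ⟨_, hd⟩ hdisc).trans ?_⟩
  show discU hA E (heckeDiv N L r
    (Finsupp.single (discPlace N hA t) 1 - Finsupp.single (discPlace N hA t0) 1)) = _
  rw [map_sub, map_sub, h1, h0]
  have hu : valUnit E' (t0 : Param L K) = 1 := by
    have hc : PowerSeries.constantCoeff E' = 1 := by
      have h1 := hE'.1
      rw [← PowerSeries.coeff_zero_eq_constantCoeff_apply, PowerSeries.coeff_map,
        PowerSeries.coeff_zero_eq_constantCoeff_apply] at h1
      exact Subtype.ext h1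
    refine Units.ext ?_
    rw [valUnit_coe hc, Units.val_one]
    have h3 := norm_evalHom_sub_constant_le (qPar (t0 : Param L K)) (norm_qPar_lt _) E'
    rw [hc, OneMemClass.coe_one, show ‖((qPar (t0 : Param L K) : unitBall K) : K)‖ = 0 by
      rw [qPar_t0, ZeroMemClass.coe_zero, norm_zero]] at h3
    exact sub_eq_zero.mp (norm_le_zero_iff.mp h3)
  rw [hu, ofMul_one, sub_zero]

end FA.Mazur
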