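import Fermat.Agent.Mazur.DiscRed
import Fermat.Agent.CurveRed.FullField
import Fermat.Agent.ModField.Congruence.Fibre

/-!
# Places specialising to the cusp are the places of the disc
-/

set_option autoImplicit false
set_option linter.style.haveILetI false
set_option linter.unusedSectionVars false
set_option synthInstance.maxHeartbeats 200000
set_option maxHeartbeats 1000000

noncomputable section

namespace FA.Mazur

open ModularCurve AlgebraicCurve FA.Curve FA.CurveRed HahnSeries IntermediateField

theorem order_jqModC_eq (R : Type) [CommRing R] [Nontrivial R] :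
    (jqModC R).order = -1 := by
  refine le_antisymm (order_le_of_coeff_ne_zero ?_) ?_
  · rw [coeff_jqModC_neg_one]; exact one_ne_zero
  · by_contra hlt
    exact HahnSeries.coeff_order_eq_zero.not.mpr (jqModC_ne_zero_of_nontrivial R)
      (coeff_jqModC_of_lt R (not_le.mp hlt))

theorem exists_inftyDown (k : Type) [Field k] (N : ℕ) [NeZero N] :
    ∃ v : Place k (modularFunctionFieldFullC k N),
      ∀ f : modularFunctionFieldFullC k N, v.ord f = ((f : LaurentSeries k)).order := by
  rcases FA.Level.exists_place_of_embedding (modularFunctionFieldFullC k N).val with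
    h | ⟨v, m, hm, h⟩
  · exact absurd ((h (jBar k N)).symm.trans (order_jqModC_eq k)) (by norm_num)
  · have h1 : m * v.ord (jBar k N) = -1 := (h (jBar k N)).symm.trans (order_jqModC_eq k)
    have hm1 : m = 1 := Int.eq_one_of_dvd_one hm.le ⟨-v.ord (jBar k N), by linarith⟩
    refine ⟨v, fun f => ?_⟩
    have := h f
    rw [hm1, one_mul] at this
    exact this.symm

/-- The cusp `∞` of the special fibre. -/
def inftyDown (k : Type) [Field k] (N : ℕ) [NeZero N] :
    Place k (modularFunctionFieldFullC k N) := (exists_inftyDown k N).choose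

theorem ord_inftyDown {k : Type} [Field k] {N : ℕ} [NeZero N]
    (f : modularFunctionFieldFullC k N) :
    (inftyDown k N).ord f = ((f : LaurentSeries k)).order :=
  (exists_inftyDown k N).choose_spec f

theorem atLeast_inftyDown {k : Type} [Field k] {N : ℕ} [NeZero N] {n : ℤ}
    (f : modularFunctionFieldFullC k N) (h : ∀ i < n, (f : LaurentSeries k).coeff i = 0) :
    AtLeast (inftyDown k N) n f := by
  rcases eq_or_ne f 0 with h0 | h0
  · exact Or.inl h0
  refine Or.inr ?_
  rw [ord_inftyDown]
  by_contra hlt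
  exact HahnSeries.coeff_order_eq_zero.not.mpr (fun h' => h0 (Subtype.ext h'))
    (h _ (not_le.mp hlt))

variable {L : Type} [Field L] [Algebra ℚ L] [IsAlgClosed L] {A : ValuationSubring L}
  {k : Type} [Field k] [IsAlgClosed k]
  {K : Type} [NormedField K] [IsUltrametricDist K] [CompleteSpace K] [Algebra L K]
  {N : ℕ} [NeZero N] {π : A →+* k}
  {R : Reduction L (upField (L := L) N) k (modularFunctionFieldFullC k N) A}
  (hA : IsEmbAt A K)

/-- The parameter of the cusp. -/
def t0 : Param L K := ⟨0, by rw [map_zero, norm_zero]; exact one_pos⟩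

theorem qPar_t0 : qPar (t0 : Param L K) = 0 := (qPar_eq_zero_iff _).mpr rfl

open PowerSeries.WithPiTopology in
/-- The expansion at the cusp. -/
theorem evHom_zero (a : unitBall K) (ha : ‖(a : K)‖ < 1) (h0 : a = 0)
    (f : upField (L := L) N) :
    evHom N hA a ha f = coeffMap (algebraMap L K) (f : LaurentSeries L) := by
  subst h0
  have hid : shiftHom (0 : unitBall K) ha = RingHom.id _ :=
    shift_hom_ext (continuous_shiftHom _ _) continuous_id PowerSeries.HasEval.X
      (fun c => shiftHom_C _ _ c) (fun c => rfl) (by rw [shiftHom_X, map_zero, zero_add]) rfl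
  have hs : shiftL (0 : unitBall K) ha = coeffMap (unitBall K).subtype := by
    refine IsLocalization.ringHom_ext
      (Submonoid.powers (PowerSeries.X : PowerSeries (unitBall K))) (RingHom.ext fun x => ?_)
    rw [RingHom.comp_apply, RingHom.comp_apply, LaurentSeries.coe_algebraMap,
      shiftL_ofPowerSeries, shiftPS, hid, coeffMap_ofPowerSeries]
    rfl
  obtain ⟨y, z, hz, hf⟩ := exists_quotient A N f
  have hne : wUp A N z ≠ 0 := fun h => hz (wUp_injective A N (h.trans (map_zero _).symm))
  have h1 := congrArg (evHom N hA 0 ha) hf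
  rw [map_mul, evHom_wUp, evHom_wUp, hs, coeffMap_coeffMap, coeffMap_coeffMap] at h1
  have hcomp : (unitBall K).subtype.comp hA.toBall = (algebraMap L K).comp A.subtype := rfl
  rw [hcomp, ← coeffMap_coeffMap, ← coeffMap_coeffMap] at h1
  have h2 := congrArg (fun g : upField (L := L) N => coeffMap (algebraMap L K) (g : LaurentSeries L)) hf
  simp only [MulMemClass.coe_mul, map_mul, coe_wUp] at h2
  refine mul_right_cancel₀ ?_ (h1.trans h2.symm)
  intro h
  refine hne (Subtype.ext ?_)
  rw [coe_wUp, ZeroMemClass.coe_zero]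
  ext n
  have h3 := congrArg (fun s : LaurentSeries K => s.coeff n) h
  simp only [coeffMap_coeff, coeff_zero] at h3
  exact (map_eq_zero _).mp h3

theorem order_coeffMap (x : LaurentSeries L) :
    (coeffMap (algebraMap L K) x).order = x.order := by
  rcases eq_or_ne x 0 with rfl | hx
  · simp
  have hne : coeffMap (algebraMap L K) x ≠ 0 := fun h => hx (by
    ext n
    have := congrArg (fun s : LaurentSeries K => s.coeff n) h
    simp only [coeffMap_coeff, coeff_zero] at this
    exact (map_eq_zero _).mp this)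
  refine le_antisymm (order_le_of_coeff_ne_zero ?_) (order_le_of_coeff_ne_zero ?_)
  · rw [coeffMap_coeff, ne_eq, map_eq_zero]
    exact HahnSeries.coeff_order_eq_zero.not.mpr hx
  · have := HahnSeries.coeff_order_eq_zero.not.mpr hne
    rw [coeffMap_coeff, map_eq_zero] at this
    exact this

theorem ord_cusp (f : upField (L := L) N) :
    (discPlace N hA t0).ord f = (f : LaurentSeries L).order := by
  rw [ord_discPlace, evHom_zero hA _ _ qPar_t0, order_coeffMap]

theorem coeff_eq_zero_of_atLeast_cusp {f : upField (L := L) N} {n i : ℤ}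
    (h : AtLeast (discPlace N hA t0) n f) (hi : i < n) : (f : LaurentSeries L).coeff i = 0 := by
  rcases h with h | h
  · rw [h, ZeroMemClass.coe_zero, coeff_zero]
  · rw [ord_cusp] at h
    exact coeff_eq_zero_of_lt_order (by omega)

variable (hR : IsSeriesRed π R) (hk : IsFunctionField k (modularFunctionFieldFullC k N))
include hR hk

/-- Reductions of functions with no pole in the punctured disc. -/
theorem atLeast_inftyDown_of_red {f : upField (L := L) N} {r : modularFunctionFieldFullC k N}
    (hf : ∀ t : Param L K, t.1 ≠ 0 → AtLeast (discPlace N hA t) 0 f) (hfr : R.Red f r) {n : ℤ}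
    (hn : AtLeast (discPlace N hA t0) n f) : AtLeast (inftyDown k N) n r := by
  obtain ⟨y, hy, hyr⟩ := exists_series_of_red hA hR (mem_bddSub_of_noPole hA hf) hfr
  refine atLeast_inftyDown r fun i hi => ?_
  rw [← hyr]
  refine coeff_eq_zero_of_toUp ?_
  rw [hy]
  exact coeff_eq_zero_of_atLeast_cusp hA hn hi

theorem exists_degree_bound : ∃ c : ℕ, ∀ D : Divisor L (upField (L := L) N),
    (c : ℤ) ≤ Divisor.degree D → ell (R.push D) ≤ ell D ∧
      ell (R.push D) = Divisor.degree D + 1 - genus k (modularFunctionFieldFullC k N) := by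
  obtain ⟨c, hc⟩ := exists_threshold (isFunctionField_up (L := L) N)
  obtain ⟨c', hc'⟩ := exists_threshold hk
  refine ⟨c.toNat + c'.toNat, fun D hD => ?_⟩
  have h1 := hc D (by omega)
  have hdeg := Reduction.degree_push (R := R) (isFunctionField_up N) hk D
  have h2 := hc' (R.push D) (by omega)
  have := hR.genus_le
  exact ⟨by omega, by omega⟩

/-- The cusp specialises to the cusp. -/
theorem spl_cusp : R.spl (discPlace N hA t0) = inftyDown k N := by
  classical
  by_contra hne
  set P₁ := discPlace N hA t0 (A := A)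
  set Q := R.spl P₁
  have hF := isFunctionField_up (L := L) N
  obtain ⟨P₀, hP₀⟩ : ∃ P₀ : Place L (upField (L := L) N), 0 < P₀.ord (upJ (L := L) N) := by
    obtain ⟨P, hP⟩ := exists_ord_neg hF (g := (upJ (L := L) N)⁻¹)
      (fun h => upJ_transcendental N (by simpa using h.inv))
    rw [Place.ord_inv] at hP
    exact ⟨P, by omega⟩
  have havoid : ∀ t : Param L K, discPlace N hA t ≠ P₀ := fun t h => by
    have h1 := (hasValue_jInv N hA t).atLeast
    rw [h, atLeast_iff (inv_ne_zero fun h0 => upJ_transcendental N (h0 ▸ isAlgebraic_zero)),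
      Place.ord_inv] at h1
    omega
  obtain ⟨c, hc⟩ := exists_degree_bound hR hk
  obtain ⟨c', hc'⟩ := exists_threshold hk
  set M : ℕ := c + c'.toNat + 3
  set D : Divisor L (upField (L := L) N) := Finsupp.single P₀ (M : ℤ) - Finsupp.single P₁ 1
  have hdeg : Divisor.degree D = (M : ℤ) - 1 := by simp [D, hF.deg_eq_one]
  obtain ⟨hell, hellD⟩ := hc D (by omega)
  have hpush : R.push D = Finsupp.single (R.spl P₀) (M : ℤ) - Finsupp.single Q 1 := by
    rw [Reduction.push, Finsupp.mapDomain_sub, Finsupp.mapDomain_single, Finsupp.mapDomain_single]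
  haveI := finite_riemannRochSpace hk (R.push D - Finsupp.single (inftyDown k N) 1)
  have hle : riemannRochSpace (R.push D) ≤
      riemannRochSpace (R.push D - Finsupp.single (inftyDown k N) 1) := by
    intro r hr
    obtain ⟨f, hf, hfr⟩ := Reduction.exists_lift hF hk hell hr
    have hf0 : ∀ t : Param L K, t.1 ≠ 0 → AtLeast (discPlace N hA t) 0 f := fun t ht => by
      have h1 := FA.Curve.mem_riemannRochSpace.1 hf (discPlace N hA t)
      have h2 : discPlace N hA t ≠ P₁ := fun h =>
        ht (congrArg Subtype.val (discPlace_injective N hA h))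
      simpa [D, Finsupp.single_eq_of_ne (havoid t), Finsupp.single_eq_of_ne h2] using h1
    have h1 := atLeast_inftyDown_of_red hA hR hk hf0 hfr (n := 1) (by
      have h1 := FA.Curve.mem_riemannRochSpace.1 hf P₁
      simpa [D, P₁, Finsupp.single_eq_of_ne (havoid t0)] using h1)
    rw [FA.Curve.mem_riemannRochSpace] at hr ⊢
    intro w
    rcases eq_or_ne w (inftyDown k N) with rfl | hw
    · refine h1.mono ?_
      rw [Finsupp.sub_apply, hpush, Finsupp.sub_apply, Finsupp.single_eq_same,
        Finsupp.single_eq_of_ne (Ne.symm hne)]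
      rcases eq_or_ne (R.spl P₀) (inftyDown k N) with h | h
      · rw [h, Finsupp.single_eq_same]; omega
      · rw [Finsupp.single_eq_of_ne (Ne.symm h)]; omega
    · rw [Finsupp.sub_apply, Finsupp.single_eq_of_ne hw, sub_zero]
      exact hr w
  have h2 : ell (R.push D) ≤ ell (R.push D - Finsupp.single (inftyDown k N) 1) :=
    Int.ofNat_le.2 (Submodule.finrank_mono hle)
  have hdp := Reduction.degree_push (R := R) hF hk D
  rw [hellD, hc' _ (by rw [map_sub, hdp]; simp [hk.deg_eq_one]; omega),
    map_sub Divisor.degree (R.push D), hdp] at h2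
  simp [hk.deg_eq_one] at h2

/-- Functions with an exact pole at the cusp and nowhere else. -/
theorem exists_pole_cusp : ∃ (M : ℕ) (f : upField (L := L) N) (y : intSeries A π N),
    0 < M ∧ toUp A π N y = f ∧
    (∀ P, P ≠ discPlace N hA t0 → AtLeast P 0 f) ∧
    (∀ i < -(M : ℤ), (y : LaurentSeries A).coeff i = 0) ∧
    π ((y : LaurentSeries A).coeff (-(M : ℤ))) ≠ 0 := by
  classical
  have hF := isFunctionField_up (L := L) N
  obtain ⟨c, hc⟩ := exists_degree_bound hR hk
  obtain ⟨c', hc'⟩ := exists_threshold hk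
  set M : ℕ := c + c'.toNat + 1
  set D : Divisor L (upField (L := L) N) := Finsupp.single (discPlace N hA t0) (M : ℤ)
  have hdeg : Divisor.degree D = (M : ℤ) := by simp [D, hF.deg_eq_one]
  obtain ⟨hell, hellD⟩ := hc D (by omega)
  have hpush : R.push D = Finsupp.single (inftyDown k N) (M : ℤ) := by
    rw [Reduction.push_single, spl_cusp hA hR hk]
  obtain ⟨r, hr, hr'⟩ : ∃ r ∈ riemannRochSpace (R.push D),
      r ∉ riemannRochSpace (R.push D - Finsupp.single (inftyDown k N) 1) := by
    by_contra hno
    push Not at hno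
    haveI := finite_riemannRochSpace hk (R.push D - Finsupp.single (inftyDown k N) 1)
    have h2 : ell (R.push D) ≤ ell (R.push D - Finsupp.single (inftyDown k N) 1) :=
      Int.ofNat_le.2 (Submodule.finrank_mono hno)
    have hdp := Reduction.degree_push (R := R) hF hk D
    rw [hellD, hc' _ (by rw [map_sub, hdp]; simp [hk.deg_eq_one]; omega),
    map_sub Divisor.degree (R.push D), hdp] at h2
    simp [hk.deg_eq_one] at h2
  obtain ⟨f, hf, hfr⟩ := Reduction.exists_lift hF hk hell hr
  have hpole : ∀ P, P ≠ discPlace N hA t0 → AtLeast P 0 f := fun P hP => by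
    simpa [D, Finsupp.single_eq_of_ne hP] using FA.Curve.mem_riemannRochSpace.1 hf P
  have h0 : ∀ t : Param L K, t.1 ≠ 0 → AtLeast (discPlace N hA t) 0 f := fun t ht =>
    hpole _ fun h => ht (congrArg Subtype.val (discPlace_injective N hA h))
  obtain ⟨y, hy, hyr⟩ := exists_series_of_red hA hR (mem_bddSub_of_noPole hA h0) hfr
  have hlow : ∀ i < -(M : ℤ), (y : LaurentSeries A).coeff i = 0 := fun i hi => by
    have h1 := FA.Curve.mem_riemannRochSpace.1 hf (discPlace N hA t0)
    simp only [D, Finsupp.single_eq_same] at h1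
    have h2 := coeff_eq_zero_of_atLeast_cusp hA h1 hi
    rw [← hy, coeff_toUp, ZeroMemClass.coe_eq_zero] at h2
    exact h2
  refine ⟨M, f, y, by omega, hy, hpole, hlow, fun h => hr' ?_⟩
  rw [FA.Curve.mem_riemannRochSpace] at hr ⊢
  intro w
  rcases eq_or_ne w (inftyDown k N) with rfl | hw
  · rw [hpush, Finsupp.sub_apply, Finsupp.single_eq_same, Finsupp.single_eq_same]
    refine atLeast_inftyDown r fun i hi => ?_
    rw [← hyr, coeff_toDown]
    rcases lt_or_eq_of_le (show i ≤ -(M : ℤ) by omega) with hi' | rfl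
    · rw [hlow i hi', map_zero]
    · exact h
  · rw [Finsupp.sub_apply, Finsupp.single_eq_of_ne hw, sub_zero]
    exact hr w

theorem coe_π_eq (a : A) : R.π a = 0 ↔ π a = 0 := by rw [R.π_eq_zero, hR.π_eq_zero]

/-- The places of the disc specialise to the cusp. -/
theorem spl_discPlace (t : Param L K) : R.spl (discPlace N hA t) = inftyDown k N := by
  classical
  rcases eq_or_ne t.1 0 with ht | ht
  · rw [show t = t0 from Subtype.ext ht]; exact spl_cusp hA hR hk
  by_contra hne
  have hF := isFunctionField_up (L := L) N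
  obtain ⟨M, f, y, hM, hy, hpole, hlow, htop⟩ := exists_pole_cusp hA hR hk
  have hnp : Reduction.NoPole R (R.spl (discPlace N hA t)) f := fun P hP =>
    hpole P fun h => hne (by rw [← hP, h, spl_cusp hA hR hk])
  have hfr : R.Red f (toDown A π N y) := hy ▸ hR.of_series y
  obtain ⟨c, hcv⟩ := exists_hasValue hF (hnp (discPlace N hA t) rfl)
  obtain ⟨hcA, -⟩ := Reduction.hasValue_red hF hfr hnp rfl hcv
  -- evaluate `(1 / j) ^ M f`
  have hval : HasValue (discPlace N hA t) ((upJ (L := L) N)⁻¹ ^ M * f) (t.1 ^ M * c) :=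
    FA.ModField.hasValue_mul (FA.ModField.hasValue_pow (hasValue_jInv N hA t) M) hcv
  have h1 := (coeff_zero_of_hasValue N hA hval).1
  -- the series
  set z : LaurentSeries A := single (M : ℤ) 1 * (y : LaurentSeries A)
  have hz : ∀ i < (0 : ℤ), z.coeff i = 0 := fun i hi => by
    simp only [z]
    rw [show i = (i - M) + (M : ℤ) by ring, coeff_single_mul_add, one_mul]
    exact hlow _ (by omega)
  have hzp : z = ofPowerSeries ℤ A (PowerSeries.mk fun n => z.coeff (n : ℤ)) := by
    ext i
    rcases lt_or_ge i 0 with hi | hi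
    · rw [hz i hi, ofPowerSeries_coeff_of_neg _ hi]
    · lift i to ℕ using hi
      rw [ofPowerSeries_apply_coeff, PowerSeries.coeff_mk]
  set p : PowerSeries A := jV A ^ M * PowerSeries.mk fun n => z.coeff (n : ℤ)
  have hW : (ofPowerSeries ℤ A p : LaurentSeries A) ∈ intW A N ∧
      ∀ h, wUp A N ⟨ofPowerSeries ℤ A p, h⟩ = (upJ (L := L) N)⁻¹ ^ M * f := by
    have e : coeffMap A.subtype (ofPowerSeries ℤ A p) =
        (((upJ (L := L) N)⁻¹ ^ M * f : upField (L := L) N) : LaurentSeries L) := by
      rw [MulMemClass.coe_mul, SubmonoidClass.coe_pow, ← wUp_jInvW (A := A) N, coe_wUp, ← hy]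
      show _ = _ * coeffMap A.subtype (y : LaurentSeries A)
      rw [← map_pow, ← map_mul]
      congr 1
      show _ = ofPowerSeries ℤ A (PowerSeries.X * jV A) ^ M * _
      simp only [p]
      rw [map_mul, ← hzp, map_pow, map_mul, mul_pow, ofPowerSeries_X, single_pow, one_pow]
      simp only [z, nsmul_eq_mul, mul_one]
      ring
    refine ⟨by show coeffMap A.subtype _ ∈ upField (L := L) N; rw [e]; exact SetLike.coe_mem _,
      fun h => Subtype.ext e⟩
  rw [← hW.2 hW.1, evHom_wUp] at h1
  simp only [coeffMap_ofPowerSeries, shiftL_ofPowerSeries, shiftPS, RingHom.comp_apply] at h1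
  rw [show (0 : ℤ) = ((0 : ℕ) : ℤ) from rfl, ofPowerSeries_apply_coeff, PowerSeries.coeff_map,
    PowerSeries.coeff_zero_eq_constantCoeff_apply, constantCoeff_shiftHom] at h1
  have hp1 : ‖((PowerSeries.constantCoeff (PowerSeries.map hA.toBall p) : unitBall K) : K)‖ = 1 := by
    rw [← PowerSeries.coeff_zero_eq_constantCoeff_apply, PowerSeries.coeff_map,
      PowerSeries.coeff_zero_eq_constantCoeff_apply, hA.coe_toBall]
    simp only [p, map_mul, map_pow, constantCoeff_jV, one_pow, one_mul]
    rw [← PowerSeries.coeff_zero_eq_constantCoeff_apply, PowerSeries.coeff_mk]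
    simp only [z, Nat.cast_zero]
    rw [show (0 : ℤ) = -(M : ℤ) + (M : ℤ) by ring, coeff_single_mul_add, one_mul]
    refine le_antisymm ((hA _).mp ((y : LaurentSeries A).coeff _).2) (not_lt.mp fun hlt => htop ?_)
    rw [hR.π_eq_zero, hA.valuation_lt_one_iff]
    exact hlt
  have h3 := norm_evalHom_eq_one (norm_qPar_lt t) hp1
  rw [show ((evalHom (qPar t) (norm_qPar_lt t) (PowerSeries.map hA.toBall p) : unitBall K) : K) =
    algebraMap L K (t.1 ^ M * c) from h1, map_mul, map_pow, norm_mul, norm_pow] at h3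
  have h4 : ‖algebraMap L K t.1‖ ^ M * ‖algebraMap L K c‖ < 1 :=
    (mul_le_of_le_one_right (by positivity) ((hA c).mp hcA)).trans_lt
      (pow_lt_one₀ (norm_nonneg _) t.2 (by omega))
  linarith

omit hR hk in
/-- A nontrivial relation that survives specialisation. -/
theorem exists_relation_at {T x : upField (L := L) N} (hT : Transcendental L T)
    (hx : IsAlgebraic L⟮T⟯ x) (c : L) :
    ∃ (n : ℕ) (G : ℕ → Polynomial L),
      ∑ i ∈ Finset.range n, Polynomial.aeval T (G i) * x ^ i = 0 ∧
      ∃ i ∈ Finset.range n, (G i).eval c ≠ 0 := by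
  classical
  obtain ⟨q, hq0, hq⟩ := hx
  choose P Q hPQ using fun i =>
    (IntermediateField.mem_adjoin_simple_iff L ((q.coeff i : L⟮T⟯) : upField (L := L) N)).mp
      (q.coeff i).2
  have hTinj : ∀ P : Polynomial L, Polynomial.aeval T P = 0 → P = 0 := fun P h =>
    (transcendental_iff_injective.mp hT) (h.trans (map_zero _).symm)
  let Q' : ℕ → Polynomial L := fun i => if Q i = 0 then 1 else Q i
  have hQ' : ∀ i, Polynomial.aeval T (Q' i) ≠ 0 := fun i h => by
    have := hTinj _ h
    simp only [Q'] at this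
    split_ifs at this with h0
    · exact one_ne_zero this
    · exact h0 this
  let P' : ℕ → Polynomial L := fun i => if Q i = 0 then 0 else P i
  have hPQ' : ∀ i, ((q.coeff i : L⟮T⟯) : upField (L := L) N) * Polynomial.aeval T (Q' i) =
      Polynomial.aeval T (P' i) := fun i => by
    have h := hPQ i
    have h1 := hQ' i
    simp only [Q', P'] at h1 ⊢
    split_ifs at h1 ⊢ with h0
    · rw [h, h0, map_zero, div_zero, zero_mul]
    · rw [h, div_mul_cancel₀ _ h1]
  set n := q.natDegree + 1
  set G₀ : ℕ → Polynomial L := fun i => P' i * ∏ j ∈ (Finset.range n).erase i, Q' j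
  have hsum : ∑ i ∈ Finset.range n, Polynomial.aeval T (G₀ i) * x ^ i = 0 := by
    have h : ∀ i ∈ Finset.range n, Polynomial.aeval T (G₀ i) * x ^ i =
        (∏ j ∈ Finset.range n, Polynomial.aeval T (Q' j)) *
          (((q.coeff i : L⟮T⟯) : upField (L := L) N) * x ^ i) := fun i hi => by
      simp only [G₀]
      rw [map_mul, map_prod, ← hPQ' i, ← Finset.mul_prod_erase _ _ hi]
      ring
    rw [Finset.sum_congr rfl h, ← Finset.mul_sum]
    rw [Polynomial.aeval_eq_sum_range] at hq
    simp only [Algebra.smul_def] at hq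
    rw [show ∑ i ∈ Finset.range n, ((q.coeff i : L⟮T⟯) : upField (L := L) N) * x ^ i = 0 from hq,
      mul_zero]
  obtain ⟨i₀, hi₀, hG₀⟩ : ∃ i ∈ Finset.range n, G₀ i ≠ 0 := by
    refine ⟨q.natDegree, Finset.self_mem_range_succ _, fun h => ?_⟩
    have h1 := congrArg (Polynomial.aeval T) h
    simp only [G₀] at h1
    rw [map_mul, map_zero, ← hPQ', map_prod, mul_assoc, mul_eq_zero, mul_eq_zero] at h1
    rcases h1 with h1 | h1 | h1
    · exact hq0 (Polynomial.leadingCoeff_eq_zero.mp (Subtype.ext h1))
    · exact hQ' _ h1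
    · exact Finset.prod_ne_zero_iff.mpr (fun j _ => hQ' j) h1
  obtain ⟨m, hm⟩ : ∃ m, m = (G₀ i₀).natDegree := ⟨_, rfl⟩
  clear_value G₀
  induction m using Nat.strong_induction_on generalizing G₀ with
  | _ m ih =>
    by_cases hall : ∃ i ∈ Finset.range n, (G₀ i).eval c ≠ 0
    · exact ⟨n, G₀, hsum, hall⟩
    push Not at hall
    have hd : ∀ i ∈ Finset.range n, ∃ G', G₀ i = (Polynomial.X - Polynomial.C c) * G' := fun i hi =>
      Polynomial.dvd_iff_isRoot.mpr (hall i hi)
    choose! G' hG' using hd
    have hG'0 : G' i₀ ≠ 0 := fun h => hG₀ (by rw [hG' i₀ hi₀, h, mul_zero])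
    refine ih (G' i₀).natDegree ?_ G' ?_ hG'0 rfl
    · rw [hm, hG' i₀ hi₀, Polynomial.natDegree_mul (Polynomial.X_sub_C_ne_zero c) hG'0,
        Polynomial.natDegree_X_sub_C]
      omega
    · have hne : Polynomial.aeval T (Polynomial.X - Polynomial.C c) ≠ 0 := fun h =>
        Polynomial.X_sub_C_ne_zero c (hTinj _ h)
      refine (mul_eq_zero.mp ?_).resolve_left hne
      rw [Finset.mul_sum, ← hsum]
      exact Finset.sum_congr rfl fun i hi => by rw [hG' i hi, map_mul, mul_assoc]

/-- **The residue disc of the cusp.** -/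
theorem exists_param_of_spl {P : Place L (upField (L := L) N)}
    (hP : R.spl P = inftyDown k N) : ∃ t : Param L K, discPlace N hA t = P := by
  classical
  have hF := isFunctionField_up (L := L) N
  have hg : genus L (upField (L := L) N) ≤ genus k (modularFunctionFieldFullC k N) := hR.genus_le
  obtain ⟨T, hT⟩ := Reduction.exists_coord hF hk hg (inftyDown k N) (R := R)
  obtain ⟨r, hTr, hord, hnp⟩ := id hT
  have hT0 : ∀ t : Param L K, AtLeast (discPlace N hA t) 0 T := fun t =>
    hnp _ (spl_discPlace hA hR hk t)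
  obtain ⟨y, hy, hyr⟩ := exists_series_of_red hA hR
    (mem_bddSub_of_noPole hA fun t _ => hT0 t) hTr
  have hlow : ∀ i < (0 : ℤ), (y : LaurentSeries A).coeff i = 0 := fun i hi => by
    have h2 := coeff_eq_zero_of_atLeast_cusp hA (hT0 t0) hi
    rw [← hy, coeff_toUp, ZeroMemClass.coe_eq_zero] at h2
    exact h2
  set p : PowerSeries (unitBall K) :=
    PowerSeries.mk fun n => hA.toBall ((y : LaurentSeries A).coeff (n : ℤ))
  have hyp : coeffMap hA.toBall (y : LaurentSeries A) = ofPowerSeries ℤ (unitBall K) p := by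
    ext i
    rcases lt_or_ge i 0 with hi | hi
    · rw [coeffMap_coeff, hlow i hi, map_zero, ofPowerSeries_coeff_of_neg _ hi]
    · lift i to ℕ using hi
      rw [ofPowerSeries_apply_coeff, PowerSeries.coeff_mk, coeffMap_coeff]
  have hr0 : r ≠ 0 := fun h => by simp [h] at hord
  rw [ord_inftyDown] at hord
  have hc1 : ‖((PowerSeries.coeff 1 p : unitBall K) : K)‖ = 1 := by
    rw [PowerSeries.coeff_mk, hA.coe_toBall]
    refine le_antisymm ((hA _).mp ((y : LaurentSeries A).coeff _).2) (not_lt.mp fun hlt => ?_)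
    have h1 := (HahnSeries.coeff_order_eq_zero (x := (r : LaurentSeries k))).not.mpr
      (fun h => hr0 (Subtype.ext h))
    apply h1
    rw [hord, ← hyr, coeff_toDown, hR.π_eq_zero, hA.valuation_lt_one_iff]
    exact hlt
  have hc0 : ‖((PowerSeries.constantCoeff p : unitBall K) : K)‖ < 1 := by
    rw [← PowerSeries.coeff_zero_eq_constantCoeff_apply, PowerSeries.coeff_mk, hA.coe_toBall,
      ← hA.valuation_lt_one_iff, ← hR.π_eq_zero, Nat.cast_zero, ← coeff_toDown, hyr]
    exact coeff_eq_zero_of_lt_order (by rw [hord]; exact zero_lt_one)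
  -- the value at `P`
  obtain ⟨c, hcv, hcA, hord1, huniq⟩ := Reduction.IsCoord.exists_value hF hT hP
  have hcA' : c ∈ A := (A.valuation_le_one_iff c).mp hcA.le
  have hcK : ‖algebraMap L K c‖ < 1 := (hA.valuation_lt_one_iff ⟨c, hcA'⟩).mp hcA
  -- solve `p a = c`
  obtain ⟨w, hw⟩ : PowerSeries.X ∣ p - PowerSeries.C (PowerSeries.constantCoeff p) :=
    PowerSeries.X_dvd_iff.mpr (by simp)
  have hw1 : PowerSeries.constantCoeff w = PowerSeries.coeff 1 p := by
    have := congrArg (PowerSeries.coeff 1) hw
    simp only [map_sub, PowerSeries.coeff_succ_X_mul, PowerSeries.coeff_C, one_ne_zero, if_false,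
      sub_zero] at this
    rw [← PowerSeries.coeff_zero_eq_constantCoeff_apply]
    exact this.symm
  have hwu : IsUnit w := by
    rw [PowerSeries.isUnit_iff_constantCoeff, isUnit_iff_exists_inv, hw1]
    refine ⟨⟨((PowerSeries.coeff 1 p : unitBall K) : K)⁻¹, ?_⟩, Subtype.ext ?_⟩
    · rw [mem_unitBall, norm_inv, hc1, inv_one]
    · exact mul_inv_cancel₀ (norm_ne_zero_iff.mp (by rw [hc1]; exact one_ne_zero))
  obtain ⟨w', hw'⟩ := hwu.exists_right_inv
  set e : unitBall K := ⟨algebraMap L K c, hcK.le⟩ - PowerSeries.constantCoeff p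
  have he : ‖(e : K)‖ < 1 := by
    simp only [e, sub_eq_add_neg]
    exact (IsUltrametricDist.norm_add_le_max _ _).trans_lt (max_lt hcK (by rwa [NegMemClass.coe_neg, norm_neg]))
  obtain ⟨a, ⟨ha, hae⟩, -⟩ := existsUnique_eq_mul_evalHom e he w'
  have hpa : (evalHom a ha p : K) = algebraMap L K c := by
    have h1 := congrArg (evalHom a ha) hw
    rw [map_sub, map_mul, ← Polynomial.coe_C, ← Polynomial.coe_X, evalHom_coe, evalHom_coe,
      Polynomial.eval_C, Polynomial.eval_X] at h1
    have h2 : a * evalHom a ha w = e := by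
      conv_lhs => arg 1; rw [hae]
      rw [mul_assoc, ← map_mul, mul_comm w', hw', map_one, mul_one]
    rw [h2, sub_eq_iff_eq_add] at h1
    rw [h1]
    simp [e]
  -- algebraicity of `1 / j` at `a`
  have hTtr : Transcendental L T := fun h =>
    (FA.ModField.transcendental_of_ord_ne_zero P (f := T - algebraMap L _ c)
      (by rw [hord1]; exact one_ne_zero)) (h.sub (isAlgebraic_algebraMap c))
  haveI := hF.finiteDimensional hTtr
  obtain ⟨n, G, hG, i₀, hi₀, hGc⟩ := exists_relation_at hTtr
    (Algebra.IsAlgebraic.isAlgebraic (R := L⟮T⟯) ((upJ (L := L) N)⁻¹)) c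
  set Pp : PowerSeries K := PowerSeries.map (unitBall K).subtype (shiftHom a ha p)
  set Xp : PowerSeries K :=
    PowerSeries.map (unitBall K).subtype (shiftHom a ha (PowerSeries.X * jV (unitBall K)))
  have hgT : evHom N hA a ha T = ofPowerSeries ℤ K Pp := by
    rw [← hy, evHom_toUp, hyp, shiftL_ofPowerSeries]; rfl
  have hgX : evHom N hA a ha (upJ (L := L) N)⁻¹ = ofPowerSeries ℤ K Xp := evHom_jInv N hA a ha
  have hPp : PowerSeries.constantCoeff Pp = algebraMap L K c := by
    rw [← PowerSeries.coeff_zero_eq_constantCoeff_apply, PowerSeries.coeff_map,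
      PowerSeries.coeff_zero_eq_constantCoeff_apply, constantCoeff_shiftHom]
    exact hpa
  set s : unitBall K := evalHom a ha (PowerSeries.X * jV (unitBall K)) with hs
  have hXp : PowerSeries.constantCoeff Xp = (s : K) := by
    rw [← PowerSeries.coeff_zero_eq_constantCoeff_apply, PowerSeries.coeff_map,
      PowerSeries.coeff_zero_eq_constantCoeff_apply, constantCoeff_shiftHom]
    rfl
  have hrel : ∑ i ∈ Finset.range n, algebraMap L K ((G i).eval c) * (s : K) ^ i = 0 := by
    have h1 := congrArg (evHom N hA a ha) hG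
    rw [map_sum, map_zero] at h1
    have h2 : ∀ i, evHom N hA a ha (Polynomial.aeval T (G i) * ((upJ (L := L) N)⁻¹) ^ i) =
        ofPowerSeries ℤ K ((G i).eval₂ ((PowerSeries.C).comp (algebraMap L K)) Pp * Xp ^ i) :=
      fun i => by
      rw [map_mul, map_pow, hgX, ← Polynomial.aeval_algHom_apply, hgT, map_mul, map_pow,
        Polynomial.hom_eval₂, Polynomial.aeval_def]
      congr 2
      refine RingHom.ext fun d => ?_
      rw [algebraMap_laurentK, RingHom.comp_apply, RingHom.comp_apply, ofPowerSeries_C]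
    rw [Finset.sum_congr rfl fun i _ => h2 i, ← map_sum, ← map_zero (ofPowerSeries ℤ K)] at h1
    have h3 := congrArg PowerSeries.constantCoeff (ofPowerSeries_injective h1)
    rw [map_sum, map_zero] at h3
    rw [← h3]
    refine Finset.sum_congr rfl fun i _ => ?_
    rw [map_mul, map_pow, hXp, Polynomial.hom_eval₂, hPp]
    congr 1
    rw [show PowerSeries.constantCoeff.comp ((PowerSeries.C).comp (algebraMap L K)) =
      algebraMap L K from RingHom.ext fun d => by simp, Polynomial.eval₂_at_apply]
  set H : Polynomial L := ∑ i ∈ Finset.range n, Polynomial.monomial i ((G i).eval c)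
  have hH : H ≠ 0 := fun h => hGc (by
    have := congrArg (fun q : Polynomial L => q.coeff i₀) h
    simpa [H, Polynomial.coeff_monomial, hi₀] using this)
  have hroot : (s : K) ∈ (H.map (algebraMap L K)).roots := by
    rw [Polynomial.mem_roots (Polynomial.map_ne_zero hH), Polynomial.IsRoot, Polynomial.eval_map]
    simp only [H, Polynomial.eval₂_finsetSum, Polynomial.eval₂_monomial]
    exact hrel
  rw [(IsAlgClosed.splits H).roots_map, Multiset.mem_map] at hroot
  obtain ⟨d, -, hd⟩ := hroot
  have hsv : s = a * evalHom a ha (jV (unitBall K)) := by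
    rw [hs, map_mul, ← Polynomial.coe_X, evalHom_coe, Polynomial.eval_X]
  have hdlt : ‖algebraMap L K d‖ < 1 := by
    rw [hd, hsv, MulMemClass.coe_mul, norm_mul]
    exact (mul_le_of_le_one_right (norm_nonneg _) (evalHom a ha (jV (unitBall K))).2).trans_lt ha
  refine ⟨⟨d, hdlt⟩, ?_⟩
  have hqa : a = qPar (⟨d, hdlt⟩ : Param L K) := by
    refine qPar_unique _ a ha ?_
    rw [show tBall (⟨d, hdlt⟩ : Param L K) = s from Subtype.ext hd, hsv, mul_assoc, ← map_mul,
      mul_comm (jV (unitBall K)), jU_mul_jV, map_one, mul_one]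
  by_contra hne
  obtain ⟨c', hc'⟩ := exists_hasValue hF (hT0 ⟨d, hdlt⟩)
  have h1 := (coeff_zero_of_hasValue N hA hc').1
  have e1 : (evHom N hA (qPar (⟨d, hdlt⟩ : Param L K)) (norm_qPar_lt _) T).coeff 0 =
      (evHom N hA a ha T).coeff 0 := by
    subst hqa; rfl
  rw [e1, hgT, show (0 : ℤ) = ((0 : ℕ) : ℤ) from rfl, ofPowerSeries_apply_coeff,
    PowerSeries.coeff_zero_eq_constantCoeff_apply, hPp] at h1
  have hcc : c = c' := (algebraMap L K).injective h1
  subst hcc
  have h2 := huniq _ (spl_discPlace hA hR hk ⟨d, hdlt⟩) hne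
  have hne0 : T - algebraMap L (upField (L := L) N) c ≠ 0 := fun h => by
    rw [h, Place.ord_zero] at hord1
    exact zero_ne_one hord1
  have h3 := (atLeast_iff hne0).1 hc'
  omega

end FA.Mazur
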