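import Fermat.Agent.Mazur.HeckeCoeff
import Mathlib.NumberTheory.ModularForms.Bounds
import Mathlib.NumberTheory.SumPrimeReciprocals
import Mathlib.RingTheory.Ideal.GoingUp

/-!
# No Eisenstein eigen system on cusp forms

There is no homomorphism from the Hecke algebra of prime level to a field of characteristic zero
sending `T_q` to `1 + q` for almost all primes `q`: the coefficients of the eigenform would be
`∏ (1 + q)` at squarefree indices, against the bound `O(n)`.
-/

set_option autoImplicit false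
set_option linter.style.haveILetI false
set_option linter.unusedSectionVars false

noncomputable section

namespace FA.Mazur

open CongruenceSubgroup CuspForm FA.Deform FA.Eis Filter Asymptotics ModularCurve

set_option synthInstance.maxHeartbeats 400000
set_option maxHeartbeats 1000000

variable (p : ℕ) [Fact p.Prime]

/-- The values at the coefficient elements are the coefficients of a cusp form. -/
theorem exists_form_of_character_complex (χ : TAlg p →+* ℂ) :
    ∃ f : CuspForm (Gamma0 p) 2, ∀ n, qLin p f n = χ (hCoeff p n) := by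
  classical
  haveI : Module.Finite ℤ (TAlg p) := FA.Period.moduleFinite_heckeAlgebra p 2 ∅
  haveI : Module.Free ℤ (TAlg p) := Module.free_of_finite_type_torsion_free'
  obtain ⟨D, hD, hF⟩ := exists_form_of_functional p
  set b := Module.Free.chooseBasis ℤ (TAlg p)
  haveI := Fintype.ofFinite (Module.Free.ChooseBasisIndex ℤ (TAlg p))
  choose F hF using fun i => hF (b.coord i)
  have hD' : (D : ℂ) ≠ 0 := Int.cast_ne_zero.mpr hD
  refine ⟨(D : ℂ)⁻¹ • ∑ i, χ (b i) • (F i : CuspForm (Gamma0 p) 2), fun n => ?_⟩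
  rw [map_smul, map_sum, Pi.smul_apply, Finset.sum_apply, smul_eq_mul]
  simp only [map_smul, Pi.smul_apply, ← cast_zCoeff, ← pairT_hCoeff, hF, Module.Basis.coord_apply,
    smul_eq_mul]
  conv_rhs => rw [← b.sum_repr (hCoeff p n), map_sum]
  rw [Finset.mul_sum]
  refine Finset.sum_congr rfl fun i _ => ?_
  rw [map_zsmul, zsmul_eq_mul]
  push_cast
  field_simp

/-- Coefficients are `O(n)`. -/
theorem exists_coeff_bound (f : CuspForm (Gamma0 p) 2) :
    ∃ C : ℝ, ∃ n₀ : ℕ, ∀ n, n₀ ≤ n → ‖qLin p f n‖ ≤ C * n := by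
  have h := CuspFormClass.qExpansion_isBigO (k := 2)
    (Γ := (Gamma0 p : Subgroup (GL (Fin 2) ℝ))) f
  rw [strictWidthInfty_Gamma0] at h
  obtain ⟨C, hC⟩ := h.bound
  obtain ⟨n₀, hn₀⟩ := Filter.eventually_atTop.mp hC
  refine ⟨C, n₀, fun n hn => ?_⟩
  have h1 := hn₀ n hn
  rw [show ((2 : ℤ) : ℝ) / 2 = 1 by norm_num, Real.rpow_one, Real.norm_of_nonneg (Nat.cast_nonneg n)]
    at h1
  exact h1

theorem hCoeff_prod (s : Finset Nat.Primes) :
    hCoeff p (∏ r ∈ s, (r : ℕ)) = ∏ r ∈ s, tGen p r := by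
  classical
  induction s using Finset.induction_on with
  | empty => simp [hCoeff_one]
  | insert r s hr ih =>
    rw [Finset.prod_insert hr, Finset.prod_insert hr, mul_comm (r : ℕ), hCoeff_mul_prime, ih]
    rw [Prime.dvd_finsetProd_iff r.2.prime]
    rintro ⟨q, hq, hd⟩
    exact hr (Subtype.ext ((Nat.prime_dvd_prime_iff_eq r.2 q.2).mp hd) ▸ hq)

/-- Sums of reciprocals of primes outside a finite set are unbounded. -/
theorem exists_finset_sum_gt (bad : Finset Nat.Primes) (C : ℝ) :
    ∃ s : Finset Nat.Primes, Disjoint s bad ∧ C < ∑ r ∈ s, (1 / (r : ℕ) : ℝ) := by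
  classical
  by_contra h
  push Not at h
  refine Nat.Primes.not_summable_one_div
    (summable_of_sum_le (c := C + ∑ r ∈ bad, (1 / (r : ℕ) : ℝ)) (fun r => by positivity) fun s => ?_)
  rw [← Finset.sum_inter_add_sum_sdiff s bad, add_comm (∑ r ∈ s ∩ bad, _)]
  exact add_le_add (h _ Finset.sdiff_disjoint)
    (Finset.sum_le_sum_of_subset_of_nonneg Finset.inter_subset_right fun _ _ _ => by positivity)

/-- A complex character cannot be Eisenstein. -/
theorem not_eisenstein_complex (χ : TAlg p →+* ℂ) (bad : Finset Nat.Primes)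
    (hbad : ∀ r, r ∉ bad → χ (tGen p r) = 1 + (r : ℕ)) : False := by
  classical
  obtain ⟨f, hf⟩ := exists_form_of_character_complex p χ
  obtain ⟨C, n₀, hC⟩ := exists_coeff_bound p f
  -- one index beyond the threshold
  obtain ⟨r₀', hr₀', hr₀p⟩ := Nat.exists_infinite_primes (max n₀ (bad.sup (fun r => (r : ℕ)) + 1))
  set r₀ : Nat.Primes := ⟨r₀', hr₀p⟩
  have hr₀ : r₀ ∉ bad := fun h => by
    have h2 := Finset.le_sup (f := fun r : Nat.Primes => (r : ℕ)) h
    simp only [r₀] at h2
    omega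
  obtain ⟨s, hs, hsum⟩ := exists_finset_sum_gt (insert r₀ bad) C
  set u := insert r₀ s
  have hu : ∀ r ∈ u, r ∉ bad := fun r hr => by
    rcases Finset.mem_insert.mp hr with rfl | hr
    · exact hr₀
    · exact fun h => Finset.disjoint_left.mp hs hr (Finset.mem_insert_of_mem h)
  set n := ∏ r ∈ u, (r : ℕ)
  have hn : n₀ ≤ n := le_trans (le_trans (le_max_left _ _) hr₀')
    (Finset.single_le_prod' (f := fun r : Nat.Primes => (r : ℕ)) (fun r _ => r.2.one_le)
      (Finset.mem_insert_self r₀ s))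
  have hval : qLin p f n = ((∏ r ∈ u, (1 + (r : ℕ)) : ℕ) : ℂ) := by
    rw [hf, hCoeff_prod, map_prod, Finset.prod_congr rfl fun r hr => hbad r (hu r hr)]
    push_cast
    rfl
  have h1 := hC n hn
  rw [hval, Complex.norm_natCast] at h1
  have hprod : ((∏ r ∈ u, (1 + (r : ℕ)) : ℕ) : ℝ) = n * ∏ r ∈ u, (1 + (1 / (r : ℕ) : ℝ)) := by
    simp only [n]
    push_cast
    rw [← Finset.prod_mul_distrib]
    refine Finset.prod_congr rfl fun r _ => ?_
    have : ((r : ℕ) : ℝ) ≠ 0 := Nat.cast_ne_zero.mpr r.2.ne_zero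
    field_simp
    ring
  have hn0 : (0 : ℝ) < n := Nat.cast_pos.mpr (Finset.prod_pos fun r _ => r.2.pos)
  rw [hprod, mul_comm C] at h1
  have h2 : ∏ r ∈ u, (1 + (1 / (r : ℕ) : ℝ)) ≤ C := le_of_mul_le_mul_left h1 hn0
  have h3 : ∀ v : Finset Nat.Primes, 1 + ∑ r ∈ v, (1 / (r : ℕ) : ℝ) ≤ ∏ r ∈ v, (1 + (1 / (r : ℕ) : ℝ)) := by
    intro v
    induction v using Finset.induction_on with
    | empty => simp
    | insert r v hr ih =>
      rw [Finset.sum_insert hr, Finset.prod_insert hr]
      have ha : (0 : ℝ) ≤ 1 / (r : ℕ) := by positivity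
      have hb : (0 : ℝ) ≤ ∑ r ∈ v, (1 / (r : ℕ) : ℝ) := Finset.sum_nonneg fun _ _ => by positivity
      nlinarith
  have h4 : ∑ r ∈ s, (1 / (r : ℕ) : ℝ) ≤ ∑ r ∈ u, (1 / (r : ℕ) : ℝ) :=
    Finset.sum_le_sum_of_subset_of_nonneg (Finset.subset_insert _ _) fun _ _ _ => by positivity
  linarith [h3 u]

/-- **No Eisenstein eigen system in characteristic zero.** -/
theorem not_eisenstein {K : Type} [Field K] [CharZero K] (φ : TAlg p →+* K)
    (bad : Finset Nat.Primes) (hbad : ∀ r, r ∉ bad → φ (tGen p r) = 1 + (r : ℕ)) : False := by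
  haveI : Module.Finite ℤ (TAlg p) := FA.Period.moduleFinite_heckeAlgebra p 2 ∅
  set P := RingHom.ker φ
  haveI : P.IsPrime := RingHom.ker_isPrime φ
  haveI : FiniteDimensional ℂ (CuspForm (Gamma0 p) 2) := by
    obtain ⟨s, hs⟩ := CuspForm.intLattice_fg p 2
    refine ⟨⟨s, top_unique ?_⟩⟩
    rw [← FA.Period.hasIntegralStructure p 2, ← hs, Submodule.span_le]
    exact (Submodule.span_le_restrictScalars ℤ ℂ (s : Set (CuspForm (Gamma0 p) 2)) :)
  obtain ⟨v, χ, hv, -, hker⟩ := exists_eigenvector_of_prime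
    (T := TAlg p) (V := CuspForm (Gamma0 p) 2) (heckeAlgebra p 2 ∅).val.toRingHom P
    fun t ht => by rw [show t = 0 from Subtype.ext ht]; exact zero_mem _
  have hP : P ≤ RingHom.ker χ := by
    by_contra hne
    have hlt : RingHom.ker χ < P := lt_of_le_of_ne hker fun h => hne h.ge
    haveI : (RingHom.ker χ).IsPrime := RingHom.ker_isPrime χ
    have h1 := Ideal.IsIntegral.comap_lt_comap (R := ℤ) hlt
    have h0 : ∀ (L : Type _) [Field L] [CharZero L] (ψ : TAlg p →+* L),
        (RingHom.ker ψ).comap (algebraMap ℤ (TAlg p)) = ⊥ := fun L _ _ ψ => by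
      rw [RingHom.comap_ker, RingHom.ker_eq_bot_iff_eq_zero]
      intro n hn
      rwa [RingHom.comp_apply, eq_intCast, map_intCast, Int.cast_eq_zero] at hn
    rw [h0 ℂ χ, h0 K φ] at h1
    exact lt_irrefl _ h1
  refine not_eisenstein_complex p χ bad fun r hr => ?_
  have h1 : tGen p r - (1 + ((r : ℕ) : TAlg p)) ∈ P := by
    rw [RingHom.mem_ker, map_sub, map_add, map_one, map_natCast, hbad r hr, sub_self]
  have h2 := hP h1
  rwa [RingHom.mem_ker, map_sub, map_add, map_one, map_natCast, sub_eq_zero] at h2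

end FA.Mazur

end
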