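import Fermat.Agent.Mazur.Dichotomy
import Fermat.Agent.Mazur.VanishPoint

/-!
# Rational places of level `p` over a value of `1 / j` in the disc
-/

set_option autoImplicit false
set_option linter.style.haveILetI false
set_option linter.unusedSectionVars false

noncomputable section

namespace FA.Mazur

open ModularCurve AlgebraicCurve FA.Curve FA.CurveRed FA.ModField FA.Level FA.JTorsion

set_option synthInstance.maxHeartbeats 400000
set_option maxHeartbeats 2000000

local notation "Qb" => AlgebraicClosure ℚ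
local notation "GQ" => AlgebraicClosure ℚ ≃ₐ[ℚ] AlgebraicClosure ℚ

variable [Algebra (AlgebraicClosure ℚ) ℂ]
variable {p : ℕ} [hp : Fact p.Prime] {l : ℕ} [hl : Fact l.Prime]
  [Algebra (AlgebraicClosure ℚ) (PadicComplex l)]

/-- The cusp is rational. -/
theorem gal_discPlace_t0 (N : ℕ) [NeZero N] (σ : GQ) :
    galAut N Qb σ • discPlace N (isEmbAt_placeAt l) t0 = discPlace N (isEmbAt_placeAt l) t0 := by
  refine (place_eq_of_ord one_pos one_pos fun f => ?_).1
  rw [one_mul, one_mul]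
  conv_lhs => rw [show f = galAut N Qb σ • ((galAut N Qb σ)⁻¹ • f) from (smul_inv_smul _ f).symm]
  rw [SemilinearAut.ord_smul, ord_cusp, ord_cusp]
  conv_rhs => rw [show f = galAut N Qb σ • ((galAut N Qb σ)⁻¹ • f) from (smul_inv_smul _ f).symm]
  show _ = ((galAut N Qb σ • _ : levelField N Qb) : LaurentSeries Qb).order
  rw [show galAut N Qb σ = arithmeticGalois (modularFunctionFieldFull N) σ from rfl,
    coe_arithmeticGalois_smul]
  exact (FA.JTorsion.order_coeffMap _ _).symm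

theorem smul_discClass_eq {t : Param Qb (Cl l)}
    (h : ∀ σ : GQ, galAut p Qb σ • discPlace p (isEmbAt_placeAt l) t =
      discPlace p (isEmbAt_placeAt l) t) (σ : GQ) :
    σ • (discClass (isEmbAt_placeAt l) t : JZero p) = discClass (isEmbAt_placeAt l) t := by
  rw [discClass, galois_smul_pic0_def, SemilinearAut.pic0_smul_mk]
  refine congrArg Pic0.mk (Subtype.ext ?_)
  show galAut p Qb σ • (Finsupp.single (discPlace p (isEmbAt_placeAt l) t) (1 : ℤ) -
    Finsupp.single (discPlace p (isEmbAt_placeAt l) t0) 1) = _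
  rw [smul_sub, SemilinearAut.smul_single, SemilinearAut.smul_single, h, gal_discPlace_t0]

/-- A rational place of the disc at infinity is the cusp, outside the excluded case at two. -/
theorem eq_zero_of_rational_discPlace (hlp : ¬ l ∣ p) (hn : l ∣ eisensteinNumerator p)
    (t : Param Qb (Cl l))
    (h : ∀ σ : GQ, galAut p Qb σ • discPlace p (isEmbAt_placeAt l) t =
      discPlace p (isEmbAt_placeAt l) t)
    (hsmall : l ≠ 2 ∨ ‖algebraMap Qb (Cl l) t.1‖ ≤ ‖(4 : Cl l)‖) : t.1 = 0 := by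
  letI : Algebra (AlgebraicClosure ℚ) (PadicComplex p) :=
    (IsAlgClosed.lift : AlgebraicClosure ℚ →ₐ[ℚ] PadicComplex p).toRingHom.toAlgebra
  exact eq_zero_of_rational_discClass hlp (placeAt_liesOver p) hn t (smul_discClass_eq h) hsmall

/-- A parameter of a rational place of the disc is rational. -/
theorem param_rational (N : ℕ) [NeZero N] {t : Param Qb (Cl l)}
    (h : ∀ σ : GQ, galAut N Qb σ • discPlace N (isEmbAt_placeAt l) t =
      discPlace N (isEmbAt_placeAt l) t) (σ : GQ) : σ t.1 = t.1 := by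
  have hfix : galAut N Qb σ • (upJ (L := Qb) N)⁻¹ = (upJ (L := Qb) N)⁻¹ := by
    rw [smul_inv'']
    congr 1
    apply Subtype.ext
    show coeffMap (σ : Qb →+* Qb) (jqModC Qb) = jqModC Qb
    exact coeffMap_jqModC _
  have h1 := hasValue_gal N Qb σ (hasValue_jInv N (isEmbAt_placeAt l) t)
  rw [h σ, hfix] at h1
  exact h1.unique (hasValue_jInv N (isEmbAt_placeAt l) t)

/-- The Atkin–Lehner involution on the places of level `M = 1 * p`. -/
def swapPlace (M : ℕ) [NeZero M] (hM : M = 1 * p) (v : Place Qb (levelField M Qb)) :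
    Place Qb (levelField M Qb) := by
  subst hM
  haveI : NeZero p := ⟨hp.out.ne_zero⟩
  exact wLvl 1 p Qb (fun h => hp.out.ne_one (Nat.dvd_one.1 h)) • v

/-- **The two discs, for rational places.** -/
theorem rational_place_cases (M : ℕ) [NeZero M] (hM : M = 1 * p)
    {v : Place Qb (levelField M Qb)} {t : Param Qb (Cl l)} (ht : t.1 ≠ 0)
    (hfix : ∀ σ : GQ, galAut M Qb σ • v = v) (hv : HasValue v (upJ (L := Qb) M)⁻¹ t.1) :
    v = discPlace M (isEmbAt_placeAt l) t ∨
      ∃ τ : Param Qb (Cl l), qPar τ ^ p = qPar t ∧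
        swapPlace M hM v = discPlace M (isEmbAt_placeAt l) τ ∧
        ∀ σ : GQ, galAut M Qb σ • discPlace M (isEmbAt_placeAt l) τ =
          discPlace M (isEmbAt_placeAt l) τ := by
  subst hM
  have hrN : ¬ p ∣ 1 := fun h => hp.out.ne_one (Nat.dvd_one.1 h)
  haveI : NeZero p := ⟨hp.out.ne_zero⟩
  haveI := hasPrincipalDivisors_up (L := Qb) (1 * p)
  have hα : heckeAlphaBar Qb 1 p (upJ (L := Qb) 1)⁻¹ = (upJ (L := Qb) (1 * p))⁻¹ := by
    rw [map_inv₀]
    congr 1
  have hv1 : v.restrictAlong (heckeAlphaBar Qb 1 p) isIntegral_alpha =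
      discPlace 1 (isEmbAt_placeAt l) t := by
    refine eq_of_hasValue_one ?_ (hasValue_jInv 1 (isEmbAt_placeAt l) t)
    refine Or.imp (fun h0 => ?_) (fun h1 => ?_) hv
    · refine (_root_.map_eq_zero (heckeAlphaBar Qb 1 p)).1 ?_
      rw [map_sub, AlgHom.commutes, hα]
      exact h0
    · have h2 := Place.ord_restrictAlong (heckeAlphaBar Qb 1 p) isIntegral_alpha v
        ((upJ (L := Qb) 1)⁻¹ - algebraMap Qb (upField (L := Qb) 1) t.1)
      rw [map_sub, AlgHom.commutes, hα] at h2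
      rw [h2] at h1
      by_contra hlt
      have : (Place.ramificationIndexAlong (heckeAlphaBar Qb 1 p) v : ℤ) *
          (v.restrictAlong (heckeAlphaBar Qb 1 p) isIntegral_alpha).ord
            ((upJ (L := Qb) 1)⁻¹ - algebraMap Qb (upField (L := Qb) 1) t.1) ≤ 0 :=
        mul_nonpos_of_nonneg_of_nonpos (Int.natCast_nonneg _) (by omega)
      omega
  rcases disc_or_swap (isEmbAt_placeAt l) hrN ht hv1 with h | ⟨τ, hτ, h⟩
  · exact Or.inl h
  refine Or.inr ⟨τ, hτ, h, fun σ => ?_⟩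
  rw [← h]
  refine (place_eq_of_ord one_pos one_pos fun f => ?_).1
  obtain ⟨W, hW, hgal⟩ : ∃ W : levelField (1 * p) Qb ≃ₐ[Qb] levelField (1 * p) Qb,
      wLvl 1 p Qb hrN = W ∧
        ∀ g, W (galAut (1 * p) Qb σ • g) = galAut (1 * p) Qb σ • W g :=
    ⟨_, rfl, wLvl_gal 1 p hrN σ⟩
  rw [hW]
  obtain ⟨g, rfl⟩ := W.surjective f
  rw [Place.ord_smul]
  obtain ⟨g', rfl⟩ : ∃ g', galAut (1 * p) Qb σ • g' = g := ⟨_, smul_inv_smul _ g⟩
  rw [hgal, SemilinearAut.ord_smul, Place.ord_smul]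
  conv_rhs => rw [← hfix σ, SemilinearAut.ord_smul]

/-- **A rational place over a value in the disc.** -/
theorem rational_place_cases_level {v : Place Qb (levelField p Qb)} {t : Param Qb (Cl l)}
    (ht : t.1 ≠ 0) (hfix : ∀ σ : GQ, galAut p Qb σ • v = v)
    (hv : HasValue v (upJ (L := Qb) p)⁻¹ t.1) :
    v = discPlace p (isEmbAt_placeAt l) t ∨
      ∃ τ : Param Qb (Cl l), (∀ σ : GQ, σ τ.1 = τ.1) ∧ τ.1 ≠ 0 ∧
        ‖algebraMap Qb (Cl l) τ.1‖ ^ p = ‖algebraMap Qb (Cl l) t.1‖ ∧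
        swapPlace p (one_mul p).symm v = discPlace p (isEmbAt_placeAt l) τ ∧
        ∀ σ : GQ, galAut p Qb σ • discPlace p (isEmbAt_placeAt l) τ =
          discPlace p (isEmbAt_placeAt l) τ := by
  haveI : NeZero p := ⟨hp.out.ne_zero⟩
  rcases rational_place_cases p (one_mul p).symm ht hfix hv with h | ⟨τ, hτ, hsw, h⟩
  · exact Or.inl h
  have hn : ‖algebraMap Qb (Cl l) τ.1‖ ^ p = ‖algebraMap Qb (Cl l) t.1‖ := by
    rw [← norm_qPar, ← norm_qPar, ← norm_pow, ← SubmonoidClass.coe_pow, hτ]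
  refine Or.inr ⟨τ, param_rational p h, fun h0 => ht ?_, hn, hsw, h⟩
  rw [h0, map_zero, norm_zero, zero_pow hp.out.ne_zero] at hn
  exact (map_eq_zero _).1 (norm_eq_zero.1 hn.symm)

end FA.Mazur

end
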