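import Fermat.Agent.Mazur.RationalPoint
import Fermat.Agent.Mazur.Moduli.PointSpec
import Fermat.Agent.Local.Primes

/-!
# No stable line with a pole of `j` at an Eisenstein prime
-/

set_option autoImplicit false
set_option linter.style.haveILetI false
set_option linter.unusedSectionVars false

noncomputable section

namespace FA.Mazur

open ModularCurve AlgebraicCurve FA.Curve FA.CurveRed FA.ModField FA.Level WeierstrassCurve
open WeierstrassCurve.Affine

set_option synthInstance.maxHeartbeats 400000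
set_option maxHeartbeats 1000000

local notation "Qb" => AlgebraicClosure ℚ
local notation "GQ" => AlgebraicClosure ℚ ≃ₐ[ℚ] AlgebraicClosure ℚ

/-- The norms of rational numbers in `ℂ_l` are powers of the norm of `l`. -/
theorem exists_norm_ratCast_eq (l : ℕ) [hl : Fact l.Prime] {c : ℚ} (hc : c ≠ 0) :
    ∃ k : ℤ, ‖(c : Cl l)‖ = ‖((l : ℕ) : Cl l)‖ ^ k := by
  refine ⟨padicValRat l c, ?_⟩
  rw [norm_natCast_self, ← map_ratCast (algebraMap ℚ_[l] (Cl l)),
    show algebraMap ℚ_[l] (Cl l) (c : ℚ_[l]) = ((((c : ℚ_[l]) : PadicAlgCl l)) : Cl l) from rfl,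
    PadicComplex.norm_extends', Padic.eq_padicNorm, padicNorm.eq_zpow_of_nonzero hc, Rat.cast_zpow,
    Rat.cast_natCast, inv_zpow, zpow_neg]

variable [Algebra (AlgebraicClosure ℚ) ℂ] {p : ℕ} [hp : Fact p.Prime]

/-- **No stable line when `1 / j` is small at an Eisenstein prime `l`.**  For `l = 2` the order of
`1 / j` is at least `2` and different from `p`. -/
theorem false_of_stable_line (hPl : StableLinePlace p) (W : WeierstrassCurve ℚ) [W.IsElliptic]
    (C : AddSubgroup (W.toAffine⁄Qb).Point) (hcard : Nat.card C = p)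
    (hst : ∀ σ : GQ, ∀ P ∈ C, σ • P ∈ C) {l : ℕ} [hl : Fact l.Prime]
    [Algebra Qb (PadicComplex l)] (hlp : l ≠ p) (hn : l ∣ eisensteinNumerator p) (hj0 : W.j ≠ 0)
    (hj : ‖((W.j⁻¹ : ℚ) : Cl l)‖ < 1)
    (h2 : l = 2 → ∃ e : ℕ, 2 ≤ e ∧ e ≠ p ∧ ‖((W.j⁻¹ : ℚ) : Cl l)‖ = ‖((2 : ℕ) : Cl l)‖ ^ e) :
    False := by
  have hlp' : ¬ l ∣ p := fun h => hlp ((Nat.prime_dvd_prime_iff_eq hl.out hp.out).1 h)
  have h1728 : W.j ≠ 1728 := fun h => by
    rw [h, Rat.cast_inv, norm_inv, inv_lt_one_iff₀] at hj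
    rcases hj with h1 | h1
    · rw [show ((1728 : ℚ) : Cl l) = ((1728 : ℕ) : Cl l) by norm_num, norm_le_zero_iff,
        Nat.cast_eq_zero] at h1
      norm_num at h1
    · rw [show ((1728 : ℚ) : Cl l) = ((1728 : ℕ) : Cl l) by norm_num] at h1
      exact absurd h1 (not_lt.2 (norm_natCast_le_one l 1728))
  obtain ⟨v, hfix, hv, -⟩ := hPl W hj0 h1728 C hcard hst
  have hemb : ∀ c : ℚ, algebraMap Qb (Cl l) (algebraMap ℚ Qb c) = (c : Cl l) := fun c => by
    rw [eq_ratCast, map_ratCast]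
  set t : Param Qb (Cl l) := ⟨algebraMap ℚ Qb W.j⁻¹, by rwa [hemb]⟩
  have ht : t.1 ≠ 0 := by simpa [t] using hj0
  have hsmall : ∀ τ : Param Qb (Cl l), (l = 2 → ∀ k : ℤ,
      ‖algebraMap Qb (Cl l) τ.1‖ = ‖((2 : ℕ) : Cl l)‖ ^ k → k ≠ 1) →
      (∀ σ : GQ, σ τ.1 = τ.1) → τ.1 ≠ 0 →
        l ≠ 2 ∨ ‖algebraMap Qb (Cl l) τ.1‖ ≤ ‖(4 : Cl l)‖ := by
    intro τ hk hτ hτ0
    by_cases hl2 : l = 2
    · obtain ⟨c, hc⟩ := FA.Local.exists_ratCast_of_fixed τ.1 hτ
      have hc0 : c ≠ 0 := fun h => hτ0 (by rw [← hc, h, Rat.cast_zero])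
      obtain ⟨k, hk'⟩ := exists_norm_ratCast_eq l hc0
      have hτn : ‖algebraMap Qb (Cl l) τ.1‖ = ‖((l : ℕ) : Cl l)‖ ^ k := by
        rw [← hc, map_ratCast, hk']
      subst hl2
      have h1 := hk rfl k hτn
      have hlt := τ.2
      rw [hτn] at hlt
      have h0 : 0 < k := (zpow_lt_one_iff_right_of_lt_one₀ (norm_natCast_pos 2)
        (norm_natCast_lt_one 2)).1 hlt
      refine Or.inr ?_
      rw [hτn, show (4 : Cl 2) = ((2 : ℕ) : Cl 2) ^ 2 by norm_num, norm_pow, ← zpow_natCast]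
      exact zpow_le_zpow_right_of_le_one₀ (norm_natCast_pos 2) (norm_natCast_lt_one 2).le (by omega)
    · exact Or.inl hl2
  rcases rational_place_cases_level ht hfix hv with h | ⟨τ, hτ, hτ0, hτn, -, hτfix⟩
  · refine ht (eq_zero_of_rational_discPlace hlp' hn t (fun σ => by rw [← h]; exact hfix σ) ?_)
    refine hsmall t (fun hl2 k hk => ?_) (fun σ => σ.commutes _) ht
    subst hl2
    obtain ⟨e, he2, -, he⟩ := h2 rfl
    rw [show algebraMap Qb (Cl 2) t.1 = ((W.j⁻¹ : ℚ) : Cl 2) from hemb _, he,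
      ← zpow_natCast] at hk
    have := zpow_right_injective₀ (norm_natCast_pos 2) (norm_natCast_lt_one 2).ne hk
    omega
  · refine hτ0 (eq_zero_of_rational_discPlace hlp' hn τ hτfix
      (hsmall τ (fun hl2 k hk => ?_) hτ hτ0))
    subst hl2
    obtain ⟨e, -, hep, he⟩ := h2 rfl
    rw [hk, show algebraMap Qb (Cl 2) t.1 = ((W.j⁻¹ : ℚ) : Cl 2) from hemb _, he,
      ← zpow_natCast, ← zpow_natCast, ← zpow_mul] at hτn
    have := zpow_right_injective₀ (norm_natCast_pos 2) (norm_natCast_lt_one 2).ne hτn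
    intro hk1
    subst hk1
    omega

end FA.Mazur

end
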