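import Fermat.Agent.Mazur.HeckeCoeff
import Fermat.Agent.JTorsion.LatMod
import Mathlib.LinearAlgebra.LinearIndependent.BaseChange
import Mathlib.LinearAlgebra.Trace

/-!
# The trace of a Hecke element on the lattice is twice its trace on the Hecke algebra
-/

set_option autoImplicit false
set_option linter.style.haveILetI false
set_option linter.unusedSectionVars false

noncomputable section

namespace FA.Mazur

open CongruenceSubgroup CuspForm FA.Deform FA.Eis FA.Level FA.JTorsion ModularCurve ModularCurve.Period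

set_option synthInstance.maxHeartbeats 400000
set_option maxHeartbeats 1000000

/-- Integral vectors independent over `ℤ` stay independent in a complex space that sees their
coordinates. -/
theorem linearIndependent_of_coords {ι V : Type*} {J : Type*} [Finite J] [AddCommGroup V]
    [Module ℂ V] (v : ι → V) (c : V →ₗ[ℂ] (J → ℂ)) (w : ι → J → ℤ)
    (hw : LinearIndependent ℤ w) (hc : ∀ i j, c (v i) j = (w i j : ℂ)) :
    LinearIndependent ℂ v := by
  refine LinearIndependent.of_comp c ?_
  have h := (linearIndependent_algebraMap_comp_iff (R := ℤ) (S := ℂ) (v := w)).mpr hw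
  have e : (fun i => algebraMap ℤ ℂ ∘ w i) = c ∘ v := funext fun i => funext fun j => by
    simp [hc]
  exact e ▸ h

/-- Traces agree when a `ℤ`-basis becomes a complex basis. -/
theorem trace_eq_of_basis {ι L V : Type*} [Fintype ι] [DecidableEq ι] [AddCommGroup L]
    [AddCommGroup V] [Module ℂ V] (b : Module.Basis ι ℤ L) (B : Module.Basis ι ℂ V)
    (φ : L →+ V) (hφ : ∀ i, φ (b i) = B i) (f : Module.End ℤ L) (F : Module.End ℂ V)
    (h : ∀ x, F (φ x) = φ (f x)) :
    LinearMap.trace ℂ V F = (LinearMap.trace ℤ L f : ℂ) := by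
  rw [LinearMap.trace_eq_matrix_trace ℂ B, LinearMap.trace_eq_matrix_trace ℤ b]
  simp only [Matrix.trace, Matrix.diag, Int.cast_sum]
  refine Finset.sum_congr rfl fun i _ => ?_
  rw [LinearMap.toMatrix_apply, LinearMap.toMatrix_apply, ← hφ i, h, ← b.sum_repr (f (b i))]
  simp only [map_sum, map_zsmul, hφ, ← Int.cast_smul_eq_zsmul ℂ, map_smul]
  simp [Finsupp.single_apply]

variable (p : ℕ) [Fact p.Prime]

theorem trace_forms (t : TAlg p) :
    LinearMap.trace ℂ (CuspForm (Gamma0 p) 2) (t : Module.End ℂ (CuspForm (Gamma0 p) 2)) =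
      (LinearMap.trace ℤ ↥(intLattice p 2) (intAct p t) : ℂ) := by
  classical
  haveI := intLattice.moduleFinite p
  haveI := intLattice.moduleFree p
  set b := Module.Free.chooseBasis ℤ ↥(intLattice p 2)
  haveI := Fintype.ofFinite (Module.Free.ChooseBasisIndex ℤ ↥(intLattice p 2))
  set J := (2 * ((Gamma0 p).index : ℤ)).toNat / 12 + 1
  let w : ↥(intLattice p 2) →ₗ[ℤ] (Fin J → ℤ) := LinearMap.pi fun j => zCoeff (j : ℕ)
  have hw : Function.Injective w := by
    rw [injective_iff_map_eq_zero]
    intro f hf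
    refine Subtype.ext (FA.Period.cuspForm_eq_zero_of_coeff p 2 _ fun n hn => ?_)
    have h1 := congrFun hf ⟨n, Finset.mem_range.mp hn⟩
    have h2 := cast_zCoeff n f
    rw [show zCoeff n f = 0 from h1, Int.cast_zero] at h2
    exact h2.symm
  have hli : LinearIndependent ℂ fun i => ((b i : ↥(intLattice p 2)) : CuspForm (Gamma0 p) 2) :=
    linearIndependent_of_coords _ (LinearMap.pi fun j : Fin J => (LinearMap.proj (j : ℕ)).comp (qLin p))
      (fun i => w (b i)) (b.linearIndependent.map' w (LinearMap.ker_eq_bot.mpr hw))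
      fun i j => (cast_zCoeff (j : ℕ) (b i)).symm
  have hsp : ⊤ ≤ Submodule.span ℂ
      (Set.range fun i => ((b i : ↥(intLattice p 2)) : CuspForm (Gamma0 p) 2)) := by
    rw [← FA.Period.hasIntegralStructure p 2, Submodule.span_le]
    intro f hf
    have h : (f : CuspForm (Gamma0 p) 2) = ((⟨f, hf⟩ : ↥(intLattice p 2)) : CuspForm (Gamma0 p) 2) :=
      rfl
    rw [h, ← b.sum_repr ⟨f, hf⟩, AddSubmonoidClass.coe_finsetSum]
    refine Submodule.sum_mem _ fun i _ => ?_
    rw [Submodule.coe_smul]
    exact zsmul_mem (Submodule.subset_span (Set.mem_range_self i)) _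
  exact trace_eq_of_basis b (Module.Basis.mk hli hsp) (intLattice p 2).subtype.toAddMonoidHom
    (fun i => (Module.Basis.mk_apply hli hsp i).symm) _ _ fun x => rfl

theorem trace_intAct (t : TAlg p) :
    LinearMap.trace ℤ ↥(intLattice p 2) (intAct p t) =
      LinearMap.trace ℤ (TAlg p) (LinearMap.mulLeft ℤ t) := by
  classical
  haveI := intLattice.moduleFinite p
  haveI := intLattice.moduleFree p
  haveI : Module.Finite ℤ (TAlg p) := FA.Period.moduleFinite_heckeAlgebra p 2 ∅
  haveI : Module.Free ℤ (TAlg p) := Module.free_of_finite_type_torsion_free'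
  let ι := Fin (Module.finrank ℤ (TAlg p))
  let c : Module.Basis ι ℤ (TAlg p) := Module.finBasis ℤ (TAlg p)
  let b : Module.Basis ι ℤ ↥(intLattice p 2) :=
    (Module.finBasis ℤ ↥(intLattice p 2)).reindex (finCongr (finrank_TAlg p).symm)
  set Q := (pairT p).flip
  have hcomm : Q.comp (intAct p t) = (LinearMap.mulLeft ℤ t).dualMap.comp Q := by
    refine LinearMap.ext fun f => LinearMap.ext fun s => ?_
    exact (pairT_mul p t s f).symm
  have hinj : Function.Injective Q := fun f g h => pair_injective (LinearMap.ext fun u => by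
    obtain ⟨s, rfl⟩ := latticeRestrictHom_surjective p ∅ u
    exact LinearMap.congr_fun h s)
  set B := LinearMap.toMatrix b c.dualBasis Q
  have hdet : B.det ≠ 0 := by
    intro h
    obtain ⟨v, hv, hv0⟩ := Matrix.exists_mulVec_eq_zero_iff.mpr h
    refine hv ?_
    have h1 : Q (b.equivFun.symm v) = 0 := by
      apply c.dualBasis.equivFun.injective
      rw [map_zero, Module.Basis.equivFun_apply, ← LinearMap.toMatrix_mulVec_repr b c.dualBasis,
        ← Module.Basis.equivFun_apply, LinearEquiv.apply_symm_apply, hv0]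
    rw [← map_zero Q] at h1
    exact b.equivFun.symm.map_eq_zero_iff.mp (hinj h1)
  have hmat := congrArg (LinearMap.toMatrix b c.dualBasis) hcomm
  rw [LinearMap.toMatrix_comp b b c.dualBasis, LinearMap.toMatrix_comp b c.dualBasis c.dualBasis,
    LinearMap.dualMap_def, LinearMap.toMatrix_transpose] at hmat
  rw [LinearMap.trace_eq_matrix_trace ℤ b, LinearMap.trace_eq_matrix_trace ℤ c]
  set M1 := LinearMap.toMatrix b b (intAct p t)
  set M2 := LinearMap.toMatrix c c (LinearMap.mulLeft ℤ t)
  have h3 := congrArg (fun M => Matrix.trace (B.adjugate * M)) hmat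
  have hB : LinearMap.toMatrix b c.dualBasis Q = B := rfl
  rw [hB] at h3
  simp only [← mul_assoc, Matrix.adjugate_mul, Matrix.trace_mul_cycle B.adjugate M2.transpose B,
    Matrix.mul_adjugate, smul_mul_assoc, one_mul, Matrix.trace_smul, Matrix.trace_transpose,
    smul_eq_mul] at h3
  exact mul_left_cancel₀ hdet h3

variable [Algebra (AlgebraicClosure ℚ) ℂ]

theorem trace_lattice (t : TAlg p) :
    (LinearMap.trace ℤ ↥(cuspLat (lvlGamma0 p)) (latRep p ∅ t) : ℂ) =
      2 * LinearMap.trace ℂ (CuspForm (Gamma0 p) 2) (t : Module.End ℂ (CuspForm (Gamma0 p) 2)) := by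
  classical
  haveI := (cuspLat_free_finite (lvlGamma0 p)).1
  haveI := (cuspLat_free_finite (lvlGamma0 p)).2
  set b := Module.Free.chooseBasis ℤ ↥(cuspLat (lvlGamma0 p))
  haveI := Fintype.ofFinite (Module.Free.ChooseBasisIndex ℤ ↥(cuspLat (lvlGamma0 p)))
  choose P hP using fun φ : ↥(cuspLat (lvlGamma0 p)) => exists_pairPeriod_eq p (toComplex_mem p φ)
  let Φ : ↥(cuspLat (lvlGamma0 p)) →+ FormPair p := AddMonoidHom.mk' P fun φ ψ =>
    pairPeriod_injective p (by rw [map_add, hP, hP, hP, map_add])
  obtain ⟨s, hs⟩ := (grp_fg (lvlGamma0 p)).out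
  let w : ↥(cuspLat (lvlGamma0 p)) →ₗ[ℤ] (s → ℤ) :=
    (AddMonoidHom.mk' (fun φ : ↥(cuspLat (lvlGamma0 p)) => fun g : s =>
      (φ : Additive (lvlGamma0 p).grp →+ ℤ) (Additive.ofMul g.1)) fun φ ψ => rfl).toIntLinearMap
  have hw : Function.Injective w := fun φ ψ h => Subtype.ext <| by
    let K : Subgroup (lvlGamma0 p).grp :=
      (AddMonoidHom.eqLocus (φ : Additive (lvlGamma0 p).grp →+ ℤ)
        (ψ : Additive (lvlGamma0 p).grp →+ ℤ)).toSubgroup'
    have hK : K = ⊤ := eq_top_iff.mpr (hs ▸ (Subgroup.closure_le K).mpr fun g hg =>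
      congrFun h ⟨g, hg⟩)
    refine AddMonoidHom.ext fun g => ?_
    exact (hK ▸ Subgroup.mem_top g.toMul : g.toMul ∈ K)
  let c : FormPair p →ₗ[ℂ] (s → ℂ) :=
    LinearMap.pi fun g =>
      { toFun := fun x => pairPeriod p x (Additive.ofMul g.1)
        map_add' := fun x y => by rw [map_add, AddMonoidHom.add_apply]
        map_smul' := fun a x => by rw [map_smul]; rfl }
  have hli : LinearIndependent ℂ fun i => Φ (b i) :=
    linearIndependent_of_coords _ c (fun i => w (b i))
      (b.linearIndependent.map' w (LinearMap.ker_eq_bot.mpr hw)) fun i g => by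
      show pairPeriod p (P (b i)) (Additive.ofMul g.1) = _
      rw [hP, toComplex_apply]
      rfl
  have hsp : ⊤ ≤ Submodule.span ℂ (Set.range fun i => Φ (b i)) := by
    intro x _
    have hx : pairPeriod p x ∈ parabolicHoms ℂ (Gamma0 p) ℂ :=
      mem_parabolicHoms_iff.2 fun γ hγ => by
        have h3 : periodHomPair p x ∈ parabolicHoms ℂ (Gamma0 p) ℂ :=
          (Fermat.Agent.S21.result p).2 ▸ LinearMap.mem_range_self _ _
        exact mem_parabolicHoms_iff.1 h3 _ (by rw [wConj_trace]; exact hγ)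
    have h1 := parabolicHoms_le_span p hx
    have h2 : Submodule.span ℂ (Set.range (toComplex p)) ≤
        (Submodule.span ℂ (Set.range fun i => Φ (b i))).map (pairPeriod p) := by
      rw [Submodule.span_le]
      rintro _ ⟨φ, rfl⟩
      refine ⟨Φ φ, ?_, hP φ⟩
      rw [← b.sum_repr φ, map_sum]
      refine Submodule.sum_mem _ fun i _ => ?_
      rw [map_zsmul]
      exact zsmul_mem (Submodule.subset_span (Set.mem_range_self i)) _
    obtain ⟨y, hy, hyx⟩ := h2 h1
    rwa [← pairPeriod_injective p hyx]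
  set T' := (t : Module.End ℂ (CuspForm (Gamma0 p) 2))
  haveI : FiniteDimensional ℂ (CuspForm (Gamma0 p) 2) := 
    haveI : Module.Finite ℂ (FormPair p) := Module.Finite.of_basis (Module.Basis.mk hli hsp)
    Module.Finite.of_surjective (LinearMap.fst ℂ (CuspForm (Gamma0 p) 2) (CuspForm (Gamma0 p) 2))
      LinearMap.fst_surjective
  rw [← trace_eq_of_basis b (Module.Basis.mk hli hsp) Φ
    (fun i => (Module.Basis.mk_apply hli hsp i).symm) (latRep p ∅ t) (T'.prodMap T') fun φ =>
      pairPeriod_injective p (by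
        rw [show Φ (latRep p ∅ t φ) = P (latRep p ∅ t φ) from rfl, hP]
        exact compat_latRep p ∅ t φ (P φ) (hP φ)), LinearMap.trace_prodMap']
  ring

/-- **The trace identity.** -/
theorem trace_latRep (t : TAlg p) :
    LinearMap.trace ℤ ↥(cuspLat (lvlGamma0 p)) (latRep p ∅ t) =
      2 * LinearMap.trace ℤ (TAlg p) (LinearMap.mulLeft ℤ t) := by
  apply Int.cast_injective (α := ℂ)
  rw [trace_lattice, trace_forms, trace_intAct, Int.cast_mul, Int.cast_ofNat]

end FA.Mazur

end
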