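import Fermat.Agent.Mazur.Dwork
import Fermat.Agent.ModField.Laurent
import Fermat.Prelude.Def_ModularCurve_LaurentCoeff
import Mathlib.RingTheory.Polynomial.Resultant.Basic
import Mathlib.RingTheory.Nilpotent.Exp
import Mathlib.RingTheory.PowerSeries.Trunc
import Mathlib.RingTheory.AdjoinRoot

/-!
# The product of an exponential over the zeros of a function congruent to one

For a Laurent series `ψ` with a pole of order at most `R`, the Weierstrass polynomial `P_s` of
`q ^ R (1 + s ψ)` is computed by recursion on the powers of `s`. If every `ψ ^ k θG` has constant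
term zero, the product of `exp G` over the roots of `P_s` is one.
-/

set_option autoImplicit false

noncomputable section

universe u

namespace FA.Mazur

section Split

/-- Adjoining the roots of a monic polynomial one at a time. -/
theorem exists_split : ∀ (n : ℕ) (B : Type u) [CommRing B] (P : Polynomial B), P.Monic →
    P.natDegree = n → ∃ (B' : Type u) (_ : CommRing B') (φ : B →+* B'), Function.Injective φ ∧
      ∃ a : Fin n → B', P.map φ = ∏ i, (Polynomial.X - Polynomial.C (a i)) := by
  intro n
  induction n with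
  | zero =>
    intro B _ P hP hd
    exact ⟨B, inferInstance, RingHom.id B, Function.injective_id, Fin.elim0,
      by rw [hP.natDegree_eq_zero.mp hd]; simp⟩
  | succ n ih =>
    intro B _ P hP hd
    rcases subsingleton_or_nontrivial B with hB | hB
    · exact ⟨B, inferInstance, RingHom.id B, Function.injective_id, fun _ => 0,
        Polynomial.ext fun i => Subsingleton.elim _ _⟩
    have hdeg : 0 < P.degree :=
      Polynomial.natDegree_pos_iff_degree_pos.mp (hd ▸ Nat.succ_pos n)
    let B₁ := AdjoinRoot P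
    have hinj₁ : Function.Injective (AdjoinRoot.of P) := fun x y hxy => by
      have h : (AdjoinRoot.mk P) (Polynomial.C (x - y)) = 0 := by
        rw [AdjoinRoot.mk_C, map_sub, hxy, sub_self]
      rw [AdjoinRoot.mk_eq_zero] at h
      by_contra hne
      exact hP.not_dvd_of_degree_lt (Polynomial.C_ne_zero.mpr (sub_ne_zero.mpr hne))
        (lt_of_le_of_lt Polynomial.degree_C_le hdeg) h
    have : Nontrivial B₁ := hinj₁.nontrivial
    obtain ⟨Q, hQ⟩ := Polynomial.dvd_iff_isRoot.mpr (AdjoinRoot.isRoot_root P)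
    have hQm : Q.Monic := (Polynomial.monic_X_sub_C _).of_mul_monic_left (hQ ▸ hP.map _)
    have hQd : Q.natDegree = n := by
      have h := congrArg Polynomial.natDegree hQ
      rw [(Polynomial.monic_X_sub_C _).natDegree_mul hQm, hP.natDegree_map, hd,
        Polynomial.natDegree_X_sub_C] at h
      omega
    obtain ⟨B', hB', φ, hφ, a, ha⟩ := ih B₁ Q hQm hQd
    refine ⟨B', hB', φ.comp (AdjoinRoot.of P), hφ.comp hinj₁,
      Fin.cons (φ (AdjoinRoot.root P)) a, ?_⟩
    rw [← Polynomial.map_map, hQ, Polynomial.map_mul, ha, Polynomial.map_sub, Polynomial.map_X,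
      Polynomial.map_C, Fin.prod_univ_succ]
    simp

variable {B : Type u} [CommRing B]

/-- The resultant with a product of linear factors. -/
theorem resultant_prod_X_sub_C : ∀ {n : ℕ} (a : Fin n → B) (g : Polynomial B) (m : ℕ),
    g.natDegree ≤ m → Polynomial.resultant (∏ i, (Polynomial.X - Polynomial.C (a i))) g n m =
      ∏ i, g.eval (a i) := by
  intro n
  induction n with
  | zero => intro a g m _; simp
  | succ n ih =>
    intro a g m hg
    rcases subsingleton_or_nontrivial B with hB | hB
    · exact Subsingleton.elim _ _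
    have hd : (∏ i : Fin n, (Polynomial.X - Polynomial.C (a i.succ))).natDegree = n := by
      rw [Polynomial.natDegree_prod_of_monic _ _ fun i _ => Polynomial.monic_X_sub_C _]
      simp
    have h := Polynomial.resultant_mul_left (Polynomial.X - Polynomial.C (a 0))
      (∏ i : Fin n, (Polynomial.X - Polynomial.C (a i.succ))) g m hg
    rw [Polynomial.natDegree_X_sub_C, hd, add_comm 1 n, Polynomial.resultant_X_sub_C_left _ _ _ hg,
      ih (fun i => a i.succ) g m hg] at h
    rw [Fin.prod_univ_succ, Fin.prod_univ_succ, h]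

end Split

section Recursion

variable {K : Type u} [CommRing K] (R : ℕ) (Ψ : PowerSeries K)

/-- The two coefficients of `s ^ k` in the Weierstrass factors of `X ^ R + s Ψ`: the polynomial
part and the unit part. -/
def wCoeff : ℕ → Polynomial K × PowerSeries K
  | 0 => (0, 1)
  | k + 1 =>
    let W : PowerSeries K := (if k = 0 then Ψ else 0) -
      ∑ i ∈ (Finset.Icc 1 k).attach,
        ((wCoeff i.1).1 : PowerSeries K) * (wCoeff (k + 1 - i.1)).2
    (PowerSeries.trunc R W, PowerSeries.mk fun n => PowerSeries.coeff (n + R) W)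
  termination_by k => k
  decreasing_by
    all_goals (have := Finset.mem_Icc.mp i.2; omega)

/-- The polynomial part. -/
def wP (k : ℕ) : Polynomial K := (wCoeff R Ψ k).1

/-- The unit part. -/
def wU (k : ℕ) : PowerSeries K := (wCoeff R Ψ k).2

theorem wP_zero : wP R Ψ 0 = 0 := by rw [wP, wCoeff]

theorem wU_zero : wU R Ψ 0 = 1 := by rw [wU, wCoeff]

theorem wW_eq (k : ℕ) :
    wP R Ψ (k + 1) = PowerSeries.trunc R ((if k = 0 then Ψ else 0) -
      ∑ i ∈ Finset.Icc 1 k, (wP R Ψ i : PowerSeries K) * wU R Ψ (k + 1 - i)) ∧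
    wU R Ψ (k + 1) = PowerSeries.mk fun n => PowerSeries.coeff (n + R) ((if k = 0 then Ψ else 0) -
      ∑ i ∈ Finset.Icc 1 k, (wP R Ψ i : PowerSeries K) * wU R Ψ (k + 1 - i)) := by
  have h : ∑ i ∈ (Finset.Icc 1 k).attach,
      ((wCoeff R Ψ i.1).1 : PowerSeries K) * (wCoeff R Ψ (k + 1 - i.1)).2 =
      ∑ i ∈ Finset.Icc 1 k, (wP R Ψ i : PowerSeries K) * wU R Ψ (k + 1 - i) :=
    Finset.sum_attach (Finset.Icc 1 k) fun i =>
      ((wCoeff R Ψ i).1 : PowerSeries K) * (wCoeff R Ψ (k + 1 - i)).2
  constructor
  · rw [wP, wCoeff]; simp only [h]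
  · rw [wU, wCoeff]; simp only [h]

/-- The identity of order `k + 1`. -/
theorem w_identity (k : ℕ) :
    (wP R Ψ (k + 1) : PowerSeries K) + PowerSeries.X ^ R * wU R Ψ (k + 1) +
      ∑ i ∈ Finset.Icc 1 k, (wP R Ψ i : PowerSeries K) * wU R Ψ (k + 1 - i) =
        if k = 0 then Ψ else 0 := by
  obtain ⟨h1, h2⟩ := wW_eq R Ψ k
  rw [← eq_sub_iff_add_eq, h1, h2]
  ext n
  rw [map_add, Polynomial.coeff_coe, PowerSeries.coeff_trunc, PowerSeries.coeff_X_pow_mul']
  by_cases hn : n < R
  · rw [if_pos hn, if_neg (show ¬ R ≤ n by omega), add_zero]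
  · rw [if_neg hn, if_pos (show R ≤ n by omega), PowerSeries.coeff_mk, zero_add,
      Nat.sub_add_cancel (show R ≤ n by omega)]

theorem natDegree_wP (hR : 0 < R) (k : ℕ) : (wP R Ψ k).natDegree < R := by
  rcases k with _ | k
  · rw [wP_zero]; simpa using hR
  · rw [(wW_eq R Ψ k).1]
    obtain ⟨r, rfl⟩ := Nat.exists_eq_succ_of_ne_zero hR.ne'
    exact PowerSeries.natDegree_trunc_lt _ _

/-- Integrality of the recursion. -/
theorem w_integral (O : Subring K) (hΨ : ∀ n, PowerSeries.coeff n Ψ ∈ O) (k : ℕ) :
    (∀ n, (wP R Ψ k).coeff n ∈ O) ∧ ∀ n, PowerSeries.coeff n (wU R Ψ k) ∈ O := by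
  induction k using Nat.strong_induction_on with
  | _ k ih =>
    rcases k with _ | k
    · rw [wP_zero, wU_zero]
      refine ⟨fun n => by simp, fun n => ?_⟩
      rw [PowerSeries.coeff_one]
      split <;> [exact O.one_mem; exact O.zero_mem]
    · have hW : ∀ n, PowerSeries.coeff n ((if k = 0 then Ψ else 0) -
          ∑ i ∈ Finset.Icc 1 k, (wP R Ψ i : PowerSeries K) * wU R Ψ (k + 1 - i)) ∈ O := fun n => by
        rw [map_sub, map_sum]
        refine O.sub_mem ?_ (O.sum_mem fun i hi => ?_)
        · split <;> [exact hΨ n; exact (map_zero (PowerSeries.coeff (R := K) n)).symm ▸ O.zero_mem]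
        · have hi' := Finset.mem_Icc.mp hi
          rw [PowerSeries.coeff_mul]
          refine O.sum_mem fun ij _ => O.mul_mem ?_ ((ih _ (by omega)).2 _)
          rw [Polynomial.coeff_coe]
          exact (ih i (by omega)).1 _
      rw [(wW_eq R Ψ k).1, (wW_eq R Ψ k).2]
      refine ⟨fun n => ?_, fun n => ?_⟩
      · rw [PowerSeries.coeff_trunc]
        split <;> [exact hW n; exact O.zero_mem]
      · rw [PowerSeries.coeff_mk]; exact hW _

/-- The Weierstrass polynomial, as a polynomial in `q` over polynomials in `s`, up to `s ^ m`. -/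
def wPoly (m : ℕ) : Polynomial (Polynomial K) :=
  Polynomial.X ^ R + ∑ k ∈ Finset.Ico 1 m,
    Polynomial.C ((Polynomial.X : Polynomial K) ^ k) * (wP R Ψ k).map Polynomial.C

/-- The unit factor, up to `s ^ m`. -/
def wUnit (m : ℕ) : PowerSeries (Polynomial K) :=
  ∑ k ∈ Finset.range m,
    PowerSeries.C ((Polynomial.X : Polynomial K) ^ k) * (wU R Ψ k).map Polynomial.C

theorem wPoly_monic (hR : 0 < R) (m : ℕ) :
    (wPoly R Ψ m).Monic ∧ ((wPoly R Ψ m).natDegree = R ∨ Subsingleton K) := by
  rcases subsingleton_or_nontrivial K with hK | hK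
  · exact ⟨Subsingleton.elim _ _, Or.inr hK⟩
  have hlt : (∑ k ∈ Finset.Ico 1 m, Polynomial.C ((Polynomial.X : Polynomial K) ^ k) *
      (wP R Ψ k).map Polynomial.C).degree < R := by
    refine lt_of_le_of_lt (Polynomial.degree_sum_le _ _) ?_
    rw [Finset.sup_lt_iff (WithBot.bot_lt_coe _)]
    intro k _
    refine lt_of_le_of_lt ((Polynomial.degree_mul_le _ _).trans
      (add_le_of_nonpos_left Polynomial.degree_C_le)) (lt_of_le_of_lt
      (Polynomial.degree_map_le.trans Polynomial.degree_le_natDegree) ?_)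
    exact WithBot.coe_lt_coe.mpr (natDegree_wP R Ψ hR k)
  refine ⟨Polynomial.monic_X_pow_add hlt, Or.inl ?_⟩
  rw [wPoly, Polynomial.natDegree_add_eq_left_of_degree_lt
    (by rw [Polynomial.degree_X_pow]; exact hlt), Polynomial.natDegree_X_pow]

/-- The factorisation modulo `s ^ m`. -/
theorem wPoly_mul_wUnit {B : Type u} [CommRing B] (f : Polynomial K →+* B) {m : ℕ} (hm : 0 < m)
    (hf : f Polynomial.X ^ m = 0) :
    ((wPoly R Ψ m).map f : PowerSeries B) * PowerSeries.map f (wUnit R Ψ m) =
      PowerSeries.X ^ R + PowerSeries.C (f Polynomial.X) * PowerSeries.map (f.comp Polynomial.C) Ψ := by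
  set s := f Polynomial.X
  set g := f.comp Polynomial.C
  have hP : ((wPoly R Ψ m).map f : PowerSeries B) = ∑ k ∈ Finset.range m,
      PowerSeries.C (s ^ k) * ((if k = 0 then PowerSeries.X ^ R else 0) +
        PowerSeries.map g (wP R Ψ k : PowerSeries K)) := by
    have hk : ∀ k, ((((Polynomial.C ((Polynomial.X : Polynomial K) ^ k) *
        (wP R Ψ k).map Polynomial.C).map f) : Polynomial B) : PowerSeries B) =
        PowerSeries.C (s ^ k) * PowerSeries.map g (wP R Ψ k : PowerSeries K) := fun k => by
      rw [Polynomial.map_mul, Polynomial.map_C, Polynomial.coe_mul, Polynomial.coe_C,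
        Polynomial.map_map, Polynomial.polynomial_map_coe, map_pow]
    rw [Finset.range_eq_Ico, Finset.sum_eq_sum_Ico_succ_bot hm, if_pos rfl, wP_zero,
      Polynomial.coe_zero, map_zero, add_zero, pow_zero, map_one, one_mul, wPoly,
      Polynomial.map_add, Polynomial.coe_add, Polynomial.map_pow, Polynomial.map_X,
      Polynomial.coe_pow, Polynomial.coe_X, Polynomial.map_sum, zero_add]
    congr 1
    rw [← Polynomial.coeToPowerSeries.ringHom_apply, map_sum]
    refine Finset.sum_congr rfl fun k hk' => ?_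
    rw [Polynomial.coeToPowerSeries.ringHom_apply, hk,
      if_neg (by have := (Finset.mem_Ico.mp hk').1; omega), zero_add]
  have hU : PowerSeries.map f (wUnit R Ψ m) = ∑ k ∈ Finset.range m,
      PowerSeries.C (s ^ k) * PowerSeries.map g (wU R Ψ k) := by
    rw [wUnit, map_sum]
    refine Finset.sum_congr rfl fun k _ => ?_
    rw [map_mul, PowerSeries.map_C, map_pow]
    congr 1
  rw [hP, hU, Finset.sum_mul_sum]
  let a : ℕ → PowerSeries B := fun k => (if k = 0 then PowerSeries.X ^ R else 0) +
    PowerSeries.map g (wP R Ψ k : PowerSeries K)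
  let b : ℕ → PowerSeries B := fun k => PowerSeries.map g (wU R Ψ k)
  have hsplit : ∀ i ∈ Finset.range m, ∑ j ∈ Finset.range m,
      PowerSeries.C (s ^ i) * a i * (PowerSeries.C (s ^ j) * b j) =
      ∑ k ∈ Finset.range m, if i ≤ k then PowerSeries.C (s ^ k) * (a i * b (k - i)) else 0 := by
    intro i hi
    rw [Finset.mem_range] at hi
    rw [← Finset.sum_filter]
    have h1 : (Finset.range m).filter (fun k => i ≤ k) = Finset.Ico i m := by
      ext k; simp [Finset.mem_Ico, and_comm]
    rw [h1, Finset.sum_Ico_eq_sum_range]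
    have h2 : ∀ j, PowerSeries.C (s ^ i) * a i * (PowerSeries.C (s ^ j) * b j) =
        PowerSeries.C (s ^ (i + j)) * (a i * b j) := fun j => by
      rw [pow_add, map_mul]; ring
    simp_rw [h2, Nat.add_sub_cancel_left]
    refine (Finset.sum_subset (fun j hj => by
      rw [Finset.mem_range] at hj ⊢; omega) fun j _ hj => ?_).symm
    rw [Finset.mem_range] at hj
    rw [pow_eq_zero_of_le (by omega) hf, map_zero, zero_mul]
  rw [Finset.sum_congr rfl hsplit, Finset.sum_comm]
  have hk : ∀ k ∈ Finset.range m,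
      (∑ i ∈ Finset.range m, if i ≤ k then PowerSeries.C (s ^ k) * (a i * b (k - i)) else 0) =
      PowerSeries.C (s ^ k) *
        (if k = 0 then PowerSeries.X ^ R else if k = 1 then PowerSeries.map g Ψ else 0) := by
    intro k hk
    rw [Finset.mem_range] at hk
    rw [← Finset.sum_filter, ← Finset.mul_sum]
    congr 1
    have h1 : (Finset.range m).filter (fun i => i ≤ k) = Finset.range (k + 1) := by
      ext i; simp; omega
    rw [h1]
    rcases k with _ | k
    · simp [a, b, wP_zero, wU_zero]
    rw [if_neg k.succ_ne_zero, Finset.sum_range_succ, Finset.range_eq_Ico,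
      Finset.sum_eq_sum_Ico_succ_bot k.succ_pos, zero_add]
    have h2 := congrArg (PowerSeries.map g) (w_identity R Ψ k)
    rw [map_add, map_add, map_mul, map_pow, PowerSeries.map_X, map_sum] at h2
    simp only [map_mul] at h2
    have ha : ∀ i, i ≠ 0 → a i = PowerSeries.map g (wP R Ψ i : PowerSeries K) := fun i hi => by
      simp only [a, if_neg hi, zero_add]
    have ha0 : a 0 = PowerSeries.X ^ R := by simp [a, wP_zero]
    have hb0 : b 0 = 1 := by simp [b, wU_zero]
    rw [Nat.sub_self, Nat.sub_zero, ha0, hb0, ha _ k.succ_ne_zero, mul_one]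
    rw [show (if k + 1 = 1 then PowerSeries.map g Ψ else 0) =
      PowerSeries.map g (if k = 0 then Ψ else 0) by split_ifs <;> simp_all, ← h2]
    rw [show Finset.Ico 1 k.succ = Finset.Icc 1 k from Finset.Ico_add_one_right_eq_Icc 1 k,
      Finset.sum_congr rfl (g := fun i => PowerSeries.map g (wP R Ψ i : PowerSeries K) * b (k + 1 - i))
        fun i hi => by rw [ha i (by have := (Finset.mem_Icc.mp hi).1; omega)]]
    ring
  rw [Finset.sum_congr rfl hk]
  rcases Nat.lt_or_ge 1 m with hm1 | hm1
  · rw [← Finset.sum_subset (s₁ := {0, 1}) (fun i hi => by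
      simp only [Finset.mem_insert, Finset.mem_singleton] at hi
      rw [Finset.mem_range]; omega) (fun i _ hi => by
      simp only [Finset.mem_insert, Finset.mem_singleton, not_or] at hi
      rw [if_neg hi.1, if_neg hi.2, mul_zero]), Finset.sum_pair zero_ne_one]
    simp
  · obtain rfl : m = 1 := by omega
    rw [pow_one] at hf
    rw [Finset.sum_range_one, if_pos rfl, hf]
    simp

end Recursion

section Main

open HahnSeries ModularCurve FA.ModField

/-- The inverse of `q - a` for nilpotent `a`. -/
def invLin {B : Type u} [CommRing B] (N : ℕ) (a : B) : LaurentSeries B :=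
  ∑ k ∈ Finset.range N, single (-((k : ℤ) + 1)) (a ^ k)

theorem invLin_spec {B : Type u} [CommRing B] {N : ℕ} {a : B} (ha : a ^ N = 0) :
    (single 1 1 - HahnSeries.C a) * invLin N a = 1 := by
  have h : ∀ k : ℕ, (single 1 1 - HahnSeries.C a) * single (-((k : ℤ) + 1)) (a ^ k) =
      single (-(k : ℤ)) (a ^ k) - single (-((k + 1 : ℕ) : ℤ)) (a ^ (k + 1)) := fun k => by
    rw [sub_mul, single_mul_single, HahnSeries.C_apply, single_mul_single, one_mul, ← pow_succ']
    congr 2 <;> push_cast <;> ring
  rw [invLin, Finset.mul_sum]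
  simp_rw [h]
  rw [Finset.sum_range_sub' (fun k : ℕ => single (-(k : ℤ)) (a ^ k))]
  simp [ha]

theorem thetaFun_sum {B : Type u} [CommRing B] {ι : Type*} (t : Finset ι)
    (F : ι → LaurentSeries B) : thetaFun (∑ i ∈ t, F i) = ∑ i ∈ t, thetaFun (F i) := by
  ext n
  simp [thetaFun_coeff, HahnSeries.coeff_sum, Finset.mul_sum]

theorem thetaFun_one {B : Type u} [CommRing B] : thetaFun (1 : LaurentSeries B) = 0 := by
  rw [← map_one HahnSeries.C]; exact thetaFun_C 1

theorem thetaFun_single {B : Type u} [CommRing B] (k : ℤ) (b : B) :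
    thetaFun (single k b) = single k ((k : B) * b) := by
  ext n
  rcases eq_or_ne n k with rfl | h
  · simp
  · simp [coeff_single_of_ne h]

theorem thetaFun_pow {B : Type u} [CommRing B] (x : LaurentSeries B) (j : ℕ) :
    thetaFun (x ^ (j + 1)) = (j + 1 : ℕ) • (x ^ j * thetaFun x) := by
  induction j with
  | zero => simp
  | succ j ih =>
    rw [pow_succ, thetaFun_mul, ih, succ_nsmul (x ^ (j + 1) * thetaFun x), smul_mul_assoc,
      show x ^ j * thetaFun x * x = x ^ (j + 1) * thetaFun x by rw [pow_succ]; ring]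
    rw [add_comm]

/-- The product rule for a product of linear factors. -/
theorem thetaFun_prod_linear {B : Type u} [CommRing B] {n N : ℕ} (a : Fin n → B)
    (ha : ∀ i, a i ^ N = 0) :
    thetaFun (∏ i, (single (1 : ℤ) 1 - HahnSeries.C (a i))) =
      (∏ i, (single (1 : ℤ) 1 - HahnSeries.C (a i))) * ∑ i, single (1 : ℤ) 1 * invLin N (a i) := by
  induction n with
  | zero => simp [thetaFun_one]
  | succ n ih =>
    rw [Fin.prod_univ_succ, Fin.sum_univ_succ, thetaFun_mul, ih (fun i => a i.succ) fun i => ha _]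
    have h1 : thetaFun (single (1 : ℤ) (1 : B) - HahnSeries.C (a 0)) = single (1 : ℤ) 1 := by
      ext k
      rcases eq_or_ne k 1 with rfl | hk
      · simp [HahnSeries.C_apply]
      · rcases eq_or_ne k 0 with rfl | hk0 <;> simp [HahnSeries.C_apply, coeff_single_of_ne, *]
    rw [h1]
    have h2 : (single (1 : ℤ) 1 - HahnSeries.C (a 0)) * (single (1 : ℤ) 1 * invLin N (a 0)) =
        single (1 : ℤ) 1 := by
      rw [mul_left_comm, invLin_spec (ha 0), mul_one]
    linear_combination (-(∏ i : Fin n, (single (1 : ℤ) 1 - HahnSeries.C (a i.succ)))) * h2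

theorem coeff_zero_mul_invLin {B : Type u} [CommRing B] (G : PowerSeries B)
    (hG : PowerSeries.constantCoeff G = 0) {N : ℕ} {a : B} (ha : a ^ N = 0) :
    (ofPowerSeries ℤ B G * (single (1 : ℤ) 1 * invLin N a)).coeff 0 =
      ∑ k ∈ Finset.range N, PowerSeries.coeff k G * a ^ k := by
  rw [invLin, Finset.mul_sum, Finset.mul_sum, HahnSeries.coeff_sum]
  refine Finset.sum_congr rfl fun k _ => ?_
  rw [single_mul_single, one_mul, show (1 : ℤ) + -((k : ℤ) + 1) = -(k : ℤ) by ring,
    coeff_mul_single, sub_neg_eq_add, zero_add]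
  rw [show ((k : ℤ)) = ((k : ℕ) : ℤ) from rfl, ofPowerSeries_apply_coeff]

variable {K : Type u} [Field K] [CharZero K]

/-- The truncation of an exponential at a nilpotent element. -/
theorem eval_trunc_expSeries {B : Type u} [CommRing B] [Algebra ℚ B] (g : K →+* B)
    {G : PowerSeries K} (hG : PowerSeries.constantCoeff G = 0) {a : B} {M : ℕ} (ha : a ^ M = 0) :
    (PowerSeries.trunc M (expSeries G)).eval₂ g a =
      IsNilpotent.exp (∑ k ∈ Finset.range M, g (PowerSeries.coeff k G) * a ^ k) := by
  have hMon : ∀ A B' : PowerSeries K, (PowerSeries.trunc M (A * B')).eval₂ g a =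
      (PowerSeries.trunc M A).eval₂ g a * (PowerSeries.trunc M B').eval₂ g a := fun A B' => by
    simp only [PowerSeries.eval₂_trunc_eq_sum_range, Finset.sum_mul_sum]
    simp_rw [PowerSeries.coeff_mul, map_sum, Finset.sum_mul, map_mul]
    rw [← Finset.sum_product']
    have hsub : (Finset.range M).biUnion (fun n => Finset.HasAntidiagonal.antidiagonal n) ⊆
        Finset.range M ×ˢ Finset.range M := fun ij h => by
      simp only [Finset.mem_biUnion, Finset.mem_range, Finset.HasAntidiagonal.mem_antidiagonal] at h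
      obtain ⟨n, hn, rfl⟩ := h
      simp only [Finset.mem_product, Finset.mem_range]
      omega
    rw [← Finset.sum_subset hsub fun ij hij hni => ?_, Finset.sum_biUnion]
    · refine Finset.sum_congr rfl fun n _ => Finset.sum_congr rfl fun ij hij => ?_
      rw [← Finset.HasAntidiagonal.mem_antidiagonal.mp hij, _root_.pow_add]
      ring
    · intro x _ y _ hxy
      simp only [Finset.disjoint_left, Finset.HasAntidiagonal.mem_antidiagonal]
      intro ij h1 h2
      exact hxy (h1 ▸ h2)
    · simp only [Finset.mem_biUnion, Finset.mem_range, Finset.HasAntidiagonal.mem_antidiagonal,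
        not_exists, not_and] at hni
      have : M ≤ ij.1 + ij.2 := by
        by_contra h
        exact hni (ij.1 + ij.2) (by omega) rfl
      rw [mul_mul_mul_comm, ← _root_.pow_add, pow_eq_zero_of_le this ha, mul_zero]
  set S := ∑ k ∈ Finset.range M, g (PowerSeries.coeff k G) * a ^ k
  have hpow : ∀ d, (PowerSeries.trunc M (G ^ d)).eval₂ g a = S ^ d := by
    intro d
    induction d with
    | zero =>
      rcases Nat.eq_zero_or_pos M with rfl | hM
      · rw [pow_zero] at ha
        exact eq_of_zero_eq_one (by rw [← ha]) _ _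
      · rw [pow_zero, pow_zero, PowerSeries.eval₂_trunc_eq_sum_range,
          Finset.sum_eq_single 0 (fun i _ hi => by simp [PowerSeries.coeff_one, hi])
            (fun h => absurd (Finset.mem_range.mpr hM) h)]
        simp
    | succ d ih =>
      rw [pow_succ, hMon, ih, pow_succ, PowerSeries.eval₂_trunc_eq_sum_range]
  have hdvd : ∀ d, M ≤ d → ∀ n, n < M → PowerSeries.coeff n (G ^ d) = 0 := fun d hd n hn =>
    PowerSeries.coeff_of_lt_order _ (lt_of_lt_of_le
      (by exact_mod_cast (show n < d by omega)) (PowerSeries.le_order_pow_of_constantCoeff_eq_zero d hG))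
  have hS : S ^ M = 0 := by
    rw [← hpow, PowerSeries.eval₂_trunc_eq_sum_range]
    refine Finset.sum_eq_zero fun i hi => ?_
    rw [hdvd M le_rfl i (Finset.mem_range.mp hi), map_zero, zero_mul]
  rw [IsNilpotent.exp_eq_sum hS, PowerSeries.eval₂_trunc_eq_sum_range]
  have hcoeff : ∀ n ∈ Finset.range M, g (PowerSeries.coeff n (expSeries G)) * a ^ n =
      ∑ d ∈ Finset.range M, (algebraMap ℚ B (d.factorial : ℚ)⁻¹) *
        (g (PowerSeries.coeff n (G ^ d)) * a ^ n) := by
    intro n hn
    rw [expSeries, PowerSeries.coeff_subst' (PowerSeries.HasSubst.of_constantCoeff_zero' hG),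
      finsum_eq_sum_of_support_subset _ (s := Finset.range M) fun d hd => ?_, map_sum,
      Finset.sum_mul]
    · refine Finset.sum_congr rfl fun d _ => ?_
      rw [PowerSeries.coeff_exp, smul_eq_mul, map_mul, one_div,
        ← RingHom.comp_apply g (algebraMap ℚ K),
        RingHom.ext_rat (g.comp (algebraMap ℚ K)) (algebraMap ℚ B), mul_assoc]
    · simp only [Finset.coe_range, Set.mem_Iio]
      by_contra h
      refine hd ?_
      show _ • _ = 0
      rw [hdvd d (by omega) n (Finset.mem_range.mp hn), smul_zero]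
  rw [Finset.sum_congr rfl hcoeff, Finset.sum_comm]
  refine Finset.sum_congr rfl fun d _ => ?_
  rw [← Finset.mul_sum, ← PowerSeries.eval₂_trunc_eq_sum_range, hpow, Algebra.smul_def]

variable (R : ℕ) (Ψ : PowerSeries K)

/-- The function `ψ = q ^ (-R) Ψ`. -/
def poleSeries : LaurentSeries K := single (-(R : ℤ)) 1 * ofPowerSeries ℤ K Ψ

set_option maxHeartbeats 1600000 in
/-- **The formal identity.** -/
theorem resultant_wPoly_eq_one (hR : 0 < R) {G : PowerSeries K}
    (hG : PowerSeries.constantCoeff G = 0)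
    (hvan : ∀ k : ℕ, (poleSeries R Ψ ^ (k + 1) * thetaFun (ofPowerSeries ℤ K G)).coeff 0 = 0)
    {m N : ℕ} (hm : 0 < m) (hN : R * m ≤ N) :
    (Polynomial.X : Polynomial K) ^ m ∣
      Polynomial.resultant (wPoly R Ψ m)
        ((PowerSeries.trunc (N + 1) (expSeries G)).map Polynomial.C) R N - 1 := by
  let I : Ideal (Polynomial K) := Ideal.span {(Polynomial.X : Polynomial K) ^ m}
  let f₀ : Polynomial K →+* Polynomial K ⧸ I := Ideal.Quotient.mk I
  have hsm : f₀ Polynomial.X ^ m = 0 := by
    rw [← map_pow, Ideal.Quotient.eq_zero_iff_mem]; exact Ideal.mem_span_singleton_self _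
  have hmon := (wPoly_monic R Ψ hR m).1
  have hdeg : (wPoly R Ψ m).natDegree = R :=
    (wPoly_monic R Ψ hR m).2.resolve_right (not_subsingleton K)
  have : Nontrivial (Polynomial K ⧸ I) := Ideal.Quotient.nontrivial_iff.mpr (fun h => by
    rw [Ideal.span_singleton_eq_top] at h
    exact Polynomial.not_isUnit_X ((isUnit_pow_iff hm.ne').mp h))
  obtain ⟨B', _, φ, hφ, a, ha⟩ := exists_split R _ ((wPoly R Ψ m).map f₀) (hmon.map f₀)
    (by rw [hmon.natDegree_map]; exact hdeg)
  let f : Polynomial K →+* B' := φ.comp f₀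
  let g : K →+* B' := f.comp Polynomial.C
  let _ : Algebra ℚ B' := (g.comp (algebraMap ℚ K)).toAlgebra
  have hfs : f Polynomial.X ^ m = 0 := by
    show (φ (f₀ Polynomial.X)) ^ m = 0
    rw [← map_pow, hsm, map_zero]
  set s := f Polynomial.X
  rw [Polynomial.map_map] at ha
  -- nilpotency of the roots
  have hroot : ∀ i, a i ^ (R * m) = 0 := fun i => by
    have h0 : ((wPoly R Ψ m).map f).eval (a i) = 0 := by
      rw [ha, Polynomial.eval_prod]
      exact Finset.prod_eq_zero (Finset.mem_univ i) (by simp)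
    rw [wPoly, Polynomial.map_add, Polynomial.map_pow, Polynomial.map_X, Polynomial.eval_add,
      Polynomial.eval_pow, Polynomial.eval_X, add_eq_zero_iff_eq_neg, Polynomial.map_sum,
      Polynomial.eval_finsetSum] at h0
    obtain ⟨c, hc⟩ : s ∣ a i ^ R := by
      rw [h0, dvd_neg]
      refine Finset.dvd_sum fun k hk => ?_
      rw [Polynomial.map_mul, Polynomial.map_C, Polynomial.eval_mul, Polynomial.eval_C, map_pow]
      exact (dvd_pow_self s (by have := (Finset.mem_Ico.mp hk).1; omega)).mul_right _
    rw [pow_mul, hc, mul_pow, hfs, zero_mul]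
  -- it suffices to prove it in the splitting algebra
  rw [← Ideal.mem_span_singleton, ← Ideal.Quotient.eq_zero_iff_mem]
  refine hφ ?_
  show f (_ - 1) = φ 0
  rw [map_sub, map_one, map_zero, ← Polynomial.resultant_map_map, ha, Polynomial.map_map,
    resultant_prod_X_sub_C _ _ _ (le_trans Polynomial.natDegree_map_le (Nat.lt_succ_iff.mp
      (PowerSeries.natDegree_trunc_lt _ _))), sub_eq_zero]
  have haN : ∀ i, a i ^ (N + 1) = 0 := fun i => pow_eq_zero_of_le (by omega) (hroot i)
  rw [Finset.prod_congr rfl fun i _ => (Polynomial.eval_map g (a i)).trans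
    (eval_trunc_expSeries g hG (haN i))]
  set S : Fin R → B' := fun i => ∑ k ∈ Finset.range (N + 1), g (PowerSeries.coeff k G) * a i ^ k
  have hSnil : ∀ i, IsNilpotent (S i) := fun i => by
    refine ⟨N + 1, ?_⟩
    obtain ⟨c, hc⟩ : a i ∣ S i := Finset.dvd_sum fun k _ => by
      rcases Nat.eq_zero_or_pos k with rfl | hk
      · simp [hG]
      · exact (dvd_pow_self _ hk.ne').mul_left _
    rw [hc, mul_pow, haN, zero_mul]
  -- the sum vanishes
  have hS0 : ∑ i, S i = 0 := by
    let L : ∀ (P : PowerSeries B'), LaurentSeries B' := fun P => ofPowerSeries ℤ B' P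
    let G' := PowerSeries.map g G
    have hG' : PowerSeries.constantCoeff G' = 0 := by
      rw [← PowerSeries.coeff_zero_eq_constantCoeff_apply, PowerSeries.coeff_map,
        PowerSeries.coeff_zero_eq_constantCoeff_apply, hG, map_zero]
    let U := PowerSeries.map f (wUnit R Ψ m)
    let P := ((wPoly R Ψ m).map f : PowerSeries B')
    let ψ' : LaurentSeries B' := coeffMap g (poleSeries R Ψ)
    have hU0 : IsUnit U := by
      rw [PowerSeries.isUnit_iff_constantCoeff]
      have hc : PowerSeries.constantCoeff U - 1 ∈ Ideal.span {s} := by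
        simp only [U]
        rw [wUnit, map_sum (PowerSeries.map f), map_sum, Finset.range_eq_Ico,
          Finset.sum_eq_sum_Ico_succ_bot hm]
        simp only [wU_zero, map_one, map_add, map_mul, map_sum, pow_zero, one_mul,
          add_sub_cancel_left, zero_add]
        refine Ideal.sum_mem _ fun k hk => ?_
        rw [PowerSeries.map_C, PowerSeries.constantCoeff_C, map_pow]
        exact Ideal.mul_mem_right _ _ (Ideal.mem_span_singleton.mpr
          (dvd_pow_self s (by have := (Finset.mem_Ico.mp hk).1; omega)))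
      obtain ⟨c, hc⟩ := Ideal.mem_span_singleton.mp hc
      rw [sub_eq_iff_eq_add] at hc
      rw [hc]
      exact IsNilpotent.isUnit_add_one ⟨m, by rw [mul_pow, hfs, zero_mul]⟩
    obtain ⟨u, hu⟩ := hU0
    have hid := congrArg L (wPoly_mul_wUnit R Ψ f hm hfs)
    simp only [L, map_mul, map_add, map_pow, ofPowerSeries_X, ofPowerSeries_C] at hid
    have hP : ofPowerSeries ℤ B' P = ∏ i, (single (1 : ℤ) 1 - HahnSeries.C (a i)) := by
      simp only [P]
      rw [show (wPoly R Ψ m).map f = _ from ha, ← Polynomial.coeToPowerSeries.ringHom_apply, map_prod,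
        map_prod]
      refine Finset.prod_congr rfl fun i _ => ?_
      rw [Polynomial.coeToPowerSeries.ringHom_apply, Polynomial.coe_sub, Polynomial.coe_X,
        Polynomial.coe_C, map_sub, ofPowerSeries_X, ofPowerSeries_C]
    have hψ' : ψ' = single (-(R : ℤ)) 1 * ofPowerSeries ℤ B' (PowerSeries.map g Ψ) := by
      simp only [ψ', poleSeries, map_mul, coeffMap_single, map_one]
      congr 1
      ext n
      rw [coeffMap_coeff]
      rcases lt_or_ge n 0 with hn | hn
      · rw [ofPowerSeries_coeff_of_neg _ hn, ofPowerSeries_coeff_of_neg _ hn, map_zero]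
      · obtain ⟨n, rfl⟩ := Int.eq_ofNat_of_zero_le hn
        rw [ofPowerSeries_apply_coeff, ofPowerSeries_apply_coeff, PowerSeries.coeff_map]
    set Tot : LaurentSeries B' := single (R : ℤ) 1
    have hR1 : (single (1 : ℤ) (1 : B')) ^ R = Tot := by simp [Tot]
    have hid2 : ofPowerSeries ℤ B' P * ofPowerSeries ℤ B' U =
        Tot * (1 + HahnSeries.C s * ψ') := by
      rw [hid, hR1, hψ', mul_add, mul_one, mul_left_comm Tot, ← mul_assoc Tot, single_mul_single]
      simp [g, f, s]
    set φ₁ : LaurentSeries B' := 1 + HahnSeries.C s * ψ'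
    set J : LaurentSeries B' := ∑ j ∈ Finset.range m, (-(HahnSeries.C s * ψ')) ^ j
    have hJ : φ₁ * J = 1 := by
      have h := geom_sum_mul_neg (-(HahnSeries.C s * ψ')) m
      rw [sub_neg_eq_add, neg_pow (HahnSeries.C s * ψ') m, mul_pow, ← map_pow, hfs, map_zero,
        zero_mul, mul_zero, sub_zero] at h
      rw [mul_comm]; exact h
    set Ui : LaurentSeries B' := ofPowerSeries ℤ B' (↑u⁻¹ : PowerSeries B')
    have hUi : ofPowerSeries ℤ B' U * Ui = 1 := by
      simp only [Ui, ← map_mul, U, ← hu, Units.mul_inv, map_one]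
    have hθP : thetaFun (ofPowerSeries ℤ B' P) = ofPowerSeries ℤ B' P *
        ∑ i, single (1 : ℤ) 1 * invLin (N + 1) (a i) := by
      rw [hP]; exact thetaFun_prod_linear a haN
    have hθφ : thetaFun φ₁ = HahnSeries.C s * thetaFun ψ' := by
      rw [thetaFun_add, thetaFun_one, zero_add, thetaFun_mul, thetaFun_C, zero_mul, add_zero]
    have hθT : thetaFun Tot = (R : LaurentSeries B') * Tot := by
      rw [thetaFun_single, ← map_natCast HahnSeries.C, HahnSeries.C_apply, single_mul_single]
      simp
    have hkey : (∑ i, single (1 : ℤ) 1 * invLin (N + 1) (a i)) +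
        thetaFun (ofPowerSeries ℤ B' U) * Ui = (R : LaurentSeries B') +
          HahnSeries.C s * thetaFun ψ' * J := by
      have h := congrArg thetaFun hid2
      rw [thetaFun_mul, thetaFun_mul, hθP, hθT, hθφ] at h
      have hTi : Tot * single (-(R : ℤ)) 1 = 1 := by simp [Tot]
      have hinv : ofPowerSeries ℤ B' P * (ofPowerSeries ℤ B' U * J * single (-(R : ℤ)) 1) = 1 := by
        rw [← mul_assoc, ← mul_assoc, hid2, mul_assoc (Tot), hJ, mul_one, hTi]
      have h' := congrArg (fun z => z * (J * single (-(R : ℤ)) 1)) h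
      linear_combination h' -
        ((∑ i, single (1 : ℤ) 1 * invLin (N + 1) (a i)) +
          thetaFun (ofPowerSeries ℤ B' U) * Ui) * hinv +
        ((R : LaurentSeries B') * φ₁ * J + HahnSeries.C s * thetaFun ψ' * J) * hTi +
        (R : LaurentSeries B') * hJ +
        (thetaFun (ofPowerSeries ℤ B' U) * ofPowerSeries ℤ B' P * J * single (-(R : ℤ)) 1) * hUi
    have hc := congrArg (fun z => (ofPowerSeries ℤ B' G' * z).coeff 0) hkey
    simp only [mul_add, HahnSeries.coeff_add, Finset.mul_sum, HahnSeries.coeff_sum] at hc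
    simp_rw [coeff_zero_mul_invLin G' hG' (haN _)] at hc
    have hA : (ofPowerSeries ℤ B' G' * (thetaFun (ofPowerSeries ℤ B' U) * Ui)).coeff 0 = 0 := by
      have hge : OrdGE 1 (ofPowerSeries ℤ B' G') := fun i hi => by
        rcases lt_or_ge i 0 with hi0 | hi0
        · exact ofPowerSeries_coeff_of_neg _ hi0
        · obtain rfl : i = ((0 : ℕ) : ℤ) := by push_cast; omega
          rw [ofPowerSeries_apply_coeff, PowerSeries.coeff_zero_eq_constantCoeff_apply, hG']
      have hge0 : OrdGE 0 (thetaFun (ofPowerSeries ℤ B' U) * Ui) :=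
        ((thetaFun_ordGE fun i hi => ofPowerSeries_coeff_of_neg _ hi).mul (a := 0) (b := 0)
          fun i hi => ofPowerSeries_coeff_of_neg _ hi).mono (by omega)
      exact (hge.mul hge0) 0 (by omega)
    have hB : (ofPowerSeries ℤ B' G' * (R : LaurentSeries B')).coeff 0 = 0 := by
      rw [← map_natCast HahnSeries.C, HahnSeries.C_apply, coeff_mul_single_zero,
        show (0 : ℤ) = ((0 : ℕ) : ℤ) from rfl, ofPowerSeries_apply_coeff,
        PowerSeries.coeff_zero_eq_constantCoeff_apply, hG', zero_mul]
    have hC : (ofPowerSeries ℤ B' G' * (HahnSeries.C s * thetaFun ψ' * J)).coeff 0 = 0 := by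
      rw [Finset.mul_sum, Finset.mul_sum, HahnSeries.coeff_sum]
      refine Finset.sum_eq_zero fun j _ => ?_
      rw [neg_pow, mul_pow, ← map_pow,
        show ((-1 : LaurentSeries B')) ^ j = HahnSeries.C ((-1 : B') ^ j) by
          rw [map_pow, map_neg, map_one]]
      rw [show ofPowerSeries ℤ B' G' * (HahnSeries.C s * thetaFun ψ' *
          (HahnSeries.C ((-1 : B') ^ j) * (HahnSeries.C (s ^ j) * ψ' ^ j))) =
        HahnSeries.C (s * (-1) ^ j * s ^ j) *
          (ofPowerSeries ℤ B' G' * (ψ' ^ j * thetaFun ψ')) by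
        rw [map_mul, map_mul]; ring]
      rw [HahnSeries.C_apply, coeff_single_zero_mul]
      suffices h0 : (ofPowerSeries ℤ B' G' * (ψ' ^ j * thetaFun ψ')).coeff 0 = 0 by
        rw [h0, mul_zero]
      have hθ : ∀ x : LaurentSeries K, thetaFun (coeffMap g x) = coeffMap g (thetaFun x) :=
        fun x => by ext n; simp [coeffMap_coeff]
      have hGc : ofPowerSeries ℤ B' G' = coeffMap g (ofPowerSeries ℤ K G) := by
        ext n
        rw [coeffMap_coeff]
        rcases lt_or_ge n 0 with hn | hn
        · rw [ofPowerSeries_coeff_of_neg _ hn, ofPowerSeries_coeff_of_neg _ hn, map_zero]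
        · obtain ⟨n, rfl⟩ := Int.eq_ofNat_of_zero_le hn
          rw [ofPowerSeries_apply_coeff, ofPowerSeries_apply_coeff, PowerSeries.coeff_map]
      simp only [ψ']
      rw [hGc, hθ, ← map_pow, ← map_mul, ← map_mul, coeffMap_coeff]
      suffices h1 : (ofPowerSeries ℤ K G * (poleSeries R Ψ ^ j * thetaFun (poleSeries R Ψ))).coeff 0
          = 0 by rw [h1, map_zero]
      have h2 := congrArg (fun z : LaurentSeries K => z.coeff 0)
        (thetaFun_mul (ofPowerSeries ℤ K G) (poleSeries R Ψ ^ (j + 1)))
      simp only [thetaFun_coeff, Int.cast_zero, zero_mul, HahnSeries.coeff_add] at h2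
      rw [mul_comm (thetaFun _), hvan j, add_zero, thetaFun_pow, mul_smul_comm,
        HahnSeries.coeff_smul, nsmul_eq_mul] at h2
      exact (mul_eq_zero.mp h2.symm).resolve_left (Nat.cast_ne_zero.mpr j.succ_ne_zero)
    rw [hA, hB, hC, add_zero, add_zero] at hc
    rw [← hc]
    simp [S, G', PowerSeries.coeff_map]
  have hexp : ∀ t : Finset (Fin R),
      IsNilpotent (∑ i ∈ t, S i) ∧ ∏ i ∈ t, IsNilpotent.exp (S i) =
        IsNilpotent.exp (∑ i ∈ t, S i) := by
    intro t
    induction t using Finset.induction_on with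
    | empty => simp [IsNilpotent.exp_zero]
    | insert i t hi ih =>
      rw [Finset.prod_insert hi, Finset.sum_insert hi, ih.2,
        IsNilpotent.exp_add_of_commute (Commute.all _ _) (hSnil i) ih.1]
      exact ⟨(Commute.all _ _).isNilpotent_add (hSnil i) ih.1, rfl⟩
  rw [(hexp Finset.univ).2, hS0, IsNilpotent.exp_zero]

end Main

end FA.Mazur

end
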