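import Mathlib.RingTheory.PowerSeries.Exp
import Mathlib.RingTheory.PowerSeries.Expand
import Mathlib.RingTheory.PowerSeries.Derivative
import Mathlib.RingTheory.PowerSeries.Substitution
import Mathlib.Algebra.CharP.Lemmas
import Mathlib.Algebra.Polynomial.Expand
import Mathlib.NumberTheory.Padics.PadicVal.Basic
import Mathlib.RingTheory.Ideal.Quotient.Operations

/-!
# Dwork's integrality lemma for exponentials of power series
-/

set_option autoImplicit false

noncomputable section

open PowerSeries

namespace FA.Mazur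

variable {K : Type*} [Field K] [CharZero K]

/-- `E` is the exponential of `G`. -/
def IsExpOf (G E : K⟦X⟧) : Prop :=
  constantCoeff E = 1 ∧ d⁄dX K E = d⁄dX K G * E

/-- The exponential of a series without constant term. -/
def expSeries (G : K⟦X⟧) : K⟦X⟧ := (exp K).subst G

theorem isExpOf_expSeries {G : K⟦X⟧} (hG : constantCoeff G = 0) : IsExpOf G (expSeries G) := by
  have hs : HasSubst G := HasSubst.of_constantCoeff_zero' hG
  refine ⟨?_, ?_⟩
  · rw [expSeries, ← coeff_zero_eq_constantCoeff_apply, coeff_subst' hs]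
    rw [finsum_eq_single _ 0 (fun d hd => ?_)]
    · simp
    · rw [coeff_zero_eq_constantCoeff_apply, map_pow, hG, zero_pow hd, smul_zero]
  · rw [expSeries, derivative_subst hs, derivative_exp, mul_comm]

theorem IsExpOf.unique {G E F : K⟦X⟧} (hE : IsExpOf G E) (hF : IsExpOf G F) : E = F := by
  ext n
  induction n using Nat.strong_induction_on with
  | _ n ih =>
    rcases n with _ | n
    · simp [hE.1, hF.1]
    · have h1 := congrArg (coeff n) hE.2
      have h2 := congrArg (coeff n) hF.2
      rw [coeff_derivative, coeff_mul] at h1 h2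
      rw [Finset.sum_congr rfl (g := fun ij : ℕ × ℕ => coeff ij.1 (d⁄dX K G) * coeff ij.2 F) fun ij hij => by
        rw [ih ij.2 (by have := Finset.HasAntidiagonal.mem_antidiagonal.mp hij; omega)]] at h1
      exact mul_right_cancel₀ (by exact_mod_cast n.succ_ne_zero : ((n : K) + 1) ≠ 0)
        (h1.trans h2.symm)

theorem IsExpOf.mul {G H E F : K⟦X⟧} (hE : IsExpOf G E) (hF : IsExpOf H F) :
    IsExpOf (G + H) (E * F) := by
  refine ⟨by rw [map_mul, hE.1, hF.1, one_mul], ?_⟩
  rw [Derivation.leibniz, hE.2, hF.2, map_add, smul_eq_mul, smul_eq_mul]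
  ring

theorem isExpOf_zero : IsExpOf (0 : K⟦X⟧) 1 :=
  ⟨map_one _, by rw [map_zero, zero_mul]; exact derivative_one⟩

theorem IsExpOf.nsmul {G E : K⟦X⟧} (hE : IsExpOf G E) (n : ℕ) : IsExpOf (n • G) (E ^ n) := by
  induction n with
  | zero => rw [zero_smul, pow_zero]; exact isExpOf_zero
  | succ n ih => rw [succ_nsmul, pow_succ]; exact ih.mul hE

theorem IsExpOf.map {L : Type*} [Field L] [CharZero L] {G E : K⟦X⟧} (hE : IsExpOf G E)
    (f : K →+* L) : IsExpOf (PowerSeries.map f G) (PowerSeries.map f E) := by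
  have hd : ∀ S : K⟦X⟧, d⁄dX L (PowerSeries.map f S) = PowerSeries.map f (d⁄dX K S) := fun S => by
    ext n
    simp [coeff_derivative, coeff_map, map_mul]
  refine ⟨?_, by rw [hd, hd, hE.2, map_mul]⟩
  rw [← coeff_zero_eq_constantCoeff_apply, coeff_map, coeff_zero_eq_constantCoeff_apply, hE.1,
    map_one]

theorem IsExpOf.expand {l : ℕ} (hl : l ≠ 0) {G E : K⟦X⟧} (hE : IsExpOf G E) :
    IsExpOf (PowerSeries.expand l hl G) (PowerSeries.expand l hl E) := by
  have hs : HasSubst (X ^ l : K⟦X⟧) := HasSubst.X_pow hl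
  refine ⟨?_, ?_⟩
  · rw [expand_apply, ← coeff_zero_eq_constantCoeff_apply, coeff_subst' hs,
      finsum_eq_single _ 0 fun d hd => ?_]
    · simp [hE.1]
    · rw [coeff_zero_eq_constantCoeff_apply, map_pow, map_pow, constantCoeff_X, zero_pow hl,
        zero_pow hd, smul_zero]
  · rw [expand_apply, expand_apply, derivative_subst hs, derivative_subst hs, hE.2,
      subst_mul hs]
    ring

omit [CharZero K] in
/-- The coefficient of an expanded series. -/
theorem coeff_expand_aux {l : ℕ} (hl : l ≠ 0) {S : K⟦X⟧} {n : ℕ} :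
    coeff n (expand l hl S) = if l ∣ n then coeff (n / l) S else 0 := by
  split
  · next h => obtain ⟨m, rfl⟩ := h; rw [Nat.mul_div_cancel_left m (Nat.pos_of_ne_zero hl),
      coeff_expand_mul]
  · next h => exact coeff_expand_of_not_dvd _ _ _ h
omit [CharZero K] in
/-- Powers of series agreeing below `n`. -/
theorem coeff_pow_sub {E T : K⟦X⟧} {n : ℕ} (hn : 0 < n) (h : ∀ m, m < n → coeff m E = coeff m T)
    (hE : constantCoeff E = 1) (k : ℕ) :
    coeff n (E ^ k) - coeff n (T ^ k) = (k : K) * (coeff n E - coeff n T) := by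
  induction k with
  | zero => simp
  | succ k ih =>
    have hlow : ∀ m, m < n → coeff m (E ^ k) = coeff m (T ^ k) := fun m hm => by
      rw [coeff_pow, coeff_pow]
      refine Finset.sum_congr rfl fun u hu => Finset.prod_congr rfl fun i hi => h _ ?_
      rw [Finset.mem_finsuppAntidiag] at hu
      exact lt_of_le_of_lt (hu.1 ▸ Finset.single_le_sum (fun j _ => Nat.zero_le _) hi) hm
    have hT : coeff 0 T = 1 := by rw [← h 0 hn, coeff_zero_eq_constantCoeff_apply, hE]
    have hTk : coeff 0 (T ^ k) = 1 := by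
      rw [coeff_zero_eq_constantCoeff_apply, map_pow, ← coeff_zero_eq_constantCoeff_apply, hT,
        one_pow]
    obtain ⟨m, rfl⟩ : ∃ m, n = m + 1 := ⟨n - 1, by omega⟩
    rw [pow_succ, pow_succ, coeff_mul, coeff_mul,
      Finset.Nat.sum_antidiagonal_succ (f := fun ij => coeff ij.1 (E ^ k) * coeff ij.2 E),
      Finset.Nat.sum_antidiagonal_succ (f := fun ij => coeff ij.1 (T ^ k) * coeff ij.2 T)]
    have hE0 : coeff 0 (E ^ k) = 1 := by
      rw [coeff_zero_eq_constantCoeff_apply, map_pow, hE, one_pow]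
    rcases m with _ | m
    · simp only [Finset.Nat.antidiagonal_zero, Finset.sum_singleton, hE0, hTk, hT,
        coeff_zero_eq_constantCoeff_apply E, hE, mul_one, one_mul]
      push_cast
      linear_combination ih
    · rw [Finset.Nat.sum_antidiagonal_succ' (f := fun ij => coeff (ij.1 + 1) (E ^ k) * coeff ij.2 E),
        Finset.Nat.sum_antidiagonal_succ' (f := fun ij => coeff (ij.1 + 1) (T ^ k) * coeff ij.2 T)]
      simp only [hE0, hTk, hT, coeff_zero_eq_constantCoeff_apply E, hE, one_mul, mul_one]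
      rw [Finset.sum_congr rfl fun ij hij => by
        have h1 := Finset.HasAntidiagonal.mem_antidiagonal.mp hij
        rw [hlow _ (by omega), h _ (by omega)]]
      push_cast
      linear_combination ih
omit [CharZero K] in
/-- Coefficients of powers stay in the subring. -/
theorem coeff_pow_mem {E : K⟦X⟧} (R : Subring K) (k i : ℕ) (h : ∀ j ≤ i, coeff j E ∈ R) :
    coeff i (E ^ k) ∈ R := by
  rw [coeff_pow]
  refine R.sum_mem fun u hu => R.prod_mem fun j hj => h _ ?_
  rw [Finset.mem_finsuppAntidiag] at hu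
  exact hu.1 ▸ Finset.single_le_sum (fun j _ => Nat.zero_le _) hj

section Dwork

variable {l : ℕ} (hl : l.Prime) (R : Subring K) (φ : K →+* K)
  (hφR : ∀ x ∈ R, φ x ∈ R)
  (hφl : ∀ x ∈ R, ∃ y ∈ R, φ x - x ^ l = (l : K) * y)
  (hinv : ∀ k : ℕ, ¬ l ∣ k → ((k : K))⁻¹ ∈ R)

include hl hinv in
/-- The exponential of a series divisible by `l` is integral, and one modulo `l`. -/
theorem expSeries_of_dvd {D : K⟦X⟧} (hD0 : constantCoeff D = 0)
    (hD : ∀ n, ∃ y ∈ R, coeff n D = (l : K) * y) (n : ℕ) :
    ∃ y ∈ R, coeff (n + 1) (expSeries D) = (l : K) * y := by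
  have hs : HasSubst D := HasSubst.of_constantCoeff_zero' hD0
  have hl0 : (l : K) ≠ 0 := Nat.cast_ne_zero.mpr hl.ne_zero
  choose d hdR hd using hD
  let D₁ : K⟦X⟧ := PowerSeries.mk d
  have hDD₁ : D = C (l : K) * D₁ := by ext m; rw [coeff_C_mul, coeff_mk, hd]
  have hpow : ∀ k m, coeff m (D₁ ^ k) ∈ R := by
    intro k
    induction k with
    | zero => intro m; rw [pow_zero, coeff_one]; split <;> [exact R.one_mem; exact R.zero_mem]
    | succ k ih =>
      intro m
      rw [pow_succ, coeff_mul]
      exact R.sum_mem fun ij _ => R.mul_mem (ih _) (by rw [coeff_mk]; exact hdR _)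
  have hfac : ∀ k, k ≠ 0 → ∃ y ∈ R, (l : K) ^ k / (k.factorial : K) = (l : K) * y := by
    intro k hk
    obtain ⟨a, b, hb, hab⟩ : ∃ a b : ℕ, ¬ l ∣ b ∧ k.factorial = l ^ a * b :=
      ⟨_, _, Nat.not_dvd_ordCompl hl k.factorial_ne_zero,
        (Nat.ordProj_mul_ordCompl_eq_self k.factorial l).symm⟩
    have hak : a < k := by
      by_contra h
      push Not at h
      have hdvd : l ^ k ∣ k.factorial :=
        (pow_dvd_pow l h).trans ⟨b, hab⟩
      have := Fact.mk hl
      exact absurd ((padicValNat_dvd_iff _ _).mp hdvd)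
        (not_or.mpr ⟨k.factorial_ne_zero, not_le.mpr (padicValNat_factorial_lt_of_ne_zero l hk)⟩)
    refine ⟨(l : K) ^ (k - a - 1) * (b : K)⁻¹,
      R.mul_mem (R.pow_mem (by simpa using R.natCast_mem l) _) (hinv b hb), ?_⟩
    rw [hab, Nat.cast_mul, Nat.cast_pow, ← mul_assoc, ← pow_succ']
    rw [show k - a - 1 + 1 = k - a by omega, pow_sub₀ _ hl0 hak.le, div_eq_mul_inv, mul_inv]
    ring
  rw [expSeries, coeff_subst' hs]
  refine finsum_induction (fun x => ∃ y ∈ R, x = (l : K) * y) ⟨0, R.zero_mem, by simp⟩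
    (fun {a b} => fun ⟨y, hy, ha⟩ ⟨z, hz, hb⟩ =>
      ⟨y + z, R.add_mem hy hz, by rw [ha, hb, mul_add]⟩) fun k => ?_
  rcases eq_or_ne k 0 with rfl | hk
  · exact ⟨0, R.zero_mem, by simp⟩
  obtain ⟨y, hy, hyk⟩ := hfac k hk
  refine ⟨y * coeff (n + 1) (D₁ ^ k), R.mul_mem hy (hpow k _), ?_⟩
  rw [coeff_exp, hDD₁, mul_pow, ← map_pow, coeff_C_mul, smul_eq_mul, map_div₀, map_one,
    map_natCast, ← mul_assoc, ← mul_assoc]
  rw [div_mul_eq_mul_div, one_mul, hyk]

include hl hφR hφl hinv in
/-- **Dwork's lemma.** -/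
theorem expSeries_mem_of_dwork {G : K⟦X⟧} (hG : constantCoeff G = 0)
    (h : ∀ n, ∃ y ∈ R,
      coeff n (expand l hl.ne_zero (PowerSeries.map φ G) - (l : K⟦X⟧) * G) = (l : K) * y) :
    ∀ n, coeff n (expSeries G) ∈ R := by
  classical
  have hl0 : (l : K) ≠ 0 := Nat.cast_ne_zero.mpr hl.ne_zero
  set E := expSeries G with hEdef
  set D := expand l hl.ne_zero (PowerSeries.map φ G) - (l : K⟦X⟧) * G with hDdef
  have hE := isExpOf_expSeries hG
  have hlhs : IsExpOf (expand l hl.ne_zero (PowerSeries.map φ G))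
      (expand l hl.ne_zero (PowerSeries.map φ E)) := (hE.map φ).expand hl.ne_zero
  have hD0 : constantCoeff D = 0 := by
    rw [hDdef, map_sub, map_mul, hG, mul_zero, sub_zero, expand_apply,
      ← coeff_zero_eq_constantCoeff_apply, coeff_subst' (HasSubst.X_pow hl.ne_zero),
      finsum_eq_single _ 0 fun d hd => ?_]
    · simp [hG]
    · rw [coeff_zero_eq_constantCoeff_apply, map_pow, map_pow, constantCoeff_X,
        zero_pow hl.ne_zero, zero_pow hd, smul_zero]
  have hrel : expand l hl.ne_zero (PowerSeries.map φ E) = E ^ l * expSeries D := by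
    refine hlhs.unique ?_
    have := (hE.nsmul l).mul (isExpOf_expSeries hD0)
    rwa [nsmul_eq_mul, hDdef, add_sub_cancel] at this
  intro n
  induction n using Nat.strong_induction_on with
  | _ n ih =>
    rcases Nat.eq_zero_or_pos n with rfl | hn
    · rw [coeff_zero_eq_constantCoeff_apply, hE.1]; exact R.one_mem
    -- the truncated series over `R` and modulo `l`
    let t : Polynomial R := ∑ i : Fin n, Polynomial.monomial (i : ℕ) ⟨coeff i E, ih i i.2⟩
    let T : K⟦X⟧ := (t.map R.subtype : Polynomial K)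
    have ht : ∀ m, ((t.coeff m : R) : K) = if m < n then coeff m E else 0 := fun m => by
      simp only [t, Polynomial.finsetSum_coeff, Polynomial.coeff_monomial]
      by_cases hm : m < n
      · rw [Finset.sum_eq_single ⟨m, hm⟩ (fun x _ hx => if_neg fun h => hx (Fin.ext h)) (by simp),
          if_pos rfl, if_pos hm]
      · rw [Finset.sum_eq_zero fun (x : Fin n) _ => if_neg fun h' : (x : ℕ) = m => hm (h' ▸ x.2), if_neg hm]
        rfl
    have hT : ∀ m, coeff m T = if m < n then coeff m E else 0 := fun m => by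
      rw [Polynomial.coeff_coe, Polynomial.coeff_map]; exact ht m
    have htail : ∀ m, m < n → coeff m E = coeff m T := fun m hm => by rw [hT, if_pos hm]
    -- the coefficient of the `l`-th power
    have hpowE : coeff n (E ^ l) - coeff n (T ^ l) = (l : K) * coeff n E := by
      rw [coeff_pow_sub hn htail hE.1 l, hT n, if_neg (lt_irrefl n), sub_zero]
    -- Frobenius modulo `l`
    have hfrob : ∃ y ∈ R, coeff n (T ^ l) -
        (if l ∣ n then φ (coeff (n / l) T) else 0) = (l : K) * y := by
      let I : Ideal R := Ideal.span {(l : R)}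
      by_cases hI : I = ⊤
      · obtain ⟨u, hu⟩ := Ideal.span_singleton_eq_top.mp hI |>.exists_right_inv
        have hmem : coeff n (T ^ l) - (if l ∣ n then φ (coeff (n / l) T) else 0) ∈ R := by
          refine R.sub_mem ?_ ?_
          · rw [show T ^ l = (((t ^ l).map R.subtype : Polynomial K) : K⟦X⟧) by
              rw [Polynomial.map_pow, Polynomial.coe_pow], Polynomial.coeff_coe, Polynomial.coeff_map]
            exact Subtype.prop _
          · split
            · rw [hT]; split
              · exact hφR _ (ih _ ‹_›)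
              · rw [map_zero]; exact R.zero_mem
            · exact R.zero_mem
        refine ⟨_, R.mul_mem u.2 hmem, ?_⟩
        have hu' : (l : K) * u = 1 := by simpa using congrArg Subtype.val hu
        rw [← mul_assoc, hu', one_mul]
      have : Nontrivial (R ⧸ I) := Ideal.Quotient.nontrivial_iff.mpr hI
      have : CharP (R ⧸ I) l := (CharP.charP_iff_prime_eq_zero hl).mpr (by
        rw [← map_natCast (Ideal.Quotient.mk I), Ideal.Quotient.eq_zero_iff_mem]
        exact Ideal.mem_span_singleton_self _)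
      have := Fact.mk hl
      have e2 := Polynomial.map_frobenius_expand (p := l) (t.map (Ideal.Quotient.mk I))
      have h2 := congrArg (fun q => Polynomial.coeff q n) e2
      simp only [Polynomial.coeff_map, Polynomial.coeff_expand hl.pos, ← Polynomial.map_pow] at h2
      have h3 : ∀ m, (Ideal.Quotient.mk I (t.coeff m)) ^ l = Ideal.Quotient.mk I
          ⟨φ (t.coeff m : K), hφR _ (t.coeff m).2⟩ := fun m => by
        rw [← map_pow, Ideal.Quotient.eq, Ideal.mem_span_singleton]
        obtain ⟨y, hy, hy'⟩ := hφl _ (t.coeff m).2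
        refine ⟨-⟨y, hy⟩, Subtype.ext ?_⟩
        push_cast
        linear_combination -hy'
      have h4 : ((t ^ l).coeff n : K) = coeff n (T ^ l) := by
        rw [show T ^ l = (((t ^ l).map R.subtype : Polynomial K) : K⟦X⟧) by
          rw [Polynomial.map_pow, Polynomial.coe_pow], Polynomial.coeff_coe, Polynomial.coeff_map]
        rfl
      by_cases hd : l ∣ n
      · rw [if_pos hd, frobenius_def, h3] at h2
        rw [eq_comm, Ideal.Quotient.eq, Ideal.mem_span_singleton] at h2
        obtain ⟨y, hy⟩ := h2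
        refine ⟨y, y.2, ?_⟩
        rw [if_pos hd, hT, ← ht, ← h4]
        simpa using congrArg Subtype.val hy
      · rw [if_neg hd, map_zero, eq_comm, Ideal.Quotient.eq_zero_iff_mem,
          Ideal.mem_span_singleton] at h2
        obtain ⟨y, hy⟩ := h2
        refine ⟨y, y.2, ?_⟩
        rw [if_neg hd, sub_zero, ← h4]
        simpa using congrArg Subtype.val hy
    obtain ⟨y₁, hy₁, hfrob⟩ := hfrob
    -- compare coefficients
    have hco := congrArg (coeff n) hrel
    have hlhs' : coeff n (expand l hl.ne_zero (PowerSeries.map φ E)) =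
        if l ∣ n then φ (coeff (n / l) T) else 0 := by
      rw [coeff_expand_aux hl.ne_zero]
      split
      · rw [coeff_map, htail _ (Nat.div_lt_self hn hl.one_lt)]
      · rfl
    have hrhs : ∃ y ∈ R, coeff n (E ^ l * expSeries D) - coeff n (E ^ l) = (l : K) * y := by
      rw [coeff_mul, Finset.Nat.sum_antidiagonal_eq_sum_range_succ
        (fun i j => coeff i (E ^ l) * coeff j (expSeries D)), Finset.sum_range_succ]
      rw [show coeff (n - n) (expSeries D) = 1 by
        rw [Nat.sub_self, coeff_zero_eq_constantCoeff_apply, (isExpOf_expSeries hD0).1],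
        mul_one, add_sub_cancel_right]
      refine Finset.sum_induction _ (fun x => ∃ y ∈ R, x = (l : K) * y)
        (fun a b ⟨y, hy, ha⟩ ⟨z, hz, hb⟩ => ⟨y + z, R.add_mem hy hz, by rw [ha, hb, mul_add]⟩)
        ⟨0, R.zero_mem, by simp⟩ fun i hi => ?_
      rw [Finset.mem_range] at hi
      obtain ⟨z, hz, hzn⟩ := expSeries_of_dvd hl R hinv hD0 h (n - i - 1)
      rw [show n - i - 1 + 1 = n - i by omega] at hzn
      refine ⟨coeff i (E ^ l) * z, R.mul_mem (coeff_pow_mem R l i fun j hj => ih j (by omega)) hz, ?_⟩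
      rw [hzn]; ring
    obtain ⟨y₂, hy₂, hrhs⟩ := hrhs
    have : coeff n E = -(y₁ + y₂) := by
      refine mul_left_cancel₀ hl0 ?_
      linear_combination hlhs' - hco - hpowE - hfrob - hrhs
    rw [this]
    exact R.neg_mem (R.add_mem hy₁ hy₂)

end Dwork

end FA.Mazur

end
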