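import Mathlib.LinearAlgebra.Trace
import Mathlib.RingTheory.Nilpotent.Lemmas
import Mathlib.RingTheory.Ideal.Maximal
import Mathlib.LinearAlgebra.FiniteDimensional.Basic
import Mathlib.Tactic.LinearCombination

/-!
# A representation with a quadratic relation and an element with two eigenvalues

Let `G` act on a module `V` over a commutative algebra `A` so that every `g + χ(g) g⁻¹` is a
scalar.  An element `s` with `(s - 1)(s - χ(s)) = 0` cuts `V` into two parts; unless the
representation is reducible modulo a prime of `A` the two parts have the same dimension.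
-/

set_option autoImplicit false
set_option linter.unusedSectionVars false

noncomputable section

namespace FA.Mazur

variable {𝕜 A V : Type*} [Field 𝕜] [CharZero 𝕜] [CommRing A] [Algebra 𝕜 A] [AddCommGroup V]
  [Module 𝕜 V] [Module A V] [IsScalarTower 𝕜 A V] {G : Type*} [Group G]
  (ρ : G →* Module.End A V) (χ : G →* 𝕜ˣ) (t : G → A)

/-- The hypotheses: a scalar relation, and an element with two eigenvalues. -/
structure IsSplitRel (s : G) : Prop where
  rel : ∀ g, ρ g + (χ g : 𝕜) • ρ g⁻¹ = t g • (1 : Module.End A V)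
  ne_one : (χ s : 𝕜) ≠ 1
  t_s : t s = 1 + algebraMap 𝕜 A (χ s)

variable {ρ χ t}

theorem IsSplitRel.sq_eq {s : G} (h : IsSplitRel ρ χ t s) :
    (ρ s - 1) * (ρ s - (χ s : 𝕜) • 1) = 0 := by
  have h1 := congrArg (fun T => ρ s * T) (h.rel s)
  simp only [mul_add, mul_smul_comm, ← map_mul, mul_inv_cancel, map_one, mul_one] at h1
  rw [h.t_s, add_smul, one_smul, algebraMap_smul] at h1
  rw [sub_mul, one_mul, mul_sub, mul_smul_comm, mul_one, ← map_mul]
  linear_combination (norm := abel) h1

variable (ρ χ) in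
/-- The projection to the eigenvalue `χ s`. -/
def eigP (s : G) : Module.End A V := ((χ s : 𝕜) - 1)⁻¹ • (ρ s - 1)

variable {s : G} (h : IsSplitRel ρ χ t s)
include h

theorem rho_eigP : ρ s * eigP ρ χ s = (χ s : 𝕜) • eigP ρ χ s := by
  have h1 := h.sq_eq
  have h2 : (ρ s - (χ s : 𝕜) • 1) * (ρ s - 1) = 0 := by
    rw [← h1]
    simp only [sub_mul, mul_sub, smul_mul_assoc, mul_smul_comm, one_mul, mul_one, smul_sub]
    abel
  rw [sub_mul, smul_mul_assoc, one_mul, sub_eq_zero] at h2
  rw [eigP, mul_smul_comm, h2, smul_comm]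

theorem eigP_mul_rho : eigP ρ χ s * ρ s = (χ s : 𝕜) • eigP ρ χ s := by
  rw [← rho_eigP h, eigP, smul_mul_assoc, mul_smul_comm]
  congr 1
  rw [sub_mul, mul_sub, one_mul, mul_one]

theorem isIdempotent_eigP : eigP ρ χ s * eigP ρ χ s = eigP ρ χ s := by
  have hc : (χ s : 𝕜) - 1 ≠ 0 := sub_ne_zero.mpr h.ne_one
  nth_rewrite 1 [eigP]
  rw [smul_mul_assoc, sub_mul, one_mul, rho_eigP h]
  rw [show (χ s : 𝕜) • eigP ρ χ s - eigP ρ χ s = ((χ s : 𝕜) - 1) • eigP ρ χ s by
    rw [sub_smul, one_smul], smul_smul, inv_mul_cancel₀ hc, one_smul]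

theorem rho_eq : ρ s = 1 + ((χ s : 𝕜) - 1) • eigP ρ χ s := by
  have hc : (χ s : 𝕜) - 1 ≠ 0 := sub_ne_zero.mpr h.ne_one
  rw [eigP, smul_smul, mul_inv_cancel₀ hc, one_smul, add_sub_cancel]

theorem rho_compl : ρ s * (1 - eigP ρ χ s) = 1 - eigP ρ χ s := by
  rw [mul_sub, mul_one, rho_eigP h, rho_eq h, sub_smul, one_smul]
  abel

theorem compl_rho : (1 - eigP ρ χ s) * ρ s = 1 - eigP ρ χ s := by
  rw [sub_mul, one_mul, eigP_mul_rho h, rho_eq h, sub_smul, one_smul]
  abel

/-- The compressions are scalars. -/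
theorem compress (g : G) :
    eigP ρ χ s * ρ g * eigP ρ χ s =
      (algebraMap 𝕜 A ((χ s : 𝕜) - 1)⁻¹ * (t (s * g) - t g)) • eigP ρ χ s ∧
    (1 - eigP ρ χ s) * ρ g * (1 - eigP ρ χ s) =
      (t g - algebraMap 𝕜 A ((χ s : 𝕜) - 1)⁻¹ * (t (s * g) - t g)) • (1 - eigP ρ χ s) := by
  set P := eigP ρ χ s
  set c : 𝕜 := (χ s : 𝕜)
  have hc : c - 1 ≠ 0 := sub_ne_zero.mpr h.ne_one
  -- the relation for `s g`
  have h1 := h.rel (s * g)
  have hg := h.rel g
  have hs := h.rel s
  rw [h.t_s, add_smul, one_smul, algebraMap_smul] at hs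
  rw [mul_inv_rev, map_mul, map_mul, map_mul, Units.val_mul] at h1
  have hχ : (c * (χ g : 𝕜)) • (ρ g⁻¹ * ρ s⁻¹) = ((χ g : 𝕜) • ρ g⁻¹) * (c • ρ s⁻¹) := by
    rw [smul_mul_assoc, mul_smul_comm, smul_smul, mul_comm]
  rw [hχ, eq_sub_of_add_eq' hg, eq_sub_of_add_eq' hs] at h1
  have hkey : ρ s * ρ g + (t g • (1 : Module.End A V) - ρ g) * (1 + c • 1 - ρ s) = t (s * g) • 1 := h1
  have hPP : P * P = P := isIdempotent_eigP h
  have hPs : P * ρ s = c • P := eigP_mul_rho h
  have hsP : ρ s * P = c • P := rho_eigP h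
  constructor
  · have h2 := congrArg (fun T => P * T * P) hkey
    simp only [mul_add, add_mul, sub_mul, mul_sub, smul_mul_assoc, mul_smul_comm, one_mul, mul_one,
      mul_assoc, hsP, hPP] at h2
    rw [← mul_assoc P (ρ s), hPs, smul_mul_assoc] at h2
    rw [← smul_smul, algebraMap_smul, eq_comm, inv_smul_eq_iff₀ hc, sub_smul, ← h2, mul_assoc]
    simp only [smul_sub, sub_smul, one_smul, smul_comm c (t g)]
    abel
  · set Q := 1 - P with hQ
    have hQQ : Q * Q = Q := by
      rw [hQ, sub_mul, one_mul, mul_sub, mul_one, hPP, sub_self, sub_zero]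
    have hQs : Q * ρ s = Q := compl_rho h
    have hsQ : ρ s * Q = Q := rho_compl h
    have h2 := congrArg (fun T => Q * T * Q) hkey
    simp only [mul_add, add_mul, sub_mul, mul_sub, smul_mul_assoc, mul_smul_comm, one_mul, mul_one,
      mul_assoc, hsQ, hQQ] at h2
    rw [← mul_assoc Q (ρ s), hQs] at h2
    rw [sub_smul, ← smul_smul, algebraMap_smul, eq_sub_iff_add_eq', ← eq_sub_iff_add_eq,
      inv_smul_eq_iff₀ hc, sub_smul, ← h2, mul_assoc]
    simp only [smul_sub, sub_smul, one_smul, smul_comm c (t g)]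
    abel

omit h

variable (χ t) in
/-- The scalar of the compression to the eigenvalue `χ s`. -/
def coefP (s g : G) : A := algebraMap 𝕜 A ((χ s : 𝕜) - 1)⁻¹ * (t (s * g) - t g)

variable (χ t) in
/-- The scalar of the compression to the eigenvalue one. -/
def coefQ (s g : G) : A := t g - coefP χ t s g

include h

theorem compressP (g : G) :
    eigP ρ χ s * ρ g * eigP ρ χ s = coefP χ t s g • eigP ρ χ s := (compress h g).1

theorem compressQ (g : G) : (1 - eigP ρ χ s) * ρ g * (1 - eigP ρ χ s) =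
    coefQ χ t s g • (1 - eigP ρ χ s) := (compress h g).2

omit h

variable (χ t) in
/-- The product of the two off diagonal parts. -/
def coefB (s g k : G) : A := coefP χ t s (g * k) - coefP χ t s g * coefP χ t s k

variable (χ t) in
/-- The product in the other order. -/
def coefB' (s g k : G) : A := coefQ χ t s (k * g) - coefQ χ t s k * coefQ χ t s g

include h

theorem offP (g k : G) :
    (eigP ρ χ s * ρ g * (1 - eigP ρ χ s)) * ((1 - eigP ρ χ s) * ρ k * eigP ρ χ s) =
      coefB χ t s g k • eigP ρ χ s := by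
  set P := eigP ρ χ s
  have hPP : P * P = P := isIdempotent_eigP h
  have hQQ : (1 - P) * (1 - P) = 1 - P := by
    rw [sub_mul, one_mul, mul_sub, mul_one, hPP, sub_self, sub_zero]
  calc P * ρ g * (1 - P) * ((1 - P) * ρ k * P)
      = P * ρ g * ((1 - P) * (1 - P)) * ρ k * P := by simp only [mul_assoc]
    _ = P * ρ (g * k) * P - P * ρ g * P * ρ k * P := by
        rw [hQQ, map_mul]; simp only [mul_sub, sub_mul, mul_one, mul_assoc]
    _ = _ := by
        rw [compressP h, compressP h, smul_mul_assoc, smul_mul_assoc, compressP h,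
          coefB, sub_smul, smul_smul]

theorem offQ (g k : G) :
    ((1 - eigP ρ χ s) * ρ k * eigP ρ χ s) * (eigP ρ χ s * ρ g * (1 - eigP ρ χ s)) =
      coefB' χ t s g k • (1 - eigP ρ χ s) := by
  set P := eigP ρ χ s
  set Q := 1 - P with hQ
  have hPP : P * P = P := isIdempotent_eigP h
  calc Q * ρ k * P * (P * ρ g * Q)
      = Q * ρ k * (P * P) * ρ g * Q := by simp only [mul_assoc]
    _ = Q * ρ k * (1 - Q) * ρ g * Q := by rw [hPP, hQ, sub_sub_cancel]
    _ = Q * ρ (k * g) * Q - Q * ρ k * Q * ρ g * Q := by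
        rw [map_mul]; simp only [mul_sub, sub_mul, mul_one, mul_assoc]
    _ = _ := by
        rw [compressQ h, compressQ h, smul_mul_assoc, smul_mul_assoc, compressQ h, coefB', sub_smul,
          smul_smul]

variable (hfaith : ∀ a : A, a • eigP ρ χ s = 0 → a = 0)
include hfaith

theorem coefB_mul (g k : G) : coefB' χ t s g k * coefB χ t s g k = coefB χ t s g k * coefB χ t s g k := by
  refine sub_eq_zero.mp (hfaith _ ?_)
  rw [sub_smul, sub_eq_zero, mul_smul, mul_smul, ← offP h g k]
  set u := eigP ρ χ s * ρ g * (1 - eigP ρ χ s)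
  set w := (1 - eigP ρ χ s) * ρ k * eigP ρ χ s
  have hQQ : (1 - eigP ρ χ s) * (1 - eigP ρ χ s) = 1 - eigP ρ χ s := by
    rw [sub_mul, one_mul, mul_sub, mul_one, isIdempotent_eigP h, sub_self, sub_zero]
  have hQw : (1 - eigP ρ χ s) * w = w := by simp only [w, ← mul_assoc, hQQ]
  have hwP : w * eigP ρ χ s = w := by simp only [w, mul_assoc, isIdempotent_eigP h]
  calc coefB' χ t s g k • (u * w) = u * (coefB' χ t s g k • ((1 - eigP ρ χ s) * w)) := by
        rw [hQw, mul_smul_comm]
    _ = u * ((w * u) * w) := by rw [← smul_mul_assoc, ← offQ h g k]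
    _ = (u * w) * (u * w) := by simp only [mul_assoc]
    _ = u * (w * (coefB χ t s g k • eigP ρ χ s)) := by rw [← offP h g k]; simp only [u, w, mul_assoc]
    _ = coefB χ t s g k • (u * w) := by rw [mul_smul_comm, hwP, mul_smul_comm]

theorem coefB_sub_nilpotent (g k : G) :
    ((coefB χ t s g k - coefB' χ t s g k) * (coefB χ t s g k - coefB' χ t s g k)) •
      (1 - eigP ρ χ s) = 0 := by
  set b := coefB χ t s g k
  set b' := coefB' χ t s g k
  set u := eigP ρ χ s * ρ g * (1 - eigP ρ χ s)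
  set w := (1 - eigP ρ χ s) * ρ k * eigP ρ χ s
  have hQQ : (1 - eigP ρ χ s) * (1 - eigP ρ χ s) = 1 - eigP ρ χ s := by
    rw [sub_mul, one_mul, mul_sub, mul_one, isIdempotent_eigP h, sub_self, sub_zero]
  have hPu : eigP ρ χ s * u = u := by simp only [u, ← mul_assoc, isIdempotent_eigP h]
  have huQ : u * (1 - eigP ρ χ s) = u := by simp only [u, mul_assoc, hQQ]
  have hu : b • u = b' • u := by
    calc b • u = (b • eigP ρ χ s) * u := by rw [smul_mul_assoc, hPu]
      _ = u * (w * u) := by rw [← offP h g k]; simp only [mul_assoc, u, w]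
      _ = b' • u := by rw [offQ h g k, mul_smul_comm, huQ]
  have hzero : ((b - b') * b') • (1 - eigP ρ χ s) = 0 := by
    rw [mul_smul, ← offQ h g k, ← mul_smul_comm, sub_smul, hu, sub_self, mul_zero]
  have hb : b' * b = b * b := coefB_mul h hfaith g k
  have e : (b - b') * (b - b') = -((b - b') * b') := by linear_combination -hb
  rw [e, neg_smul, hzero, neg_zero]

variable [FiniteDimensional 𝕜 V]

/-- **Equal dimensions.** -/
theorem finrank_range_eq (hB : Ideal.span (Set.range fun gk : G × G => coefB χ t s gk.1 gk.2) = ⊤) :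
    Module.finrank 𝕜 (LinearMap.range ((eigP ρ χ s).restrictScalars 𝕜)) =
      Module.finrank 𝕜 (LinearMap.range ((1 - eigP ρ χ s).restrictScalars 𝕜)) := by
  set P := eigP ρ χ s
  set Q := 1 - P
  have hone : (1 : A) ∈ Ideal.span (Set.range fun gk : G × G => coefB χ t s gk.1 gk.2) := by
    rw [hB]; trivial
  obtain ⟨x, hx⟩ := Finsupp.mem_ideal_span_range_iff_exists_finsupp.mp hone
  rw [Finsupp.sum] at hx
  let tr : Module.End A V →ₗ[𝕜] 𝕜 :=
    { toFun := fun T => LinearMap.trace 𝕜 V (T.restrictScalars 𝕜)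
      map_add' := fun T T' => by
        rw [show (T + T').restrictScalars 𝕜 = T.restrictScalars 𝕜 + T'.restrictScalars 𝕜 from rfl,
          map_add]
      map_smul' := fun c T => by
        rw [show (c • T).restrictScalars 𝕜 = c • T.restrictScalars 𝕜 from rfl, map_smul]
        rfl }
  have hcomm : ∀ T T' : Module.End A V, tr (T * T') = tr (T' * T) := fun T T' =>
    LinearMap.trace_mul_comm 𝕜 (T.restrictScalars 𝕜) (T'.restrictScalars 𝕜)
  have htr : ∀ {T : Module.End A V}, T * T = T →
      tr T = (Module.finrank 𝕜 (LinearMap.range (T.restrictScalars 𝕜)) : 𝕜) := fun {T} hT => by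
    refine LinearMap.IsProj.trace ⟨fun v => LinearMap.mem_range_self _ v, ?_⟩
    rintro _ ⟨v, rfl⟩
    exact DFunLike.congr_fun hT v
  have hPP : P * P = P := isIdempotent_eigP h
  have hQQ : Q * Q = Q := by simp only [Q, sub_mul, one_mul, mul_sub, mul_one, hPP]; abel
  have hswap : ∀ gk : G × G, tr ((x gk * coefB χ t s gk.1 gk.2) • P) =
      tr ((x gk * coefB' χ t s gk.1 gk.2) • Q) := fun gk => by
    rw [mul_smul, ← offP h, mul_smul, ← offQ h, ← smul_mul_assoc, hcomm, mul_smul_comm]
  set ν : A := ∑ gk ∈ x.support, x gk * (coefB' χ t s gk.1 gk.2 - coefB χ t s gk.1 gk.2)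
  have hsplit : ∑ gk ∈ x.support, x gk * coefB' χ t s gk.1 gk.2 = 1 + ν := by
    simp only [ν, mul_sub, Finset.sum_sub_distrib, hx]; abel
  have hnil : IsNilpotent (ν • Q) := by
    have e : ν • Q = ∑ gk ∈ x.support,
        (x gk * (coefB' χ t s gk.1 gk.2 - coefB χ t s gk.1 gk.2)) • Q := Finset.sum_smul
    rw [e]
    refine Commute.isNilpotent_sum (fun gk _ => ⟨2, ?_⟩) fun i j _ _ => ?_
    · rw [pow_two, smul_mul_smul_comm, hQQ,
        show x gk * (coefB' χ t s gk.1 gk.2 - coefB χ t s gk.1 gk.2) *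
            (x gk * (coefB' χ t s gk.1 gk.2 - coefB χ t s gk.1 gk.2)) =
          (x gk * x gk) * ((coefB χ t s gk.1 gk.2 - coefB' χ t s gk.1 gk.2) *
            (coefB χ t s gk.1 gk.2 - coefB' χ t s gk.1 gk.2)) by ring,
        mul_smul, coefB_sub_nilpotent h hfaith, smul_zero]
    · show _ • Q * _ • Q = _ • Q * _ • Q
      rw [smul_mul_smul_comm, smul_mul_smul_comm, mul_comm]
  have hν : tr (ν • Q) = 0 := by
    obtain ⟨n, hn⟩ := hnil
    have hn' : IsNilpotent ((ν • Q).restrictScalars 𝕜) := ⟨n, by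
      refine LinearMap.ext fun v => ?_
      rw [Module.End.pow_apply]
      have := DFunLike.congr_fun hn v
      rw [Module.End.pow_apply] at this
      exact this⟩
    exact (LinearMap.isNilpotent_trace_of_isNilpotent hn').eq_zero
  have hmain : tr P = tr Q := by
    calc tr P = tr ((∑ gk ∈ x.support, x gk * coefB χ t s gk.1 gk.2) • P) := by rw [hx, one_smul]
      _ = tr ((∑ gk ∈ x.support, x gk * coefB' χ t s gk.1 gk.2) • Q) := by
          rw [Finset.sum_smul, Finset.sum_smul, map_sum, map_sum]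
          exact Finset.sum_congr rfl fun gk _ => hswap gk
      _ = tr Q := by rw [hsplit, add_smul, one_smul, map_add, hν, add_zero]
  rw [htr hPP, htr hQQ] at hmain
  exact_mod_cast hmain

omit [FiniteDimensional 𝕜 V]

/-- **Reducibility at a prime containing the off diagonal products**: the scalar becomes a
character, and the relation becomes `t = a + χ a⁻¹`. -/
theorem hom_of_mem {I : Ideal A} (hI : ∀ g k, coefB χ t s g k ∈ I) :
    Ideal.Quotient.mk I (coefP χ t s 1) = 1 ∧
    (∀ g k, Ideal.Quotient.mk I (coefP χ t s (g * k)) =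
      Ideal.Quotient.mk I (coefP χ t s g) * Ideal.Quotient.mk I (coefP χ t s k)) ∧
    Ideal.Quotient.mk I (coefP χ t s s) = Ideal.Quotient.mk I (algebraMap 𝕜 A (χ s)) ∧
    ∀ g, Ideal.Quotient.mk I (t g) = Ideal.Quotient.mk I (coefP χ t s g) +
      Ideal.Quotient.mk I (algebraMap 𝕜 A (χ g)) * Ideal.Quotient.mk I (coefP χ t s g⁻¹) := by
  set P := eigP ρ χ s
  have hPP : P * P = P := isIdempotent_eigP h
  have hinj : ∀ {a b : A}, a • P = b • P → a = b := fun {a b} e =>
    sub_eq_zero.mp (hfaith _ (by rw [sub_smul, e, sub_self]))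
  refine ⟨?_, fun g k => ?_, ?_, fun g => ?_⟩
  · rw [show coefP χ t s 1 = 1 from hinj (by
      rw [← compressP h, map_one, mul_one, hPP, one_smul]), map_one]
  · rw [← map_mul, Ideal.Quotient.eq]
    exact hI g k
  · rw [show coefP χ t s s = algebraMap 𝕜 A (χ s) from hinj (by
      rw [← compressP h, eigP_mul_rho h, smul_mul_assoc, hPP, algebraMap_smul])]
  · rw [← map_mul, ← map_add]
    refine congrArg _ (hinj ?_)
    calc t g • P = P * (t g • (1 : Module.End A V)) * P := by
          rw [mul_smul_comm, mul_one, smul_mul_assoc, hPP]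
      _ = P * (ρ g + (χ g : 𝕜) • ρ g⁻¹) * P := by rw [h.rel]
      _ = P * ρ g * P + (χ g : 𝕜) • (P * ρ g⁻¹ * P) := by
          rw [mul_add, add_mul, mul_smul_comm, smul_mul_assoc]
      _ = _ := by rw [compressP h, compressP h, add_smul, mul_smul, algebraMap_smul]

omit hfaith

/-- A unipotent element has scalar one modulo a prime containing the off diagonal products. -/
theorem coefP_of_unip (hfaith : ∀ a : A, a • eigP ρ χ s = 0 → a = 0) {I : Ideal A} [I.IsPrime]
    (hI : ∀ g k, coefB χ t s g k ∈ I) {g : G} (hg : (ρ g - 1) * (ρ g - 1) = 0) :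
    Ideal.Quotient.mk I (coefP χ t s g) = 1 := by
  obtain ⟨h1, hmul, -, -⟩ := hom_of_mem h hfaith hI
  set P := eigP ρ χ s
  have hPP : P * P = P := isIdempotent_eigP h
  have hinj : ∀ {a b : A}, a • P = b • P → a = b := fun {a b} e =>
    sub_eq_zero.mp (hfaith _ (by rw [sub_smul, e, sub_self]))
  have e : coefP χ t s (g * g) = 2 * coefP χ t s g - 1 := hinj (by
    have h2 := congrArg (fun T => P * T * P) hg
    simp only [sub_mul, mul_sub, one_mul, mul_one, hPP, mul_zero, zero_mul, sub_eq_zero] at h2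
    rw [← compressP h, map_mul, sub_smul, mul_smul, one_smul, ← compressP h, two_smul]
    linear_combination (norm := abel) h2)
  have h2 := hmul g g
  rw [e, map_sub, map_mul, map_one, map_ofNat] at h2
  refine sub_eq_zero.mp (mul_self_eq_zero.mp ?_)
  linear_combination -h2

end FA.Mazur

end
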