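import Fermat.Agent.Mazur.EisGalois
import Fermat.Agent.Mazur.EigenBound
import Fermat.Agent.Mazur.KernelAlgebra
import Fermat.Agent.Mazur.IntegralRing
import Fermat.Agent.Local.Minkowski
import Fermat.Agent.JTorsion.CycloRes
import Fermat.Agent.ModField.Semistable.FromFibreData
import Fermat.Agent.ModField.Semistable.HasFibre

/-!
# An inertia element at `l` splits the Eisenstein lattice into two halves

If the scalar of the relation is `1 + χ` on inertia at `l` and `ρ(s) - 1` is faithful over the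
Eisenstein factor for an element `s` with `χ(s) ≠ 1`, then the two eigenspaces of `s` have the same
rank, as no Eisenstein eigen system exists in characteristic zero.
-/

set_option autoImplicit false
set_option linter.style.haveILetI false
set_option linter.unusedSectionVars false

noncomputable section

namespace FA.Mazur

open scoped TensorProduct
open ModularCurve FA.JTorsion FA.Level

set_option synthInstance.maxHeartbeats 400000
set_option maxHeartbeats 2000000

local notation "Qb" => AlgebraicClosure ℚ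
local notation "GQ" => AlgebraicClosure ℚ ≃ₐ[ℚ] AlgebraicClosure ℚ

theorem semistableTors_congr {N N' : ℕ} [NeZero N] [NeZero N'] {q : ℕ} (e : N = N')
    (h : FA.ModField.SemistableTors N q) : FA.ModField.SemistableTors N' q := by
  subst e; exact h

/-- Inertia at `p` is unipotent on the torsion of `J₀(p)` prime to `p`. -/
theorem semistableTors_level (p : ℕ) [hp : Fact p.Prime] :
    FA.ModField.SemistableTors p p := by
  haveI : NeZero (1 * p) := ⟨by rw [one_mul]; exact hp.out.ne_zero⟩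
  exact semistableTors_congr (one_mul p) (FA.ModField.semistableTors_of_fibre 1 p fun _ hA =>
    FA.ModField.hasInertiaFibre_of_fibreData FA.ModField.hasFibreData 1 p
      (fun h => hp.out.one_lt.ne' (Nat.dvd_one.1 h)) hA)

variable [Algebra (AlgebraicClosure ℚ) ℂ]
variable (p : ℕ) [Fact p.Prime] (l : ℕ) [hl : Fact l.Prime] (hn : l ∣ eisensteinNumerator p)

/-- Inertia at `p` is unipotent on the lattice. -/
theorem rhoM_unip (hlp : ¬ l ∣ p) {A : ValuationSubring Qb} (hA : A.LiesOverPrime p) {g : GQ}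
    (hg : g ∈ A.inertiaSubgroupIn ℚ) (v : EisM p l hn) :
    rhoM p l hn g (rhoM p l hn g v) + v = 2 • rhoM p l hn g v := by
  refine sub_eq_zero.1 (eq_zero_of_forall_pow_smul l fun k => ?_)
  obtain ⟨u, hu⟩ := (tauM_eq_zero_iff p l hn (k := k)
    (v := rhoM p l hn g (rhoM p l hn g v) + v - 2 • rhoM p l hn g v)).1 (by
      rw [map_sub, map_add, map_nsmul, tauM_rhoM, tauM_rhoM, sub_eq_zero]
      refine semistableTors_level p A hA g hg (l ^ k) (fun h => ?_) _ (pow_nsmul_tauM p l hn k v)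
      exact hlp ((Nat.prime_dvd_prime_iff_eq Fact.out hl.out).1
        ((Fact.out : p.Prime).dvd_of_dvd_pow h) ▸ dvd_rfl))
  exact ⟨u, hu.symm⟩

/-- The relation at a Frobenius element, with the Hecke operator. -/
theorem relOp_frobenius_eq {q : ℕ} (hq : q.Prime) (hqp : q ≠ p) (hql : q ≠ l)
    {A : ValuationSubring Qb} (hA : A.LiesOverPrime q) {g : GQ} (hg : A.IsFrobeniusAt g q) :
    relOp p l hn g = heckeR p l hn (tGen p ⟨q, hq⟩) • 1 := by
  have hqN : ¬ q ∣ p := fun h => hqp ((Nat.prime_dvd_prime_iff_eq hq Fact.out).1 h)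
  haveI : NeZero q := ⟨hq.ne_zero⟩
  rw [show tGen p ⟨q, hq⟩ = CuspForm.heckeAlgebra.T (k := 2) hq hqN (Set.notMem_empty q) from
    CuspForm.heckeEvalForms_heckeGen_of_not_dvd (ℓ := (⟨q, hq⟩ : Nat.Primes)) hqN]
  refine eq_of_forall_powTop (T := TAlg p) (X := XLat p) (lIdeal p l hn) (F := relOp p l hn g)
    (F' := heckeR p l hn _ • 1) fun k x => ?_
  have hqk : ¬ q ∣ l ^ k := fun h =>
    hql ((Nat.prime_dvd_prime_iff_eq hq hl.out).1 (hq.dvd_of_dvd_pow h))
  rw [relOp, chiR_frobenius p l hn hq hql hA hg]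
  exact limRep_relation_mem (lIdeal p l hn) (powCompat_pMult p l hn) (actK p l)
    (actK_compat p l) (c := q) (galMod_frobenius p (∅ : Set ℕ) (l ^ k) (goodRed_all p) hq
      hqN hqk hA (Set.notMem_empty q) hg) _

/-- Congruent group elements have congruent scalars. -/
theorem exists_tR_congr : ∃ c : ℕ, ∀ n : ℕ, ∃ E : IntermediateField ℚ Qb, FiniteDimensional ℚ E ∧
    ∀ g : GQ, (∀ x ∈ E, g x = x) →
      (∃ y : ℤ_[l], (cycP l g : ℤ_[l]) = 1 + (l : ℤ_[l]) ^ n * y) ∧
      ∀ h, ∃ r, tR p l hn (h * g) - tR p l hn h = (l : EisR p l hn) ^ n * r := by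
  obtain ⟨c, hc⟩ := exists_saturation p l hn
  refine ⟨c, fun n => ?_⟩
  obtain ⟨E, hE, hEact⟩ := exists_field_galMod p (∅ : Set ℕ) (l ^ (n + c))
  obtain ⟨E', hE', hEχ⟩ := exists_field_cycP l (n + c)
  haveI := hE
  haveI := hE'
  refine ⟨E ⊔ E', inferInstance, fun g hg => ?_⟩
  have hchi := hEχ g fun x hx => hg x ((le_sup_right : E' ≤ E ⊔ E') hx)
  have hgi : ∀ x ∈ E, g⁻¹ x = x := fun x hx => by
    conv_lhs => rw [← hg x ((le_sup_left : E ≤ E ⊔ E') hx)]
    exact g.symm_apply_apply x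
  obtain ⟨b, hb⟩ : ∃ b : ℤ_[l], (cycP l g : ℤ_[l]) = 1 + (l : ℤ_[l]) ^ (n + c) * b := by
    have h : (cycP l g : ℤ_[l]) - 1 ∈ RingHom.ker (PadicInt.toZModPow (n + c)) := by
      rw [RingHom.mem_ker, map_sub, map_one, hchi, sub_self]
    rw [PadicInt.ker_toZModPow, Ideal.mem_span_singleton'] at h
    obtain ⟨b, hb⟩ := h
    exact ⟨b, by rw [mul_comm, hb, add_sub_cancel]⟩
  refine ⟨⟨(l : ℤ_[l]) ^ c * b, by rw [hb, pow_add, mul_assoc]⟩, fun h => hc n _ fun v => ?_⟩
  set w := rhoM p l hn h⁻¹ v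
  obtain ⟨u1, hu1⟩ := rhoM_sub_mem p l hn (hEact g fun x hx => hg x
    ((le_sup_left : E ≤ E ⊔ E') hx)) v
  obtain ⟨u2, hu2⟩ := rhoM_sub_mem p l hn (hEact g⁻¹ hgi) w
  have hA : ∀ (x : GQ) (z : EisM p l hn), (chiR p l hn x : EisR p l hn) • z =
      (cycP l x : ℤ_[l]) • z := fun x z => algebraMap_smul _ _ _
  have h1 := LinearMap.congr_fun (relOp_eq p l hn (h * g)) v
  have h2 := LinearMap.congr_fun (relOp_eq p l hn h) v
  simp only [LinearMap.add_apply, LinearMap.smul_apply, mul_inv_rev, map_mul,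
    Module.End.mul_apply, Module.End.one_apply] at h1 h2
  rw [← map_mul, hA] at h1
  rw [hA] at h2
  refine ⟨rhoM p l hn h u1 + (cycP l (h * g) : ℤ_[l]) • u2 + ((cycP l h : ℤ_[l]) * b) • w, ?_⟩
  rw [sub_smul, ← h1, ← h2, smul_add, smul_add, ← LinearMap.map_smul_of_tower, hu1,
    smul_comm _ (cycP l (h * g) : ℤ_[l]), hu2, map_sub, map_mul (cycP l), Units.val_mul, hb,
    smul_sub]
  simp only [mul_add, mul_one, add_smul, smul_smul]
  rw [mul_left_comm ((cycP l h : ℤ_[l])) ((l : ℤ_[l]) ^ (n + c)) b]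
  abel

/-! ### The rational representation -/

/-- The rational Eisenstein factor. -/
abbrev EisA : Type := ℚ_[l] ⊗[ℤ_[l]] EisR p l hn

/-- The rational lattice. -/
abbrev EisV : Type := ℚ_[l] ⊗[ℤ_[l]] EisM p l hn

/-- The action of the rational factor. -/
def actV : EisA p l hn →ₐ[ℚ_[l]] Module.End ℚ_[l] (EisV p l hn) :=
  Algebra.TensorProduct.lift (Algebra.ofId ℚ_[l] _)
    ((Module.End.baseChangeHom ℤ_[l] ℚ_[l] (EisM p l hn)).comp
      (Algebra.lsmul ℤ_[l] ℤ_[l] (EisM p l hn)))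
    fun c t => Algebra.commutes c _

theorem actV_tmul (c d : ℚ_[l]) (r : EisR p l hn) (v : EisM p l hn) :
    actV p l hn (c ⊗ₜ[ℤ_[l]] r) (d ⊗ₜ[ℤ_[l]] v) = (c * d) ⊗ₜ[ℤ_[l]] (r • v) := by
  erw [Algebra.TensorProduct.lift_tmul]
  rw [Module.End.mul_apply]
  show (algebraMap ℚ_[l] (Module.End ℚ_[l] (EisV p l hn)) c) (d ⊗ₜ[ℤ_[l]] (r • v)) = _
  rw [Module.algebraMap_end_apply, TensorProduct.smul_tmul', smul_eq_mul]

instance eisV_module : Module (EisA p l hn) (EisV p l hn) :=
  Module.compHom _ (actV p l hn).toRingHom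

theorem eisA_smul (a : EisA p l hn) (x : EisV p l hn) : a • x = actV p l hn a x := rfl

instance eisV_tower : IsScalarTower ℚ_[l] (EisA p l hn) (EisV p l hn) :=
  ⟨fun c a x => by rw [eisA_smul, eisA_smul, map_smul, LinearMap.smul_apply]⟩

/-- The rational Galois action, linear over the rational factor. -/
def rhoVFun (g : GQ) : Module.End (EisA p l hn) (EisV p l hn) where
  toFun := ((rhoM p l hn g).restrictScalars ℤ_[l]).baseChange ℚ_[l]
  map_add' := map_add _
  map_smul' a x := by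
    rw [RingHom.id_apply]
    induction a using TensorProduct.induction_on with
    | zero => simp [eisA_smul]
    | tmul c r =>
      induction x using TensorProduct.induction_on with
      | zero => simp [eisA_smul]
      | tmul d v =>
        rw [eisA_smul, eisA_smul, actV_tmul, LinearMap.baseChange_tmul, LinearMap.baseChange_tmul,
          LinearMap.restrictScalars_apply, LinearMap.restrictScalars_apply, map_smul, actV_tmul]
      | add y z hy hz => simp only [smul_add, map_add, hy, hz]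
    | add b c hb hc => simp only [add_smul, map_add, hb, hc]

theorem rhoVFun_tmul (g : GQ) (c : ℚ_[l]) (v : EisM p l hn) :
    rhoVFun p l hn g (c ⊗ₜ[ℤ_[l]] v) = c ⊗ₜ[ℤ_[l]] rhoM p l hn g v := rfl

theorem end_eisV_ext {T T' : Module.End (EisA p l hn) (EisV p l hn)}
    (h : ∀ (c : ℚ_[l]) (v : EisM p l hn), T (c ⊗ₜ[ℤ_[l]] v) = T' (c ⊗ₜ[ℤ_[l]] v)) : T = T' :=
  LinearMap.ext fun x => by
    induction x using TensorProduct.induction_on with
    | zero => rw [map_zero, map_zero]
    | tmul c v => exact h c v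
    | add y z hy hz => rw [map_add, map_add, hy, hz]

/-- The rational Galois action. -/
def rhoV : GQ →* Module.End (EisA p l hn) (EisV p l hn) where
  toFun := rhoVFun p l hn
  map_one' := end_eisV_ext p l hn fun c v => by
    rw [rhoVFun_tmul, map_one, Module.End.one_apply, Module.End.one_apply]
  map_mul' g g' := end_eisV_ext p l hn fun c v => by
    rw [Module.End.mul_apply, rhoVFun_tmul, rhoVFun_tmul, rhoVFun_tmul, map_mul,
      Module.End.mul_apply]

theorem rhoV_tmul (g : GQ) (c : ℚ_[l]) (v : EisM p l hn) :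
    rhoV p l hn g (c ⊗ₜ[ℤ_[l]] v) = c ⊗ₜ[ℤ_[l]] rhoM p l hn g v := rfl

/-- The rational character. -/
def chiQ : GQ →* ℚ_[l]ˣ := (Units.map (algebraMap ℤ_[l] ℚ_[l]).toMonoidHom).comp (cycP l)

theorem chiQ_val (g : GQ) : (chiQ l g : ℚ_[l]) = algebraMap ℤ_[l] ℚ_[l] (cycP l g : ℤ_[l]) := rfl

/-- The rational scalar. -/
def tV (g : GQ) : EisA p l hn := (1 : ℚ_[l]) ⊗ₜ[ℤ_[l]] tR p l hn g

theorem algebraMap_chiQ (g : GQ) :
    algebraMap ℚ_[l] (EisA p l hn) (chiQ l g) =
      (1 : ℚ_[l]) ⊗ₜ[ℤ_[l]] (chiR p l hn g : EisR p l hn) := by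
  rw [chiQ_val, chiR_val, Algebra.algebraMap_eq_smul_one (R := ℤ_[l]) (A := EisR p l hn),
    TensorProduct.tmul_smul, TensorProduct.smul_tmul', Algebra.smul_def, mul_one,
    Algebra.TensorProduct.algebraMap_apply, Algebra.algebraMap_self, RingHom.id_apply]

theorem rhoV_rel (g : GQ) :
    rhoV p l hn g + (chiQ l g : ℚ_[l]) • rhoV p l hn g⁻¹ =
      tV p l hn g • (1 : Module.End (EisA p l hn) (EisV p l hn)) := by
  refine end_eisV_ext p l hn fun c v => ?_
  have h := LinearMap.congr_fun (relOp_eq p l hn g) v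
  simp only [LinearMap.add_apply, LinearMap.smul_apply, Module.End.one_apply] at h
  rw [LinearMap.add_apply, LinearMap.smul_apply, LinearMap.smul_apply, Module.End.one_apply,
    rhoV_tmul, rhoV_tmul, eisA_smul, tV, actV_tmul, one_mul, ← h, chiQ_val, algebraMap_smul,
    ← TensorProduct.tmul_smul, TensorProduct.tmul_add, chiR_val, algebraMap_smul]

/-- Denominators clear. -/
theorem exists_clear (a : EisA p l hn) :
    ∃ (c : ℤ_[l]) (r : EisR p l hn), c ≠ 0 ∧ c • a = (1 : ℚ_[l]) ⊗ₜ[ℤ_[l]] r := by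
  induction a using TensorProduct.induction_on with
  | zero => exact ⟨1, 0, one_ne_zero, by simp⟩
  | tmul q r =>
    obtain ⟨⟨x, c, hc⟩, h⟩ := IsLocalization.surj (nonZeroDivisors ℤ_[l]) q
    refine ⟨c, x • r, nonZeroDivisors.ne_zero hc, ?_⟩
    rw [TensorProduct.smul_tmul', TensorProduct.tmul_smul, TensorProduct.smul_tmul',
      Algebra.smul_def, Algebra.smul_def, mul_one]
    exact congrArg (· ⊗ₜ[ℤ_[l]] r) ((mul_comm _ _).trans h)
  | add a b ha hb =>
    obtain ⟨c, r, hc, hr⟩ := ha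
    obtain ⟨c', r', hc', hr'⟩ := hb
    refine ⟨c * c', c' • r + c • r', mul_ne_zero hc hc', ?_⟩
    rw [smul_add, TensorProduct.tmul_add, TensorProduct.tmul_smul, TensorProduct.tmul_smul, ← hr,
      ← hr', smul_smul, smul_smul, mul_comm c' c]

theorem mk_injective :
    Function.Injective fun v : EisM p l hn => (1 : ℚ_[l]) ⊗ₜ[ℤ_[l]] v := by
  intro v w h
  refine (Module.Free.chooseBasis ℤ_[l] (EisM p l hn)).ext_elem fun i => ?_
  have h1 := congrArg (fun x =>
    ((Module.Free.chooseBasis ℤ_[l] (EisM p l hn)).baseChange ℚ_[l]).repr x i) h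
  simp only [Module.Basis.baseChange_repr_tmul, Algebra.smul_def, mul_one] at h1
  exact IsFractionRing.injective ℤ_[l] ℚ_[l] h1

/-! ### The split -/

variable {s : GQ}

theorem chiQ_ne_one {g : GQ} (hg : (cycP l g : ℤ_[l]) ≠ 1) : (chiQ l g : ℚ_[l]) ≠ 1 := fun h =>
  hg (IsFractionRing.injective ℤ_[l] ℚ_[l] (by rw [← chiQ_val, h, map_one]))

theorem isSplitRel (hs : (cycP l s : ℤ_[l]) ≠ 1)
    (hts : tR p l hn s = 1 + (chiR p l hn s : EisR p l hn)) :
    IsSplitRel (rhoV p l hn) (chiQ l) (tV p l hn) s where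
  rel := rhoV_rel p l hn
  ne_one := chiQ_ne_one l hs
  t_s := by rw [tV, hts, TensorProduct.tmul_add, algebraMap_chiQ]; rfl

theorem faithful_eigP (hs : (cycP l s : ℤ_[l]) ≠ 1)
    (hf : ∀ r : EisR p l hn, (∀ v, r • (rhoM p l hn s v - v) = 0) → r = 0) :
    ∀ a : EisA p l hn, a • eigP (rhoV p l hn) (chiQ l) s = 0 → a = 0 := by
  intro a ha
  obtain ⟨c, r, hc, hr⟩ := exists_clear p l hn a
  have hr0 : r = 0 := hf r fun v => mk_injective p l hn (by
    have hinv : ((chiQ l s : ℚ_[l]) - 1)⁻¹ ≠ 0 :=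
      inv_ne_zero (sub_ne_zero.2 (chiQ_ne_one l hs))
    have h1 := LinearMap.congr_fun ha ((1 : ℚ_[l]) ⊗ₜ[ℤ_[l]] v)
    rw [eigP, LinearMap.smul_apply, LinearMap.smul_apply, LinearMap.sub_apply,
      Module.End.one_apply, rhoV_tmul, ← TensorProduct.tmul_sub, LinearMap.zero_apply,
      smul_comm, smul_eq_zero] at h1
    have h2 : (c • a) • ((1 : ℚ_[l]) ⊗ₜ[ℤ_[l]] (rhoM p l hn s v - v)) = (0 : EisV p l hn) := by
      rw [← algebraMap_smul ℚ_[l] c a, smul_assoc, h1.resolve_left hinv, smul_zero]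
    rw [hr, eisA_smul, actV_tmul, one_mul] at h2
    simpa using h2)
  rw [hr0, TensorProduct.tmul_zero, ← algebraMap_smul ℚ_[l] c a, smul_eq_zero] at hr
  exact hr.resolve_left fun h => hc (IsFractionRing.injective ℤ_[l] ℚ_[l] (h.trans (map_zero _).symm))

variable [Algebra (AlgebraicClosure ℚ) (PadicComplex l)]

set_option maxHeartbeats 4000000 in
/-- **The two eigenspaces of `s` have the rank of the Eisenstein factor.** -/
theorem finrank_eigP (hlp : ¬ l ∣ p) (hsI : s ∈ inGp l) (hs : (cycP l s : ℤ_[l]) ≠ 1)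
    (htI : ∀ g ∈ inGp l, tR p l hn g = 1 + (chiR p l hn g : EisR p l hn))
    (hf : ∀ r : EisR p l hn, (∀ v, r • (rhoM p l hn s v - v) = 0) → r = 0) :
    Module.finrank ℚ_[l]
      (LinearMap.range ((eigP (rhoV p l hn) (chiQ l) s).restrictScalars ℚ_[l])) =
      Module.finrank ℤ_[l] (EisR p l hn) := by
  classical
  have hsplit := isSplitRel p l hn hs (htI s hsI)
  have hfaith := faithful_eigP p l hn hs hf
  set P := eigP (rhoV p l hn) (chiQ l) s
  have hPP : P * P = P := isIdempotent_eigP hsplit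
  have hinj : ∀ {a b : EisA p l hn}, a • P = b • P → a = b := fun {a b} e =>
    sub_eq_zero.mp (hfaith _ ((sub_smul a b P).trans (sub_eq_zero.2 e)))
  suffices hB : Ideal.span (Set.range fun gk : GQ × GQ =>
      coefB (chiQ l) (tV p l hn) s gk.1 gk.2) = ⊤ by
    have h1 := finrank_range_eq hsplit hfaith hB
    have hker : LinearMap.ker (P.restrictScalars ℚ_[l]) =
        LinearMap.range ((1 - P).restrictScalars ℚ_[l]) := by
      ext x
      simp only [LinearMap.mem_ker, LinearMap.mem_range, LinearMap.restrictScalars_apply,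
        LinearMap.sub_apply, Module.End.one_apply]
      refine ⟨fun h => ⟨x, by rw [h, sub_zero]⟩, ?_⟩
      rintro ⟨y, rfl⟩
      rw [map_sub, ← Module.End.mul_apply, hPP, sub_self]
    have h2 := LinearMap.finrank_range_add_finrank_ker (P.restrictScalars ℚ_[l])
    rw [hker, ← h1, Module.finrank_baseChange, finrank_eisM] at h2
    change Module.finrank ℚ_[l] (LinearMap.range (P.restrictScalars ℚ_[l])) +
      Module.finrank ℚ_[l] (LinearMap.range (P.restrictScalars ℚ_[l])) = _ at h2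
    omega
  by_contra hne
  obtain ⟨I, hI, hle⟩ := Ideal.exists_le_maximal _ hne
  have hIB : ∀ g k, coefB (chiQ l) (tV p l hn) s g k ∈ I := fun g k =>
    hle (Ideal.subset_span ⟨(g, k), rfl⟩)
  obtain ⟨h1, hmul, hcs, hrel⟩ := hom_of_mem hsplit hfaith hIB
  letI : Field (EisA p l hn ⧸ I) := Ideal.Quotient.field I
  set mk := Ideal.Quotient.mk I
  let ι : ℚ_[l] →+* EisA p l hn ⧸ I := mk.comp (algebraMap ℚ_[l] (EisA p l hn))
  haveI : CharZero (EisA p l hn ⧸ I) := charZero_of_injective_ringHom ι.injective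
  let φ : EisR p l hn →+* EisA p l hn ⧸ I :=
    mk.comp (Algebra.TensorProduct.includeRight (R := ℤ_[l]) (A := ℚ_[l])).toRingHom
  have hφapp : ∀ r, φ r = mk ((1 : ℚ_[l]) ⊗ₜ[ℤ_[l]] r) := fun r => rfl
  let a : GQ → EisA p l hn ⧸ I := fun g => mk (coefP (chiQ l) (tV p l hn) s g)
  let χ : GQ → EisA p l hn ⧸ I := fun g => ι (chiQ l g)
  have hχmul : ∀ g k, χ (g * k) = χ g * χ k := fun g k => by
    show ι _ = _
    rw [map_mul, Units.val_mul, map_mul]
  have hχφ : ∀ g, χ g = φ (algebraMap ℤ_[l] (EisR p l hn) (cycP l g : ℤ_[l])) := fun g =>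
    congrArg mk (algebraMap_chiQ p l hn g)
  set C := χ s - 1
  have hC : C ≠ 0 := by
    show ι _ - 1 ≠ 0
    rw [← map_one ι, ← map_sub]
    exact (map_ne_zero ι).2 (sub_ne_zero.2 (chiQ_ne_one l hs))
  have hCa : ∀ g, C * a g = φ (tR p l hn (s * g) - tR p l hn g) := fun g => by
    rw [hφapp, TensorProduct.tmul_sub]
    show (ι _ - 1) * mk (coefP _ _ s g) = _
    rw [coefP, map_mul mk, ← mul_assoc, ← map_one ι, ← map_sub, show ∀ z, mk (algebraMap ℚ_[l]
      (EisA p l hn) z) = ι z from fun z => rfl, ← map_mul,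
      mul_inv_cancel₀ (sub_ne_zero.2 (chiQ_ne_one l hs)), map_one, one_mul]
    rfl
  -- values on inertia
  have hunr : ∀ g, rhoM p l hn g = 1 → a g = 1 := fun g hg => by
    refine (congrArg mk (hinj (a := coefP (chiQ l) (tV p l hn) s g) (b := 1) ?_)).trans (map_one mk)
    rw [← compressP hsplit, one_smul]
    have e : rhoV p l hn g = 1 := end_eisV_ext p l hn fun c v => by
      rw [rhoV_tmul, hg, Module.End.one_apply, Module.End.one_apply]
    rw [e, mul_one, hPP]
  have hχ1 : ∀ {q : ℕ}, q.Prime → q ≠ l → ∀ {A : ValuationSubring Qb}, A.LiesOverPrime q →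
      ∀ g ∈ A.inertiaSubgroupIn ℚ, χ g = 1 := fun hq hql A hA g hg => by
    show ι _ = 1
    rw [chiQ_val, cycP_inertia l hq hql hA hg, Units.val_one, map_one, map_one]
  have hl' : ∀ g ∈ inGp l, a g = χ g := fun g hg => by
    have e : ∀ k ∈ inGp l, tV p l hn k = 1 + algebraMap ℚ_[l] (EisA p l hn) (chiQ l k) :=
      fun k hk => by rw [tV, htI k hk, TensorProduct.tmul_add, algebraMap_chiQ]; rfl
    show mk _ = mk _
    refine congrArg mk ?_
    rw [coefP, e g hg, e _ (mul_mem hsI hg), add_sub_add_left_eq_sub, map_mul, Units.val_mul,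
      ← map_sub, ← map_mul, ← sub_one_mul, ← mul_assoc,
      inv_mul_cancel₀ (sub_ne_zero.2 (chiQ_ne_one l hs)), one_mul]
  have hp' : ∀ {A : ValuationSubring Qb}, A.LiesOverPrime p → ∀ g ∈ A.inertiaSubgroupIn ℚ,
      a g = 1 := fun hA g hg => by
    haveI : I.IsPrime := hI.isPrime
    refine coefP_of_unip hsplit hfaith hIB (end_eisV_ext p l hn fun c v => ?_)
    have h2 := rhoM_unip p l hn hlp hA hg v
    rw [two_smul, ← sub_eq_zero] at h2
    rw [LinearMap.zero_apply, Module.End.mul_apply, LinearMap.sub_apply, LinearMap.sub_apply,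
      Module.End.one_apply, Module.End.one_apply, rhoV_tmul, ← TensorProduct.tmul_sub,
      rhoV_tmul, ← TensorProduct.tmul_sub, map_sub,
      show rhoM p l hn g (rhoM p l hn g v) - rhoM p l hn g v - (rhoM p l hn g v - v) =
        rhoM p l hn g (rhoM p l hn g v) + v - (rhoM p l hn g v + rhoM p l hn g v) by abel,
      h2, TensorProduct.tmul_zero]
  -- the subgroups of congruence
  obtain ⟨c₀, hc₀⟩ := exists_tR_congr p l hn
  obtain ⟨u, hu⟩ : ∃ u : ℤ_[l]ˣ, (cycP l s : ℤ_[l]) - 1 =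
      (u : ℤ_[l]) * (l : ℤ_[l]) ^ ((cycP l s : ℤ_[l]) - 1).valuation :=
    ⟨_, PadicInt.unitCoeff_spec (sub_ne_zero.2 hs)⟩
  set e := ((cycP l s : ℤ_[l]) - 1).valuation
  have hCe : C = φ (algebraMap ℤ_[l] _ (u : ℤ_[l])) * φ ((l : EisR p l hn) ^ e) := by
    rw [← map_mul, ← map_natCast (algebraMap ℤ_[l] (EisR p l hn)), ← map_pow, ← map_mul, ← hu,
      map_sub, map_sub, ← hχφ, map_one, map_one]
  have hkey : ∀ k : ℕ, ∀ g, ∃ r : EisR p l hn,
      C * (a g - χ g) = φ ((l : EisR p l hn) ^ k * r) := by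
    intro k
    let H : Subgroup GQ :=
      { carrier := {g | ∀ h, ∃ r, C * (a g - χ g) * a h = φ ((l : EisR p l hn) ^ k * r)}
        mul_mem' := fun {g g'} hg hg' h => by
          obtain ⟨r, hr⟩ := hg (g' * h)
          obtain ⟨r', hr'⟩ := hg' h
          refine ⟨r + algebraMap ℤ_[l] _ (cycP l g : ℤ_[l]) * r', ?_⟩
          rw [show a (g' * h) = a g' * a h from hmul g' h] at hr
          rw [show a (g * g') = a g * a g' from hmul g g', hχmul]
          simp only [map_mul, map_add, ← hχφ] at hr hr' ⊢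
          linear_combination hr + χ g * hr'
        one_mem' := fun h => ⟨0, by
          rw [show a 1 = 1 from h1, show χ 1 = 1 by show ι _ = 1; rw [map_one, Units.val_one, map_one],
            sub_self, mul_zero, zero_mul, mul_zero, map_zero]⟩
        inv_mem' := fun {g} hg h => by
          obtain ⟨r, hr⟩ := hg (g⁻¹ * h)
          refine ⟨-(algebraMap ℤ_[l] _ (cycP l g⁻¹ : ℤ_[l]) * r), ?_⟩
          rw [show a (g⁻¹ * h) = a g⁻¹ * a h from hmul _ _] at hr
          simp only [map_mul, map_neg, ← hχφ] at hr ⊢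
          have e1 : a g * a g⁻¹ = 1 := by
            rw [show a g * a g⁻¹ = a (g * g⁻¹) from (hmul _ _).symm, mul_inv_cancel]; exact h1
          have e2 : χ g * χ g⁻¹ = 1 := by
            rw [← hχmul, mul_inv_cancel]
            show ι _ = 1
            rw [map_one, Units.val_one, map_one]
          linear_combination (C * a h * χ g⁻¹) * e1 - (C * a g⁻¹ * a h) * e2 - χ g⁻¹ * hr }
    haveI : H.Normal := ⟨fun g hg x h => by
      obtain ⟨r, hr⟩ := hg h
      refine ⟨r, ?_⟩
      rw [show a (x * g * x⁻¹) = a (x * g) * a x⁻¹ from hmul _ _,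
        show a (x * g) = a x * a g from hmul _ _, hχmul, hχmul, ← hr]
      have e1 : a x * a x⁻¹ = 1 := by
        rw [show a x * a x⁻¹ = a (x * x⁻¹) from (hmul _ _).symm, mul_inv_cancel]; exact h1
      have e2 : χ x * χ x⁻¹ = 1 := by
        rw [← hχmul, mul_inv_cancel]
        show ι _ = 1
        rw [map_one, Units.val_one, map_one]
      linear_combination (C * a h * a g) * e1 - (C * a h * χ g) * e2⟩
    obtain ⟨E, hE, hEg⟩ := hc₀ (k + e)
    have htop := FA.Local.eq_top_of_inertia_le H E (fun g hg h => by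
      obtain ⟨⟨y, hy⟩, hy'⟩ := hEg g hg
      obtain ⟨r₁, hr₁⟩ := hy' s
      obtain ⟨r₂, hr₂⟩ := hy' 1
      -- the value at `h`
      set w := φ (tR p l hn (s * h) - tR p l hn h)
      have hw : C * a h = w := hCa h
      have hC1 : C = φ (tR p l hn s - tR p l hn 1) := by
        have h0 := hCa 1
        rwa [mul_one s, show a 1 = 1 from h1, mul_one] at h0
      rw [one_mul] at hr₂
      have hd : C * (a g - 1) = φ ((l : EisR p l hn) ^ (k + e) * (r₁ - r₂)) := by
        rw [mul_sub, mul_one, hCa, hC1, ← map_sub]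
        exact congrArg φ (by linear_combination hr₁ - hr₂)
      have hχg : χ g - 1 = φ ((l : EisR p l hn) ^ (k + e) * algebraMap ℤ_[l] _ y) := by
        rw [hχφ, hy, map_add, map_one, map_add, map_one, add_sub_cancel_left, map_mul, map_pow,
          map_natCast]
      refine ⟨algebraMap ℤ_[l] _ (↑u⁻¹ : ℤ_[l]) * (r₁ - r₂) *
        (tR p l hn (s * h) - tR p l hn h) -
        (l : EisR p l hn) ^ e * algebraMap ℤ_[l] _ y * (tR p l hn (s * h) - tR p l hn h), ?_⟩
      refine mul_left_cancel₀ hC ?_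
      rw [show C * (C * (a g - χ g) * a h) = (C * (a g - 1) - C * (χ g - 1)) * (C * a h) by ring,
        hd, hχg, hw, hCe]
      simp only [map_mul, map_pow, map_sub, pow_add]
      have hu' : φ (algebraMap ℤ_[l] _ (u : ℤ_[l])) * φ (algebraMap ℤ_[l] _ (↑u⁻¹ : ℤ_[l])) = 1 := by
        rw [← map_mul, ← map_mul, Units.mul_inv, map_one, map_one]
      simp only [w, map_sub]
      linear_combination -(φ (l : EisR p l hn) ^ k * φ (l : EisR p l hn) ^ e * (φ r₁ - φ r₂) *
        (φ (tR p l hn (s * h)) - φ (tR p l hn h))) * hu') fun q hq => ?_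
    · intro g
      obtain ⟨r, hr⟩ := (htop ▸ Subgroup.mem_top g : g ∈ H) 1
      exact ⟨r, by rwa [show a 1 = 1 from h1, mul_one] at hr⟩
    · by_cases hql : q = l
      · subst hql
        exact ⟨placeAt q, placeAt_liesOver q, fun g hg h => ⟨0, by
          rw [hl' g hg, sub_self, mul_zero, zero_mul, mul_zero, map_zero]⟩⟩
      by_cases hqp : q = p
      · subst hqp
        obtain ⟨A, hA⟩ := FA.Deform.exists_liesOverPrime hq
        exact ⟨A, hA, fun g hg h => ⟨0, by
          rw [hp' hA g hg, hχ1 hq hql hA g hg, sub_self, mul_zero, zero_mul, mul_zero, map_zero]⟩⟩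
      obtain ⟨A, hA⟩ := FA.Deform.exists_liesOverPrime hq
      exact ⟨A, hA, fun g hg h => ⟨0, by
        rw [hunr g (rhoM_inertia p l hn hq hqp hql hA hg), hχ1 hq hql hA g hg, sub_self, mul_zero,
          zero_mul, mul_zero, map_zero]⟩⟩
  let φl : EisR p l hn →ₗ[ℤ_[l]] EisA p l hn ⧸ I :=
    (Ideal.Quotient.mkₐ ℤ_[l] I).toLinearMap.comp
      (Algebra.TensorProduct.includeRight (R := ℤ_[l]) (A := ℚ_[l])).toLinearMap
  have heq : ∀ g, a g = χ g := fun g => by
    have hmem : C * (a g - χ g) ∈ LinearMap.range φl := by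
      obtain ⟨r, hr⟩ := hkey 0 g
      exact ⟨_, hr.symm⟩
    have h0 := eq_zero_of_forall_pow_smul l (M := LinearMap.range φl) (x := ⟨_, hmem⟩) fun k => by
      obtain ⟨r, hr⟩ := hkey k g
      refine ⟨⟨φl r, r, rfl⟩, Subtype.ext ?_⟩
      show (l : ℤ_[l]) ^ k • φl r = _
      rw [← map_smul, pow_smul_eq_mul]
      exact hr.symm
    exact sub_eq_zero.1 ((mul_eq_zero.1 (congrArg Subtype.val h0)).resolve_left hC)
  -- the Eisenstein eigen system
  let l' : Nat.Primes := ⟨l, hl.out⟩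
  refine not_eisenstein p (φ.comp (heckeR p l hn)) {pPrime p, l'} fun q hq => ?_
  simp only [Finset.mem_insert, Finset.mem_singleton, not_or] at hq
  have hqp : (q : ℕ) ≠ p := fun h => hq.1 (Subtype.ext h)
  have hql : (q : ℕ) ≠ l := fun h => hq.2 (Subtype.ext h)
  obtain ⟨A, hA⟩ := FA.Deform.exists_liesOverPrime q.2
  obtain ⟨g, hg⟩ := FA.Deform.exists_isFrobeniusAt q.2 hA
  have htR : tR p l hn g = heckeR p l hn (tGen p q) := by
    refine sub_eq_zero.1 (eq_zero_of_forall_smul p l hn fun v => ?_)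
    have h₁ := relOp_frobenius_eq p l hn q.2 hqp hql hA hg
    have e := LinearMap.congr_fun ((relOp_eq p l hn g).symm.trans h₁) v
    rw [sub_smul, sub_eq_zero]
    exact e
  show φ (heckeR p l hn (tGen p q)) = _
  rw [← htR, hφapp]
  show mk (tV p l hn g) = _
  rw [hrel g]
  show a g + χ g * a g⁻¹ = _
  rw [heq, heq, ← hχmul, mul_inv_cancel, show χ 1 = 1 by show ι _ = 1; rw [map_one, Units.val_one, map_one]]
  rw [add_comm]
  congr 1
  show ι _ = _
  rw [chiQ_val, cycP_frobenius l q.2 hql hA hg, map_natCast, map_natCast]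

end FA.Mazur

end
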