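import Fermat.Agent.Eisenstein.Hecke
import Fermat.Agent.Period.Integral

/-!
# Coefficients as elements of the Hecke algebra at prime level

For each `n` the functional `f ↦ aₙ(f)` on integral cusp forms of weight two is `f ↦ a₁(t f)`
for a unique Hecke element `t = hCoeff p n`; these span the Hecke algebra.
-/

set_option autoImplicit false
set_option linter.style.haveILetI false
set_option linter.unusedSectionVars false

noncomputable section

open CongruenceSubgroup ModularCurve CuspForm FA.Deform FA.Eis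

namespace FA.Mazur

set_option synthInstance.maxHeartbeats 400000
set_option maxHeartbeats 1000000

/-- The Hecke algebra of prime level, all operators. -/
abbrev TAlg (p : ℕ) [NeZero p] : Type := ↥(heckeAlgebra p 2 ∅)

variable (p : ℕ) [Fact p.Prime]

/-- The operator attached to a prime. -/
def tGen (r : Nat.Primes) : TAlg p := heckeEvalForms p 2 (heckeGen r)

/-- The action on integral forms. -/
def intAct : TAlg p →+* Module.End ℤ ↥(intLattice p 2) :=
  (heckeLatticeAlgebra p ∅).val.toRingHom.comp (latticeRestrictHom p ∅).toRingHom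

theorem intAct_tGen (r : Nat.Primes) (f : ↥(intLattice p 2)) :
    intAct p (tGen p r) f = act (latEval p (heckeGen r)) f := rfl

theorem intAct_injective : Function.Injective (intAct p) :=
  Subtype.val_injective.comp
    (latticeRestrictHom_bijective p ∅ (FA.Period.hasIntegralStructure p 2)).1

/-- The pairing `(t, f) ↦ a₁(t f)`. -/
def pairT : TAlg p →ₗ[ℤ] ↥(intLattice p 2) →ₗ[ℤ] ℤ :=
  (pair p).flip.comp (latticeRestrictHom p ∅).toLinearMap

theorem pairT_apply (t : TAlg p) (f : ↥(intLattice p 2)) :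
    pairT p t f = zCoeff 1 (intAct p t f) := rfl

theorem pairT_injective : Function.Injective (pairT p) := pair_flip_injective.comp
  (latticeRestrictHom_bijective p ∅ (FA.Period.hasIntegralStructure p 2)).1

theorem pairT_mul (s t : TAlg p) (f : ↥(intLattice p 2)) :
    pairT p (s * t) f = pairT p t (intAct p s f) := by
  rw [pairT_apply, pairT_apply, mul_comm s t, map_mul]
  rfl

theorem exists_coeffElt (n : ℕ) : ∃ a : TAlg p, ∀ f, pairT p a f = zCoeff n f := by
  induction n using Nat.strong_induction_on with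
  | _ n ih =>
    rcases Nat.eq_zero_or_pos n with rfl | hn
    · exact ⟨0, fun f => by rw [map_zero, LinearMap.zero_apply, zCoeff_zero]⟩
    rcases eq_or_ne n 1 with rfl | h1
    · exact ⟨1, fun f => by rw [pairT_apply, map_one]; rfl⟩
    obtain ⟨r', hr', k, rfl⟩ := Nat.exists_prime_and_dvd h1
    obtain ⟨r, rfl⟩ : ∃ q : Nat.Primes, (q : ℕ) = r' := ⟨⟨r', hr'⟩, rfl⟩
    have hk : k < (r : ℕ) * k := lt_mul_of_one_lt_left (Nat.pos_of_mul_pos_left hn) r.2.one_lt
    obtain ⟨a, ha⟩ := ih k hk
    obtain ⟨b, hb⟩ := ih (k / (r : ℕ)) ((Nat.div_le_self _ _).trans_lt hk)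
    set e : TAlg p := if (r : ℕ) = p then 0 else if (r : ℕ) ∣ k then ((r : ℕ) : ℤ) • b else 0
    refine ⟨tGen p r * a - e, fun f => ?_⟩
    have he : pairT p e f =
        if (r : ℕ) = p then 0 else if (r : ℕ) ∣ k then ((r : ℕ) : ℤ) * zCoeff (k / r) f else 0 := by
      simp only [e]
      split_ifs <;>
        simp only [map_zero, map_zsmul, LinearMap.zero_apply, LinearMap.smul_apply, smul_eq_mul, hb]
    rw [map_sub, LinearMap.sub_apply, pairT_mul, ha, intAct_tGen, zCoeff_gen, he,
      add_sub_cancel_right, mul_comm]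

/-- The Hecke element with pairing `aₙ`. -/
def hCoeff (n : ℕ) : TAlg p := (exists_coeffElt p n).choose

theorem pairT_hCoeff (n : ℕ) (f : ↥(intLattice p 2)) : pairT p (hCoeff p n) f = zCoeff n f :=
  (exists_coeffElt p n).choose_spec f

theorem hCoeff_zero : hCoeff p 0 = 0 := pairT_injective p (LinearMap.ext fun f => by
  rw [pairT_hCoeff, zCoeff_zero, map_zero, LinearMap.zero_apply])

theorem hCoeff_one : hCoeff p 1 = 1 := pairT_injective p (LinearMap.ext fun f => by
  rw [pairT_hCoeff, pairT_apply, map_one]; rfl)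

/-- The recursion at every prime. -/
theorem tGen_mul_hCoeff (r : Nat.Primes) (n : ℕ) :
    tGen p r * hCoeff p n = hCoeff p (n * r) +
      if (r : ℕ) = p then 0 else if (r : ℕ) ∣ n then ((r : ℕ) : TAlg p) * hCoeff p (n / r)
        else 0 := by
  refine pairT_injective p (LinearMap.ext fun f => ?_)
  rw [map_add, LinearMap.add_apply, pairT_mul, pairT_hCoeff, pairT_hCoeff, intAct_tGen, zCoeff_gen]
  congr 1
  split_ifs <;>
    simp only [← nsmul_eq_mul, map_zero, map_nsmul, LinearMap.zero_apply, LinearMap.smul_apply,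
      pairT_hCoeff]

theorem hCoeff_prime (r : Nat.Primes) : hCoeff p r = tGen p r := by
  have h := tGen_mul_hCoeff p r 1
  rw [hCoeff_one, mul_one, one_mul] at h
  rw [h]
  split_ifs with h1 h2
  · rw [add_zero]
  · exact absurd (Nat.le_of_dvd one_pos h2) (by have := r.2.one_lt; omega)
  · rw [add_zero]

/-- Coefficients at coprime indices. -/
theorem hCoeff_mul_prime {n : ℕ} (r : Nat.Primes) (h : ¬ (r : ℕ) ∣ n) :
    hCoeff p (n * r) = tGen p r * hCoeff p n := by
  rw [tGen_mul_hCoeff]
  split_ifs <;> rw [add_zero]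

/-- The coefficient elements span. -/
theorem span_hCoeff : Submodule.span ℤ (Set.range (hCoeff p)) = ⊤ := by
  set W := Submodule.span ℤ (Set.range (hCoeff p))
  have hgen : ∀ r : Nat.Primes, ∀ x ∈ W, tGen p r * x ∈ W := fun r x hx => by
    induction hx using Submodule.span_induction with
    | mem x hx =>
      obtain ⟨n, rfl⟩ := hx
      rw [tGen_mul_hCoeff]
      refine add_mem (Submodule.subset_span ⟨_, rfl⟩) ?_
      split_ifs
      · exact zero_mem _
      · rw [← nsmul_eq_mul]; exact Submodule.smul_of_tower_mem W _ (Submodule.subset_span ⟨_, rfl⟩)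
      · exact zero_mem _
    | zero => rw [mul_zero]; exact zero_mem _
    | add x y _ _ hx hy => rw [mul_add]; exact add_mem hx hy
    | smul c x _ hx => rw [mul_smul_comm]; exact W.smul_mem c hx
  refine eq_top_iff.mpr fun t _ => ?_
  suffices h : ∀ x ∈ W, t * x ∈ W by
    simpa using h 1 (hCoeff_one p ▸ Submodule.subset_span ⟨1, rfl⟩)
  obtain ⟨t, ht⟩ := t
  refine Algebra.adjoin_induction (p := fun t ht => ∀ x ∈ W, (⟨t, ht⟩ : TAlg p) * x ∈ W)
    ?_ ?_ ?_ ?_ ht
  · rintro _ (⟨r, hr, hrN, -, rfl⟩ | ⟨r, hrN, hr, -, rfl⟩) x hx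
    · have e : tGen p ⟨r, hr⟩ = ⟨heckeTLin 2 hr hrN,
          heckeTLin_mem_heckeAlgebra hr hrN (Set.notMem_empty _)⟩ :=
        heckeEvalForms_heckeGen_of_not_dvd (ℓ := (⟨r, hr⟩ : Nat.Primes)) hrN
      exact e ▸ hgen ⟨r, hr⟩ x hx
    · have e : tGen p ⟨r, hr⟩ = ⟨heckeULin 2 hrN,
          heckeULin_mem_heckeAlgebra hr hrN (Set.notMem_empty _)⟩ :=
        heckeEvalForms_heckeGen_of_dvd (q := (⟨r, hr⟩ : Nat.Primes)) hrN
      exact e ▸ hgen ⟨r, hr⟩ x hx
  · intro c x hx
    rw [show (⟨algebraMap ℤ _ c, Subalgebra.algebraMap_mem _ c⟩ : TAlg p) = algebraMap ℤ _ c from rfl,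
      ← Algebra.smul_def]
    exact W.smul_mem c hx
  · intro a b ha hb h1 h2 x hx
    rw [show (⟨a + b, add_mem ha hb⟩ : TAlg p) = ⟨a, ha⟩ + ⟨b, hb⟩ from rfl, add_mul]
    exact add_mem (h1 x hx) (h2 x hx)
  · intro a b ha hb h1 h2 x hx
    rw [show (⟨a * b, mul_mem ha hb⟩ : TAlg p) = ⟨a, ha⟩ * ⟨b, hb⟩ from rfl, mul_assoc]
    exact h1 _ (h2 x hx)

/-- The Hecke algebra is a finite free lattice of the rank of the integral forms. -/
theorem finrank_TAlg : Module.finrank ℤ (TAlg p) = Module.finrank ℤ ↥(intLattice p 2) := by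
  haveI := intLattice.moduleFinite p
  haveI := intLattice.moduleFree p
  rw [(LinearEquiv.ofBijective (latticeRestrictHom p ∅).toLinearMap
    (latticeRestrictHom_bijective p ∅ (FA.Period.hasIntegralStructure p 2))).finrank_eq]
  refine le_antisymm ?_ ?_
  · have := LinearMap.finrank_le_finrank_of_injective (pair_flip_injective (p := p))
    rwa [Module.finrank_linearMap_self] at this
  · have := LinearMap.finrank_le_finrank_of_injective (pair_injective (p := p))
    rwa [Module.finrank_linearMap_self] at this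

/-- A common denominator: every functional is, after scaling, given by an integral form. -/
theorem exists_form_of_functional :
    ∃ D : ℤ, D ≠ 0 ∧ ∀ ψ : TAlg p →ₗ[ℤ] ℤ, ∃ f : ↥(intLattice p 2),
      ∀ t, pairT p t f = D * ψ t := by
  classical
  haveI := intLattice.moduleFinite p
  haveI := intLattice.moduleFree p
  haveI : Module.Finite ℤ (TAlg p) := FA.Period.moduleFinite_heckeAlgebra p 2 ∅
  haveI : Module.Free ℤ (TAlg p) := Module.free_of_finite_type_torsion_free'
  set Q := (pairT p).flip
  have hinj : Function.Injective Q := fun f g h => pair_injective (LinearMap.ext fun u => by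
    obtain ⟨t, rfl⟩ := latticeRestrictHom_surjective p ∅ u
    exact LinearMap.congr_fun h t)
  have hq : Module.finrank ℤ ((TAlg p →ₗ[ℤ] ℤ) ⧸ LinearMap.range Q) = 0 := by
    have h1 := Submodule.finrank_quotient_add_finrank (LinearMap.range Q)
    rw [LinearMap.finrank_range_of_inj hinj, Module.finrank_linearMap_self, finrank_TAlg] at h1
    omega
  set b := Module.Free.chooseBasis ℤ (TAlg p)
  haveI := Fintype.ofFinite (Module.Free.ChooseBasisIndex ℤ (TAlg p))
  choose d hd0 hd using fun i => Module.finrank_eq_zero_iff.mp hq (Submodule.Quotient.mk (b.coord i))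
  refine ⟨∏ i, d i, Finset.prod_ne_zero_iff.mpr fun i _ => hd0 i, fun ψ => ?_⟩
  set W := LinearMap.range Q
  have h : (∏ i, d i) • ψ ∈ W := by
    rw [show ψ = ∑ i, ψ (b i) • b.coord i from b.ext fun j => by
      simp, Finset.smul_sum]
    refine W.sum_mem fun i _ => ?_
    rw [smul_comm]
    refine W.smul_mem _ ?_
    rw [← Finset.prod_erase_mul _ _ (Finset.mem_univ i), mul_smul]
    refine W.smul_mem _ ?_
    have := hd i
    rwa [← Submodule.Quotient.mk_smul, Submodule.Quotient.mk_eq_zero] at this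
  obtain ⟨f, hf⟩ := h
  exact ⟨f, fun t => by
    have := LinearMap.congr_fun hf t
    simpa [Q] using this⟩

end FA.Mazur

end
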