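import Fermat.Agent.ExtVanish.InertiaLift
import Fermat.Agent.ExtVanish.Ramif

/-!
# An algebraic number fixed by an inertia group has the value of a power of the prime
-/

set_option autoImplicit false

noncomputable section

open NumberField FA.Deform FA.Local
open scoped Pointwise

namespace FA.Mazur

local notation "Qb" => AlgebraicClosure ℚ
local notation "GQ" => AlgebraicClosure ℚ ≃ₐ[ℚ] AlgebraicClosure ℚ

variable (K : IntermediateField ℚ Qb)

/-- An element of the inertia group of the prime below a given place extends to an element of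
the inertia group of that place. -/
theorem exists_inertia_lift_at [FiniteDimensional ℚ K] [IsGalois ℚ K] {q : ℕ} (hq : q.Prime)
    {A : ValuationSubring Qb} (hA : A.LiesOverPrime q) (P : Ideal (𝓞 K)) [hPmax : P.IsMaximal]
    (hAP : ∀ x : 𝓞 K, intIncl K x ∈ primeAt A ↔ x ∈ P) (τ : K ≃ₐ[ℚ] K)
    (hτ : ∀ x : 𝓞 K, τ • x - x ∈ P) :
    ∃ σ ∈ A.inertiaSubgroupIn ℚ, ∀ y : K, σ (y : Qb) = ((τ y : K) : Qb) := by
  let 𝒪 := 𝓞 K
  let _ : Algebra 𝒪 ZBar := (intIncl K).toAlgebra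
  -- lift it
  let σ₀ : GQ := τ.liftNormal Qb
  have hσ₀ : ∀ y : K, σ₀ (y : Qb) = ((τ y : K) : Qb) := fun y => τ.liftNormal_commutes Qb y
  have hσ₀' : ∀ x : 𝒪, σ₀ • algebraMap 𝒪 ZBar x = algebraMap 𝒪 ZBar (τ • x) := fun x => by
    refine Subtype.ext ?_
    rw [integralClosure.coe_smul]
    show σ₀ ((x : K) : Qb) = (((τ • x : 𝒪) : K) : Qb)
    exact hσ₀ x
  -- the Galois group of `ℚ̄ / K` acting on all algebraic integers
  let H := K.fixingSubgroup
  have hHclosed : IsClosed (H : Set GQ) := K.fixingSubgroup_isClosed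
  have : CompactSpace H := isCompact_iff_compactSpace.mp hHclosed.isCompact
  let _ : TopologicalSpace ZBar := ⊥
  have : DiscreteTopology ZBar := ⟨rfl⟩
  have : ContinuousSMul GQ ZBar := by
    rw [continuousSMul_iff_stabilizer_isOpen]
    intro x
    have h := stabilizer_isOpen_of_isIntegral (K := ℚ) (x : Qb)
    convert h using 2
    ext g
    simp only [MulAction.mem_stabilizer_iff, Subtype.ext_iff, integralClosure.coe_smul]
  have : ContinuousSMul H ZBar :=
    ⟨(continuous_smul (M := GQ) (X := ZBar)).comp (continuous_subtype_val.prodMap continuous_id)⟩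
  have hHfix : ∀ (g : H) (x : 𝒪), g • algebraMap 𝒪 ZBar x = algebraMap 𝒪 ZBar x := fun g x => by
    refine Subtype.ext ?_
    show ((g : GQ) • algebraMap 𝒪 ZBar x : ZBar).1 = _
    rw [integralClosure.coe_smul]
    exact g.2 ⟨((x : K) : Qb), (x : K).2⟩
  have : SMulCommClass H 𝒪 ZBar := ⟨fun g x b => by
    rw [Algebra.smul_def, Algebra.smul_def, smul_mul', hHfix]⟩
  have : Algebra.IsInvariant 𝒪 ZBar H := by
    constructor
    intro b hb
    have hbK : (b : Qb) ∈ K := by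
      rw [← InfiniteGalois.fixedField_fixingSubgroup K]
      intro g
      exact congrArg Subtype.val (hb g)
    refine ⟨⟨⟨(b : Qb), hbK⟩, ?_⟩, Subtype.ext rfl⟩
    exact (isIntegral_algebraMap_iff (B := Qb) (algebraMap K Qb).injective).mp b.2
  -- `σ₀` can be corrected to fix the prime
  let Q := primeAt A
  have hunder : ∀ x : 𝒪, algebraMap 𝒪 ZBar x ∈ σ₀⁻¹ • Q ↔ algebraMap 𝒪 ZBar x ∈ Q := fun x => by
    rw [Ideal.mem_inv_pointwise_smul_iff, hσ₀']
    exact ⟨fun h => (hAP x).mpr (by simpa using P.sub_mem ((hAP _).mp h) (hτ x)),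
      fun h => (hAP _).mpr (by simpa using P.add_mem (hτ x) ((hAP x).mp h))⟩
  obtain ⟨g, hg⟩ := Algebra.IsInvariant.exists_smul_of_under_eq_of_profinite (A := 𝒪) (G := H)
    Q (σ₀⁻¹ • Q) (Ideal.ext fun x => (hunder x).symm)
  let σ₁ : GQ := σ₀ * (g : GQ)
  have hσ₁Q : σ₁ • Q = Q := by
    rw [show σ₁ • Q = σ₀ • ((g : GQ) • Q) from mul_smul _ _ _,
      show (g : GQ) • Q = σ₀⁻¹ • Q from hg.symm, smul_inv_smul]
  have hσ₁𝒪 : ∀ x : 𝒪, σ₁ • algebraMap 𝒪 ZBar x - algebraMap 𝒪 ZBar x ∈ Q := fun x => by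
    rw [show σ₁ • algebraMap 𝒪 ZBar x = σ₀ • ((g : GQ) • algebraMap 𝒪 ZBar x) from mul_smul _ _ _,
      show (g : GQ) • algebraMap 𝒪 ZBar x = g • algebraMap 𝒪 ZBar x from rfl, hHfix, hσ₀', ← map_sub]
    exact (hAP _).mpr (hτ x)
  -- correct again by an element of `Gal(ℚ̄ / K)` to get an element of inertia
  have : Q.LiesOver P := ⟨Ideal.ext fun x => (hAP x).symm⟩
  let e : (ZBar ⧸ Q) ≃ₐ[𝒪 ⧸ P] (ZBar ⧸ Q) :=
    AlgEquiv.ofRingEquiv (f := Ideal.quotientEquiv Q Q (MulSemiringAction.toRingEquiv GQ ZBar σ₁)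
      hσ₁Q.symm) (by
      intro a
      obtain ⟨x, rfl⟩ := Ideal.Quotient.mk_surjective a
      show Ideal.Quotient.mk Q (σ₁ • algebraMap 𝒪 ZBar x) = Ideal.Quotient.mk Q (algebraMap 𝒪 ZBar x)
      rw [Ideal.Quotient.eq]
      exact hσ₁𝒪 x)
  obtain ⟨⟨g', hg'Q⟩, hg'⟩ :=
    Ideal.Quotient.stabilizerHom_surjective_of_profinite (G := H) P Q e
  let σ : GQ := (g' : GQ)⁻¹ * σ₁
  have hg'' : ∀ b : ZBar, (g' : GQ) • b - σ₁ • b ∈ Q := fun b => by
    rw [← Ideal.Quotient.eq]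
    exact AlgEquiv.congr_fun hg' (Ideal.Quotient.mk Q b)
  have hσ : ∀ b : ZBar, σ • b - b ∈ Q := fun b => by
    have h := hg'' b
    have hgg : (g' : GQ)⁻¹ • Q = Q := by
      rw [inv_smul_eq_iff]; exact hg'Q.symm
    rw [← Ideal.neg_mem_iff, neg_sub] at h
    have := Ideal.smul_mem_pointwise_smul (g' : GQ)⁻¹ _ _ h
    rwa [hgg, smul_sub, inv_smul_smul, ← mul_smul] at this
  refine ⟨σ, mem_inertiaSubgroupIn_of_forall hq hA hσ, fun y => ?_⟩
  have h1 : ∀ g : H, ∀ z : K, (g : GQ) (z : Qb) = (z : Qb) := fun g z => g.2 z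
  have h2 : ∀ g : H, ∀ z : K, (g : GQ)⁻¹ (z : Qb) = (z : Qb) := fun g z => (g⁻¹).2 z
  show (g' : GQ)⁻¹ (σ₀ ((g : GQ) (y : Qb))) = _
  rw [h1, hσ₀, h2]

/-- A nonzero algebraic number fixed by an inertia group above `q` has the value of a power of
`q`. -/
theorem exists_zpow_of_fixed {q : ℕ} (hq : q.Prime) {A : ValuationSubring Qb}
    (hA : A.LiesOverPrime q) {x : Qb} (hx0 : x ≠ 0)
    (hx : ∀ σ ∈ A.inertiaSubgroupIn ℚ, σ x = x) :
    ∃ j : ℤ, A.valuation x = A.valuation (q : Qb) ^ j := by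
  have hxi : IsIntegral ℚ x := (Algebra.IsAlgebraic.isAlgebraic x).isIntegral
  let K : IntermediateField ℚ Qb := IntermediateField.adjoin ℚ {x}
  have : FiniteDimensional ℚ K := IntermediateField.adjoin.finiteDimensional hxi
  let L : IntermediateField ℚ Qb := IntermediateField.normalClosure ℚ K Qb
  have : Algebra.IsAlgebraic ℚ Qb := AlgebraicClosure.isAlgebraic ℚ
  have : IsAlgClosure ℚ Qb := ⟨inferInstance, inferInstance⟩
  have : Normal ℚ Qb := IsAlgClosure.normal ℚ Qb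
  have : Normal ℚ L := normalClosure.normal ℚ K Qb
  have : IsGalois ℚ L := ⟨⟩
  have : FiniteDimensional ℚ L := normalClosure.is_finiteDimensional ℚ K Qb
  have hKL : K ≤ L := IntermediateField.le_normalClosure K
  let _ : Algebra K L := (IntermediateField.inclusion hKL).toRingHom.toAlgebra
  have : IsScalarTower ℚ K L := IsScalarTower.of_algebraMap_eq fun _ => rfl
  have : IsGalois K L := IsGalois.tower_top_of_isGalois ℚ K L
  have : NumberField K := { }
  have : NumberField L := { }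
  have hKfix : ∀ σ ∈ A.inertiaSubgroupIn ℚ, ∀ y : K, σ (y : Qb) = (y : Qb) := fun σ hσ y => by
    have hle : K ≤ IntermediateField.fixedField (Subgroup.zpowers σ) := by
      rw [IntermediateField.adjoin_simple_le_iff]
      rintro ⟨τ, hτ⟩
      obtain ⟨i, rfl⟩ := Subgroup.mem_zpowers_iff.mp hτ
      exact hx _ (Subgroup.zpow_mem _ hσ i)
    exact hle y.2 ⟨σ, Subgroup.mem_zpowers σ⟩
  -- the primes below the place
  let P : Ideal (𝓞 L) := (primeAt A).comap (intIncl L)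
  have hqP : (q : 𝓞 L) ∈ P := by
    show intIncl L q ∈ primeAt A
    rw [map_natCast, mem_primeAt]
    simpa [ValuationSubring.LiesOverPrime] using hA
  have hPp : P.IsPrime := Ideal.comap_isPrime _ _
  have hP0 : P ≠ ⊥ := fun h => hq.ne_zero (by
    have := hqP
    rw [h, Ideal.mem_bot] at this
    exact_mod_cast this)
  have hPmax : P.IsMaximal := hPp.isMaximal hP0
  let w : Ideal (𝓞 K) := P.under (𝓞 K)
  have hw : w.IsPrime := inferInstance
  have : P.LiesOver w := ⟨rfl⟩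
  have hqw : (q : 𝓞 K) ∈ w := by
    show algebraMap (𝓞 K) (𝓞 L) q ∈ P
    rw [map_natCast]; exact hqP
  have hw0 : w ≠ ⊥ := fun h => hq.ne_zero (by
    have := hqw
    rw [h, Ideal.mem_bot] at this
    exact_mod_cast this)
  have hwmax : w.IsMaximal := hw.isMaximal hw0
  -- the two inertia groups agree
  let r : (L ≃ₐ[K] L) → (L ≃ₐ[ℚ] L) := fun τ => τ.restrictScalars ℚ
  have hsurj : ∀ τ ∈ P.inertia (L ≃ₐ[ℚ] L), ∃ τ' ∈ P.inertia (L ≃ₐ[K] L), r τ' = τ := by
    intro τ hτ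
    obtain ⟨σ, hσA, hσ⟩ := exists_inertia_lift_at L hq hA P (fun _ => Iff.rfl) τ hτ
    have hfix : ∀ y : K, τ (algebraMap K L y) = algebraMap K L y := fun y => by
      refine Subtype.ext ((hσ _).symm.trans ?_)
      exact hKfix σ hσA y
    exact ⟨{ τ with commutes' := hfix }, hτ, rfl⟩
  have hcard : Nat.card (P.inertia (L ≃ₐ[K] L)) = Nat.card (P.inertia (L ≃ₐ[ℚ] L)) := by
    refine Nat.card_eq_of_bijective (fun τ => ⟨r τ.1, τ.2⟩) ⟨fun a b h => ?_, fun τ => ?_⟩
    · exact Subtype.ext (AlgEquiv.restrictScalars_injective ℚ (congrArg Subtype.val h :))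
    · obtain ⟨τ', h1, h2⟩ := hsurj τ.1 τ.2
      exact ⟨⟨τ', h1⟩, Subtype.ext h2⟩
  let pI : Ideal ℤ := Ideal.span {(q : ℤ)}
  have hpI : pI.IsMaximal := PrincipalIdealRing.isMaximal_of_irreducible
    (Nat.prime_iff_prime_int.mp hq).irreducible
  have : P.LiesOver pI := by
    refine ⟨hpI.eq_of_le Ideal.IsPrime.ne_top' ?_⟩
    rw [Ideal.span_le, Set.singleton_subset_iff, SetLike.mem_coe, Ideal.mem_comap]
    simpa using hqP
  have : w.LiesOver pI := by
    refine ⟨hpI.eq_of_le Ideal.IsPrime.ne_top' ?_⟩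
    rw [Ideal.span_le, Set.singleton_subset_iff, SetLike.mem_coe, Ideal.mem_comap]
    simpa using hqw
  have : Finite (ℤ ⧸ pI) := by
    have : NeZero q := ⟨hq.ne_zero⟩
    exact Finite.of_equiv (ZMod q) (Int.quotientSpanNatEquivZMod q).symm.toEquiv
  have : Finite (𝓞 K ⧸ w) := Ideal.finiteQuotientOfFreeOfNeBot w hw0
  rw [Ideal.card_inertia_eq_ramificationIdxIn (G := L ≃ₐ[ℚ] L) pI P,
    Ideal.ramificationIdxIn_eq_ramificationIdx pI P (L ≃ₐ[ℚ] L),
    Ideal.card_inertia_eq_ramificationIdxIn (G := L ≃ₐ[K] L) w P,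
    Ideal.ramificationIdxIn_eq_ramificationIdx w P (L ≃ₐ[K] L),
    Ideal.ramificationIdx_tower (R := ℤ) w P] at hcard
  have he : w.ramificationIdx ℤ = 1 :=
    Nat.eq_of_mul_eq_mul_right (Ideal.ramificationIdx_pos P (𝓞 K)) (by rw [one_mul]; exact hcard.symm)
  have hI : pI.map (algebraMap ℤ (𝓞 K)) = Ideal.span {(q : 𝓞 K)} := by
    rw [Ideal.map_span, Set.image_singleton]; simp
  have hI0 : Ideal.span {(q : 𝓞 K)} ≠ (0 : Ideal (𝓞 K)) := by
    rw [Ne, Ideal.zero_eq_bot, Ideal.span_singleton_eq_bot]; exact_mod_cast hq.ne_zero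
  have hwp : Prime w := Ideal.prime_of_isPrime hw0 hw
  rw [Ideal.IsDedekindDomain.ramificationIdx_eq_multiplicity pI w (hI ▸ hI0), hI] at he
  obtain ⟨s₀, hs₀, hs₀w⟩ : ∃ s : Ideal (𝓞 K),
      Ideal.span {(q : 𝓞 K)} = w * s ∧ ¬ w ∣ s := by
    obtain ⟨k, C, hC, hIC⟩ := WfDvdMonoid.max_power_factor hI0 hwp.irreducible
    have hk : k = 1 := by
      rw [← he]
      refine (multiplicity_eq_of_dvd_of_not_dvd ⟨C, hIC⟩ fun ⟨D, hD⟩ => hC ?_).symm
      rw [hIC, pow_succ, mul_assoc] at hD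
      rw [mul_left_cancel₀ (pow_ne_zero _ hw0) hD]
      exact dvd_mul_right w D
    exact ⟨C, by rw [hIC, hk, pow_one], hC⟩
  obtain ⟨s, hsC, hsw⟩ : ∃ s ∈ s₀, s ∉ w :=
    SetLike.not_le_iff_exists.mp fun h => hs₀w (Ideal.dvd_iff_le.mpr h)
  -- units outside the prime
  have hval : ∀ {t : 𝓞 K}, t ∉ w → A.valuation ((t : K) : Qb) = 1 := fun {t} ht => by
    refine eq_one_of_not_lt ((A.valuation_le_one_iff _).mpr
      (zbar_mem_valuationSubring A (intIncl K t))) fun h => ht ?_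
    show algebraMap (𝓞 K) (𝓞 L) t ∈ P
    show intIncl L _ ∈ primeAt A
    rw [mem_primeAt, A.mem_nonunits_iff]
    exact h
  have key : ∀ (n : ℕ) (y : 𝓞 K), y ∉ w ^ n →
      ∃ j : ℕ, A.valuation ((y : K) : Qb) = A.valuation (q : Qb) ^ j := by
    intro n
    induction n with
    | zero => intro y hy; exact absurd (by simp) hy
    | succ n ih =>
      intro y hy
      by_cases hyw : y ∈ w
      · have hmem : y * s ∈ Ideal.span {(q : 𝓞 K)} := hs₀ ▸ Ideal.mul_mem_mul hyw hsC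
        obtain ⟨y₁, hy₁⟩ := Ideal.mem_span_singleton.mp hmem
        have hy₁n : y₁ ∉ w ^ n := fun h => hy (by
          have h2 : y * s ∈ w ^ (n + 1) := by
            rw [hy₁, pow_succ']; exact Ideal.mul_mem_mul hqw h
          rw [← Ideal.span_singleton_le_iff_mem, ← Ideal.dvd_iff_le,
            ← Ideal.span_singleton_mul_span_singleton] at h2
          rw [← Ideal.span_singleton_le_iff_mem, ← Ideal.dvd_iff_le]
          refine hwp.pow_dvd_of_dvd_mul_right _ (fun h3 => hsw ?_) h2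
          rwa [Ideal.dvd_iff_le, Ideal.span_singleton_le_iff_mem] at h3)
        obtain ⟨j, hj⟩ := ih y₁ hy₁n
        refine ⟨j + 1, ?_⟩
        have h3 := congrArg (fun z : 𝓞 K => A.valuation ((z : K) : Qb)) hy₁
        push_cast at h3
        rw [map_mul, map_mul, hval hsw, mul_one, hj] at h3
        rw [h3, pow_succ']
      · exact ⟨0, by rw [hval hyw, pow_zero]⟩
  have key' : ∀ y : 𝓞 K, y ≠ 0 → ∃ j : ℕ, A.valuation ((y : K) : Qb) = A.valuation (q : Qb) ^ j :=
    fun y hy => by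
    obtain ⟨n, hn⟩ : ∃ n, y ∉ w ^ n := by
      by_contra h
      push Not at h
      have h1 : y ∈ (⨅ n, w ^ n) := Ideal.mem_iInf.mpr h
      rw [Ideal.iInf_pow_eq_bot_of_isDomain w hwmax.ne_top] at h1
      exact hy h1
    exact key n y hn
  obtain ⟨a, b, hb, hab⟩ := IsFractionRing.div_surjective (A := 𝓞 K) (⟨x, IntermediateField.mem_adjoin_simple_self ℚ x⟩ : K)
  have hb0 : b ≠ 0 := nonZeroDivisors.ne_zero hb
  have hab' : ((a : K) : Qb) / ((b : K) : Qb) = x := by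
    rw [← IntermediateField.coe_div]; exact congrArg Subtype.val hab
  have ha0 : a ≠ 0 := fun h => hx0 (by rw [← hab', h]; simp)
  obtain ⟨i, hi⟩ := key' a ha0
  obtain ⟨j, hj⟩ := key' b hb0
  refine ⟨(i : ℤ) - j, ?_⟩
  rw [← hab', map_div₀, hi, hj, zpow_sub₀ (A.valuation.ne_zero_iff.mpr
    (Nat.cast_ne_zero.mpr hq.ne_zero)), zpow_natCast, zpow_natCast]

end FA.Mazur

end
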