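import Fermat.Agent.Mazur.InertiaValue
import Fermat.Agent.ExtVanish.Descent
import Fermat.Agent.TW.Frobenius
import Mathlib.Algebra.Category.Grp.Injective
import Mathlib.GroupTheory.PGroup
import Mathlib.NumberTheory.Basic

/-!
# The size of a Selmer group with a unit condition at `l` and unipotent inertia at `p`

For a finite `l`-primary Galois module `B`, unramified outside `l` and `p`, with a subgroup `B₀`
at `l` of multiplicative type with unramified quotient, all of whose simple constituents are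
trivial or cyclotomic, the group of pairs (cocycle, element) cut out by the local conditions has
at most `#B₀ · #B` elements.
-/

set_option autoImplicit false

noncomputable section

open FA.Local FA.Ext

namespace FA.Mazur

local notation "Qb" => AlgebraicClosure ℚ
local notation "GQ" => AlgebraicClosure ℚ ≃ₐ[ℚ] AlgebraicClosure ℚ

variable {B : Type} [AddCommGroup B] [DistribMulAction GQ B]

/-- A continuous cocycle. -/
structure IsCocycle (c : GQ → B) : Prop where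
  map_mul : ∀ σ τ, c (σ * τ) = c σ + σ • c τ
  cts : ∃ E : IntermediateField ℚ Qb, FiniteDimensional ℚ E ∧
    ∀ σ : GQ, (∀ x ∈ E, σ x = x) → c σ = 0

/-- The local condition at `l`: values in `B₀` on inertia and, against every homomorphism to
units, the coboundary of a unit. -/
def IsUnitClass (A : ValuationSubring Qb) (B₀ : AddSubgroup B) (c : GQ → B) : Prop :=
  (∀ σ ∈ A.inertiaSubgroupIn ℚ, c σ ∈ B₀) ∧
    ∀ f : B →+ Additive Qbˣ, ∃ β : Qb, A.valuation β = 1 ∧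
      ∀ σ ∈ A.inertiaSubgroupIn ℚ, σ β = ((f (c σ)).toMul : Qb) * β

theorem IsCocycle.zero : IsCocycle (0 : GQ → B) :=
  ⟨fun _ _ => by simp, ⊥, inferInstance, fun _ _ => rfl⟩

theorem IsCocycle.add {c d : GQ → B} (hc : IsCocycle c) (hd : IsCocycle d) :
    IsCocycle (c + d) := by
  obtain ⟨h1, E, hE, h2⟩ := hc
  obtain ⟨h3, E', hE', h4⟩ := hd
  refine ⟨fun σ τ => ?_, E ⊔ E', inferInstance, fun σ hσ => ?_⟩
  · simp only [Pi.add_apply, h1, h3, smul_add]; abel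
  · simp only [Pi.add_apply, h2 σ fun x hx => hσ x ((le_sup_left : E ≤ E ⊔ E') hx),
      h4 σ fun x hx => hσ x ((le_sup_right : E' ≤ E ⊔ E') hx), add_zero]

theorem IsCocycle.neg {c : GQ → B} (hc : IsCocycle c) : IsCocycle (-c) := by
  obtain ⟨h1, E, hE, h2⟩ := hc
  exact ⟨fun σ τ => by simp only [Pi.neg_apply, h1, smul_neg, neg_add],
    E, hE, fun σ hσ => by simp [h2 σ hσ]⟩

/-- The pairs of the Selmer count. -/
def selPairs (l p : ℕ) (Al Ap : ValuationSubring Qb) (B₀ : AddSubgroup B) :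
    AddSubgroup ((GQ → B) × B) where
  carrier := {x | IsCocycle x.1 ∧
    (∀ q : ℕ, q.Prime → q ≠ l → q ≠ p → ∀ A : ValuationSubring Qb, A.LiesOverPrime q →
      ∀ σ ∈ A.inertiaSubgroupIn ℚ, x.1 σ = 0) ∧
    IsUnitClass Al B₀ x.1 ∧ ∀ σ ∈ Ap.inertiaSubgroupIn ℚ, x.1 σ + (σ • x.2 - x.2) = 0}
  zero_mem' := ⟨IsCocycle.zero, fun _ _ _ _ _ _ _ _ => rfl,
    ⟨fun _ _ => B₀.zero_mem, fun f => ⟨1, map_one _, fun σ _ => by simp⟩⟩, fun σ _ => by simp⟩
  add_mem' := by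
    rintro ⟨c, g⟩ ⟨d, h⟩ ⟨hc, hcu, ⟨hc0, hcl⟩, hcp⟩ ⟨hd, hdu, ⟨hd0, hdl⟩, hdp⟩
    refine ⟨hc.add hd, fun q hq hql hqp A hA σ hσ => ?_,
      ⟨fun σ hσ => B₀.add_mem (hc0 σ hσ) (hd0 σ hσ), fun f => ?_⟩, fun σ hσ => ?_⟩
    · show c σ + d σ = 0
      rw [show c σ = 0 from hcu q hq hql hqp A hA σ hσ,
        show d σ = 0 from hdu q hq hql hqp A hA σ hσ, add_zero]
    · obtain ⟨β, hβ1, hβ⟩ := hcl f
      obtain ⟨γ, hγ1, hγ⟩ := hdl f
      refine ⟨β * γ, by rw [map_mul, hβ1, hγ1, one_mul], fun σ hσ => ?_⟩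
      show σ (β * γ) = ((f (c σ + d σ)).toMul : Qb) * (β * γ)
      rw [map_mul, hβ σ hσ, hγ σ hσ, map_add, toMul_add, Units.val_mul]
      ring
    · have h1 : c σ + (σ • g - g) = 0 := hcp σ hσ
      have h2 : d σ + (σ • h - h) = 0 := hdp σ hσ
      show c σ + d σ + (σ • (g + h) - (g + h)) = 0
      rw [smul_add, show c σ + d σ + (σ • g + σ • h - (g + h)) =
        (c σ + (σ • g - g)) + (d σ + (σ • h - h)) by abel, h1, h2, add_zero]
  neg_mem' := by
    rintro ⟨c, g⟩ ⟨hc, hcu, ⟨hc0, hcl⟩, hcp⟩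
    refine ⟨hc.neg, fun q hq hql hqp A hA σ hσ => ?_,
      ⟨fun σ hσ => B₀.neg_mem (hc0 σ hσ), fun f => ?_⟩, fun σ hσ => ?_⟩
    · show -c σ = 0
      rw [show c σ = 0 from hcu q hq hql hqp A hA σ hσ, neg_zero]
    · obtain ⟨β, hβ1, hβ⟩ := hcl f
      refine ⟨β⁻¹, by rw [map_inv₀, hβ1, inv_one], fun σ hσ => ?_⟩
      show σ β⁻¹ = ((f (-c σ)).toMul : Qb) * β⁻¹
      rw [map_inv₀, hβ σ hσ, map_neg, toMul_neg, Units.val_inv_eq_inv_val, mul_inv]
    · have h1 : c σ + (σ • g - g) = 0 := hcp σ hσ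
      show -c σ + (σ • -g - -g) = 0
      rw [smul_neg, show -c σ + (-(σ • g) - -g) = -(c σ + (σ • g - g)) by abel, h1, neg_zero]

/-- The endomorphism `σ - w`. -/
def opD (σ : GQ) (w : ℕ) : AddMonoid.End B :=
  DistribMulAction.toAddMonoidEnd GQ B σ - (w : AddMonoid.End B)

theorem opD_apply (σ : GQ) (w : ℕ) (b : B) : opD σ w b = σ • b - w • b := by
  show σ • b - ((w : AddMonoid.End B) b) = _
  rw [AddMonoid.End.natCast_apply]

variable (B) in
/-- The hypotheses on the module. -/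
structure IsAdm (l p : ℕ) (Al Ap : ValuationSubring Qb) (B₀ : AddSubgroup B) : Prop where
  cts : ∀ b : B, ∃ E : IntermediateField ℚ Qb, FiniteDimensional ℚ E ∧
    ∀ σ : GQ, (∀ x ∈ E, σ x = x) → σ • b = b
  unram : ∀ q : ℕ, q.Prime → q ≠ l → q ≠ p → ∀ A : ValuationSubring Qb, A.LiesOverPrime q →
    ∀ σ ∈ A.inertiaSubgroupIn ℚ, ∀ b : B, σ • b = b
  quot : ∀ σ ∈ Al.inertiaSubgroupIn ℚ, ∀ b : B, σ • b - b ∈ B₀
  mult : ∀ σ ∈ Al.inertiaSubgroupIn ℚ, ∀ b ∈ B₀, ∀ f : B →+ Additive Qbˣ,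
    ((f (σ • b)).toMul : Qb) = σ ((f b).toMul : Qb)
  unip : ∀ σ ∈ Ap.inertiaSubgroupIn ℚ, ∀ b : B, σ • (σ • b - b) = σ • b - b
  eis : ∀ σ : GQ, ∃ w N : ℕ, (∀ ζ : Qb, ζ ^ l = 1 → σ ζ = ζ ^ w) ∧
    (opD σ 1 * opD σ w) ^ N = (0 : AddMonoid.End B)
  lpow : ∃ k : ℕ, ∀ b : B, l ^ k • b = 0

/-- Units of an algebraically closed field form a divisible group. -/
instance divisibleBy_units : DivisibleBy (Additive Qbˣ) ℤ :=
  letI : DivisibleBy (Additive Qbˣ) ℕ := divisibleByOfSMulRightSurj _ _ fun {n} hn x => by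
    obtain ⟨y, hy⟩ := IsAlgClosed.exists_pow_nat_eq (x.toMul : Qb) (Nat.pos_of_ne_zero hn)
    have hy0 : y ≠ 0 := fun h => x.toMul.ne_zero (by rw [← hy, h, zero_pow hn])
    refine ⟨Additive.ofMul (Units.mk0 y hy0), Additive.toMul.injective (Units.ext ?_)⟩
    simp [hy]
  AddGroup.divisibleByIntOfDivisibleByNat _

omit [DistribMulAction GQ B] in
theorem exists_hom_extension (S : AddSubgroup B) (f : S →+ Additive Qbˣ) :
    ∃ F : B →+ Additive Qbˣ, ∀ s : S, F s = f s := by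
  obtain ⟨g, hg⟩ := (Module.Baer.of_divisible (Additive Qbˣ)).extension_property_addMonoidHom
    S.subtype S.subtype_injective f
  exact ⟨g, fun s => DFunLike.congr_fun hg s⟩

/-- The exponent of a rational number at `q` from its value at a place above `q`. -/
theorem padicValRat_eq_of_valuation {q : ℕ} (hq : q.Prime) {A : ValuationSubring Qb}
    (hA : A.LiesOverPrime q) {r : ℚ} (hr : r ≠ 0) {m : ℤ}
    (h : A.valuation (r : Qb) = A.valuation (q : Qb) ^ m) : padicValRat q r = m := by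
  have := Fact.mk hq
  have hv : A.valuation (q : Qb) < 1 := A.mem_nonunits_iff.mp hA
  have hq0 : A.valuation (q : Qb) ≠ 0 := A.valuation.ne_zero_iff.mpr (Nat.cast_ne_zero.mpr hq.ne_zero)
  have hint : ∀ n : ℤ, n ≠ 0 →
      A.valuation (n : Qb) = A.valuation (q : Qb) ^ (padicValInt q n : ℤ) := fun n hn => by
    obtain ⟨k, hk⟩ := padicValInt_dvd (p := q) n
    have hqk : ¬ (q : ℤ) ∣ k := fun h => by
      have h2 : (q : ℤ) ^ (padicValInt q n + 1) ∣ n := by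
        conv_rhs => rw [hk]
        rw [pow_succ]; exact mul_dvd_mul_left _ h
      rcases (padicValInt_dvd_iff _ n).mp h2 with h3 | h3
      · exact hn h3
      · omega
    conv_lhs => rw [hk]
    push_cast
    rw [map_mul, map_pow, natCast_eq_one_of_not_dvd hq hv hqk, mul_one, zpow_natCast]
  have h1 : A.valuation (q : Qb) ^ padicValRat q r = A.valuation (r : Qb) := by
    have hd := hint (r.den : ℤ) (by exact_mod_cast r.den_nz)
    rw [Int.cast_natCast] at hd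
    rw [Rat.cast_def, map_div₀, hint _ (Rat.num_ne_zero.mpr hr), hd, ← zpow_sub₀ hq0]
    rfl
  rw [h] at h1
  exact (zpow_right_strictAnti₀ (zero_lt_iff.mpr hq0) hv).injective h1

/-- A rational number with all exponents divisible by `n` is plus or minus an `n`-th power. -/
theorem exists_pow_of_dvd_padicValRat {n : ℕ} (hn : n.Prime) {r : ℚ} (hr : r ≠ 0)
    (h : ∀ q : ℕ, q.Prime → (n : ℤ) ∣ padicValRat q r) :
    ∃ s : ℚ, r = s ^ n ∨ r = -(s ^ n) := by
  have key : ∀ a : ℕ, a ≠ 0 → (∀ q : ℕ, q.Prime → n ∣ a.factorization q) → ∃ b : ℕ, a = b ^ n :=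
    fun a ha hd => by
    refine ⟨a.factorization.prod fun q e => q ^ (e / n), ?_⟩
    conv_lhs => rw [← Nat.prod_factorization_pow_eq_self ha]
    rw [Finsupp.prod, Finsupp.prod, ← Finset.prod_pow]
    refine Finset.prod_congr rfl fun q hq => ?_
    rw [← pow_mul, Nat.div_mul_cancel (hd q (Nat.prime_of_mem_primeFactors
      (Nat.support_factorization a ▸ hq)))]
  have hsplit : ∀ q : ℕ, q.Prime →
      n ∣ r.num.natAbs.factorization q ∧ n ∣ r.den.factorization q := fun q hq => by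
    have := Fact.mk hq
    have h1 := h q hq
    rw [padicValRat_def, padicValInt, Nat.factorization_def _ hq, Nat.factorization_def _ hq] at *
    rcases Nat.eq_zero_or_pos (padicValNat q r.den) with h2 | h2
    · rw [h2, Nat.cast_zero, sub_zero, Int.natCast_dvd_natCast] at h1
      exact ⟨h1, h2 ▸ dvd_zero n⟩
    · have h3 : padicValNat q r.num.natAbs = 0 := padicValNat.eq_zero_of_not_dvd fun h4 =>
        hq.not_dvd_one (r.reduced ▸ Nat.dvd_gcd h4 (dvd_of_one_le_padicValNat h2))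
      rw [h3, Nat.cast_zero, zero_sub, dvd_neg, Int.natCast_dvd_natCast] at h1
      exact ⟨h3 ▸ dvd_zero n, h1⟩
  obtain ⟨a, ha⟩ := key _ (Int.natAbs_ne_zero.mpr (Rat.num_ne_zero.mpr hr))
    fun q hq => (hsplit q hq).1
  obtain ⟨d, hd⟩ := key _ r.den_nz fun q hq => (hsplit q hq).2
  refine ⟨(a : ℚ) / d, ?_⟩
  rcases Int.natAbs_eq r.num with h1 | h1
  · left
    conv_lhs => rw [← Rat.num_div_den r, h1, ha, hd]
    push_cast; rw [div_pow]
  · right
    conv_lhs => rw [← Rat.num_div_den r, h1, ha, hd]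
    push_cast; rw [div_pow, neg_div]

section Layer

variable [Finite B] {l p : ℕ} {Al Ap : ValuationSubring Qb} {B₀ : AddSubgroup B}

omit [Finite B] in
theorem chiU_eq_one_of_inertia [Fact l.Prime] {q : ℕ} (hq : q.Prime) (hql : q ≠ l)
    {A : ValuationSubring Qb} (hA : A.LiesOverPrime q) {σ : GQ}
    (hσ : σ ∈ A.inertiaSubgroupIn ℚ) : chiU l σ = 1 := by
  have hl : l.Prime := Fact.out
  obtain ⟨ζ, hζ⟩ := HasEnoughRootsOfUnity.exists_primitiveRoot Qb l
  have h := inert_of_mem_inertiaSubgroupIn A hσ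
  have hv : A.valuation ζ = 1 := by
    have : A.valuation ζ ^ l = 1 := by rw [← map_pow, hζ.pow_eq_one, map_one]
    exact (pow_eq_one_iff.mp this).resolve_right hl.ne_zero
  have hv' : A.valuation (σ ζ - ζ) < 1 := h.sub_lt ζ hv.le
  have hζ0 : ζ ≠ 0 := hζ.ne_zero hl.ne_zero
  have h1 : σ ζ / ζ = 1 := by
    refine FA.TW.eq_one_of_sub_one_nonunit (m := 1) hl hq hql hA ?_ ?_
    · rw [pow_one, div_pow, ← map_pow, hζ.pow_eq_one, map_one, div_one]
    · rw [div_sub_one hζ0, map_div₀, hv, div_one]; exact hv'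
  rw [div_eq_one_iff_eq hζ0, apply_of_pow_eq_one l σ hζ.pow_eq_one] at h1
  refine Units.ext (ZMod.val_injective l ?_)
  rw [Units.val_one, ZMod.val_one]
  exact hζ.pow_inj (ZMod.val_lt _) hl.one_lt (h1.trans (pow_one ζ).symm)

omit [Finite B] in
/-- Unipotent endomorphisms of `l`-primary groups have `l`-power order. -/
theorem exists_pow_eq_one {R : Type*} [Ring R] (hl : l.Prime) {k N : ℕ} (hk : (l : R) ^ k = 0)
    {g : R} (hg : (g - 1) ^ N = 0) : ∃ m : ℕ, g ^ l ^ m = 1 := by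
  refine ⟨N + k, ?_⟩
  have hN : N ≤ l ^ N := (Nat.lt_pow_self hl.one_lt).le
  let a : Polynomial ℤ := Polynomial.X ^ l ^ N
  let b : Polynomial ℤ := (Polynomial.X - 1) ^ l ^ N + 1
  have hab : ((l : ℕ) : Polynomial ℤ) ∣ a - b := by
    obtain ⟨r, hr⟩ := exists_add_pow_prime_pow_eq hl (Polynomial.X - 1 : Polynomial ℤ) 1 N
    refine ⟨(Polynomial.X - 1) * r, ?_⟩
    simp only [a, b]
    rw [sub_add_cancel, one_pow] at hr
    rw [hr]; ring
  obtain ⟨r, hr⟩ := dvd_sub_pow_of_dvd_sub hab k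
  have h := congrArg (Polynomial.aeval (R := ℤ) g) hr
  simp only [a, b, map_sub, map_mul, map_pow, map_add, map_one, map_natCast, Polynomial.aeval_X]
    at h
  rw [pow_succ, hk, zero_mul, zero_mul, pow_eq_zero_of_le hN hg, zero_add, one_pow,
    sub_eq_zero, ← pow_mul, ← pow_add] at h
  exact h

omit [DistribMulAction GQ B] [Finite B] in
theorem mapsTo_pow {S : AddSubgroup B} {f : AddMonoid.End B} (hf : ∀ a ∈ S, f a ∈ S) (N : ℕ)
    {a : B} (ha : a ∈ S) : (f ^ N) a ∈ S := by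
  induction N generalizing a with
  | zero => simpa using ha
  | succ N ih => rw [pow_succ]; exact ih (hf a ha)

omit [DistribMulAction GQ B] [Finite B] in
theorem exists_mem_of_pow_mem {A A' : AddSubgroup B} {f : AddMonoid.End B}
    (hf : ∀ a ∈ A, f a ∈ A) (N : ℕ) {a : B} (ha : a ∈ A) (ha' : a ∉ A') (h : (f ^ N) a ∈ A') :
    ∃ b ∈ A, b ∉ A' ∧ f b ∈ A' := by
  induction N generalizing a with
  | zero => exact absurd (by simpa using h) ha'
  | succ N ih =>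
    by_cases hfa : f a ∈ A'
    · exact ⟨a, ha, ha', hfa⟩
    · exact ih (hf a ha) hfa (by rw [pow_succ] at h; exact h)

/-- The action on a subquotient. -/
def quotAct (A A' : AddSubgroup B) (hA : ∀ σ : GQ, ∀ a ∈ A, σ • a ∈ A)
    (hA' : ∀ σ : GQ, ∀ a ∈ A', σ • a ∈ A') : GQ →* AddMonoid.End (A ⧸ A'.addSubgroupOf A) where
  toFun σ := QuotientAddGroup.map _ _
    ({ toFun := fun a => ⟨σ • (a : B), hA σ a a.2⟩
       map_zero' := Subtype.ext (smul_zero σ)
       map_add' := fun a b => Subtype.ext (smul_add σ (a : B) b) } : A →+ A)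
    (fun a ha => hA' σ a ha)
  map_one' := AddMonoidHom.ext fun x => QuotientAddGroup.induction_on x fun a =>
    congrArg QuotientAddGroup.mk (Subtype.ext (one_smul GQ (a : B)))
  map_mul' σ τ := AddMonoidHom.ext fun x => QuotientAddGroup.induction_on x fun a =>
    congrArg QuotientAddGroup.mk (Subtype.ext (mul_smul σ τ (a : B)))

omit [Finite B] in
theorem quotAct_mk {A A' : AddSubgroup B} (hA : ∀ σ : GQ, ∀ a ∈ A, σ • a ∈ A)
    (hA' : ∀ σ : GQ, ∀ a ∈ A', σ • a ∈ A') (σ : GQ) (a : A) :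
    quotAct A A' hA hA' σ (QuotientAddGroup.mk a) = QuotientAddGroup.mk ⟨σ • (a : B), hA σ a a.2⟩ :=
  rfl

omit [Finite B] in
/-- Elements with trivial cyclotomic character act unipotently. -/
theorem exists_opD_pow [Fact l.Prime] (hB : IsAdm B l p Al Ap B₀) {σ : GQ} (hσ : chiU l σ = 1) :
    ∃ M : ℕ, (opD σ 1) ^ M = (0 : AddMonoid.End B) := by
  have hl : l.Prime := Fact.out
  obtain ⟨k, hk⟩ := hB.lpow
  obtain ⟨w, N, hw, hN⟩ := hB.eis σ
  obtain ⟨c, hc⟩ : (l : ℤ) ∣ (w : ℤ) - 1 := by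
    obtain ⟨ζ, hζ⟩ := HasEnoughRootsOfUnity.exists_primitiveRoot Qb l
    have h := hw ζ hζ.pow_eq_one
    rw [apply_of_pow_eq_one l σ hζ.pow_eq_one, hσ, Units.val_one, ZMod.val_one] at h
    have h2 := pow_eq_pow_iff_modEq.mp (show (hζ.toRootsOfUnity : Qbˣ) ^ 1 =
      (hζ.toRootsOfUnity : Qbˣ) ^ w from Units.ext (by simpa using h))
    rw [show orderOf (hζ.toRootsOfUnity : Qbˣ) = l from
      ((IsPrimitiveRoot.coe_units_iff.mp (by simpa using hζ)).eq_orderOf).symm] at h2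
    exact Int.modEq_iff_dvd.mp (Int.natCast_modEq_iff.mpr h2)
  set g : AddMonoid.End B := DistribMulAction.toAddMonoidEnd GQ B σ with hg
  have hlB : ((l : AddMonoid.End B)) ^ k = 0 := by
    rw [← Nat.cast_pow]
    ext a
    rw [AddMonoid.End.natCast_apply, hk]; rfl
  refine ⟨2 * (N + k), ?_⟩
  have e1 : opD σ 1 = g - 1 := by rw [opD, Nat.cast_one]
  have e2 : (opD σ w : AddMonoid.End B) = (g - 1) - (l : AddMonoid.End B) * c := by
    have h := congrArg (fun z : ℤ => (z : AddMonoid.End B)) hc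
    push_cast at h
    rw [opD, ← h]; abel
  rw [e1, e2] at hN
  rw [e1]
  have hlc : Commute ((l : AddMonoid.End B) * c) (g - 1) :=
    (Nat.cast_commute l _).mul_left (Int.cast_commute c _)
  have hlk : ((g - 1) * ((l : AddMonoid.End B) * c)) ^ k = 0 := by
    rw [hlc.symm.mul_pow, (Nat.cast_commute l _).mul_pow, hlB, zero_mul, mul_zero]
  have hc2 : Commute ((g - 1) * ((g - 1) - (l : AddMonoid.End B) * c))
      ((g - 1) * ((l : AddMonoid.End B) * c)) :=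
    ((Commute.refl _).mul_right hlc.symm).mul_left
      (((Commute.refl _).mul_right hlc.symm).sub_left (hlc.mul_right (Commute.refl _)))
  have h3 := hc2.add_pow_eq_zero_of_add_le_succ_of_pow_eq_zero hN hlk (Nat.le_succ (N + k))
  rw [← mul_add, sub_add_cancel, ← pow_two, ← pow_mul] at h3
  exact h3

set_option maxHeartbeats 1600000 in
/-- A nontrivial stable subgroup has a stable subgroup of index `l`, with a character giving the
action on the quotient. -/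
theorem exists_layer [Fact l.Prime] (hB : IsAdm B l p Al Ap B₀) (A : AddSubgroup B)
    (hA : ∀ σ : GQ, ∀ a ∈ A, σ • a ∈ A) (hne : A ≠ ⊥) :
    ∃ (A' : AddSubgroup B) (φ : A →+ ZMod l) (η : GQ →* (ZMod l)ˣ),
      A' ≤ A ∧ A' ≠ A ∧ (∀ σ : GQ, ∀ a ∈ A', σ • a ∈ A') ∧ (∀ a : A, φ a = 0 ↔ (a : B) ∈ A') ∧
      Function.Surjective φ ∧ ∀ (σ : GQ) (a : A), φ ⟨σ • (a : B), hA σ a a.2⟩ = η σ * φ a := by
  classical
  have hl : l.Prime := Fact.out
  obtain ⟨k, hk⟩ := hB.lpow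
  let St : Set (AddSubgroup B) := {S | S ≤ A ∧ S ≠ A ∧ ∀ σ : GQ, ∀ a ∈ S, σ • a ∈ S}
  have hSt : St.Finite := Set.toFinite _
  obtain ⟨A', hmax⟩ := hSt.exists_maximal ⟨⊥, bot_le, Ne.symm hne, fun σ a ha => by
    rw [AddSubgroup.mem_bot] at ha ⊢; rw [ha, smul_zero]⟩
  obtain ⟨hle, hneA, hA'⟩ := hmax.1
  have hmax' : ∀ S : AddSubgroup B, A' ≤ S → S ≤ A → (∀ σ : GQ, ∀ a ∈ S, σ • a ∈ S) →
      (∃ a ∈ S, a ∉ A') → S = A := fun S h1 h2 h3 ⟨a, ha, ha'⟩ => by
    by_contra h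
    exact ha' (hmax.2 ⟨h2, h, h3⟩ h1 ha)
  -- the quotient and the image of the kernel of the cyclotomic character
  let N' : AddSubgroup A := A'.addSubgroupOf A
  let act : GQ →* AddMonoid.End (A ⧸ N') := quotAct A A' hA hA'
  let H : Subgroup GQ := (chiU l).ker
  let P : Subgroup (AddMonoid.End (A ⧸ N'))ˣ := H.map act.toHomUnits
  have hP : IsPGroup l P := fun ⟨u, hu⟩ => by
    obtain ⟨σ, hσ, rfl⟩ := Subgroup.mem_map.mp hu
    obtain ⟨M, hM⟩ := exists_opD_pow hB (MonoidHom.mem_ker.mp hσ)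
    have hlQ : ((l : AddMonoid.End (A ⧸ N'))) ^ k = 0 := by
      refine (Nat.cast_pow (α := AddMonoid.End (A ⧸ N')) l k).symm.trans ?_
      refine DFunLike.ext _ _ fun x => QuotientAddGroup.induction_on x fun a => ?_
      rw [AddMonoid.End.natCast_apply, ← QuotientAddGroup.mk_nsmul,
        show l ^ k • a = 0 from Subtype.ext (hk a)]
      rfl
    have hind : ∀ (j : ℕ) (a : A), ∃ h : ((opD σ 1) ^ j : AddMonoid.End B) (a : B) ∈ A,
        ((act σ - 1) ^ j) (QuotientAddGroup.mk a) = QuotientAddGroup.mk ⟨_, h⟩ := by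
      intro j
      induction j with
      | zero => exact fun a => ⟨a.2, rfl⟩
      | succ j ih =>
        intro a
        obtain ⟨h, hh⟩ := ih (⟨σ • (a : B), hA σ a a.2⟩ - a)
        have e : opD σ 1 (a : B) = σ • (a : B) - a := by rw [opD_apply, one_smul]
        have e2 : ((opD σ 1) ^ (j + 1) : AddMonoid.End B) (a : B) =
            ((opD σ 1) ^ j : AddMonoid.End B) (σ • (a : B) - a) := by
          rw [← e, pow_succ]; rfl
        refine ⟨e2 ▸ h, ?_⟩
        rw [pow_succ]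
        show ((act σ - 1) ^ j) (act σ (QuotientAddGroup.mk a) - QuotientAddGroup.mk a) = _
        rw [quotAct_mk, ← QuotientAddGroup.mk_sub, hh]
        exact congrArg _ (Subtype.ext e2.symm)
    have hgM : (act σ - 1) ^ M = (0 : AddMonoid.End (A ⧸ N')) :=
      DFunLike.ext _ _ fun x => QuotientAddGroup.induction_on x fun a => by
        obtain ⟨h, hh⟩ := hind M a
        refine hh.trans ?_
        rw [show (⟨_, h⟩ : A) = 0 from Subtype.ext (DFunLike.congr_fun hM (a : B))]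
        rfl
    obtain ⟨m, hm⟩ := exists_pow_eq_one (R := AddMonoid.End (A ⧸ N')) hl hlQ hgM
    exact ⟨m, Subtype.ext (Units.ext (by
      rw [Subgroup.coe_pow, Units.val_pow_eq_pow_val]; exact hm))⟩
  -- a nonzero element killed by `l` and fixed modulo `A'` by the kernel
  obtain ⟨a₀, ha₀A, ha₀⟩ : ∃ a ∈ A, a ∉ A' := SetLike.not_le_iff_exists.mp fun h =>
    hneA (le_antisymm hle h)
  obtain ⟨a₁, ha₁, ha₁'⟩ : ∃ a : A, (a : B) ∉ A' ∧ ∀ σ ∈ H, σ • (a : B) - a ∈ A' := by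
    have hcard : l ∣ Nat.card (A ⧸ N') := by
      have hq : (QuotientAddGroup.mk ⟨a₀, ha₀A⟩ : A ⧸ N') ≠ 0 := fun h =>
        ha₀ ((QuotientAddGroup.eq_zero_iff (N := N') (⟨a₀, ha₀A⟩ : A)).mp h)
      have hdvd : addOrderOf (QuotientAddGroup.mk ⟨a₀, ha₀A⟩ : A ⧸ N') ∣ l ^ k :=
        addOrderOf_dvd_iff_nsmul_eq_zero.mpr (by
          rw [← QuotientAddGroup.mk_nsmul, show l ^ k • (⟨a₀, ha₀A⟩ : A) = 0 from
            Subtype.ext (hk a₀), QuotientAddGroup.mk_zero])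
      obtain ⟨j, -, hj⟩ := (Nat.dvd_prime_pow hl).mp hdvd
      refine dvd_trans ?_ (addOrderOf_dvd_natCard (QuotientAddGroup.mk ⟨a₀, ha₀A⟩ : A ⧸ N'))
      rw [hj]
      refine dvd_pow_self l fun h => hq (AddMonoid.addOrderOf_eq_one_iff.mp ?_)
      rw [hj, h, pow_zero]
    have hfix0 : (0 : A ⧸ N') ∈ MulAction.fixedPoints P (A ⧸ N') := fun u =>
      (u : (AddMonoid.End (A ⧸ N'))ˣ).val.map_zero
    obtain ⟨x, hx, hx0⟩ := hP.exists_fixed_point_of_prime_dvd_card_of_fixed_point _ hcard hfix0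
    obtain ⟨a, rfl⟩ := QuotientAddGroup.mk_surjective x
    refine ⟨a, fun h => hx0 ((QuotientAddGroup.eq_zero_iff (N := N') a).mpr h).symm, fun σ hσ => ?_⟩
    have h := hx ⟨act.toHomUnits σ, Subgroup.mem_map_of_mem _ hσ⟩
    change act σ (QuotientAddGroup.mk a) = QuotientAddGroup.mk a at h
    rw [eq_comm] at h
    have h2 := QuotientAddGroup.eq.mp h
    rwa [AddSubgroup.mem_addSubgroupOf, AddSubgroup.coe_add, AddSubgroup.coe_neg,
      neg_add_eq_sub] at h2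
  let S : AddSubgroup B :=
    { carrier := {a | a ∈ A ∧ l • a ∈ A' ∧ ∀ σ ∈ H, σ • a - a ∈ A'}
      zero_mem' := ⟨A.zero_mem, by simp, fun σ _ => by simp⟩
      add_mem' := fun {a b} ⟨h1, h2, h3⟩ ⟨h4, h5, h6⟩ => ⟨A.add_mem h1 h4,
        by rw [nsmul_add]; exact A'.add_mem h2 h5, fun σ hσ => by
          rw [smul_add, add_sub_add_comm]; exact A'.add_mem (h3 σ hσ) (h6 σ hσ)⟩
      neg_mem' := fun {a} ⟨h1, h2, h3⟩ => ⟨A.neg_mem h1,
        by rw [neg_nsmul]; exact A'.neg_mem h2, fun σ hσ => by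
          rw [smul_neg, ← neg_sub']; exact A'.neg_mem (h3 σ hσ)⟩ }
  have hSA : S = A := by
    refine hmax' S (fun a ha => ⟨hle ha, A'.nsmul_mem ha l, fun σ _ => A'.sub_mem (hA' σ a ha) ha⟩)
      (fun a ha => ha.1) (fun τ a ha => ⟨hA τ a ha.1, ?_, fun σ hσ => ?_⟩) ?_
    · rw [smul_comm l τ a]; exact hA' τ _ ha.2.1
    · have hconj : τ⁻¹ * σ * τ ∈ H := by
        have := (MonoidHom.normal_ker (chiU l)).conj_mem σ hσ τ⁻¹
        rwa [inv_inv] at this
      have h := hA' τ _ (ha.2.2 _ hconj)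
      rwa [smul_sub, mul_smul, mul_smul, smul_inv_smul] at h
    · -- a multiple of `a₁` killed by `l`
      let j := Nat.find (p := fun j => l ^ j • (a₁ : B) ∈ A')
        ⟨k, by rw [hk]; exact A'.zero_mem⟩
      have hj : l ^ j • (a₁ : B) ∈ A' := Nat.find_spec (p := fun j => l ^ j • (a₁ : B) ∈ A') _
      have hj0 : j ≠ 0 := fun h => ha₁ (by rw [h, pow_zero, one_smul] at hj; exact hj)
      obtain ⟨i, hi⟩ := Nat.exists_eq_succ_of_ne_zero hj0
      refine ⟨l ^ i • (a₁ : B), ⟨A.nsmul_mem a₁.2 _, ?_, fun σ hσ => ?_⟩,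
        Nat.find_min (p := fun j => l ^ j • (a₁ : B) ∈ A') _ (by omega : i < j)⟩
      · rw [← mul_smul, ← pow_succ', ← Nat.succ_eq_add_one, ← hi]; exact hj
      · rw [smul_comm σ, ← nsmul_sub]; exact A'.nsmul_mem (ha₁' σ hσ) _
  have hlA : ∀ a ∈ A, l • a ∈ A' := fun a ha => (hSA ▸ ha : a ∈ S).2.1
  have hHA : ∀ a ∈ A, ∀ σ ∈ H, σ • a - a ∈ A' := fun a ha => (hSA ▸ ha : a ∈ S).2.2
  -- a generator of the image of the cyclotomic character
  obtain ⟨⟨u₀, σ₀, hσ₀⟩, hgen⟩ := IsCyclic.exists_monoid_generator (α := (chiU l).range)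
  obtain ⟨w, N, -, hN⟩ := hB.eis σ₀
  have hD : ∀ v : ℕ, ∀ a ∈ A, opD σ₀ v a ∈ A := fun v a ha => by
    rw [opD_apply]; exact A.sub_mem (hA σ₀ a ha) (A.nsmul_mem ha v)
  obtain ⟨b₀, hb₀A, hb₀, hb₀f⟩ := exists_mem_of_pow_mem (A' := A')
    (f := opD σ₀ 1 * opD σ₀ w) (fun a ha => hD 1 _ (hD w a ha)) N ha₀A ha₀
    (by rw [hN]; exact A'.zero_mem)
  obtain ⟨b, t, hbA, hbA', hb⟩ : ∃ b : B, ∃ t : ℕ, b ∈ A ∧ b ∉ A' ∧ σ₀ • b - t • b ∈ A' := by
    by_cases h : opD σ₀ w b₀ ∈ A'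
    · rw [opD_apply] at h
      exact ⟨b₀, w, hb₀A, hb₀, h⟩
    · change opD σ₀ 1 (opD σ₀ w b₀) ∈ A' at hb₀f
      rw [opD_apply] at hb₀f
      exact ⟨_, 1, hD w b₀ hb₀A, h, hb₀f⟩
  have hpow : ∀ i : ℕ, σ₀ ^ i • b - t ^ i • b ∈ A' := by
    intro i
    induction i with
    | zero => simp
    | succ i ih =>
      have h1 := hA' σ₀ _ ih
      rw [smul_sub, ← mul_smul, ← pow_succ', smul_comm σ₀] at h1
      have h2 := A'.add_mem h1 (A'.nsmul_mem hb (t ^ i))
      rw [nsmul_sub, ← mul_smul (t ^ i) t b, ← pow_succ, sub_add_sub_cancel] at h2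
      exact h2
  have hσb : ∀ σ : GQ, ∃ n : ℕ, σ • b - n • b ∈ A' := fun σ => by
    obtain ⟨i, hi⟩ := hgen ⟨chiU l σ, σ, rfl⟩
    have hi' : chiU l (σ₀ ^ i) = chiU l σ := by
      rw [map_pow, hσ₀]; exact congrArg Subtype.val hi
    have hmem : (σ₀ ^ i)⁻¹ * σ ∈ H := MonoidHom.mem_ker.mpr (by
      rw [map_mul, map_inv, hi', inv_mul_cancel])
    have h := hA' (σ₀ ^ i) _ (hHA b hbA _ hmem)
    rw [smul_sub, ← mul_smul, mul_inv_cancel_left] at h
    exact ⟨t ^ i, by simpa using A'.add_mem h (hpow i)⟩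
  let C : AddSubgroup B := A' ⊔ AddSubgroup.zmultiples b
  have hCA : C = A := by
    refine hmax' C le_sup_left (sup_le hle (AddSubgroup.zmultiples_le.mpr hbA)) ?_
      ⟨b, AddSubgroup.mem_sup_right (AddSubgroup.mem_zmultiples b), hbA'⟩
    intro σ a ha
    obtain ⟨x, hx, y, hy, rfl⟩ := AddSubgroup.mem_sup.mp ha
    obtain ⟨j, rfl⟩ := AddSubgroup.mem_zmultiples_iff.mp hy
    obtain ⟨n, hn⟩ := hσb σ
    rw [smul_add, smul_comm σ j b]
    refine C.add_mem (AddSubgroup.mem_sup_left (hA' σ x hx)) (C.zsmul_mem ?_ j)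
    rw [← sub_add_cancel (σ • b) (n • b)]
    exact C.add_mem (AddSubgroup.mem_sup_left hn)
      (AddSubgroup.mem_sup_right (AddSubgroup.nsmul_mem_zmultiples b n))
  -- the coordinate
  have hsub : ∀ {i j : ℤ}, i • b - j • b ∈ A' → (i : ZMod l) = j := fun {i j} h => by
    rw [← sub_smul] at h
    rw [← sub_eq_zero, ← Int.cast_sub, ZMod.intCast_zmod_eq_zero_iff_dvd]
    by_contra hd
    obtain ⟨x, y, hxy⟩ := ((Nat.prime_iff_prime_int.mp hl).coprime_iff_not_dvd).mpr hd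
    refine hbA' ?_
    have : b = x • ((l : ℤ) • b) + y • ((i - j) • b) := by
      rw [← mul_smul, ← mul_smul, ← add_smul, hxy, one_smul]
    rw [this]
    refine A'.add_mem (A'.zsmul_mem ?_ x) (A'.zsmul_mem h y)
    rw [natCast_zsmul]; exact hlA b hbA
  have hco : ∀ a : A, ∃ j : ℤ, (a : B) - j • b ∈ A' := fun a => by
    obtain ⟨x, hx, y, hy, hxy⟩ := AddSubgroup.mem_sup.mp (hCA ▸ a.2 : (a : B) ∈ C)
    obtain ⟨j, rfl⟩ := AddSubgroup.mem_zmultiples_iff.mp hy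
    exact ⟨j, by rw [← hxy, add_sub_cancel_right]; exact hx⟩
  have huniq : ∀ (a : A) (j : ℤ), (a : B) - j • b ∈ A' → ((hco a).choose : ZMod l) = j :=
    fun a j h => hsub (by
      have := A'.sub_mem h (hco a).choose_spec
      rwa [sub_sub_sub_cancel_left] at this)
  let φ : A →+ ZMod l :=
    { toFun := fun a => ((hco a).choose : ZMod l)
      map_zero' := by rw [huniq 0 0 (by simp)]; simp
      map_add' := fun a a' => by
        rw [huniq (a + a') ((hco a).choose + (hco a').choose) (by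
          rw [AddSubgroup.coe_add, add_smul, add_sub_add_comm]
          exact A'.add_mem (hco a).choose_spec (hco a').choose_spec), Int.cast_add] }
  have hφ : ∀ (a : A) (j : ℤ), (a : B) - j • b ∈ A' → φ a = j := huniq
  have hφ0 : ∀ a : A, φ a = 0 ↔ (a : B) ∈ A' := fun a => by
    refine ⟨fun h => ?_, fun h => by rw [hφ a 0 (by simpa using h), Int.cast_zero]⟩
    have h1 := (hco a).choose_spec
    obtain ⟨c, hc⟩ := (ZMod.intCast_zmod_eq_zero_iff_dvd _ _).mp h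
    rw [hc, mul_comm, mul_smul, natCast_zsmul] at h1
    simpa using A'.add_mem h1 (A'.zsmul_mem (hlA b hbA) c)
  let e : GQ → ZMod l := fun σ => φ ⟨σ • b, hA σ b hbA⟩
  have hφσ : ∀ (σ : GQ) (a : A), φ ⟨σ • (a : B), hA σ a a.2⟩ = e σ * φ a := fun σ a => by
    have h1 := hA' σ _ (hco a).choose_spec
    have h2 := (hco ⟨σ • b, hA σ b hbA⟩).choose_spec
    rw [smul_sub, smul_comm σ] at h1
    rw [hφ ⟨_, hA σ a a.2⟩ ((hco a).choose * (hco ⟨σ • b, hA σ b hbA⟩).choose) (by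
      have h3 := A'.add_mem h1 (A'.zsmul_mem h2 (hco a).choose)
      rwa [zsmul_sub, ← mul_smul, sub_add_sub_cancel] at h3), Int.cast_mul, mul_comm]
    rfl
  have he1 : e 1 = 1 := by
    show φ _ = 1
    refine (hφ _ 1 ?_).trans Int.cast_one
    show (1 : GQ) • b - (1 : ℤ) • b ∈ A'
    rw [one_smul, one_smul, sub_self]; exact A'.zero_mem
  have hemul : ∀ σ τ, e (σ * τ) = e σ * e τ := fun σ τ => by
    show φ _ = e σ * φ _
    rw [← hφσ]
    exact congrArg φ (Subtype.ext (mul_smul σ τ b))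
  let η₀ : GQ →* ZMod l := { toFun := e, map_one' := he1, map_mul' := hemul }
  refine ⟨A', φ, η₀.toHomUnits, hle, hneA, hA', hφ0, fun j => ?_, hφσ⟩
  refine ⟨⟨(j.val : ℤ) • b, A.zsmul_mem hbA _⟩, ?_⟩
  rw [hφ _ (j.val : ℤ) (by rw [sub_self]; exact A'.zero_mem)]
  simp

/-- The pairs with values in a subgroup. -/
def selIn (l p : ℕ) (Al Ap : ValuationSubring Qb) (B₀ A : AddSubgroup B) :
    AddSubgroup ((GQ → B) × B) :=
  selPairs l p Al Ap B₀ ⊓ (AddSubgroup.pi Set.univ fun _ => A).prod A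

omit [Finite B] in
theorem mem_selIn {A : AddSubgroup B} {x : (GQ → B) × B} :
    x ∈ selIn l p Al Ap B₀ A ↔ x ∈ selPairs l p Al Ap B₀ ∧ (∀ σ, x.1 σ ∈ A) ∧ x.2 ∈ A := by
  simp [selIn, AddSubgroup.mem_inf, AddSubgroup.mem_prod, AddSubgroup.mem_pi]

set_option maxHeartbeats 1600000 in
/-- One layer. -/
theorem layer_bound [Fact l.Prime] (hp : p.Prime) (hlp : l ≠ p) (hAl : Al.LiesOverPrime l)
    (hAp : Ap.LiesOverPrime p) (hB : IsAdm B l p Al Ap B₀) (A A' : AddSubgroup B)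
    (hA : ∀ σ : GQ, ∀ a ∈ A, σ • a ∈ A) (hle : A' ≤ A) (φ : A →+ ZMod l)
    (hφ0 : ∀ a : A, φ a = 0 ↔ (a : B) ∈ A') (hφs : Function.Surjective φ) (η : GQ →* (ZMod l)ˣ)
    (hη : ∀ (σ : GQ) (a : A), φ ⟨σ • (a : B), hA σ a a.2⟩ = η σ * φ a) :
    ∃ T : Set ((GQ → ZMod l) × ZMod l), T.Finite ∧
      T.ncard * Nat.card (A' ⊓ B₀ : AddSubgroup B) ≤ l * Nat.card (A ⊓ B₀ : AddSubgroup B) ∧
      ∀ x ∈ selPairs l p Al Ap B₀, ∀ (h1 : ∀ σ, x.1 σ ∈ A) (h2 : x.2 ∈ A),
        ((fun σ => φ ⟨x.1 σ, h1 σ⟩), φ ⟨x.2, h2⟩) ∈ T := by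
  classical
  have hl : l.Prime := Fact.out
  have : NeZero l := ⟨hl.ne_zero⟩
  obtain ⟨⟨b, hbA⟩, hb⟩ := hφs 1
  have hηb : ∀ σ : GQ, φ ⟨σ • b, hA σ b hbA⟩ = η σ := fun σ => by
    rw [hη σ ⟨b, hbA⟩, hb, mul_one]
  have hηp : ∀ σ ∈ Ap.inertiaSubgroupIn ℚ, η σ = 1 := fun σ hσ => by
    have h := congrArg φ (Subtype.ext (hB.unip σ hσ b) :
      (⟨σ • (σ • b - b), hA σ _ (A.sub_mem (hA σ b hbA) hbA)⟩ : A) =
        ⟨σ • b - b, A.sub_mem (hA σ b hbA) hbA⟩)
    rw [hη σ ⟨σ • b - b, A.sub_mem (hA σ b hbA) hbA⟩, show (⟨σ • b - b, A.sub_mem (hA σ b hbA) hbA⟩ : A) =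
      ⟨σ • b, hA σ b hbA⟩ - ⟨b, hbA⟩ from rfl, map_sub, hηb, hb] at h
    refine Units.ext (sub_eq_zero.mp (mul_self_eq_zero.mp ?_))
    rw [Units.val_one, sub_mul, h, one_mul, sub_self]
  have hηq : ∀ q : ℕ, q.Prime → q ≠ l → q ≠ p → ∀ A₁ : ValuationSubring Qb, A₁.LiesOverPrime q →
      ∀ σ ∈ A₁.inertiaSubgroupIn ℚ, η σ = 1 := fun q hq h1 h2 A₁ hA₁ σ hσ => Units.ext (by
    rw [← hηb, Units.val_one, ← hb]
    exact congrArg φ (Subtype.ext (hB.unram q hq h1 h2 A₁ hA₁ σ hσ b)))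
  obtain ⟨E₁, hE₁fd, hE₁⟩ := hB.cts b
  have hηE : ∀ σ : GQ, (∀ x ∈ E₁, σ x = x) → η σ = 1 := fun σ hσ => Units.ext (by
    rw [← hηb, Units.val_one, ← hb]
    exact congrArg φ (Subtype.ext (hE₁ σ hσ)))
  by_cases hcase : (A ⊓ B₀) ≤ A'
  · -- unramified everywhere
    have hηl : ∀ σ ∈ Al.inertiaSubgroupIn ℚ, η σ = 1 := fun σ hσ => Units.ext (by
      rw [Units.val_one, ← hb, ← hηb, eq_comm, ← sub_eq_zero, ← map_sub, ← neg_eq_zero, ← map_neg,
        neg_sub, hφ0]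
      exact hcase ⟨A.sub_mem (hA σ b hbA) hbA, hB.quot σ hσ b⟩)
    have hη1 : ∀ σ, η σ = 1 := by
      have htop := eq_top_of_inertia_le η.ker E₁ (fun σ hσ => hηE σ hσ) fun q hq => by
        by_cases h1 : q = l
        · exact ⟨Al, h1 ▸ hAl, fun σ hσ => hηl σ hσ⟩
        by_cases h2 : q = p
        · exact ⟨Ap, h2 ▸ hAp, fun σ hσ => hηp σ hσ⟩
        obtain ⟨A₁, hA₁⟩ := FA.Deform.exists_liesOverPrime hq
        exact ⟨A₁, hA₁, fun σ hσ => hηq q hq h1 h2 A₁ hA₁ σ hσ⟩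
      exact fun σ => (htop ▸ Subgroup.mem_top σ : σ ∈ η.ker)
    refine ⟨Set.range fun j : ZMod l => ((fun _ => 0 : GQ → ZMod l), j), Set.finite_range _, ?_, ?_⟩
    · refine Nat.mul_le_mul ?_ (AddSubgroup.card_le_of_le (inf_le_inf_right B₀ hle))
      rw [Set.ncard_range_of_injective (fun a b h => (Prod.ext_iff.mp h).2), Nat.card_zmod]
    rintro ⟨c, g⟩ ⟨hc, hcu, ⟨hc0, -⟩, hcp⟩ h1 h2
    refine ⟨φ ⟨g, h2⟩, Prod.ext ?_ rfl⟩
    let cb : GQ → ZMod l := fun σ => φ ⟨c σ, h1 σ⟩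
    have hadd : ∀ σ τ, cb (σ * τ) = cb σ + cb τ := fun σ τ => by
      show φ _ = φ _ + φ _
      rw [show (⟨c (σ * τ), h1 _⟩ : A) = ⟨c σ, h1 σ⟩ + ⟨σ • c τ, hA σ _ (h1 τ)⟩ from
        Subtype.ext (hc.map_mul σ τ), map_add, hη σ ⟨c τ, h1 τ⟩, hη1 σ, Units.val_one, one_mul]
    let f : GQ →* Multiplicative (ZMod l) :=
      MonoidHom.mk' (fun σ => Multiplicative.ofAdd (cb σ)) fun σ τ => by rw [hadd]; rfl
    obtain ⟨E₂, hE₂fd, hE₂⟩ := hc.cts
    have hker : ∀ {σ : GQ}, cb σ = 0 → σ ∈ f.ker := fun {σ} h => MonoidHom.mem_ker.mpr (by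
      show Multiplicative.ofAdd (cb σ) = 1
      rw [h, ofAdd_zero])
    have htop := eq_top_of_inertia_le f.ker E₂ (fun σ hσ => hker ((hφ0 _).mpr (by
        show c σ ∈ A'
        rw [show c σ = 0 from hE₂ σ hσ]; exact A'.zero_mem))) fun q hq => by
      by_cases h3 : q = l
      · exact ⟨Al, h3 ▸ hAl, fun σ hσ => hker ((hφ0 _).mpr (hcase ⟨h1 σ, hc0 σ hσ⟩))⟩
      by_cases h4 : q = p
      · refine ⟨Ap, h4 ▸ hAp, fun σ hσ => hker ?_⟩
        have h5 := congrArg φ (Subtype.ext (hcp σ hσ) :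
          (⟨c σ, h1 σ⟩ : A) + (⟨σ • g, hA σ g h2⟩ - ⟨g, h2⟩) = 0)
        rw [map_add, map_sub, hη σ ⟨g, h2⟩, hη1 σ, Units.val_one, one_mul, sub_self, add_zero,
          map_zero] at h5
        exact h5
      obtain ⟨A₁, hA₁⟩ := FA.Deform.exists_liesOverPrime hq
      refine ⟨A₁, hA₁, fun σ hσ => hker ((hφ0 _).mpr ?_)⟩
      show c σ ∈ A'
      rw [show c σ = 0 from hcu q hq h3 h4 A₁ hA₁ σ hσ]; exact A'.zero_mem
    funext σ
    exact (Multiplicative.ofAdd.injective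
      (MonoidHom.mem_ker.mp (htop ▸ Subgroup.mem_top σ : σ ∈ f.ker)) :).symm
  · -- multiplicative type
    obtain ⟨a₀, ⟨ha₀A, ha₀B⟩, ha₀⟩ := SetLike.not_le_iff_exists.mp hcase
    obtain ⟨ζ, hζ⟩ := HasEnoughRootsOfUnity.exists_primitiveRoot Qb l
    have hζ0 : ζ ≠ 0 := hζ.ne_zero hl.ne_zero
    let zu : Qbˣ := Units.mk0 ζ hζ0
    let ψ : ZMod l →+ Additive Qbˣ := ZMod.lift l ⟨zmultiplesHom _ (Additive.ofMul zu), by
      rw [zmultiplesHom_apply, natCast_zsmul, ← ofMul_pow]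
      refine congrArg Additive.ofMul (Units.ext ?_)
      rw [Units.val_pow_eq_pow_val, Units.val_one]
      exact hζ.pow_eq_one⟩
    have hψ : ∀ j : ZMod l, ((ψ j).toMul : Qb) = ζ ^ j.val := fun j => by
      conv_lhs => rw [← ZMod.natCast_zmod_val j, ← Int.cast_natCast]
      rw [show ψ ((j.val : ℤ) : ZMod l) = (j.val : ℤ) • Additive.ofMul zu from ZMod.lift_coe _ _ _,
        natCast_zsmul, toMul_nsmul, Units.val_pow_eq_pow_val]
      rfl
    obtain ⟨F, hF⟩ := exists_hom_extension A (ψ.comp φ)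
    have hFA : ∀ (a : B) (ha : a ∈ A), ((F a).toMul : Qb) = ζ ^ (φ ⟨a, ha⟩).val := fun a ha => by
      rw [← hψ, ← AddMonoidHom.comp_apply ψ φ ⟨a, ha⟩, ← hF]
    have hζp : ζ ^ l = 1 := hζ.pow_eq_one
    have hinj : ∀ {i j : ZMod l}, ζ ^ i.val = ζ ^ j.val → i = j := fun {i j} h =>
      ZMod.val_injective l (hζ.pow_inj (ZMod.val_lt i) (ZMod.val_lt j) h)
    have hu₀ : φ ⟨a₀, ha₀A⟩ ≠ 0 := fun h => ha₀ ((hφ0 _).mp h)
    have hηl : ∀ σ ∈ Al.inertiaSubgroupIn ℚ, η σ = chiU l σ := fun σ hσ => Units.ext (by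
      have h := hB.mult σ hσ a₀ ha₀B F
      rw [hFA _ (hA σ a₀ ha₀A), hFA _ ha₀A, map_pow, apply_of_pow_eq_one l σ hζp, ← pow_mul,
        hη σ ⟨a₀, ha₀A⟩, pow_mul, ← pow_val_mul l hζp] at h
      exact mul_right_cancel₀ hu₀ (hinj h))
    have hχp : ∀ σ ∈ Ap.inertiaSubgroupIn ℚ, chiU l σ = 1 := fun σ hσ =>
      chiU_eq_one_of_inertia hp hlp.symm hAp hσ
    have hη1 : ∀ σ, η σ = chiU l σ := by
      let H : Subgroup GQ := η.eqLocus (chiU l)
      have hHn : H.Normal := ⟨fun n hn g => by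
        show η _ = chiU l _
        simp only [map_mul, map_inv, show η n = chiU l n from hn, mul_inv_cancel_comm]⟩
      obtain ⟨E₀, hE₀fd, hE₀⟩ : ∃ E₀ : IntermediateField ℚ Qb, FiniteDimensional ℚ E₀ ∧ ζ ∈ E₀ :=
        ⟨IntermediateField.adjoin ℚ {ζ}, IntermediateField.adjoin.finiteDimensional
          (Algebra.IsAlgebraic.isAlgebraic ζ).isIntegral, IntermediateField.mem_adjoin_simple_self _ _⟩
      have htop := eq_top_of_inertia_le H (E₁ ⊔ E₀) (fun σ hσ => by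
        show η σ = chiU l σ
        rw [hηE σ fun x hx => hσ x ((le_sup_left : E₁ ≤ E₁ ⊔ E₀) hx)]
        refine (Units.ext (hinj ?_)).symm
        rw [← apply_of_pow_eq_one l σ hζp, hσ ζ ((le_sup_right : E₀ ≤ E₁ ⊔ E₀) hE₀),
          Units.val_one, ZMod.val_one, pow_one]) fun q hq => by
        by_cases h1 : q = l
        · exact ⟨Al, h1 ▸ hAl, fun σ hσ => hηl σ hσ⟩
        by_cases h2 : q = p
        · exact ⟨Ap, h2 ▸ hAp, fun σ hσ => (hηp σ hσ).trans (hχp σ hσ).symm⟩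
        obtain ⟨A₁, hA₁⟩ := FA.Deform.exists_liesOverPrime hq
        exact ⟨A₁, hA₁, fun σ hσ => (hηq q hq h1 h2 A₁ hA₁ σ hσ).trans
          (chiU_eq_one_of_inertia hq h1 hA₁ hσ).symm⟩
      exact fun σ => (htop ▸ Subgroup.mem_top σ : σ ∈ H)
    let U : Set (GQ → ZMod l) := {cb | ∃ β : Qb, β ^ (2 * l) = 1 ∧
      ∀ σ : GQ, σ β = ζ ^ (cb σ).val * β}
    have hU : U.Finite ∧ U.ncard ≤ l := by
      have hmem : ∀ cb : U, cb.2.choose ^ 2 ∈ {x : Qb | x ^ l = 1} := fun cb => by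
        show (cb.2.choose ^ 2) ^ l = 1
        rw [← pow_mul, cb.2.choose_spec.1]
      have hroots : {x : Qb | x ^ l = 1} = ↑(Polynomial.nthRootsFinset l (1 : Qb)) := by
        ext x; simp [Polynomial.mem_nthRootsFinset hl.pos]
      let g : U → {x : Qb | x ^ l = 1} := fun cb => ⟨_, hmem cb⟩
      have hg : Function.Injective g := fun c₁ c₂ h => by
        refine Subtype.ext (funext fun σ => hinj ?_)
        have hβ1 := c₁.2.choose_spec.2 σ
        have hβ2 := c₂.2.choose_spec.2 σ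
        have hne : c₂.2.choose ≠ 0 := fun h0 => by
          have := c₂.2.choose_spec.1
          rw [h0, zero_pow (mul_ne_zero two_ne_zero hl.ne_zero)] at this
          exact zero_ne_one this
        rcases sq_eq_sq_iff_eq_or_eq_neg.mp (congrArg Subtype.val h :) with h' | h' <;>
          rw [h'] at hβ1
        · exact mul_right_cancel₀ hne (hβ1.symm.trans hβ2)
        · rw [map_neg, mul_neg, neg_inj] at hβ1
          exact mul_right_cancel₀ hne (hβ1.symm.trans hβ2)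
      have : Finite {x : Qb | x ^ l = 1} := by rw [hroots]; exact Finset.finite_toSet _
      have hfin : Finite U := Finite.of_injective g hg
      refine ⟨hfin, ?_⟩
      rw [← Nat.card_coe_set_eq]
      refine le_trans (Nat.card_le_card_of_injective g hg) ?_
      rw [Nat.card_coe_set_eq, hroots, Set.ncard_coe_finset, hζ.card_nthRootsFinset]
    refine ⟨U ×ˢ Set.univ, hU.1.prod Set.finite_univ, ?_, ?_⟩
    · rw [Set.ncard_prod, Set.ncard_univ, Nat.card_zmod]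
      have hcardA : Nat.card (A ⊓ B₀ : AddSubgroup B) =
          l * Nat.card (A' ⊓ B₀ : AddSubgroup B) := by
        let r : (A ⊓ B₀ : AddSubgroup B) →+ ZMod l :=
          φ.comp (AddSubgroup.inclusion inf_le_left)
        have hr : Function.Surjective r := fun j => by
          refine ⟨(j * (φ ⟨a₀, ha₀A⟩)⁻¹).val • ⟨a₀, ha₀A, ha₀B⟩, ?_⟩
          rw [map_nsmul, show r ⟨a₀, ha₀A, ha₀B⟩ = φ ⟨a₀, ha₀A⟩ from rfl, nsmul_eq_mul,
            ZMod.natCast_zmod_val, mul_assoc, inv_mul_cancel₀ hu₀, mul_one]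
        rw [AddSubgroup.card_eq_card_quotient_mul_card_addSubgroup r.ker,
          Nat.card_congr (QuotientAddGroup.quotientKerEquivOfSurjective r hr).toEquiv,
          Nat.card_zmod]
        congr 1
        refine Nat.card_congr
          { toFun := fun a => ⟨(a : B), (hφ0 _).mp a.2, a.1.2.2⟩
            invFun := fun a => ⟨⟨(a : B), hle a.2.1, a.2.2⟩, (hφ0 _).mpr a.2.1⟩
            left_inv := fun a => rfl
            right_inv := fun a => rfl }
      rw [hcardA]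
      calc U.ncard * l * Nat.card (A' ⊓ B₀ : AddSubgroup B)
          ≤ l * l * Nat.card (A' ⊓ B₀ : AddSubgroup B) := by gcongr; exact hU.2
        _ = _ := by ring
    rintro ⟨c, g⟩ ⟨hc, hcu, ⟨hc0, hcl⟩, hcp⟩ h1 h2
    refine ⟨?_, Set.mem_univ _⟩
    let cb : GQ → ZMod l := fun σ => φ ⟨c σ, h1 σ⟩
    have hadd : ∀ σ τ, cb (σ * τ) = cb σ + chiU l σ * cb τ := fun σ τ => by
      show φ _ = φ _ + _ * φ _
      rw [show (⟨c (σ * τ), h1 _⟩ : A) = ⟨c σ, h1 σ⟩ + ⟨σ • c τ, hA σ _ (h1 τ)⟩ from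
        Subtype.ext (hc.map_mul σ τ), map_add, hη σ ⟨c τ, h1 τ⟩, hη1 σ]
    have hcb0 : ∀ σ, c σ = 0 → cb σ = 0 := fun σ h => (hφ0 _).mpr (by
      show c σ ∈ A'
      rw [h]; exact A'.zero_mem)
    -- Hilbert 90 over a finite Galois extension
    obtain ⟨E₂, hE₂fd, hE₂⟩ := hc.cts
    have : Algebra.IsAlgebraic ℚ Qb := AlgebraicClosure.isAlgebraic ℚ
    let K₀ : IntermediateField ℚ Qb := E₂ ⊔ IntermediateField.adjoin ℚ {ζ}
    have : FiniteDimensional ℚ (IntermediateField.adjoin ℚ {ζ}) :=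
      IntermediateField.adjoin.finiteDimensional (Algebra.IsAlgebraic.isAlgebraic ζ).isIntegral
    let L : IntermediateField ℚ Qb := IntermediateField.normalClosure ℚ K₀ Qb
    have : Normal ℚ L := normalClosure.normal ℚ K₀ Qb
    have : IsGalois ℚ L := ⟨⟩
    have : FiniteDimensional ℚ L := normalClosure.is_finiteDimensional ℚ K₀ Qb
    have hK₀L : K₀ ≤ L := IntermediateField.le_normalClosure K₀
    have hζL : ζ ∈ L := hK₀L ((le_sup_right : _ ≤ K₀) (IntermediateField.mem_adjoin_simple_self _ _))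
    let lift : (L ≃ₐ[ℚ] L) → GQ := fun τ => τ.liftNormal Qb
    have hlift : ∀ (τ : L ≃ₐ[ℚ] L) (y : L), lift τ (y : Qb) = ((τ y : L) : Qb) := fun τ y =>
      AlgEquiv.liftNormal_commutes _ Qb y
    have hext : ∀ σ σ' : GQ, (∀ y : L, σ (y : Qb) = σ' (y : Qb)) → cb σ = cb σ' := fun σ σ' h => by
      have hfix : ∀ x ∈ K₀, (σ'⁻¹ * σ) x = x := fun x hx => by
        rw [AlgEquiv.mul_apply, show σ x = σ' x from h ⟨x, hK₀L hx⟩, ← AlgEquiv.mul_apply,
          inv_mul_cancel, AlgEquiv.one_apply]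
      have h3 := hadd σ' (σ'⁻¹ * σ)
      rw [mul_inv_cancel_left, hcb0 _ (hE₂ _ fun x hx => hfix x ((le_sup_left : E₂ ≤ K₀) hx)),
        mul_zero, add_zero] at h3
      exact h3
    have hres : ∀ σ : GQ, ∀ y : L, lift (σ.restrictNormal L) (y : Qb) = σ (y : Qb) := fun σ y => by
      rw [hlift]; exact σ.restrictNormal_commutes L y
    let ζL : L := ⟨ζ, hζL⟩
    have hζLp : ζL ^ l = 1 := Subtype.ext hζp
    let zL : Lˣ := Units.mkOfMulEqOne ζL (ζL ^ (l - 1)) (by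
      rw [← pow_succ', show l - 1 + 1 = l by have := hl.pos; omega, hζLp])
    let f : (L ≃ₐ[ℚ] L) → Lˣ := fun τ => zL ^ (cb (lift τ)).val
    have hf : ∀ g h, (f (g * h) : L) = g (f h : L) * (f g : L) := fun g h => by
      refine Subtype.ext ?_
      rw [IntermediateField.coe_mul, ← hlift]
      show ζ ^ (cb (lift (g * h))).val =
        lift g (ζ ^ (cb (lift h)).val) * ζ ^ (cb (lift g)).val
      rw [hext (lift (g * h)) (lift g * lift h) (fun y => by
        rw [AlgEquiv.mul_apply, hlift, hlift, hlift, AlgEquiv.mul_apply]), hadd,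
        pow_val_add l hζp, map_pow, apply_of_pow_eq_one l _ hζp, pow_val_mul l hζp, mul_comm]
    obtain ⟨β, hβ0, hβ⟩ := exists_coboundary f hf
    have hσβ : ∀ σ : GQ, σ (β : Qb) = ζ ^ (cb σ).val * (β : Qb) := fun σ => by
      rw [← hres σ β, hlift, hβ, IntermediateField.coe_mul, hext σ (lift (σ.restrictNormal L))
        fun y => (hres σ y).symm]
      rfl
    have hβQ : (β : Qb) ≠ 0 := fun h => hβ0 (Subtype.ext h)
    obtain ⟨r, hr⟩ := exists_ratCast_of_fixed ((β : Qb) ^ l) fun σ => by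
      show σ ((β : Qb) ^ l) = (β : Qb) ^ l
      rw [map_pow σ]
      rw [show σ (β : Qb) = ζ ^ (cb σ).val * (β : Qb) from hσβ σ, mul_pow, ← pow_mul, mul_comm _ l, pow_mul, hζp, one_pow, one_mul]
    have hr0 : r ≠ 0 := fun h => hβQ (eq_zero_of_pow_eq_zero (by rw [← hr, h, Rat.cast_zero]))
    have hval : ∀ q : ℕ, q.Prime → q ≠ p → (l : ℤ) ∣ padicValRat q r := fun q hq hqp => by
      obtain ⟨A₁, hA₁, hjA⟩ : ∃ A₁ : ValuationSubring Qb, A₁.LiesOverPrime q ∧
          ∃ j : ℤ, A₁.valuation (β : Qb) = A₁.valuation (q : Qb) ^ j := by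
        by_cases h1 : q = l
        · subst h1
          obtain ⟨β', hβ'1, hβ'⟩ := hcl F
          refine ⟨Al, hAl, ?_⟩
          obtain ⟨j, hj⟩ := exists_zpow_of_fixed hq hAl (x := (β : Qb) / β')
            (div_ne_zero hβQ (fun h => by simp [h] at hβ'1)) fun σ hσ => by
              rw [map_div₀, hσβ, hβ' σ hσ, hFA _ (h1 σ)]
              exact mul_div_mul_left _ _ (pow_ne_zero _ hζ0)
          exact ⟨j, by rw [← hj, map_div₀, hβ'1, div_one]⟩
        · obtain ⟨A₁, hA₁⟩ := FA.Deform.exists_liesOverPrime hq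
          refine ⟨A₁, hA₁, exists_zpow_of_fixed hq hA₁ hβQ fun σ hσ => ?_⟩
          rw [hσβ, hcb0 σ (hcu q hq h1 hqp A₁ hA₁ σ hσ), ZMod.val_zero, pow_zero, one_mul]
      obtain ⟨j, hj⟩ := hjA
      refine ⟨j, ?_⟩
      have h3 : A₁.valuation (r : Qb) = A₁.valuation (q : Qb) ^ (l * j : ℤ) := by
        rw [hr, map_pow, hj, ← zpow_natCast, ← zpow_mul, mul_comm]
      exact padicValRat_eq_of_valuation hq hA₁ hr0 h3
    obtain ⟨s, hs⟩ := exists_pow_of_dvd_padicValRat hl hr0 (fun q hq => by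
      by_cases hqp : q = p
      · subst hqp
        obtain ⟨j, hj⟩ := exists_zpow_of_fixed hq hAp hβQ fun σ hσ => by
          have h5 := congrArg φ (Subtype.ext (hcp σ hσ) :
            (⟨c σ, h1 σ⟩ : A) + (⟨σ • g, hA σ g h2⟩ - ⟨g, h2⟩) = 0)
          rw [map_add, map_sub, hη σ ⟨g, h2⟩, hηp σ hσ, Units.val_one, one_mul, sub_self,
            add_zero, map_zero] at h5
          rw [hσβ, show cb σ = 0 from h5, ZMod.val_zero, pow_zero, one_mul]
        refine ⟨j, padicValRat_eq_of_valuation hq hAp hr0 ?_⟩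
        rw [hr, map_pow, hj, ← zpow_natCast, ← zpow_mul, mul_comm]
      · exact hval q hq hqp)
    have hs0 : (s : Qb) ≠ 0 := Rat.cast_ne_zero.mpr fun h => hr0 (by
      rcases hs with hs | hs <;> simp [hs, h, hl.ne_zero])
    refine ⟨(β : Qb) / s, ?_, fun σ => ?_⟩
    · rw [mul_comm 2 l, pow_mul, div_pow, ← hr]
      rcases hs with hs | hs <;> rw [hs] <;> push_cast
      · rw [div_self (pow_ne_zero _ hs0), one_pow]
      · rw [neg_div, div_self (pow_ne_zero _ hs0), neg_one_sq]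
    · rw [map_div₀, map_ratCast, hσβ, mul_div_assoc]

set_option maxHeartbeats 1600000 in
/-- The pairs with values in a stable subgroup `A` number at most `#(A ∩ B₀) · #A`. -/
theorem selIn_bound [Fact l.Prime] (hp : p.Prime) (hlp : l ≠ p) (hAl : Al.LiesOverPrime l)
    (hAp : Ap.LiesOverPrime p) (hB : IsAdm B l p Al Ap B₀) (A : AddSubgroup B)
    (hA : ∀ σ : GQ, ∀ a ∈ A, σ • a ∈ A) :
    Finite (selIn l p Al Ap B₀ A) ∧ Nat.card (selIn l p Al Ap B₀ A) ≤
      Nat.card (A ⊓ B₀ : AddSubgroup B) * Nat.card A := by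
  classical
  induction hn : Nat.card A using Nat.strong_induction_on generalizing A with
  | _ n ih => ?_
  subst hn
  have hl : l.Prime := Fact.out
  rcases eq_or_ne A ⊥ with rfl | hne
  · have : Subsingleton (selIn l p Al Ap B₀ (⊥ : AddSubgroup B)) := ⟨fun x y => by
      obtain ⟨-, h1, h2⟩ := mem_selIn.mp x.2
      obtain ⟨-, h3, h4⟩ := mem_selIn.mp y.2
      refine Subtype.ext (Prod.ext (funext fun σ => ?_) ?_)
      · rw [AddSubgroup.mem_bot.mp (h1 σ), AddSubgroup.mem_bot.mp (h3 σ)]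
      · rw [AddSubgroup.mem_bot.mp h2, AddSubgroup.mem_bot.mp h4]⟩
    exact ⟨inferInstance, le_trans (Finite.card_le_one_iff_subsingleton.mpr this)
      (Nat.mul_pos Nat.card_pos Nat.card_pos)⟩
  obtain ⟨A', φ, η, hle, hneA, hA', hφ0, hφs, hη⟩ := exists_layer hB A hA hne
  have hcard : Nat.card A = l * Nat.card A' := by
    rw [AddSubgroup.card_eq_card_quotient_mul_card_addSubgroup φ.ker,
      Nat.card_congr (QuotientAddGroup.quotientKerEquivOfSurjective φ hφs).toEquiv, Nat.card_zmod]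
    congr 1
    exact Nat.card_congr
      { toFun := fun a => ⟨(a : B), (hφ0 _).mp a.2⟩
        invFun := fun a => ⟨⟨(a : B), hle a.2⟩, (hφ0 _).mpr a.2⟩
        left_inv := fun _ => rfl
        right_inv := fun _ => rfl }
  have hlt : Nat.card A' < Nat.card A := by
    rw [hcard]; exact (lt_mul_iff_one_lt_left Nat.card_pos).mpr hl.one_lt
  obtain ⟨hfin', hbd'⟩ := ih _ hlt A' hA' rfl
  obtain ⟨T, hT, hTc, hTm⟩ := layer_bound hp hlp hAl hAp hB A A' hA hle φ hφ0 hφs η hη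
  let Φ : selIn l p Al Ap B₀ A →+ (GQ → ZMod l) × ZMod l :=
    { toFun := fun x => (fun σ => φ ⟨x.1.1 σ, (mem_selIn.mp x.2).2.1 σ⟩,
        φ ⟨x.1.2, (mem_selIn.mp x.2).2.2⟩)
      map_zero' := Prod.ext (funext fun σ => map_zero φ) (map_zero φ)
      map_add' := fun x y => Prod.ext (funext fun σ => map_add φ ⟨x.1.1 σ, _⟩ ⟨y.1.1 σ, _⟩)
        (map_add φ ⟨x.1.2, _⟩ ⟨y.1.2, _⟩) }
  have hrange : (Φ.range : Set _) ⊆ T := by
    rintro _ ⟨x, rfl⟩
    exact hTm x.1 (mem_selIn.mp x.2).1 _ _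
  have hker : ∀ x : selIn l p Al Ap B₀ A, x ∈ Φ.ker ↔ (x : (GQ → B) × B) ∈ selIn l p Al Ap B₀ A' :=
    fun x => by
    rw [mem_selIn, AddMonoidHom.mem_ker]
    refine ⟨fun h => ⟨(mem_selIn.mp x.2).1, fun σ => ?_, ?_⟩, fun h => Prod.ext
      (funext fun σ => (hφ0 _).mpr (h.2.1 σ)) ((hφ0 _).mpr h.2.2)⟩
    · exact (hφ0 _).mp (congrFun (congrArg Prod.fst h) σ)
    · exact (hφ0 _).mp (congrArg Prod.snd h)
  let e : Φ.ker ≃ selIn l p Al Ap B₀ A' :=
    { toFun := fun x => ⟨x.1.1, (hker x.1).mp x.2⟩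
      invFun := fun y => ⟨⟨y.1, mem_selIn.mpr ⟨(mem_selIn.mp y.2).1,
        fun σ => hle ((mem_selIn.mp y.2).2.1 σ), hle (mem_selIn.mp y.2).2.2⟩⟩, (hker _).mpr y.2⟩
      left_inv := fun _ => rfl
      right_inv := fun _ => rfl }
  have : Finite Φ.ker := Finite.of_equiv _ e.symm
  have : Finite Φ.range := Set.Finite.to_subtype (hT.subset hrange)
  have : Finite (selIn l p Al Ap B₀ A ⧸ Φ.ker) :=
    Finite.of_equiv _ (QuotientAddGroup.quotientKerEquivRange Φ).toEquiv.symm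
  refine ⟨Finite.of_equiv _ (AddSubgroup.addGroupEquivQuotientProdAddSubgroup (s := Φ.ker)).symm, ?_⟩
  rw [AddSubgroup.card_eq_card_quotient_mul_card_addSubgroup Φ.ker,
    Nat.card_congr (QuotientAddGroup.quotientKerEquivRange Φ).toEquiv, Nat.card_congr e]
  calc Nat.card Φ.range * Nat.card (selIn l p Al Ap B₀ A')
      ≤ T.ncard * (Nat.card (A' ⊓ B₀ : AddSubgroup B) * Nat.card A') := by
        refine Nat.mul_le_mul ?_ hbd'
        exact Set.ncard_le_ncard hrange hT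
    _ ≤ l * Nat.card (A ⊓ B₀ : AddSubgroup B) * Nat.card A' := by
        rw [← mul_assoc]; exact Nat.mul_le_mul_right _ hTc
    _ = _ := by rw [hcard]; ring

/-- The count. -/
theorem selPairs_bound [Fact l.Prime] (hp : p.Prime) (hlp : l ≠ p) (hAl : Al.LiesOverPrime l)
    (hAp : Ap.LiesOverPrime p) (hB : IsAdm B l p Al Ap B₀) :
    Finite (selPairs l p Al Ap B₀) ∧
      Nat.card (selPairs l p Al Ap B₀) ≤ Nat.card B₀ * Nat.card B := by
  have htop : selIn l p Al Ap B₀ (⊤ : AddSubgroup B) = selPairs l p Al Ap B₀ :=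
    AddSubgroup.ext fun x => by simp [mem_selIn]
  have h := selIn_bound hp hlp hAl hAp hB ⊤ fun _ _ _ => trivial
  rw [htop, top_inf_eq, AddSubgroup.card_top] at h
  exact h

omit [Finite B] in
/-- The coboundary of an element. -/
theorem isCocycle_coboundary (hB : IsAdm B l p Al Ap B₀) (b : B) :
    IsCocycle fun σ : GQ => σ • b - b := by
  obtain ⟨E, hE, hE'⟩ := hB.cts b
  refine ⟨fun σ τ => ?_, E, hE, fun σ hσ => sub_eq_zero.mpr (hE' σ hσ)⟩
  rw [mul_smul, smul_sub]; abel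

set_option maxHeartbeats 800000 in
/-- A bounded multiple of every class satisfying the local conditions is a coboundary. -/
theorem exists_coboundary_multiple [Fact l.Prime] (hp : p.Prime) (hlp : l ≠ p)
    (hAl : Al.LiesOverPrime l) (hAp : Ap.LiesOverPrime p) (hB : IsAdm B l p Al Ap B₀)
    (C F : AddSubgroup B) (hC : ∀ h ∈ C, IsUnitClass Al B₀ fun σ => σ • h - h)
    (hF : ∀ σ ∈ Ap.inertiaSubgroupIn ℚ, ∀ a ∈ F, σ • a = a) (H₀ : AddSubgroup B)
    (hH₀ : ∀ b ∈ C, b ∈ F → (∀ σ : GQ, σ • b = b) → b ∈ H₀) :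
    ∃ m : ℕ, 0 < m ∧ m * (Nat.card C * Nat.card F) ≤ Nat.card B₀ * Nat.card B * Nat.card H₀ ∧
      ∀ x ∈ selPairs l p Al Ap B₀, ∃ h : B, ∀ σ, m • x.1 σ = σ • h - h := by
  obtain ⟨hfin, hbd⟩ := selPairs_bound hp hlp hAl hAp hB
  let Ψ : C × F →+ selPairs l p Al Ap B₀ :=
    { toFun := fun ha => ⟨(fun σ => σ • (ha.1 : B) - ha.1, -(ha.1 : B) + ha.2),
        isCocycle_coboundary hB _, fun q hq h1 h2 A hA σ hσ => sub_eq_zero.mpr
          (hB.unram q hq h1 h2 A hA σ hσ _), hC _ ha.1.2, fun σ hσ => by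
          show σ • (ha.1 : B) - ha.1 +
            (σ • (-(ha.1 : B) + ha.2) - (-(ha.1 : B) + ha.2)) = 0
          rw [smul_add, smul_neg, hF σ hσ _ ha.2.2]; abel⟩
      map_zero' := Subtype.ext (Prod.ext (funext fun σ => by simp) (by simp))
      map_add' := fun a b => Subtype.ext (Prod.ext
        (funext fun σ => by
          show σ • ((a.1 : B) + b.1) - ((a.1 : B) + b.1) =
            (σ • (a.1 : B) - a.1) + (σ • (b.1 : B) - b.1)
          rw [smul_add]; abel)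
        (by
          show -((a.1 : B) + b.1) + ((a.2 : B) + b.2) =
            (-(a.1 : B) + a.2) + (-(b.1 : B) + b.2)
          abel)) }
  have hker : Nat.card Ψ.ker ≤ Nat.card H₀ := by
    have hk : ∀ x : Ψ.ker, (x.1.1 : B) = x.1.2 ∧ ∀ σ : GQ, σ • (x.1.1 : B) = x.1.1 := fun x => by
      have h := congrArg Subtype.val (AddMonoidHom.mem_ker.mp x.2)
      refine ⟨?_, fun σ => sub_eq_zero.mp (congrFun (congrArg Prod.fst h) σ)⟩
      exact (neg_add_eq_zero.mp (congrArg Prod.snd h :))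
    refine Nat.card_le_card_of_injective
      (fun x => (⟨(x.1.1 : B), hH₀ _ x.1.1.2 ((hk x).1 ▸ x.1.2.2) (hk x).2⟩ : H₀))
      fun x y h => ?_
    have h1 : (x.1.1 : B) = y.1.1 := congrArg (fun z : H₀ => (z : B)) h
    exact Subtype.ext (Prod.ext (Subtype.ext h1)
      (Subtype.ext (by rw [← (hk x).1, ← (hk y).1, h1])))
  refine ⟨Ψ.range.index, Nat.pos_of_ne_zero Ψ.range.index_ne_zero_of_finite, ?_, fun x hx => ?_⟩
  · have h1 : Nat.card C * Nat.card F = Nat.card Ψ.range * Nat.card Ψ.ker := by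
      rw [← Nat.card_prod, AddSubgroup.card_eq_card_quotient_mul_card_addSubgroup Ψ.ker,
        Nat.card_congr (QuotientAddGroup.quotientKerEquivRange Ψ).toEquiv]
    calc Ψ.range.index * (Nat.card C * Nat.card F)
        = Nat.card (selPairs l p Al Ap B₀) * Nat.card Ψ.ker := by
          rw [h1, ← mul_assoc, AddSubgroup.index_mul_card]
      _ ≤ _ := Nat.mul_le_mul hbd hker
  · obtain ⟨ha, hha⟩ := Ψ.range.nsmul_index_mem ⟨x, hx⟩
    exact ⟨(ha.1 : B), fun σ => (congrFun (congrArg (fun z => z.1.1) hha) σ).symm⟩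

end Layer

end FA.Mazur

end
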