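import Fermat.Agent.Mazur.Bounded
import Fermat.Agent.Level.Series

/-!
# The places of the disc at infinity
-/

set_option autoImplicit false
set_option linter.style.haveILetI false
set_option linter.unusedSectionVars false
set_option synthInstance.maxHeartbeats 200000

noncomputable section

namespace FA.Mazur

open ModularCurve AlgebraicCurve FA.Curve FA.CurveRed HahnSeries

/-- The numerator of `j` over a ring. -/
def jU (R : Type) [CommRing R] : PowerSeries R := jNum.map (Int.castRingHom R)

/-- The inverse of the numerator of `j`. -/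
def jV (R : Type) [CommRing R] : PowerSeries R := PowerSeries.invOfUnit (jU R) 1

theorem constantCoeff_jU (R : Type) [CommRing R] : PowerSeries.constantCoeff (jU R) = 1 := by
  rw [jU, ← PowerSeries.coeff_zero_eq_constantCoeff_apply, PowerSeries.coeff_map,
    PowerSeries.coeff_zero_eq_constantCoeff_apply, constantCoeff_jNum, map_one]

theorem jU_mul_jV (R : Type) [CommRing R] : jU R * jV R = 1 :=
  PowerSeries.mul_invOfUnit _ _ (by rw [constantCoeff_jU, Units.val_one])

theorem constantCoeff_jV (R : Type) [CommRing R] : PowerSeries.constantCoeff (jV R) = 1 := by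
  have h := congrArg PowerSeries.constantCoeff (jU_mul_jV R)
  rwa [map_mul, constantCoeff_jU, one_mul, map_one] at h

theorem map_jU {R S : Type} [CommRing R] [CommRing S] (f : R →+* S) :
    PowerSeries.map f (jU R) = jU S := by
  rw [jU, jU]
  ext n
  simp [PowerSeries.coeff_map]

theorem map_jV {R S : Type} [CommRing R] [CommRing S] (f : R →+* S) :
    PowerSeries.map f (jV R) = jV S := by
  have h := congrArg (PowerSeries.map f) (jU_mul_jV R)
  rw [map_mul, map_jU, map_one] at h
  calc PowerSeries.map f (jV R) = jV S * jU S * PowerSeries.map f (jV R) := by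
        rw [mul_comm (jV S), jU_mul_jV, one_mul]
    _ = jV S := by rw [mul_assoc, h, mul_one]

theorem jqModC_eq (R : Type) [CommRing R] :
    jqModC R = single (-1 : ℤ) 1 * ofPowerSeries ℤ R (jU R) := rfl

theorem jqModC_mul_X_jV (R : Type) [CommRing R] :
    jqModC R * ofPowerSeries ℤ R (PowerSeries.X * jV R) = 1 := by
  rw [jqModC_eq, map_mul, ofPowerSeries_X, mul_mul_mul_comm, single_mul_single, ← map_mul,
    jU_mul_jV, map_one]
  simp

variable {L : Type} [Field L] [Algebra ℚ L] [IsAlgClosed L] {A : ValuationSubring L}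
  {K : Type} [NormedField K] [IsUltrametricDist K] [CompleteSpace K] [Algebra L K]
  (N : ℕ) [NeZero N] (hA : IsEmbAt A K)

/-- Parameters of the disc: the values of `1 / j`. -/
abbrev Param (L K : Type) [Field L] [NormedField K] [Algebra L K] : Type :=
  {t : L // ‖algebraMap L K t‖ < 1}

/-- The parameter in the ball. -/
def tBall (t : Param L K) : unitBall K := ⟨algebraMap L K t.1, t.2.le⟩

/-- The value of `q` at a parameter. -/
def qPar (t : Param L K) : unitBall K :=
  (existsUnique_eq_mul_evalHom (tBall t) t.2 (jU (unitBall K))).choose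

theorem norm_qPar_lt (t : Param L K) : ‖(qPar t : K)‖ < 1 :=
  (existsUnique_eq_mul_evalHom (tBall t) t.2 (jU (unitBall K))).choose_spec.1.choose

theorem qPar_eq (t : Param L K) :
    qPar t = tBall t * evalHom (qPar t) (norm_qPar_lt t) (jU (unitBall K)) :=
  (existsUnique_eq_mul_evalHom (tBall t) t.2 (jU (unitBall K))).choose_spec.1.choose_spec

theorem qPar_unique (t : Param L K) (a : unitBall K) (ha : ‖(a : K)‖ < 1)
    (h : a = tBall t * evalHom a ha (jU (unitBall K))) : a = qPar t :=
  (existsUnique_eq_mul_evalHom (tBall t) t.2 (jU (unitBall K))).choose_spec.2 a ⟨ha, h⟩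

theorem norm_eq_one_of_sub {x y : K} (hy : ‖y‖ = 1) (h : ‖x - y‖ < 1) : ‖x‖ = 1 := by
  conv_lhs => rw [← sub_add_cancel x y]
  rw [IsUltrametricDist.norm_add_eq_max_of_norm_ne_norm (by rw [hy]; exact h.ne),
    max_eq_right (by rw [hy]; exact h.le), hy]

theorem norm_evalHom_eq_one {a : unitBall K} (ha : ‖(a : K)‖ < 1) {f : PowerSeries (unitBall K)}
    (hf : ‖((PowerSeries.constantCoeff f : unitBall K) : K)‖ = 1) :
    ‖(evalHom a ha f : K)‖ = 1 := by
  have h := norm_evalHom_sub_constant_le a ha f
  exact norm_eq_one_of_sub hf (h.trans_lt ha)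

theorem norm_qPar (t : Param L K) : ‖(qPar t : K)‖ = ‖algebraMap L K t.1‖ := by
  conv_lhs => rw [qPar_eq t]
  rw [MulMemClass.coe_mul, norm_mul, norm_evalHom_eq_one, mul_one]
  · rfl
  · rw [constantCoeff_jU, OneMemClass.coe_one, norm_one]

theorem qPar_eq_zero_iff (t : Param L K) : qPar t = 0 ↔ t.1 = 0 := by
  rw [← ZeroMemClass.coe_eq_zero, ← norm_eq_zero, norm_qPar, norm_eq_zero, map_eq_zero]

/-- The linear factor of `X - t u`. -/
theorem exists_factor_param (t : Param L K) :
    ∃ y : PowerSeries (unitBall K),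
      PowerSeries.X - PowerSeries.C (tBall t) * jU (unitBall K) =
        (PowerSeries.X - PowerSeries.C (qPar t)) * y ∧
      ‖((PowerSeries.constantCoeff y : unitBall K) : K)‖ = 1 := by
  obtain ⟨z, hz⟩ := exists_factor_of_evalHom_eq_zero (qPar t) (norm_qPar_lt t)
    (x := jU (unitBall K) - PowerSeries.C (evalHom (qPar t) (norm_qPar_lt t) (jU (unitBall K)))) (by
      rw [map_sub, ← Polynomial.coe_C, evalHom_coe, Polynomial.eval_C, sub_self])
  refine ⟨1 - PowerSeries.C (tBall t) * z, ?_, ?_⟩
  · rw [sub_eq_iff_eq_add] at hz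
    rw [hz]
    conv_rhs => rw [show PowerSeries.C (qPar t) = PowerSeries.C (tBall t) *
      PowerSeries.C (evalHom (qPar t) (norm_qPar_lt t) (jU (unitBall K))) by
        rw [← map_mul, ← qPar_eq t]]
    rw [show PowerSeries.C (qPar t) = PowerSeries.C (tBall t) *
      PowerSeries.C (evalHom (qPar t) (norm_qPar_lt t) (jU (unitBall K))) by
        rw [← map_mul, ← qPar_eq t]]
    ring
  · rw [map_sub, map_one, map_mul, PowerSeries.constantCoeff_C, AddSubgroupClass.coe_sub,
      OneMemClass.coe_one, MulMemClass.coe_mul]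
    have hlt : ‖((tBall t : unitBall K) : K) * ((PowerSeries.constantCoeff z : unitBall K) : K)‖ < 1 := by
      rw [norm_mul]
      exact (mul_le_of_le_one_right (norm_nonneg _) (PowerSeries.constantCoeff z).2).trans_lt t.2
    exact norm_eq_one_of_sub norm_one (by rwa [sub_sub_cancel_left, norm_neg])

/-- `1 / j` as an integral series. -/
def jInvW : intW A N :=
  ⟨ofPowerSeries ℤ A (PowerSeries.X * jV A), by
    show coeffMap A.subtype _ ∈ upField (L := L) N
    rw [coeffMap_ofPowerSeries, map_mul, PowerSeries.map_X, map_jV]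
    rw [show ofPowerSeries ℤ L (PowerSeries.X * jV L) =
      (((upJ (L := L) N)⁻¹ : upField (L := L) N) : LaurentSeries L) by
        rw [IntermediateField.coe_inv, coe_upJ]
        exact eq_inv_of_mul_eq_one_right (jqModC_mul_X_jV L)]
    exact SetLike.coe_mem _⟩

theorem wUp_jInvW : wUp A N (jInvW N) = (upJ (L := L) N)⁻¹ := by
  apply Subtype.ext
  rw [coe_wUp, IntermediateField.coe_inv, coe_upJ]
  show coeffMap A.subtype (ofPowerSeries ℤ A (PowerSeries.X * jV A)) = _
  rw [coeffMap_ofPowerSeries, map_mul, PowerSeries.map_X, map_jV]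
  exact eq_inv_of_mul_eq_one_right (jqModC_mul_X_jV L)

theorem evHom_jInv (a : unitBall K) (ha : ‖(a : K)‖ < 1) :
    evHom N hA a ha (upJ (L := L) N)⁻¹ = shiftPS a ha (PowerSeries.X * jV (unitBall K)) := by
  rw [← wUp_jInvW (A := A) N, evHom_wUp]
  show shiftL a ha (coeffMap hA.toBall (ofPowerSeries ℤ A (PowerSeries.X * jV A))) = _
  rw [coeffMap_ofPowerSeries, map_mul, PowerSeries.map_X, map_jV, shiftL_ofPowerSeries]

theorem shiftPS_X_sub_C (a : unitBall K) (ha : ‖(a : K)‖ < 1) :
    shiftPS a ha (PowerSeries.X - PowerSeries.C a) = single (1 : ℤ) 1 := by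
  rw [shiftPS, RingHom.comp_apply, RingHom.comp_apply, map_sub (shiftHom a ha), shiftHom_X,
    shiftHom_C, add_sub_cancel_left, PowerSeries.map_X, ofPowerSeries_X]

theorem order_shiftPS_of_norm_eq_one {a : unitBall K} (ha : ‖(a : K)‖ < 1)
    {f : PowerSeries (unitBall K)}
    (hf : ‖((PowerSeries.constantCoeff f : unitBall K) : K)‖ = 1) :
    (shiftPS a ha f).order = 0 := by
  have hc : (shiftPS a ha f).coeff ((0 : ℕ) : ℤ) ≠ 0 := by
    rw [shiftPS, RingHom.comp_apply, RingHom.comp_apply, ofPowerSeries_apply_coeff,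
      PowerSeries.coeff_map, PowerSeries.coeff_zero_eq_constantCoeff_apply, constantCoeff_shiftHom]
    intro h
    have h1 := norm_evalHom_eq_one ha hf
    rw [show ((evalHom a ha f : unitBall K) : K) = 0 from h, norm_zero] at h1
    exact zero_ne_one h1
  refine le_antisymm (by simpa using order_le_of_coeff_ne_zero hc) ?_
  rcases eq_or_ne (shiftPS a ha f) 0 with h | h
  · rw [h, order_zero]
  · by_contra hlt
    exact HahnSeries.coeff_order_eq_zero.not.mpr h
      (ofPowerSeries_coeff_of_neg _ (not_le.mp hlt))

theorem order_evHom_param (t : Param L K) :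
    (evHom N hA (qPar t) (norm_qPar_lt t)
      ((upJ (L := L) N)⁻¹ - algebraMap L (upField (L := L) N) t.1)).order = 1 := by
  obtain ⟨y, hy, hy1⟩ := exists_factor_param t
  have h : evHom N hA (qPar t) (norm_qPar_lt t)
      ((upJ (L := L) N)⁻¹ - algebraMap L (upField (L := L) N) t.1) =
      shiftPS (qPar t) (norm_qPar_lt t)
        ((PowerSeries.X - PowerSeries.C (qPar t)) * (y * jV (unitBall K))) := by
    rw [map_sub, evHom_jInv, AlgHom.commutes, algebraMap_laurentK]
    rw [show HahnSeries.C (algebraMap L K t.1) =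
      shiftPS (qPar t) (norm_qPar_lt t) (PowerSeries.C (tBall t)) by
        rw [shiftPS, RingHom.comp_apply, RingHom.comp_apply, shiftHom_C, PowerSeries.map_C,
          ofPowerSeries_C]
        rfl, ← map_sub, ← mul_assoc, ← hy, sub_mul, mul_assoc, jU_mul_jV, mul_one]
  rw [h, map_mul, shiftPS_X_sub_C]
  have hy1' : ‖((PowerSeries.constantCoeff (y * jV (unitBall K)) : unitBall K) : K)‖ = 1 := by
    rw [map_mul, constantCoeff_jV, mul_one]; exact hy1
  have hne : shiftPS (qPar t) (norm_qPar_lt t) (y * jV (unitBall K)) ≠ 0 := by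
    intro h0
    have h1 := shiftPS_injective _ _ (h0.trans (map_zero _).symm)
    rw [h1, map_zero, ZeroMemClass.coe_zero, norm_zero] at hy1'
    exact zero_ne_one hy1'
  rw [order_mul (by simp) hne, order_single one_ne_zero, order_shiftPS_of_norm_eq_one _ hy1',
    add_zero]

theorem exists_discPlace (t : Param L K) :
    ∃ v : Place L (upField (L := L) N),
      ∀ f, v.ord f = (evHom N hA (qPar t) (norm_qPar_lt t) f).order := by
  rcases FA.Level.exists_place_of_embedding (evHom N hA (qPar t) (norm_qPar_lt t)) with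
    h | ⟨v, k, hk, h⟩
  · exact absurd ((h _).symm.trans (order_evHom_param N hA t)) zero_ne_one
  · have h1 := (h _).symm.trans (order_evHom_param N hA t)
    have hk1 : k = 1 := Int.eq_one_of_dvd_one hk.le ⟨_, h1.symm⟩
    refine ⟨v, fun f => ?_⟩
    rw [h f, hk1, one_mul]

/-- The place of the disc with parameter `t`. -/
def discPlace (t : Param L K) : Place L (upField (L := L) N) := (exists_discPlace N hA t).choose

theorem ord_discPlace (t : Param L K) (f : upField (L := L) N) :
    (discPlace N hA t).ord f = (evHom N hA (qPar t) (norm_qPar_lt t) f).order :=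
  (exists_discPlace N hA t).choose_spec f

set_option maxHeartbeats 1000000 in
theorem hasValue_jInv (t : Param L K) :
    HasValue (discPlace N hA t) (upJ (L := L) N)⁻¹ t.1 :=
  Or.inr ((order_evHom_param N hA t).symm.le.trans (ord_discPlace N hA t _).symm.le)

set_option maxHeartbeats 1000000 in
theorem discPlace_injective : Function.Injective (discPlace N hA : Param L K → _) := by
  intro t t' h
  have h1 := hasValue_jInv N hA t
  rw [h] at h1
  exact Subtype.ext (h1.unique (hasValue_jInv N hA t'))

set_option maxHeartbeats 1000000 in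
/-- The value at a place of the disc is the constant term of the re-expansion. -/
theorem coeff_zero_of_hasValue {t : Param L K} {f : upField (L := L) N} {c : L}
    (h : HasValue (discPlace N hA t) f c) :
    (evHom N hA (qPar t) (norm_qPar_lt t) f).coeff 0 = algebraMap L K c ∧
      ∀ n : ℤ, n < 0 → (evHom N hA (qPar t) (norm_qPar_lt t) f).coeff n = 0 := by
  have key : ∀ n : ℤ, n < 1 →
      (evHom N hA (qPar t) (norm_qPar_lt t) f - HahnSeries.C (algebraMap L K c)).coeff n = 0 := by
    intro n hn
    rw [← algebraMap_laurentK, ← AlgHom.commutes (evHom N hA (qPar t) (norm_qPar_lt t)), ← map_sub]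
    rcases h with h | h
    · rw [h, map_zero, coeff_zero]
    · by_contra hne
      rw [ord_discPlace] at h
      have := order_le_of_coeff_ne_zero hne
      omega
  refine ⟨?_, fun n hn => ?_⟩
  · have := key 0 zero_lt_one
    rwa [coeff_sub, C_apply, coeff_single_same, sub_eq_zero] at this
  · have := key n (by omega)
    rwa [coeff_sub, C_apply, coeff_single_of_ne hn.ne, sub_zero] at this

end FA.Mazur
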