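import Fermat.Agent.Mazur.IntegralRing
import Fermat.Agent.Mazur.DiscPlace
import Mathlib.Topology.Algebra.Field
import Mathlib.Analysis.Normed.Group.Ultra

/-!
# Inertia eigenvectors in `ℂ_l` near algebraic numbers

An element in the closure of the algebraic numbers fixed by an inertia stabiliser of finitely many
algebraic numbers, on which inertia acts through algebraic factors, is approximated by algebraic
numbers with the same factors.
-/

set_option autoImplicit false
set_option linter.style.haveILetI false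
set_option linter.unusedSectionVars false

noncomputable section

namespace FA.Mazur

open ModularCurve Filter Topology FA.ModField

set_option maxHeartbeats 1000000

local notation "Qb" => AlgebraicClosure ℚ
local notation "GQ" => AlgebraicClosure ℚ ≃ₐ[ℚ] AlgebraicClosure ℚ

variable {l : ℕ} [hl : Fact l.Prime] [Algebra (AlgebraicClosure ℚ) (PadicComplex l)]

/-- The algebraic numbers fixed by the inertia elements fixing given ones. -/
def fixAlg (ts : Finset Qb) : Subfield Qb where
  carrier := {a | ∀ σ ∈ inGp l, (∀ t ∈ ts, σ t = t) → σ a = a}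
  mul_mem' := fun ha hb σ hσ h => by rw [map_mul, ha σ hσ h, hb σ hσ h]
  one_mem' := fun σ _ _ => map_one σ
  add_mem' := fun ha hb σ hσ h => by rw [map_add, ha σ hσ h, hb σ hσ h]
  zero_mem' := fun σ _ _ => map_zero σ
  neg_mem' := fun ha σ hσ h => by rw [map_neg, ha σ hσ h]
  inv_mem' := fun _ ha σ hσ h => by rw [map_inv₀, ha σ hσ h]

/-- Their closure in `ℂ_l`. -/
def fixSub (ts : Finset Qb) : Subfield (Cl l) :=
  ((fixAlg (l := l) ts).map (emb l)).topologicalClosure

theorem isClosed_fixSub (ts : Finset Qb) : IsClosed (fixSub (l := l) ts : Set (Cl l)) :=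
  Subfield.isClosed_topologicalClosure _

theorem emb_mem_fixSub {ts : Finset Qb} {a : Qb} (ha : a ∈ fixAlg (l := l) ts) :
    emb l a ∈ fixSub ts :=
  Subfield.le_topologicalClosure _ ⟨a, ha, rfl⟩

theorem intO_le_fixSub (ts : Finset Qb) {x : Cl l} (hx : x ∈ intO l) : x ∈ fixSub ts := by
  have hx' : x ∈ closure (((fixedInt l).map (emb l) : Subring (Cl l)) : Set (Cl l)) := hx
  refine closure_minimal ?_ (isClosed_fixSub ts) hx'
  rintro _ ⟨a, ha, rfl⟩
  exact emb_mem_fixSub fun σ hσ _ => ha.2 σ hσ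

theorem galExt_fixSub {ts : Finset Qb} {x : Cl l} (hx : x ∈ fixSub ts) {σ : GQ} (hσ : σ ∈ inGp l)
    (h : ∀ t ∈ ts, σ t = t) : galExt (inGp_le l hσ) x = x := by
  have hx' : x ∈ closure (((fixAlg (l := l) ts).map (emb l) : Subfield (Cl l)) : Set (Cl l)) := hx
  refine closure_minimal (t := {y | galExt (inGp_le l hσ) y = y}) ?_
    (isClosed_eq (continuous_galExt _) continuous_id) hx'
  rintro _ ⟨a, ha, rfl⟩
  show galExt _ (emb l a) = emb l a
  rw [galExt_emb, ha σ hσ h]

/-- **Eigenvectors of inertia are near algebraic eigenvectors.** -/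
theorem exists_twisted_near {ts : Finset Qb} {x : Cl l} (hx : x ∈ fixSub ts) (hx0 : x ≠ 0)
    (ζ : GQ → Qb) (hζ : ∀ σ (hσ : σ ∈ inGp l), galExt (inGp_le l hσ) x = emb l (ζ σ) * x)
    {δ : ℝ} (hδ : 0 < δ) :
    ∃ β : Qb, ‖x - emb l β‖ < δ ∧ ∀ σ ∈ inGp l, σ β = ζ σ * β := by
  classical
  haveI : Algebra.IsAlgebraic ℚ Qb := AlgebraicClosure.isAlgebraic ℚ
  let orb : inGp l → (ts → Qb) := fun σ t => (σ : GQ) (t : Qb)
  have hfin : (Set.range orb).Finite := by
    refine (Set.Finite.pi (ι := ts) (t := fun t : ts =>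
      {a | a ∈ ((minpoly ℚ (t : Qb)).aroots Qb).toFinset}) fun t => Finset.finite_toSet _).subset ?_
    rintro _ ⟨σ, rfl⟩ t -
    simp only [orb, Set.mem_ofPred_eq, Multiset.mem_toFinset, Polynomial.mem_aroots]
    exact ⟨minpoly.ne_zero (Algebra.IsIntegral.isIntegral _), by
      rw [Polynomial.aeval_algHom_apply (σ : GQ), minpoly.aeval, map_zero]⟩
  haveI := hfin.fintype
  set O := Set.range orb
  choose γ hγ using fun o : O => o.2
  haveI : Nonempty O := ⟨⟨_, 1, rfl⟩⟩
  set n : ℕ := Fintype.card O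
  have hn : 0 < ‖(n : Cl l)‖ := norm_pos_iff.2 (Nat.cast_ne_zero.2 Fintype.card_ne_zero)
  have hx' : x ∈ closure (((fixAlg (l := l) ts).map (emb l) : Subfield (Cl l)) : Set (Cl l)) := hx
  obtain ⟨_, ⟨a, ha, rfl⟩, had⟩ := Metric.mem_closure_iff.1 hx' (δ * ‖(n : Cl l)‖) (mul_pos hδ hn)
  rw [dist_eq_norm] at had
  have hnorm : ∀ σ : inGp l, ‖emb l (ζ σ)‖ = 1 := fun σ => by
    have h := congrArg norm (hζ σ σ.2)
    rw [norm_galExt, norm_mul] at h
    exact (mul_eq_right₀ (norm_ne_zero_iff.2 hx0)).1 h.symm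
  have hζ0 : ∀ σ : inGp l, ζ σ ≠ 0 := fun σ h => by simpa [h] using hnorm σ
  let F : inGp l → Qb := fun σ => (ζ σ)⁻¹ * (σ : GQ) a
  have hF : ∀ σ σ' : inGp l, orb σ = orb σ' → F σ = F σ' := by
    intro σ σ' h
    have hs : σ⁻¹ * σ' ∈ (⊤ : Subgroup (inGp l)) := trivial
    set s : inGp l := σ⁻¹ * σ' with hsdef
    have hst : ∀ t ∈ ts, (s : GQ) t = t := fun t ht => by
      have h1 : (σ : GQ) t = (σ' : GQ) t := congrFun h ⟨t, ht⟩
      show ((σ : GQ)⁻¹ * (σ' : GQ)) t = t
      rw [AlgEquiv.mul_apply, ← h1]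
      exact (σ : GQ).symm_apply_apply t
    have hσ' : σ' = σ * s := by rw [hsdef, mul_inv_cancel_left]
    have e1 : (σ' : GQ) a = (σ : GQ) a := by
      rw [hσ', Subgroup.coe_mul, AlgEquiv.mul_apply, ha _ s.2 hst]
    have e2 : ζ σ' = ζ σ := by
      refine (emb l).injective (mul_right_cancel₀ hx0 ?_)
      rw [← hζ σ σ.2, ← hζ σ' σ'.2, galExt_congr (congrArg Subtype.val hσ') _
        (mul_mem (inGp_le l σ.2) (inGp_le l s.2)), galExt_mul (inGp_le l σ.2) (inGp_le l s.2), galExt_fixSub hx s.2 hst]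
    simp only [F, e1, e2]
  refine ⟨(n : Qb)⁻¹ * ∑ o : O, F (γ o), ?_, fun τ hτ => ?_⟩
  · have hn0 : (n : Cl l) ≠ 0 := norm_pos_iff.1 hn
    rw [map_mul, map_inv₀, map_natCast, map_sum,
      show x - (n : Cl l)⁻¹ * ∑ o : O, emb l (F (γ o)) =
        (n : Cl l)⁻¹ * ∑ o : O, (x - emb l (F (γ o))) by
      rw [Finset.sum_sub_distrib, Finset.sum_const, Finset.card_univ, nsmul_eq_mul, mul_sub,
        inv_mul_cancel_left₀ hn0], norm_mul, norm_inv, inv_mul_lt_iff₀ hn, mul_comm ‖(n : Cl l)‖]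
    refine lt_of_le_of_lt ?_ had
    refine IsUltrametricDist.norm_sum_le_of_forall_le_of_nonneg (norm_nonneg _) fun o _ => le_of_eq ?_
    set σ := γ o
    have e : x - emb l (F σ) = emb l (ζ σ)⁻¹ * galExt (inGp_le l σ.2) (x - emb l a) := by
      simp only [F, map_mul, map_inv₀, map_sub, galExt_emb, hζ σ σ.2, mul_sub]
      rw [inv_mul_cancel_left₀ ((map_ne_zero _).2 (hζ0 σ))]
    rw [e, norm_mul, norm_galExt, map_inv₀, norm_inv, hnorm, inv_one, one_mul]
  · let shift : O → O := fun o => ⟨fun t => τ ((o : ts → Qb) t), ⟨τ, hτ⟩ * γ o, by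
      funext t
      show (τ * (γ o : GQ)) (t : Qb) = τ ((o : ts → Qb) t)
      rw [AlgEquiv.mul_apply, ← congrFun (hγ o) t]⟩
    have hshift : Function.Bijective shift := by
      rw [← Finite.injective_iff_bijective]
      intro o o' h
      refine Subtype.ext (funext fun t => τ.injective ?_)
      exact congrFun (congrArg Subtype.val h) t
    have key : ∀ o : O, τ (F (γ o)) = ζ τ * F (γ (shift o)) := fun o => by
      have h1 : F (γ (shift o)) = F (⟨τ, hτ⟩ * γ o) := hF _ _ (by
        rw [hγ (shift o)]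
        funext t
        show τ ((o : ts → Qb) t) = (τ * (γ o : GQ)) (t : Qb)
        rw [AlgEquiv.mul_apply, ← congrFun (hγ o) t])
      have h2 : ζ ((⟨τ, hτ⟩ * γ o : inGp l) : GQ) = τ (ζ (γ o)) * ζ τ := by
        refine (emb l).injective (mul_right_cancel₀ hx0 ?_)
        rw [← hζ _ (⟨τ, hτ⟩ * γ o : inGp l).2]
        rw [galExt_congr (Subgroup.coe_mul (inGp l) ⟨τ, hτ⟩ (γ o)) _
          (mul_mem (inGp_le l hτ) (inGp_le l (γ o).2)), galExt_mul (inGp_le l hτ) (inGp_le l (γ o).2), hζ _ (γ o).2, map_mul,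
          galExt_emb, hζ τ hτ, map_mul, mul_assoc]
      rw [h1]
      simp only [F]
      rw [map_mul, map_inv₀, h2, mul_inv_rev, Subgroup.coe_mul, AlgEquiv.mul_apply]
      have : ζ τ ≠ 0 := hζ0 ⟨τ, hτ⟩
      field_simp
    rw [map_mul, map_inv₀, map_natCast, map_sum, Finset.sum_congr rfl fun o _ => key o,
      ← Finset.mul_sum, hshift.sum_comp fun o => F (γ o)]
    ring

/-- **Fixed integral elements of the closures lie in `intO`.** -/
theorem mem_intO_of_fixed {ts : Finset Qb} {x : Cl l} (hx : x ∈ fixSub ts) (hle : ‖x‖ ≤ 1)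
    (hfix : ∀ σ (hσ : σ ∈ inGp l), galExt (inGp_le l hσ) x = x) : x ∈ intO l := by
  rcases eq_or_ne x 0 with rfl | hx0
  · exact zero_mem _
  refine mem_intO_of_approx fun δ hδ => ?_
  obtain ⟨β, hβ, hβfix⟩ := exists_twisted_near hx hx0 (fun _ => 1)
    (fun σ hσ => by rw [map_one, one_mul, hfix σ hσ]) (lt_min hδ one_pos)
  refine ⟨β, ⟨?_, fun σ hσ => by simpa using hβfix σ hσ⟩, hβ.trans_le (min_le_left _ _)⟩
  rw [mem_placeAt, show emb l β = -(x - emb l β) + x by ring]
  refine (IsUltrametricDist.norm_add_le_max _ _).trans (max_le ?_ hle)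
  rw [norm_neg]
  exact (hβ.trans_le (min_le_right _ _)).le

variable {K : Type} [NormedField K] [IsUltrametricDist K] [CompleteSpace K]

/-- Evaluation is a contraction. -/
theorem norm_evalHom_sub_evalHom_le {a b : unitBall K} (ha : ‖(a : K)‖ < 1) (hb : ‖(b : K)‖ < 1)
    (f : PowerSeries (unitBall K)) :
    ‖(evalHom a ha f : K) - evalHom b hb f‖ ≤ ‖(a : K) - b‖ := by
  have h := (hasSum_evalHom' a ha f).sub (hasSum_evalHom' b hb f)
  rw [← h.tsum_eq]
  refine IsUltrametricDist.norm_tsum_le_of_forall_le_of_nonneg (norm_nonneg _) fun d => ?_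
  obtain ⟨c, hc⟩ : a - b ∣ PowerSeries.coeff d f * a ^ d - PowerSeries.coeff d f * b ^ d := by
    rw [← mul_sub]
    exact (sub_dvd_pow_sub_pow a b d).mul_left _
  have := congrArg Subtype.val hc
  simp only [AddSubgroupClass.coe_sub, MulMemClass.coe_mul, SubmonoidClass.coe_pow] at this
  rw [this, norm_mul]
  exact mul_le_of_le_one_right (norm_nonneg _) c.2

theorem evalHom_mem_of_coeff {S : Subring K} (hS : IsClosed (S : Set K)) {a : unitBall K}
    (ha : ‖(a : K)‖ < 1) (haS : (a : K) ∈ S) {f : PowerSeries (unitBall K)}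
    (hf : ∀ d, ((PowerSeries.coeff d f : unitBall K) : K) ∈ S) : (evalHom a ha f : K) ∈ S :=
  hS.mem_of_tendsto (hasSum_evalHom' a ha f).tendsto_sum_nat
    (Filter.Eventually.of_forall fun _ => sum_mem fun d _ => mul_mem (hf d) (pow_mem haS d))

omit hl in
/-- The fixed point defining the parameter lies in every closed subring containing the value. -/
theorem qPar_mem {L : Type} [Field L] [Algebra ℚ L] [IsAlgClosed L] [Algebra L K] {S : Subring K} (hS : IsClosed (S : Set K))
    (t : Param L K) (ht : algebraMap L K t.1 ∈ S) : ((qPar t : unitBall K) : K) ∈ S := by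
  set q := qPar t
  have hu : ∀ d, ((PowerSeries.coeff d (jU (unitBall K)) : unitBall K) : K) ∈ S := fun d => by
    rw [jU, PowerSeries.coeff_map, eq_intCast, Subring.coe_intCast]
    exact intCast_mem S _
  let step : {a : unitBall K // ‖(a : K)‖ < 1} → {a : unitBall K // ‖(a : K)‖ < 1} :=
    fun a => ⟨tBall t * evalHom a.1 a.2 (jU (unitBall K)), by
      rw [MulMemClass.coe_mul, norm_mul]
      exact (mul_le_of_le_one_right (norm_nonneg _) (evalHom a.1 a.2 _).2).trans_lt t.2⟩
  let z : ℕ → {a : unitBall K // ‖(a : K)‖ < 1} :=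
    fun n => step^[n] ⟨0, by rw [ZeroMemClass.coe_zero, norm_zero]; exact one_pos⟩
  have hz : ∀ n, (((z n).1 : unitBall K) : K) ∈ S ∧
      ‖(((z n).1 : unitBall K) : K) - (q : K)‖ ≤ ‖algebraMap L K t.1‖ ^ n := by
    intro n
    induction n with
    | zero =>
      refine ⟨by simp [z], ?_⟩
      simp only [z, Function.iterate_zero, id_eq, ZeroMemClass.coe_zero, zero_sub, norm_neg,
        pow_zero]
      exact q.2
    | succ n ih =>
      have e : z (n + 1) = step (z n) := Function.iterate_succ_apply' step n _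
      rw [e]
      refine ⟨mul_mem ht (evalHom_mem_of_coeff hS (z n).2 ih.1 hu), ?_⟩
      have hq := congrArg (fun w : unitBall K => (w : K)) (qPar_eq t)
      simp only [MulMemClass.coe_mul] at hq
      show ‖((tBall t * evalHom (z n).1 (z n).2 (jU (unitBall K)) : unitBall K) : K) - (q : K)‖ ≤ _
      rw [MulMemClass.coe_mul, hq, ← mul_sub, norm_mul, pow_succ']
      exact mul_le_mul_of_nonneg_left ((norm_evalHom_sub_evalHom_le _ _ _).trans ih.2) (norm_nonneg _)
  refine hS.mem_of_tendsto (b := Filter.atTop) (f := fun n => (((z n).1 : unitBall K) : K)) ?_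
    (Filter.Eventually.of_forall fun n => (hz n).1)
  rw [tendsto_iff_norm_sub_tendsto_zero]
  exact squeeze_zero (fun n => norm_nonneg _) (fun n => (hz n).2)
    (tendsto_pow_atTop_nhds_zero_of_lt_one (norm_nonneg _) t.2)

end FA.Mazur

end
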