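import Fermat.Agent.Mazur.Disc
import Fermat.Agent.CurveRed.Instance

/-!
# Bounded expansions of modular functions and their re-expansion at points of the disc
-/

set_option autoImplicit false
set_option linter.style.haveILetI false
set_option linter.unusedSectionVars false
set_option synthInstance.maxHeartbeats 200000

noncomputable section

namespace FA.Mazur

open ModularCurve AlgebraicCurve FA.Curve FA.CurveRed HahnSeries IntermediateField

variable {L : Type} [Field L] [Algebra ℚ L] (A : ValuationSubring L)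
  {K : Type} [NormedField K] [IsUltrametricDist K] [Algebra L K]

/-- The norm of `K` induces the valuation ring `A`. -/
def IsEmbAt (K : Type) [NormedField K] [Algebra L K] : Prop :=
  ∀ x : L, x ∈ A ↔ ‖algebraMap L K x‖ ≤ 1

variable {A}

theorem IsEmbAt.valuation_lt_one_iff (hA : IsEmbAt A K) (x : A) :
    A.valuation (x : L) < 1 ↔ ‖algebraMap L K (x : L)‖ < 1 := by
  rcases eq_or_ne (x : L) 0 with h | h
  · rw [h, map_zero, map_zero, norm_zero]; simp
  · have hi : A.valuation (x : L) < 1 ↔ (x : L)⁻¹ ∉ A := by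
      rw [← A.valuation_le_one_iff, map_inv₀, not_le, one_lt_inv₀]
      exact zero_lt_iff.mpr (A.valuation.ne_zero_iff.mpr h)
    rw [hi, hA, map_inv₀, norm_inv, not_le, one_lt_inv₀ (norm_pos_iff.mpr
      ((map_ne_zero (algebraMap L K)).mpr h))]

/-- The integers of `L` into the unit ball. -/
def IsEmbAt.toBall (hA : IsEmbAt A K) : A →+* unitBall K :=
  ((algebraMap L K).comp A.subtype).codRestrict (unitBall K) fun x => (hA x).mp x.2

theorem IsEmbAt.coe_toBall (hA : IsEmbAt A K) (x : A) :
    ((hA.toBall x : unitBall K) : K) = algebraMap L K (x : L) := rfl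

theorem IsEmbAt.toBall_injective (hA : IsEmbAt A K) : Function.Injective hA.toBall :=
  fun _ _ h => Subtype.ext ((algebraMap L K).injective (congrArg Subtype.val h))

variable (A) in
/-- Series with bounded denominators at `A`. -/
def bddSub : Subalgebra L (LaurentSeries L) where
  carrier := {x | ∃ c : L, c ≠ 0 ∧ ∃ y : LaurentSeries A,
    HahnSeries.C c * x = coeffMap A.subtype y}
  mul_mem' := by
    rintro x x' ⟨c, hc, y, hy⟩ ⟨c', hc', y', hy'⟩
    exact ⟨c * c', mul_ne_zero hc hc', y * y', by rw [map_mul, map_mul, ← hy, ← hy']; ring⟩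
  add_mem' := by
    rintro x x' ⟨c, hc, y, hy⟩ ⟨c', hc', y', hy'⟩
    rcases A.mem_or_inv_mem (c' / c) with h | h
    · refine ⟨c', hc', HahnSeries.C ⟨c' / c, h⟩ * y + y', ?_⟩
      rw [map_add, map_mul, coeffMap_C', ← hy, ← hy', mul_add, ← mul_assoc, ← map_mul]
      congr 2
      simp [hc]
    · rw [inv_div] at h
      refine ⟨c, hc, y + HahnSeries.C ⟨c / c', h⟩ * y', ?_⟩
      rw [map_add, map_mul, coeffMap_C', ← hy, ← hy', mul_add, ← mul_assoc, ← map_mul]
      congr 2
      simp [hc']
  algebraMap_mem' r := by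
    rw [algebraMap_laurentSeries_eq_single, ← HahnSeries.C_apply]
    rcases A.mem_or_inv_mem r with h | h
    · exact ⟨1, one_ne_zero, HahnSeries.C ⟨r, h⟩, by rw [map_one, one_mul, coeffMap_C']; rfl⟩
    · rcases eq_or_ne r 0 with rfl | hr
      · exact ⟨1, one_ne_zero, 0, by simp⟩
      · exact ⟨r⁻¹, inv_ne_zero hr, 1, by rw [← map_mul, inv_mul_cancel₀ hr, map_one, map_one]⟩

theorem mem_bddSub_iff {x : LaurentSeries L} :
    x ∈ bddSub A ↔ ∃ c : L, c ≠ 0 ∧ ∃ y : LaurentSeries A,
      HahnSeries.C c * x = coeffMap A.subtype y := Iff.rfl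

theorem coeffMap_mem_bddSub (y : LaurentSeries A) : coeffMap A.subtype y ∈ bddSub A :=
  ⟨1, one_ne_zero, y, by rw [map_one, one_mul]⟩

variable (N : ℕ) [NeZero N]

/-- `j` in the function field over `L`. -/
def upJ : upField (L := L) N :=
  ⟨jqModC L, by rw [upField, FA.ModField.laurentBaseChange_full L N]; exact jqModC_mem_full L N⟩

theorem coe_upJ : ((upJ (L := L) N : upField (L := L) N) : LaurentSeries L) = jqModC L := rfl

theorem upJ_transcendental : Transcendental L (upJ (L := L) N) := fun h =>
  FA.ModField.jqModC_transcendental L (h.algHom (upField (L := L) N).val)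

variable (A)

section Near

variable (F : IntermediateField L (LaurentSeries L)) (hj : jqModC L ∈ F)

theorem aeval_jq_mem_bddSub (P : Polynomial L) : Polynomial.aeval (jqModC L) P ∈ bddSub A :=
  (Algebra.adjoin_le (Set.singleton_subset_iff.mpr
    (show jqModC L ∈ bddSub A by rw [← coeffMap_jqModC A.subtype]; exact coeffMap_mem_bddSub _)) :
    Algebra.adjoin L {jqModC L} ≤ bddSub A) (Polynomial.aeval_mem_adjoin_singleton L (jqModC L))

theorem coe_aeval_jq (P : Polynomial L) :
    ((Polynomial.aeval (⟨jqModC L, hj⟩ : F) P : F) : LaurentSeries L) =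
      Polynomial.aeval (jqModC L) P :=
  (Polynomial.aeval_algHom_apply F.val (⟨jqModC L, hj⟩ : F) P).symm

/-- Functions with bounded expansions up to a polynomial in `j`. -/
def nearBdd : Subalgebra L⟮(⟨jqModC L, hj⟩ : F)⟯ F where
  carrier := {f | ∃ D : Polynomial L, D ≠ 0 ∧
    Polynomial.aeval (jqModC L) D * (f : LaurentSeries L) ∈ bddSub A}
  mul_mem' := by
    rintro f g ⟨D, hD, hf⟩ ⟨E, hE, hg⟩
    refine ⟨D * E, mul_ne_zero hD hE, ?_⟩
    rw [map_mul, MulMemClass.coe_mul, mul_mul_mul_comm]
    exact mul_mem hf hg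
  add_mem' := by
    rintro f g ⟨D, hD, hf⟩ ⟨E, hE, hg⟩
    refine ⟨D * E, mul_ne_zero hD hE, ?_⟩
    rw [map_mul, AddMemClass.coe_add, mul_add]
    refine add_mem ?_ ?_
    · rw [mul_right_comm]; exact mul_mem hf (aeval_jq_mem_bddSub A E)
    · rw [mul_assoc]; exact mul_mem (aeval_jq_mem_bddSub A D) hg
  algebraMap_mem' r := by
    obtain ⟨P, Q, hPQ⟩ := (IntermediateField.mem_adjoin_simple_iff L (r : F)).mp r.2
    by_cases hQ : Polynomial.aeval (⟨jqModC L, hj⟩ : F) Q = 0
    · refine ⟨1, one_ne_zero, ?_⟩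
      rw [show (algebraMap L⟮(⟨jqModC L, hj⟩ : F)⟯ F r) = 0 by
        show (r : F) = 0
        rw [hPQ, hQ, div_zero]]
      rw [ZeroMemClass.coe_zero, mul_zero]
      exact zero_mem _
    · refine ⟨Q, fun h => hQ (by rw [h, map_zero]), ?_⟩
      have h : Polynomial.aeval (⟨jqModC L, hj⟩ : F) Q * (r : F) =
          Polynomial.aeval (⟨jqModC L, hj⟩ : F) P := by rw [hPQ, mul_div_cancel₀ _ hQ]
      have h' := congrArg Subtype.val h
      rw [MulMemClass.coe_mul, coe_aeval_jq, coe_aeval_jq] at h'
      show Polynomial.aeval (jqModC L) Q * ((r : F) : LaurentSeries L) ∈ _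
      rw [h']
      exact aeval_jq_mem_bddSub A P

theorem exists_aeval_mul_mem_bddSub [FiniteDimensional L⟮(⟨jqModC L, hj⟩ : F)⟯ F]
    {gen : Set (LaurentSeries L)} (hF : F = IntermediateField.adjoin L gen)
    (hgen : ∀ y ∈ gen, y ∈ bddSub A) (f : F) :
    ∃ D : Polynomial L, D ≠ 0 ∧
      Polynomial.aeval (jqModC L) D * (f : LaurentSeries L) ∈ bddSub A := by
  show f ∈ nearBdd A F hj
  suffices h : ∀ x ∈ IntermediateField.adjoin L gen, ∃ hx : x ∈ F,
      (⟨x, hx⟩ : F) ∈ nearBdd A F hj by
    obtain ⟨_, h'⟩ := h f (hF.le f.2)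
    exact h'
  intro x hx
  induction hx using IntermediateField.adjoin_induction with
  | mem y hy =>
    exact ⟨hF.ge (IntermediateField.subset_adjoin L gen hy), 1, one_ne_zero, by
      rw [map_one, one_mul]; exact hgen y hy⟩
  | algebraMap a =>
    exact ⟨F.algebraMap_mem a, 1, one_ne_zero, by
      rw [map_one, one_mul]; exact (bddSub A).algebraMap_mem a⟩
  | add y z _ _ hy hz =>
    obtain ⟨h1, h1'⟩ := hy
    obtain ⟨h2, h2'⟩ := hz
    have h := (nearBdd A F hj).add_mem h1' h2'
    exact ⟨add_mem h1 h2, h⟩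
  | inv y _ hy =>
    obtain ⟨h1, h1'⟩ := hy
    exact ⟨inv_mem h1, Subalgebra.inv_mem_of_algebraic (nearBdd A F hj) (x := ⟨_, h1'⟩)
      (Algebra.IsAlgebraic.isAlgebraic _)⟩
  | mul y z _ _ hy hz =>
    obtain ⟨h1, h1'⟩ := hy
    obtain ⟨h2, h2'⟩ := hz
    have h := (nearBdd A F hj).mul_mem h1' h2'
    exact ⟨mul_mem h1 h2, h⟩

end Near

theorem mem_nearBdd [IsAlgClosed L] (f : upField (L := L) N) :
    ∃ D : Polynomial L, D ≠ 0 ∧
      Polynomial.aeval (jqModC L) D * (f : LaurentSeries L) ∈ bddSub A :=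
  haveI : FiniteDimensional L⟮(⟨jqModC L, (upJ (L := L) N).2⟩ : upField (L := L) N)⟯
      (upField (L := L) N) :=
    (isFunctionField_up (L := L) N).finiteDimensional (upJ_transcendental N)
  exists_aeval_mul_mem_bddSub A (upField (L := L) N) (upJ N).2
    (gen := divisorExpansionsC L N) (FA.ModField.laurentBaseChange_full L N)
    (by
      rintro _ ⟨d, hne, hd, rfl⟩
      rw [← coeffMap_jqModC A.subtype, ← coeffMap_qExpand]
      exact coeffMap_mem_bddSub _) f

/-- Integral series lying in the function field. -/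
def intW : Subring (LaurentSeries A) :=
  (upField (L := L) N).toSubalgebra.toSubring.comap (coeffMap A.subtype)

/-- An integral series as a function. -/
def wUp : intW A N →+* upField (L := L) N :=
  ((coeffMap A.subtype).comp (intW A N).subtype).codRestrict _ fun y => y.2

theorem coe_wUp (y : intW A N) :
    ((wUp A N y : upField (L := L) N) : LaurentSeries L) =
      coeffMap A.subtype (y : LaurentSeries A) := rfl

theorem wUp_injective : Function.Injective (wUp A N) := fun _ _ h =>
  Subtype.ext (coeffMap_subtype_injective A (congrArg Subtype.val h))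

instance intWAlgebra : Algebra (intW A N) (upField (L := L) N) := (wUp A N).toAlgebra

instance intWFaithful : FaithfulSMul (intW A N) (upField (L := L) N) := by
  rw [faithfulSMul_iff_algebraMap_injective]
  exact wUp_injective A N

/-- Every function is a quotient of functions with integral expansions. -/
theorem exists_quotient [IsAlgClosed L] (f : upField (L := L) N) :
    ∃ y z : intW A N, z ≠ 0 ∧ f * wUp A N z = wUp A N y := by
  obtain ⟨D, hD, c, hc, y, hy⟩ := mem_nearBdd A N f
  have hj : Polynomial.aeval (jqModC L) D ∈ bddSub A :=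
    (Algebra.adjoin_le (Set.singleton_subset_iff.mpr
      (show jqModC L ∈ bddSub A by rw [← coeffMap_jqModC A.subtype]; exact coeffMap_mem_bddSub _)) :
      Algebra.adjoin L {jqModC L} ≤ bddSub A) (Polynomial.aeval_mem_adjoin_singleton L (jqModC L))
  obtain ⟨c', hc', z, hz⟩ := hj
  obtain ⟨a, b, hb, hab⟩ : ∃ a b : A, (b : L) ≠ 0 ∧ (c' : L) / c = (a : L) / b := by
    rcases A.mem_or_inv_mem (c' / c) with h | h
    · exact ⟨⟨_, h⟩, 1, one_ne_zero, by simp⟩
    · rw [inv_div] at h
      exact ⟨1, ⟨_, h⟩, div_ne_zero hc hc', by simp⟩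
  have hjF : Polynomial.aeval (jqModC L) D ∈ upField (L := L) N :=
    coe_aeval_jq (upField (L := L) N) (upJ N).2 D ▸ SetLike.coe_mem _
  have hmem : ∀ e : L, HahnSeries.C e ∈ upField (L := L) N := fun e => by
    rw [HahnSeries.C_apply, ← algebraMap_laurentSeries_eq_single]
    exact (upField (L := L) N).algebraMap_mem e
  refine ⟨⟨HahnSeries.C a * y, ?_⟩, ⟨HahnSeries.C b * z, ?_⟩, ?_, ?_⟩
  · show coeffMap A.subtype (HahnSeries.C a * y) ∈ upField (L := L) N
    rw [map_mul, coeffMap_C', ← hy]
    exact mul_mem (hmem _) (mul_mem (hmem _) (mul_mem hjF f.2))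
  · show coeffMap A.subtype (HahnSeries.C b * z) ∈ upField (L := L) N
    rw [map_mul, coeffMap_C', ← hz]
    exact mul_mem (hmem _) (mul_mem (hmem _) hjF)
  · intro h
    have h1 := congrArg (fun w : intW A N => coeffMap A.subtype (w : LaurentSeries A)) h
    simp only [map_mul, coeffMap_C', ← hz, ZeroMemClass.coe_zero, map_zero] at h1
    refine FA.ModField.jqModC_transcendental L ⟨D, hD, ?_⟩
    rcases mul_eq_zero.mp h1 with h2 | h2
    · exact absurd ((HahnSeries.C_injective).eq_iff.mp (h2.trans (map_zero _).symm)) hb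
    · rcases mul_eq_zero.mp h2 with h3 | h3
      · exact absurd ((HahnSeries.C_injective).eq_iff.mp (h3.trans (map_zero _).symm)) hc'
      · exact h3
  · apply Subtype.ext
    rw [MulMemClass.coe_mul, coe_wUp, coe_wUp]
    rw [map_mul, map_mul, coeffMap_C', coeffMap_C', ← hy, ← hz]
    have he : (b : L) * c' = (a : L) * c := by
      field_simp at hab
      linear_combination hab
    have hC : (HahnSeries.C (b : L) : LaurentSeries L) * HahnSeries.C c' =
        HahnSeries.C (a : L) * HahnSeries.C c := by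
      rw [← map_mul, ← map_mul, he]
    simp only [ValuationSubring.subtype_apply]
    calc (f : LaurentSeries L) * (HahnSeries.C (b : L) * (HahnSeries.C c' * Polynomial.aeval (jqModC L) D))
        = (HahnSeries.C (b : L) * HahnSeries.C c') *
            (Polynomial.aeval (jqModC L) D * (f : LaurentSeries L)) := by ring
      _ = _ := by rw [hC, mul_assoc]

instance intWFractionRing [IsAlgClosed L] : IsFractionRing (intW A N) (upField (L := L) N) :=
  IsFractionRing.of_field _ _ fun f => by
    obtain ⟨y, z, hz, h⟩ := exists_quotient A N f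
    exact ⟨y, z, (eq_div_iff fun h0 => hz (wUp_injective A N (h0.trans (map_zero _).symm))).mpr h⟩

variable [CompleteSpace K] {A}

/-- An integral series re-expanded at a point. -/
def evW (hA : IsEmbAt A K) (a : unitBall K) (ha : ‖(a : K)‖ < 1) : intW A N →+* LaurentSeries K :=
  ((shiftL a ha).comp (coeffMap hA.toBall)).comp (intW A N).subtype

theorem evW_injective (hA : IsEmbAt A K) (a : unitBall K) (ha : ‖(a : K)‖ < 1) :
    Function.Injective (evW N hA a ha) := fun x y h => Subtype.ext <| by
  have h1 := shiftL_injective a ha h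
  ext n
  exact congrArg Subtype.val (hA.toBall_injective (congrArg (fun s => HahnSeries.coeff s n) h1))

theorem shiftL_C (a : unitBall K) (ha : ‖(a : K)‖ < 1) (c : unitBall K) :
    shiftL a ha (HahnSeries.C c) = HahnSeries.C (c : K) := by
  rw [← HahnSeries.ofPowerSeries_C, shiftL_ofPowerSeries, shiftPS, RingHom.comp_apply,
    RingHom.comp_apply, shiftHom_C, PowerSeries.map_C, HahnSeries.ofPowerSeries_C]
  rfl

variable [IsAlgClosed L]

/-- A function re-expanded at a point of the disc. -/
def evRing (hA : IsEmbAt A K) (a : unitBall K) (ha : ‖(a : K)‖ < 1) :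
    upField (L := L) N →+* LaurentSeries K :=
  IsFractionRing.lift (evW_injective N hA a ha)

theorem evRing_wUp (hA : IsEmbAt A K) (a : unitBall K) (ha : ‖(a : K)‖ < 1) (y : intW A N) :
    evRing N hA a ha (wUp A N y) = shiftL a ha (coeffMap hA.toBall (y : LaurentSeries A)) :=
  IsFractionRing.lift_algebraMap (evW_injective N hA a ha) y

theorem C_mem_intW (c : A) : (HahnSeries.C c : LaurentSeries A) ∈ intW A N := by
  show coeffMap A.subtype _ ∈ upField (L := L) N
  rw [coeffMap_C', HahnSeries.C_apply, ← algebraMap_laurentSeries_eq_single]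
  exact (upField (L := L) N).algebraMap_mem _

theorem wUp_C (c : A) :
    wUp A N ⟨_, C_mem_intW N c⟩ = algebraMap L (upField (L := L) N) (c : L) := by
  apply Subtype.ext
  rw [coe_wUp, coeffMap_C', HahnSeries.C_apply, ← algebraMap_laurentSeries_eq_single]
  rfl

theorem algebraMap_laurentK (c : L) :
    algebraMap L (LaurentSeries K) c = HahnSeries.C (algebraMap L K c) := by
  rw [HahnSeries.algebraMap_apply', PowerSeries.algebraMap_apply, HahnSeries.ofPowerSeries_C]

/-- Re-expansion as a homomorphism over `L`. -/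
def evHom (hA : IsEmbAt A K) (a : unitBall K) (ha : ‖(a : K)‖ < 1) :
    upField (L := L) N →ₐ[L] LaurentSeries K where
  __ := evRing N hA a ha
  commutes' c := by
    show evRing N hA a ha (algebraMap L (upField (L := L) N) c) = _
    have h1 : ∀ e : A, evRing N hA a ha (algebraMap L (upField (L := L) N) (e : L)) =
        HahnSeries.C (algebraMap L K (e : L)) := fun e => by
      rw [← wUp_C N e, evRing_wUp, show coeffMap hA.toBall ((⟨_, C_mem_intW N e⟩ : intW A N) :
        LaurentSeries A) = HahnSeries.C (hA.toBall e) from coeffMap_C' _ e, shiftL_C]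
      rfl
    rw [algebraMap_laurentK]
    rcases A.mem_or_inv_mem c with h | h
    · exact h1 ⟨c, h⟩
    · have h2 := h1 ⟨c⁻¹, h⟩
      simp only [map_inv₀] at h2
      exact inv_injective h2

theorem evHom_wUp (hA : IsEmbAt A K) (a : unitBall K) (ha : ‖(a : K)‖ < 1) (y : intW A N) :
    evHom N hA a ha (wUp A N y) = shiftL a ha (coeffMap hA.toBall (y : LaurentSeries A)) :=
  evRing_wUp N hA a ha y

end FA.Mazur
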