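import Fermat.Agent.Mazur.RModular
import Fermat.Agent.ModField.Congruence.Pic

/-!
# Every reduction is the reduction of a class fixed by inertia
-/

set_option autoImplicit false
set_option linter.style.haveILetI false
set_option linter.unusedSectionVars false
set_option synthInstance.maxHeartbeats 200000
set_option maxHeartbeats 1600000

noncomputable section

namespace FA.Mazur

open ModularCurve AlgebraicCurve FA.Curve FA.CurveRed FA.ModField

local notation "AQ" => AlgebraicClosure ℚ

variable (N : ℕ) [NeZero N] {l : ℕ} [hl : Fact l.Prime] (hlN : ¬ l ∣ N)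
  {A : ValuationSubring AQ} (hA : A.LiesOverPrime l)

include hlN hA in
/-- **Fixed lifts of reductions.** -/
theorem exists_fixed_lift_class (x : JZero N) :
    ∃ w : JZero N, (∀ σ ∈ A.inertiaSubgroupIn ℚ, σ • w = w) ∧
      reductionModL A N w = reductionModL A N x := by
  classical
  haveI : Algebra.IsAlgebraic ℚ AQ := AlgebraicClosure.isAlgebraic ℚ
  letI : Algebra AQ ℂ := (IsAlgClosed.lift (R := ℚ) (S := AQ) (M := ℂ)).toRingHom.toAlgebra
  haveI := residueAt_charP hA
  haveI hac : IsAlgClosed (IsLocalRing.ResidueField A) := FA.Frob.residueField_isAlgClosed A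
  obtain ⟨hin, hg⟩ := FA.CurveRed.Modular.reductionInputsModL N hl.out hlN A hA
  set k := IsLocalRing.ResidueField A
  set π := IsLocalRing.residue A
  have hπs : Function.Surjective π := IsLocalRing.residue_surjective
  have hπ0 : ∀ a : A, π a = 0 ↔ A.valuation a < 1 := residueAt_eq_zero
  set R := redOf N AQ hπs hπ0 hin
  have hF := isFunctionField_level AQ N
  have hk := isFunctionField_fullC k N
  have hjt : Transcendental k (redGen N k 0) := redGen_zero_transcendental N
  haveI : Algebra.IsSeparable (IntermediateField.adjoin k {redGen N k 0})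
      (modularFunctionFieldFullC k N) := by
    refine FA.CurveRed.Modular.isSeparable_down (redGen N k 0) hjt ?_
    rw [redGen_zero]
    exact FA.CurveRed.Modular.theta_ne_zero_of_coeff jqModC_coeff_neg_one
  obtain ⟨B, hB, hord⟩ := exists_finite_ord_sub_eq_one hk hjt
  -- fixed points over the good places
  have hfix : ∀ Q, IsSep N k Q → Q ∉ B → ∃ P, R.spl P = Q ∧
      ∀ σ ∈ A.inertiaSubgroupIn ℚ, galAut N AQ σ • P = P := by
    intro Q hsep hQ
    obtain ⟨c, hc, hc1⟩ := hord Q hQ
    obtain ⟨a, rfl, hafix⟩ := exists_fixed_lift (q := l) hA c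
    set t := levelGen N AQ 0 - algebraMap AQ (levelField N AQ) (a : AQ) with ht_def
    have hredt : R.Red t (redGen N k 0 - algebraMap k (modularFunctionFieldFullC k N) (π a)) :=
      (red_levelGen N AQ hπs hπ0 hin 0).sub (Reduction.red_const (R := R) a)
    have hnp : Reduction.NoPole R Q t := fun P hP =>
      ((regular_gens N l hlN AQ hπs hπ0 hin Q hsep.1 0).2 P hP).sub (atLeast_algebraMap _)
    have hr0 : redGen N k 0 - algebraMap k (modularFunctionFieldFullC k N) (π a) ≠ 0 :=
      fun h => by rw [h] at hc1; simp at hc1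
    obtain ⟨P, hP, hPv⟩ : ∃ P, R.spl P = Q ∧ HasValue P t 0 := by
      have hsum := Reduction.push_divOf hF hredt hr0 Q
      rw [hc1, Reduction.push_apply] at hsum
      obtain ⟨P, -, hP⟩ := Finset.exists_ne_zero_of_sum_ne_zero (hsum.symm ▸ one_ne_zero)
      split_ifs at hP with h
      · refine ⟨P, h, hasValue_zero_iff.2 (Or.inr ?_)⟩
        have h1 := (atLeast_iff (hredt.ne_zero hr0)).1 (hnp P h)
        rw [divOf_apply] at hP
        omega
      · exact absurd rfl hP
    refine ⟨P, hP, fun σ hσ => ?_⟩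
    have hspl : R.spl (galAut N AQ σ • P) = Q := by
      rw [spl_gal_inertia N AQ l hlN hπs hπ0 hin (inducesOn_inertia hσ) (P := P)
        (by rw [hP]; exact hsep), hP]
    refine Reduction.eq_of_value_eq (S := {Q}) hF hk (t := fun _ => t) (Q := ⟨Q, Finset.mem_singleton_self Q⟩)
      (fun Q' => ⟨_, hredt, by rw [Finset.mem_singleton.1 Q'.2]; exact hc1,
        by rw [Finset.mem_singleton.1 Q'.2]; exact hnp⟩) hP hspl hPv ?_
    have hv := Reduction.hasValue_smul hF (galAut N AQ σ) hPv
    rwa [show galAut N AQ σ • t = t by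
      rw [ht_def, smul_sub, galAut_levelGen, SemilinearAut.smul_algebraMap, baseAut_galAut,
        hafix σ hσ], map_zero] at hv
  choose lift₀ hlift₀ hliftfix₀ using hfix
  let lift : Place AQ (levelField N AQ) → Place AQ (levelField N AQ) := fun P =>
    if h : IsSep N k (R.spl P) ∧ R.spl P ∉ B then lift₀ (R.spl P) h.1 h.2 else P
  obtain ⟨D, rfl, hD⟩ := exists_clean_rep N AQ hπs hπ0 hin hg (B ∪ {Q | ¬ IsSep N k Q})
    (hB.union (finite_not_isSep N k)) x
  have hgood : ∀ P ∈ (D : Divisor AQ (levelField N AQ)).support,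
      IsSep N k (R.spl P) ∧ R.spl P ∉ B := fun P hP => by
    have h1 := Finsupp.mem_support_iff.1 hP
    refine ⟨?_, fun h => h1 (hD P (Or.inl h))⟩
    by_contra h
    exact h1 (hD P (Or.inr h))
  set E : Divisor AQ (levelField N AQ) :=
    Finsupp.mapDomain lift (D : Divisor AQ (levelField N AQ))
  have hEdeg : E ∈ Divisor.degZero (K := AQ) (F := levelField N AQ) := by
    rw [Divisor.mem_degZero, degree_eq_sum hF, Finsupp.sum_mapDomain_index (fun _ => rfl)
      (fun _ _ _ => rfl), ← degree_eq_sum hF]
    exact D.2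
  have hpush : R.push E = R.push (D : Divisor AQ (levelField N AQ)) := by
    show Finsupp.mapDomain _ (Finsupp.mapDomain _ _) = Finsupp.mapDomain _ _
    rw [← Finsupp.mapDomain_comp]
    refine Finsupp.mapDomain_congr fun P hP => ?_
    simp only [Function.comp_apply, lift, dif_pos (hgood P hP)]
    exact hlift₀ _ _ _
  refine ⟨Pic0.mk ⟨E, hEdeg⟩, fun σ hσ => ?_, ?_⟩
  · rw [galois_smul_pic0_def, SemilinearAut.pic0_smul_mk]
    refine congrArg Pic0.mk (Subtype.ext ?_)
    show galAut N AQ σ • E = E
    show Finsupp.mapDomain _ (Finsupp.mapDomain _ _) = Finsupp.mapDomain _ _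
    rw [← Finsupp.mapDomain_comp]
    refine Finsupp.mapDomain_congr fun P hP => ?_
    simp only [Function.comp_apply, lift, dif_pos (hgood P hP)]
    exact hliftfix₀ _ _ _ σ hσ
  · show reductionAlong A π N _ = reductionAlong A π N _
    obtain ⟨_, e1⟩ := reductionAlong_eq_push N AQ hπs hπ0 hin ⟨E, hEdeg⟩
    obtain ⟨_, e2⟩ := reductionAlong_eq_push N AQ hπs hπ0 hin D
    rw [e1, e2]
    exact congrArg Pic0.mk (Subtype.ext hpush)

end FA.Mazur

end
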