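import Fermat.Agent.Mazur.EisReduce
import Fermat.Agent.JTorsion.GoodRedAll
import Fermat.Agent.Density.Places
import Mathlib.LinearAlgebra.FreeModule.PID

/-!
# The Galois action on the Eisenstein lattice

`rhoM` is the limit of the actions on the torsion; every `ρ g + χ g • ρ g⁻¹` is a scalar `tR g`
of the Eisenstein factor with residual value `1 + χ g`.
-/

set_option autoImplicit false
set_option linter.style.haveILetI false
set_option linter.unusedSectionVars false

noncomputable section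

namespace FA.Mazur

open scoped TensorProduct
open ModularCurve IsLocalRing FA.JTorsion FA.Level

set_option synthInstance.maxHeartbeats 400000
set_option maxHeartbeats 1000000

local notation "Qb" => AlgebraicClosure ℚ

variable [Algebra (AlgebraicClosure ℚ) ℂ]
variable (p : ℕ) [Fact p.Prime] (l : ℕ) [hl : Fact l.Prime] (hn : l ∣ eisensteinNumerator p)

/-- The multiples by the powers of `l`. -/
abbrev pMult (k : ℕ) : Submodule (TAlg p) (XLat p) := nMultiples p (∅ : Set ℕ) (l ^ k)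

/-- The ideal `l`. -/
abbrev lIdeal : Ideal (EisR p l hn) := Ideal.span {(l : EisR p l hn)}

theorem lIdeal_eq_map :
    lIdeal p l hn = (maximalIdeal ℤ_[l]).map (algebraMap ℤ_[l] (EisR p l hn)) := by
  rw [PadicInt.maximalIdeal_eq_span_p, Ideal.map_span, Set.image_singleton, map_natCast]

instance eisTens_complete :
    IsAdicComplete (lIdeal p l hn) (EisR p l hn ⊗[TAlg p] XLat p) := by
  haveI := isAdicComplete_padic l (EisM p l hn)
  have h : IsAdicComplete (lIdeal p l hn) (EisM p l hn) := by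
    rw [lIdeal_eq_map]
    exact (IsAdicComplete.map_algebraMap_iff _ _).mpr inferInstance
  exact h

theorem powCompat_pMult :
    PowCompat (R := EisR p l hn) (lIdeal p l hn) (pMult p l) := by
  refine ⟨fun n x hx => ?_, fun n x hx => ?_⟩
  · obtain ⟨y, rfl⟩ := (mem_nMultiples p _).1 hx
    exact (mem_nMultiples p _).2 ⟨l • y, by rw [← mul_nsmul, ← pow_succ']⟩
  · obtain ⟨y, rfl⟩ := (mem_nMultiples p _).1 hx
    rw [← Nat.cast_smul_eq_nsmul (TAlg p), TensorProduct.tmul_smul,
      ← algebraMap_smul (EisR p l hn), map_natCast, Nat.cast_pow]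
    exact Submodule.smul_mem_smul
      (Ideal.pow_mem_pow (Ideal.mem_span_singleton_self (l : EisR p l hn)) n) Submodule.mem_top

/-- The Galois action at the level `l ^ k`. -/
abbrev actK (k : ℕ) : GalQ →* Module.End (TAlg p) (XLat p ⧸ pMult p l k) :=
  galMod p (∅ : Set ℕ) (l ^ k)

theorem actK_compat (g : GalQ) : CompatFamily fun k => actK p l k g :=
  haveI : NeZero l := ⟨hl.out.ne_zero⟩
  galMod_compat p (∅ : Set ℕ) l g

/-- **The Galois action.** -/
def rhoM : GalQ →* Module.End (EisR p l hn) (EisM p l hn) :=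
  limRep (lIdeal p l hn) (powCompat_pMult p l hn) (actK p l) (actK_compat p l)

theorem mem_powTop {k : ℕ} {v : EisM p l hn} :
    v ∈ powTop (T := TAlg p) (X := XLat p) (lIdeal p l hn) k ↔
      ∃ u : EisM p l hn, (l : ℤ_[l]) ^ k • u = v := by
  change v ∈ (lIdeal p l hn) ^ k • (⊤ : Submodule (EisR p l hn) (EisM p l hn)) ↔ _
  rw [Ideal.span_singleton_pow, Submodule.ideal_span_singleton_smul,
    Submodule.mem_smul_pointwise_iff_exists]
  have e : ∀ u : EisM p l hn, (l : EisR p l hn) ^ k • u = (l : ℤ_[l]) ^ k • u := fun u => by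
    rw [← algebraMap_smul (EisR p l hn) ((l : ℤ_[l]) ^ k), map_pow, map_natCast]
  simp [e]

theorem rhoM_spec {g : GalQ} {k : ℕ} {x y : XLat p}
    (h : actK p l k g (Submodule.Quotient.mk x) = Submodule.Quotient.mk y) :
    ∃ u, (l : ℤ_[l]) ^ k • u = rhoM p l hn g (mkM p l hn 1 x) - mkM p l hn 1 y :=
  (mem_powTop p l hn).1 (limRep_spec (lIdeal p l hn) (powCompat_pMult p l hn) (actK p l)
    (actK_compat p l) h)

theorem rhoM_sub_mem {g : GalQ} {k : ℕ} (h : actK p l k g = 1) (v : EisM p l hn) :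
    ∃ u, (l : ℤ_[l]) ^ k • u = rhoM p l hn g v - v :=
  (mem_powTop p l hn).1 (limRep_sub_one_mem (lIdeal p l hn) (powCompat_pMult p l hn) (actK p l)
    (actK_compat p l) h v)

theorem rhoM_eq_one {g : GalQ} (h : ∀ k, actK p l k g = 1) : rhoM p l hn g = 1 :=
  limRep_eq_one (lIdeal p l hn) (powCompat_pMult p l hn) (actK p l) (actK_compat p l) h

/-- Inertia at the good primes acts trivially. -/
theorem rhoM_inertia {q : ℕ} (hq : q.Prime) (hqp : q ≠ p) (hql : q ≠ l) {A : ValuationSubring Qb}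
    (hA : A.LiesOverPrime q) {g : GalQ} (hg : g ∈ A.inertiaSubgroupIn ℚ) : rhoM p l hn g = 1 :=
  rhoM_eq_one p l hn fun k => galMod_inertia p (∅ : Set ℕ) (l ^ k) (goodRed_all p) hq
    (fun h => hqp ((Nat.prime_dvd_prime_iff_eq hq Fact.out).1 h))
    (fun h => hql ((Nat.prime_dvd_prime_iff_eq hq hl.out).1 (hq.dvd_of_dvd_pow h))) hA hg

/-- The action commutes with the reductions. -/
theorem redM_rhoM (k : ℕ) (g : GalQ) (v : EisM p l hn) :
    redM p l hn k (rhoM p l hn g v) = actK p l k g (redM p l hn k v) := by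
  induction v using eisM_induction with
  | h0 => simp only [map_zero]
  | h1 r x =>
    obtain ⟨t, y, hy⟩ := exists_heckeR_approx p l hn r k
    have e : mkM p l hn r x =
        heckeR p l hn t • mkM p l hn 1 x + (l : ℤ_[l]) ^ k • mkM p l hn y x := by
      rw [smul_mkM, mul_one, padic_smul_mkM, pow_smul_eq_mul (A := EisR p l hn) l, ← hy,
        ← mkM_add_left, add_sub_cancel]
    obtain ⟨x', hx'⟩ := Submodule.Quotient.mk_surjective (pMult p l k)
      (actK p l k g (Submodule.Quotient.mk x))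
    obtain ⟨u, hu⟩ := rhoM_spec p l hn hx'.symm
    have h1 : redM p l hn k (rhoM p l hn g (mkM p l hn 1 x)) =
        idemSeq p l hn k • (Submodule.Quotient.mk x' : XMod p l k) := by
      rw [← sub_add_cancel (rhoM p l hn g (mkM p l hn 1 x)) (mkM p l hn 1 x'), map_add, ← hu,
        (redM_eq_zero_iff p l hn).2 ⟨u, rfl⟩, zero_add, redM_mkM]
    have h2 : ∀ w, redM p l hn k ((l : ℤ_[l]) ^ k • w) = 0 := fun w =>
      (redM_eq_zero_iff p l hn).2 ⟨w, rfl⟩
    rw [e, map_add, map_smul, LinearMap.map_smul_of_tower, map_add, map_add, redM_smul, redM_smul,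
      h2, h2, add_zero, add_zero, h1, redM_mkM, map_smul, map_smul, hx']
  | h2 a b ha hb => simp only [map_add, ha, hb]

/-- The action commutes with the torsion classes. -/
theorem tauM_rhoM (k : ℕ) (g : GalQ) (v : EisM p l hn) :
    tauM p l hn k (rhoM p l hn g v) = g • tauM p l hn k v := by
  show toTors _ _ _ (redM p l hn k _) = g • toTors _ _ _ (redM p l hn k v)
  rw [redM_rhoM]
  exact toTors_galMod p (∅ : Set ℕ) (l ^ k) g _

/-- The cyclotomic character in the Eisenstein factor. -/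
def chiR : GalQ →* (EisR p l hn)ˣ :=
  (Units.map (algebraMap ℤ_[l] (EisR p l hn)).toMonoidHom).comp (cycP l)

theorem chiR_val (g : GalQ) :
    (chiR p l hn g : EisR p l hn) = algebraMap ℤ_[l] (EisR p l hn) (cycP l g : ℤ_[l]) := rfl

theorem chiR_frobenius {q : ℕ} (hq : q.Prime) (hql : q ≠ l) {A : ValuationSubring Qb}
    (hA : A.LiesOverPrime q) {g : GalQ} (hg : A.IsFrobeniusAt g q) :
    (chiR p l hn g : EisR p l hn) = q := by
  rw [chiR_val, cycP_frobenius l hq hql hA hg, map_natCast]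

/-- The residual character. -/
def chiBar (g : GalQ) : ZMod l := psiR p l hn (chiR p l hn g : EisR p l hn)

/-- The operator whose scalarity is to be proved. -/
def relOp (g : GalQ) : Module.End (EisR p l hn) (EisM p l hn) :=
  rhoM p l hn g + (chiR p l hn g : EisR p l hn) • rhoM p l hn g⁻¹

theorem relOp_frobenius {q : ℕ} (hq : q.Prime) (hqp : q ≠ p) (hql : q ≠ l)
    {A : ValuationSubring Qb} (hA : A.LiesOverPrime q) {g : GalQ} (hg : A.IsFrobeniusAt g q) :
    ∃ t : EisR p l hn, psiR p l hn t = 1 + q ∧ relOp p l hn g = t • 1 := by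
  have hqN : ¬ q ∣ p := fun h => hqp ((Nat.prime_dvd_prime_iff_eq hq Fact.out).1 h)
  haveI : NeZero q := ⟨hq.ne_zero⟩
  let T : TAlg p := CuspForm.heckeAlgebra.T (k := 2) hq hqN (Set.notMem_empty q)
  have hT : T = tGen p ⟨q, hq⟩ := (CuspForm.heckeEvalForms_heckeGen_of_not_dvd (ℓ := (⟨q, hq⟩ : Nat.Primes))
    hqN).symm
  refine ⟨heckeR p l hn T, ?_, ?_⟩
  · rw [psiR_heckeR, hT]
    exact (psi0_tGen p l hn ⟨q, hq⟩).trans (if_neg hqp)
  · refine eq_of_forall_powTop (T := TAlg p) (X := XLat p) (lIdeal p l hn) (F := relOp p l hn g)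
      (F' := heckeR p l hn T • 1) fun k x => ?_
    have hqk : ¬ q ∣ l ^ k := fun h =>
      hql ((Nat.prime_dvd_prime_iff_eq hq hl.out).1 (hq.dvd_of_dvd_pow h))
    rw [relOp, chiR_frobenius p l hn hq hql hA hg]
    exact limRep_relation_mem (lIdeal p l hn) (powCompat_pMult p l hn) (actK p l)
      (actK_compat p l) (c := q) (t := T) (galMod_frobenius p (∅ : Set ℕ) (l ^ k) (goodRed_all p) hq
        hqN hqk hA (Set.notMem_empty q) hg) _

/-- Powers of an element with scalar relation. -/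
theorem relOp_pow {g : GalQ} {t : EisR p l hn} (ht : psiR p l hn t = 1 + chiBar p l hn g)
    (h : relOp p l hn g = t • 1) : ∀ j : ℕ,
    ∃ s : EisR p l hn, psiR p l hn s = 1 + chiBar p l hn (g ^ j) ∧ relOp p l hn (g ^ j) = s • 1 := by
  have hb : ∀ j : ℕ, chiBar p l hn (g ^ j) = chiBar p l hn g ^ j := fun j => by
    rw [chiBar, chiBar, map_pow, Units.val_pow_eq_pow_val, map_pow]
  have hrec : ∀ j : ℕ, relOp p l hn (g ^ (j + 1)) * relOp p l hn g =
      relOp p l hn (g ^ (j + 2)) + (chiR p l hn g : EisR p l hn) • relOp p l hn (g ^ j) := fun j => by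
    have e0 : g ^ (j + 1) * g = g ^ (j + 2) := (pow_succ g (j + 1)).symm
    have e1 : g ^ (j + 1) * g⁻¹ = g ^ j := by rw [pow_succ, mul_inv_cancel_right]
    have e2 : (g ^ (j + 1))⁻¹ * g = (g ^ j)⁻¹ := by
      rw [pow_succ', mul_inv_rev, inv_mul_cancel_right]
    have e3 : (g ^ (j + 1))⁻¹ * g⁻¹ = (g ^ (j + 2))⁻¹ := by
      rw [← mul_inv_rev, ← pow_succ']
    have c5 : (chiR p l hn g : EisR p l hn) * chiR p l hn (g ^ j) = chiR p l hn (g ^ (j + 1)) := by
      rw [pow_succ', map_mul, Units.val_mul]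
    have c6 : (chiR p l hn g : EisR p l hn) * chiR p l hn (g ^ (j + 1)) =
        chiR p l hn (g ^ (j + 2)) := by
      rw [pow_succ' g (j + 1), map_mul (chiR p l hn) g, Units.val_mul]
    simp only [relOp, add_mul, mul_add, smul_mul_assoc, mul_smul_comm, ← map_mul (rhoM p l hn), e0,
      e1, e2, e3, smul_add, smul_smul, c5, c6]
    abel
  suffices H : ∀ j, (∃ s : EisR p l hn, psiR p l hn s = 1 + chiBar p l hn (g ^ j) ∧
      relOp p l hn (g ^ j) = s • 1) ∧ ∃ s : EisR p l hn,
        psiR p l hn s = 1 + chiBar p l hn (g ^ (j + 1)) ∧ relOp p l hn (g ^ (j + 1)) = s • 1 from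
    fun j => (H j).1
  intro j
  induction j with
  | zero =>
    refine ⟨⟨2, ?_, ?_⟩, t, by simpa using ht, by simpa using h⟩
    · rw [hb, pow_zero, map_ofNat]; norm_num
    · rw [pow_zero, relOp, inv_one, map_one, map_one, Units.val_one, one_smul, two_smul]
  | succ j ih =>
    obtain ⟨⟨s₀, hs₀, h₀⟩, s₁, hs₁, h₁⟩ := ih
    refine ⟨⟨s₁, hs₁, h₁⟩, t * s₁ - (chiR p l hn g : EisR p l hn) * s₀, ?_, ?_⟩
    · rw [map_sub, map_mul, map_mul, ht, hs₁, hs₀, hb, hb, hb]
      show (1 + chiBar p l hn g) * (1 + chiBar p l hn g ^ (j + 1)) -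
        chiBar p l hn g * (1 + chiBar p l hn g ^ j) = _
      ring
    · have := hrec j
      rw [h₁, h, h₀, smul_mul_smul_comm, mul_one, smul_smul, ← sub_eq_iff_eq_add] at this
      rw [← this, ← sub_smul, mul_comm t]

/-- Scalarity modulo every power. -/
theorem relOp_congr (k : ℕ) (g : GalQ) :
    ∃ t : EisR p l hn, psiR p l hn t = 1 + chiBar p l hn g ∧
      ∀ v, ∃ u, (l : ℤ_[l]) ^ (k + 1) • u = relOp p l hn g v - t • v := by
  obtain ⟨L, hL, hLact⟩ := exists_field_galMod p (∅ : Set ℕ) (l ^ (k + 1))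
  obtain ⟨L', hL', hLχ⟩ := exists_field_cycP l (k + 1)
  let χn : GalQ →* (ZMod (l ^ (k + 1)))ˣ :=
    (Units.map (PadicInt.toZModPow (k + 1)).toMonoidHom).comp (cycP l)
  let K := ((actK p l (k + 1)).prod χn).ker
  have hK : IsOpen (K : Set GalQ) :=
    Subgroup.isOpen_mono (H₁ := (L ⊔ L').fixingSubgroup) (fun τ hτ => by
      have hfix := (IntermediateField.mem_fixingSubgroup_iff _ _).1 hτ
      exact MonoidHom.mem_ker.2 (Prod.ext
        (hLact τ fun a ha => hfix a ((le_sup_left : L ≤ L ⊔ L') ha))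
        (Units.ext (hLχ τ fun a ha => hfix a ((le_sup_right : L' ≤ L ⊔ L') ha)))))
      (IntermediateField.fixingSubgroup_isOpen _)
  refine FA.Density.forall_of_frobenius_pow K hK (fun τ => ∃ t : EisR p l hn,
    psiR p l hn t = 1 + chiBar p l hn τ ∧
      ∀ v, ∃ u, (l : ℤ_[l]) ^ (k + 1) • u = relOp p l hn τ v - t • v) ?_ {p, l} ?_ g
  · intro τ η hη ⟨t, ht, hv⟩
    obtain ⟨h1, h2⟩ := Prod.ext_iff.1 (MonoidHom.mem_ker.1 hη)
    have h1' : actK p l (k + 1) η⁻¹ = 1 := by
      have h4 : actK p l (k + 1) η⁻¹ * actK p l (k + 1) η = 1 := by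
        rw [← map_mul, inv_mul_cancel, map_one]
      rwa [show actK p l (k + 1) η = 1 from h1, mul_one] at h4
    have h2' : PadicInt.toZModPow (k + 1) ((cycP l η : ℤ_[l]) - 1) = 0 := by
      rw [map_sub, map_one, sub_eq_zero]
      exact congrArg Units.val h2
    rw [← RingHom.mem_ker, PadicInt.ker_toZModPow, Ideal.mem_span_singleton'] at h2'
    obtain ⟨c, hc⟩ := h2'
    have hχ : (chiR p l hn (τ * η) : EisR p l hn) = chiR p l hn τ +
        (l : EisR p l hn) ^ (k + 1) * (chiR p l hn τ * algebraMap ℤ_[l] _ c) := by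
      rw [eq_sub_iff_add_eq] at hc
      rw [map_mul, Units.val_mul, chiR_val p l hn η, ← hc, map_add, map_mul, map_pow, map_natCast,
        map_one]
      ring
    refine ⟨t, ?_, fun v => ?_⟩
    · rw [ht, chiBar, chiBar, hχ, map_add, map_mul, map_pow, map_natCast, ZMod.natCast_self,
        zero_pow (Nat.succ_ne_zero k), zero_mul, add_zero]
    · obtain ⟨u, hu⟩ := hv v
      obtain ⟨u1, hu1⟩ := rhoM_sub_mem p l hn h1 v
      obtain ⟨u2, hu2⟩ := rhoM_sub_mem p l hn h1' (rhoM p l hn τ⁻¹ v)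
      have e : ∀ (w : EisM p l hn) (r : EisR p l hn),
          ((l : EisR p l hn) ^ (k + 1) * r) • w = (l : ℤ_[l]) ^ (k + 1) • (r • w) := fun w r => by
        rw [← pow_smul_eq_mul, smul_assoc]
      refine ⟨u + rhoM p l hn τ u1 + (chiR p l hn (τ * η) : EisR p l hn) • u2 +
        (chiR p l hn τ * algebraMap ℤ_[l] (EisR p l hn) c) • rhoM p l hn τ⁻¹ v, ?_⟩
      rw [smul_add, smul_add, smul_add, hu, ← LinearMap.map_smul_of_tower, hu1, map_sub,
        smul_comm ((l : ℤ_[l]) ^ (k + 1)) (chiR p l hn (τ * η) : EisR p l hn) u2, hu2, smul_sub,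
        ← e]
      simp only [relOp, LinearMap.add_apply, LinearMap.smul_apply, mul_inv_rev, map_mul,
        Module.End.mul_apply]
      rw [← map_mul (chiR p l hn), hχ]
      simp only [add_smul]
      abel
  · intro q hq hqS A hA τ hτ j
    simp only [Finset.mem_insert, Finset.mem_singleton, not_or] at hqS
    obtain ⟨t, ht, h⟩ := relOp_frobenius p l hn hq hqS.1 hqS.2 hA hτ
    obtain ⟨s, hs, h'⟩ := relOp_pow p l hn
      (t := t) (by rw [ht, chiBar, chiR_frobenius p l hn hq hqS.2 hA hτ, map_natCast]) h j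
    exact ⟨s, hs, fun v => ⟨0, by rw [h', LinearMap.smul_apply, Module.End.one_apply, sub_self,
      smul_zero]⟩⟩

/-- The Hecke algebra is saturated in the endomorphisms up to a bounded factor. -/
theorem exists_saturation_hecke :
    ∃ D : ℕ, D ≠ 0 ∧ ∀ (n : ℕ) (t : TAlg p), n ≠ 0 → (∀ x : XLat p, ∃ y, n • y = t • x) →
      ∃ s, D • t = n • s := by
  classical
  let i : TAlg p →ₗ[ℤ] Module.End ℤ (XLat p) := (actHom p).toLinearMap
  have hi : Function.Injective i := by
    rw [← LinearMap.ker_eq_bot, LinearMap.ker_eq_bot']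
    exact fun t ht => latMod_faithful p (∅ : Set ℕ) fun x => LinearMap.congr_fun ht x
  let b := Module.Free.chooseBasis ℤ (Module.End ℤ (XLat p))
  obtain ⟨m, S⟩ := Submodule.smithNormalForm b (LinearMap.range i)
  have ha : ∀ j, S.a j ≠ 0 := fun j h => S.bN.ne_zero j (Subtype.ext (by
    rw [S.snf j, h, zero_smul]; rfl))
  refine ⟨(∏ j, S.a j).natAbs, Int.natAbs_ne_zero.2 (Finset.prod_ne_zero_iff.2 fun j _ => ha j),
    fun n t hn0 ht => ?_⟩
  choose y hy using ht
  have hadd : ∀ x x', y (x + x') = y x + y x' := fun x x' =>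
    smul_right_injective (XLat p) (Int.natCast_ne_zero.2 hn0) (by
      show (n : ℤ) • _ = (n : ℤ) • _
      rw [natCast_zsmul, natCast_zsmul, hy, smul_add, smul_add, hy, hy])
  let B : Module.End ℤ (XLat p) := (AddMonoidHom.mk' y hadd).toIntLinearMap
  have hB : i t = n • B := LinearMap.ext fun x => (hy x).symm
  have hdvd : ∀ j, (n : ℤ) ∣ (∏ j, S.a j) * S.bN.repr ⟨i t, LinearMap.mem_range_self i t⟩ j := by
    intro j
    have h1 := S.repr_apply_embedding_eq_repr_smul (m := ⟨i t, LinearMap.mem_range_self i t⟩) (i := j)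
    have h2 : S.bM.repr (i t) (S.f j) = (n : ℤ) * S.bM.repr B (S.f j) := by
      rw [hB, ← natCast_zsmul, map_zsmul, Finsupp.smul_apply, smul_eq_mul]
    rw [map_smul, Finsupp.smul_apply] at h1
    rw [← Finset.prod_erase_mul _ _ (Finset.mem_univ j), mul_assoc, ← smul_eq_mul (S.a j), ← h1]
    exact Dvd.dvd.mul_left ⟨_, h2⟩ _
  choose e he using hdvd
  have hz : ∃ s, (∏ j, S.a j) • t = (n : ℤ) • s := by
    let w : ↥(LinearMap.range i) := ∑ j, e j • S.bN j
    obtain ⟨s, hs⟩ := w.2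
    refine ⟨s, hi ?_⟩
    rw [map_zsmul, map_zsmul, hs]
    have hw : (∏ j, S.a j) • (⟨i t, LinearMap.mem_range_self i t⟩ : ↥(LinearMap.range i)) =
        (n : ℤ) • w := S.bN.repr.injective (Finsupp.ext fun j => by
      rw [map_zsmul, map_zsmul, Finsupp.smul_apply, Finsupp.smul_apply, smul_eq_mul, smul_eq_mul,
        show S.bN.repr w j = e j from congrFun (S.bN.repr_sum_self e) j, he j])
    exact congrArg Subtype.val hw
  obtain ⟨s, hs⟩ := hz
  rcases Int.natAbs_eq (∏ j, S.a j) with h | h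
  · exact ⟨s, by rw [← natCast_zsmul, ← natCast_zsmul (n := n), ← h, hs]⟩
  · refine ⟨-s, ?_⟩
    rw [h, neg_smul, neg_eq_iff_eq_neg] at hs
    rw [← natCast_zsmul, ← natCast_zsmul (n := n), hs, smul_neg]

/-- **Saturation.** -/
theorem exists_saturation :
    ∃ c : ℕ, ∀ (k : ℕ) (r : EisR p l hn),
      (∀ v : EisM p l hn, ∃ u, (l : ℤ_[l]) ^ (k + c) • u = r • v) →
        ∃ r', r = (l : EisR p l hn) ^ k * r' := by
  obtain ⟨D, hD, hsat⟩ := exists_saturation_hecke p
  have hD' : (D : ℤ_[l]) ≠ 0 := Nat.cast_ne_zero.2 hD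
  refine ⟨(D : ℤ_[l]).valuation, fun k r hr => ?_⟩
  set K := k + (D : ℤ_[l]).valuation
  obtain ⟨t, y, hy⟩ := exists_approx p l (eLift p l hn r) K
  have hX : ∀ x : XLat p, ∃ z, l ^ K • z = t • x := fun x => by
    have e1 : actX p l (eLift p l hn r) ((1 : ℤ_[l]) ⊗ₜ[ℤ] x) =
        iotaM p l hn (r • piM p l hn ((1 : ℤ_[l]) ⊗ₜ[ℤ] x)) := by
      obtain ⟨z, rfl⟩ := projR_surjective p l hn r
      rw [iotaM_smul, iotaM_piM, eLift_projR, ← Module.End.mul_apply, ← map_mul,
        mul_right_comm, eisE_idem]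
    obtain ⟨u, hu⟩ := hr (piM p l hn ((1 : ℤ_[l]) ⊗ₜ[ℤ] x))
    have e2 : redX p l K (actX p l (eLift p l hn r) ((1 : ℤ_[l]) ⊗ₜ[ℤ] x)) = 0 := by
      rw [e1, ← hu, iotaM_padic_smul, redX_pow_smul p l K le_rfl]
    have e3 : eLift p l hn r = incT p l t + (l : TAdic p l) ^ K * y := by
      rw [← hy, incT_apply, add_sub_cancel]
    rw [e3, ← pow_smul_eq_mul (A := TAdic p l) l K y, map_add, map_smul, LinearMap.add_apply,
      LinearMap.smul_apply, map_add, redX_pow_smul p l K le_rfl, add_zero, redX_incT, redX_one_tmul,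
      ← Submodule.Quotient.mk_smul, Submodule.Quotient.mk_eq_zero] at e2
    exact (mem_nMultiples p _).1 e2
  obtain ⟨s, hs⟩ := hsat (l ^ K) t (pow_ne_zero _ hl.out.ne_zero) hX
  have h1 : (D : ℤ_[l]) • r = (l : ℤ_[l]) ^ K • (heckeR p l hn s + (D : ℤ_[l]) • projR p l hn y) := by
    have e := congrArg (projR p l hn) hy
    rw [map_sub, projR_eLift, map_mul, map_pow, map_natCast, ← incT_apply, sub_eq_iff_eq_add'] at e
    have e' : (D : EisR p l hn) * heckeR p l hn t = (l : EisR p l hn) ^ K * heckeR p l hn s := by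
      rw [← map_natCast (heckeR p l hn) D, ← map_mul, ← nsmul_eq_mul, hs, nsmul_eq_mul, map_mul,
        map_natCast, Nat.cast_pow]
    rw [e, pow_smul_eq_mul, Algebra.smul_def, Algebra.smul_def, map_natCast]
    simp only [heckeR, RingHom.comp_apply] at e' ⊢
    linear_combination e'
  set v := (D : ℤ_[l]).valuation
  have h2 : ((PadicInt.unitCoeff hD' : ℤ_[l]) • r -
      (l : ℤ_[l]) ^ k • (heckeR p l hn s + (D : ℤ_[l]) • projR p l hn y)) = 0 := by
    refine eq_zero_of_smul_eq_zero p l hn (c := (l : ℤ_[l]) ^ v)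
      (pow_ne_zero _ (Nat.cast_ne_zero.2 hl.out.ne_zero)) ?_
    rw [smul_sub, smul_smul, smul_smul, ← pow_add, mul_comm ((l : ℤ_[l]) ^ v),
      ← PadicInt.unitCoeff_spec hD', h1, sub_eq_zero, add_comm v]
  rw [sub_eq_zero] at h2
  refine ⟨((PadicInt.unitCoeff hD')⁻¹ : ℤ_[l]ˣ).1 •
    (heckeR p l hn s + (D : ℤ_[l]) • projR p l hn y), ?_⟩
  rw [← pow_smul_eq_mul, smul_comm, ← h2, smul_smul, Units.inv_mul, one_smul]

/-- The Eisenstein factor acts faithfully. -/
theorem eq_zero_of_forall_smul {r : EisR p l hn} (h : ∀ v : EisM p l hn, r • v = 0) : r = 0 := by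
  obtain ⟨c, hc⟩ := exists_saturation p l hn
  refine eq_zero_of_forall_pow_smul l fun k => ?_
  obtain ⟨r', hr'⟩ := hc k r fun v => ⟨0, by rw [smul_zero, h v]⟩
  exact ⟨r', by rw [hr', pow_smul_eq_mul]⟩

theorem exists_tR (g : GalQ) :
    ∃ t : EisR p l hn, psiR p l hn t = 1 + chiBar p l hn g ∧ relOp p l hn g = t • 1 := by
  obtain ⟨c, hc⟩ := exists_saturation p l hn
  choose t ht hv using fun k => relOp_congr p l hn (k + c) g
  have hstep : ∀ k, ∃ y, (l : ℤ_[l]) ^ k • y = t (k + 1) - t k := fun k => by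
    obtain ⟨r', hr'⟩ := hc k (t (k + 1) - t k) fun v => by
      obtain ⟨u, hu⟩ := hv (k + 1) v
      obtain ⟨u', hu'⟩ := hv k v
      refine ⟨(l : ℤ_[l]) • u' - (l : ℤ_[l]) ^ 2 • u, ?_⟩
      rw [smul_sub, smul_smul, smul_smul, ← pow_succ, ← pow_add,
        show k + c + 2 = k + 1 + c + 1 by omega, hu, hu', sub_smul]
      abel
    exact ⟨r', by rw [hr', pow_smul_eq_mul]⟩
  obtain ⟨T, hT⟩ := exists_limit l t hstep
  refine ⟨T, ?_, LinearMap.ext fun v => sub_eq_zero.1 (eq_zero_of_forall_pow_smul l fun k => ?_)⟩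
  · obtain ⟨y, hy⟩ := hT 1
    have := congrArg (psiR p l hn) hy
    rw [pow_smul_eq_mul, map_mul, map_pow, map_natCast, ZMod.natCast_self, zero_pow one_ne_zero,
      zero_mul, map_sub, eq_comm, sub_eq_zero] at this
    rw [← this, ht]
  · obtain ⟨y, hy⟩ := hT k
    obtain ⟨u, hu⟩ := hv k v
    refine ⟨(l : ℤ_[l]) ^ (c + 1) • u + y • v, ?_⟩
    rw [smul_add, smul_smul, ← pow_add, show k + (c + 1) = k + c + 1 by omega, hu, ← smul_assoc, hy,
      sub_smul, LinearMap.smul_apply, Module.End.one_apply]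
    abel

/-- The scalar of the relation. -/
def tR (g : GalQ) : EisR p l hn := (exists_tR p l hn g).choose

theorem psiR_tR (g : GalQ) : psiR p l hn (tR p l hn g) = 1 + chiBar p l hn g :=
  (exists_tR p l hn g).choose_spec.1

/-- **The quadratic relation.** -/
theorem relOp_eq (g : GalQ) :
    rhoM p l hn g + (chiR p l hn g : EisR p l hn) • rhoM p l hn g⁻¹ = tR p l hn g • 1 :=
  (exists_tR p l hn g).choose_spec.2

end FA.Mazur

end
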