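import Mathlib.NumberTheory.Padics.ProperSpace
import Mathlib.LinearAlgebra.FreeModule.PID
import Mathlib.LinearAlgebra.FreeModule.Finite.Basic
import Mathlib.LinearAlgebra.Quotient.Basic
import Mathlib.Topology.Algebra.OpenSubgroup

/-!
# Towers of congruence conditions on a `ℤ_l`-lattice

Conditions `C k` modulo `l ^ k`, compatible with multiplication by `l`, agree with the conditions
of their intersection up to a bounded power of `l`.
-/

set_option autoImplicit false
set_option linter.unusedSectionVars false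
set_option linter.style.haveILetI false

noncomputable section

namespace FA.Mazur

variable {l : ℕ} [hl : Fact l.Prime] {M : Type*} [AddCommGroup M] [Module ℤ_[l] M]
  [Module.Finite ℤ_[l] M] [Module.Free ℤ_[l] M] (C : ℕ → AddSubgroup M)
  (hstep : ∀ k v, (l : ℤ_[l]) • v ∈ C (k + 1) ↔ v ∈ C k)
  (hlk : ∀ k v, (l : ℤ_[l]) ^ k • v ∈ C k)

include hstep in
theorem tower_le (k : ℕ) : C (k + 1) ≤ C k := fun v hv => by
  rw [← hstep k v, Nat.cast_smul_eq_nsmul]
  exact AddSubgroup.nsmul_mem _ hv _

include hstep in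
theorem tower_antitone : Antitone C := antitone_nat_of_succ_le (tower_le C hstep)

include hlk in
theorem tower_smul_mem (k : ℕ) (a : ℤ_[l]) {v : M} (hv : v ∈ C k) : a • v ∈ C k := by
  obtain ⟨b, hb⟩ := Ideal.mem_span_singleton'.mp (PadicInt.appr_spec k a)
  have e : a • v = (a.appr k) • v + (l : ℤ_[l]) ^ k • (b • v) := by
    rw [← Nat.cast_smul_eq_nsmul ℤ_[l], smul_smul, ← add_smul, mul_comm, hb, add_sub_cancel]
  rw [e]
  exact AddSubgroup.add_mem _ (AddSubgroup.nsmul_mem _ hv _) (hlk _ _)

include hlk in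
/-- The intersection of the tower. -/
def towerInf : Submodule ℤ_[l] M where
  carrier := {v | ∀ k, v ∈ C k}
  add_mem' hx hy k := AddSubgroup.add_mem _ (hx k) (hy k)
  zero_mem' k := AddSubgroup.zero_mem _
  smul_mem' a _ hv k := tower_smul_mem C hlk k a (hv k)

include hstep in
theorem mem_towerInf_of_smul {v : M} (hv : ∀ k, (l : ℤ_[l]) • v ∈ C k) : ∀ k, v ∈ C k :=
  fun k => (hstep k v).mp (hv (k + 1))

include hstep hlk in
/-- A tower with trivial intersection is bounded. -/
theorem exists_bound_of_towerInf_eq_bot (hbot : ∀ v, (∀ k, v ∈ C k) → v = 0) :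
    ∃ c : ℕ, ∀ k, ∀ v ∈ C k, ∃ w : M, v = (l : ℤ_[l]) ^ (k - c) • w := by
  classical
  let ι := Module.Free.ChooseBasisIndex ℤ_[l] M
  let b : Module.Basis ι ℤ_[l] M := Module.Free.chooseBasis ℤ_[l] M
  let e : M ≃ₗ[ℤ_[l]] (ι → ℤ_[l]) := b.equivFun
  have hv0 : ‖(l : ℤ_[l])‖ < 1 := by
    rw [PadicInt.norm_p]
    exact inv_lt_one_of_one_lt₀ (by exact_mod_cast hl.out.one_lt)
  -- vectors not divisible by `l`
  set P : Set (ι → ℤ_[l]) := {x | ∃ i, ¬ ‖x i‖ < 1}
  have hP : IsClosed P := by
    have : P = ⋃ i, {x : ι → ℤ_[l] | 1 ≤ ‖x i‖} := by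
      ext x; simp [P]
    rw [this]
    exact isClosed_iUnion_of_finite fun i =>
      isClosed_le continuous_const (continuous_norm.comp (continuous_apply i))
  have hCclosed : ∀ k, IsClosed {x : ι → ℤ_[l] | e.symm x ∈ C k} := by
    intro k
    let S : AddSubgroup (ι → ℤ_[l]) := (C k).comap e.symm.toLinearMap.toAddMonoidHom
    have hopen : IsOpen (S : Set (ι → ℤ_[l])) := by
      refine S.isOpen_of_mem_nhds (g := 0) ?_
      refine Filter.mem_of_superset (IsOpen.mem_nhds (s := Set.pi Set.univ fun _ : ι =>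
        Metric.closedBall (0 : ℤ_[l]) ((l : ℝ) ^ (-(k : ℤ)))) ?_ ?_) fun x hx => ?_
      · exact isOpen_set_pi Set.finite_univ fun i _ =>
          IsUltrametricDist.isOpen_closedBall _ (zpow_ne_zero _ (Nat.cast_ne_zero.mpr hl.out.ne_zero))
      · simp only [Set.mem_pi, Set.mem_univ, Metric.mem_closedBall, Pi.zero_apply, dist_self,
          forall_const]
        intro; exact zpow_nonneg (Nat.cast_nonneg _) _
      · simp only [Set.mem_pi, Set.mem_univ, Metric.mem_closedBall, dist_zero_right, forall_const,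
          PadicInt.norm_le_pow_iff_mem_span_pow, Ideal.mem_span_singleton] at hx
        choose w hw using hx
        show e.symm x ∈ C k
        rw [show x = (l : ℤ_[l]) ^ k • w from funext fun i => hw i, map_smul]
        exact hlk k _
    exact S.isClosed_of_isOpen hopen
  have hcontra : ∃ c, ¬ (P ∩ {x | e.symm x ∈ C c}).Nonempty := by
    by_contra hall
    push Not at hall
    obtain ⟨x, hx⟩ := IsCompact.nonempty_iInter_of_sequence_nonempty_isCompact_isClosed
      (fun k => P ∩ {x | e.symm x ∈ C k})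
      (fun k => Set.inter_subset_inter_right _ fun x hx => tower_le C hstep k hx)
      hall (hP.inter (hCclosed 0)).isCompact (fun k => hP.inter (hCclosed k))
    simp only [Set.mem_iInter, Set.mem_inter_iff, Set.mem_setOf_eq] at hx
    obtain ⟨i, hi⟩ := (hx 0).1
    have h0 : x = 0 := e.symm.map_eq_zero_iff.mp (hbot _ fun k => (hx k).2)
    exact hi (by rw [h0, Pi.zero_apply, norm_zero]; exact one_pos)
  obtain ⟨c, hc⟩ := hcontra
  refine ⟨c, fun k => ?_⟩
  induction k with
  | zero => exact fun v _ => ⟨v, by simp⟩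
  | succ k ih =>
    intro v hv
    rcases le_or_gt (k + 1) c with hle | hgt
    · exact ⟨v, by rw [Nat.sub_eq_zero_of_le hle, pow_zero, one_smul]⟩
    have hnP : e v ∉ P := fun h => hc ⟨e v, h, by
      show e.symm (e v) ∈ C c
      rw [e.symm_apply_apply]
      exact tower_antitone C hstep hgt.le hv⟩
    simp only [P, Set.mem_setOf_eq, not_exists, not_not, PadicInt.norm_lt_one_iff_dvd] at hnP
    choose w hw using hnP
    have hvw : v = (l : ℤ_[l]) • e.symm w := by
      rw [← map_smul, ← e.symm_apply_apply v]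
      exact congrArg e.symm (funext fun i => hw i)
    obtain ⟨u, hu⟩ := ih (e.symm w) ((hstep k _).mp (hvw ▸ hv))
    refine ⟨u, ?_⟩
    rw [hvw, hu, smul_smul, ← pow_succ', show k + 1 - c = k - c + 1 by omega]

include hstep hlk in
/-- **The tower agrees with its intersection up to a bounded power of `l`.** -/
theorem exists_tower_bound :
    ∃ c : ℕ, ∀ k, ∀ v ∈ C k, ∃ h w : M, (∀ j, h ∈ C j) ∧ v = h + (l : ℤ_[l]) ^ (k - c) • w := by
  set H := towerInf C hlk
  have hsat : ∀ v : M, (l : ℤ_[l]) • v ∈ H → v ∈ H := fun v hv => mem_towerInf_of_smul C hstep hv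
  haveI : Module.IsTorsionFree ℤ_[l] (M ⧸ H) := by
    refine Module.isTorsionFree_iff_smul_eq_zero.mpr ?_
    intro a x
    obtain ⟨v, rfl⟩ := Submodule.Quotient.mk_surjective H x
    intro h
    by_contra hno
    push Not at hno
    obtain ⟨ha, hv⟩ := hno
    rw [← Submodule.Quotient.mk_smul, Submodule.Quotient.mk_eq_zero] at h
    refine hv ((Submodule.Quotient.mk_eq_zero H).mpr ?_)
    rw [PadicInt.unitCoeff_spec ha, mul_smul] at h
    have h1 : (l : ℤ_[l]) ^ a.valuation • v ∈ H :=
      (Submodule.smul_mem_iff' H (PadicInt.unitCoeff ha)).mp h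
    have key : ∀ n : ℕ, (l : ℤ_[l]) ^ n • v ∈ H → v ∈ H := fun n => by
      induction n with
      | zero => exact fun h1 => by simpa using h1
      | succ n ih => exact fun h1 => ih (hsat _ (by rwa [pow_succ', mul_smul] at h1))
    exact key _ h1
  haveI : Module.Free ℤ_[l] (M ⧸ H) := Module.free_of_finite_type_torsion_free'
  let q : M →ₗ[ℤ_[l]] M ⧸ H := H.mkQ
  have hq : ∀ k v, q v ∈ (C k).map q.toAddMonoidHom ↔ v ∈ C k := fun k v => by
    constructor
    · rintro ⟨u, hu, he⟩
      have : v - u ∈ H := (Submodule.Quotient.eq H).mp he.symm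
      simpa using AddSubgroup.add_mem _ hu (this k)
    · exact fun h => ⟨v, h, rfl⟩
  obtain ⟨c, hc⟩ := exists_bound_of_towerInf_eq_bot (l := l) (fun k => (C k).map q.toAddMonoidHom)
    (fun k x => by
      obtain ⟨v, rfl⟩ := Submodule.Quotient.mk_surjective H x
      rw [← Submodule.Quotient.mk_smul]
      exact (hq (k + 1) _).trans ((hstep k v).trans (hq k v).symm))
    (fun k x => by
      obtain ⟨v, rfl⟩ := Submodule.Quotient.mk_surjective H x
      rw [← Submodule.Quotient.mk_smul]
      exact (hq k _).mpr (hlk k v))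
    (fun x hx => by
      obtain ⟨v, rfl⟩ := Submodule.Quotient.mk_surjective H x
      exact (Submodule.Quotient.mk_eq_zero H).mpr fun k => (hq k v).mp (hx k))
  refine ⟨c, fun k v hv => ?_⟩
  obtain ⟨x, hx⟩ := hc k (q v) ((hq k v).mpr hv)
  obtain ⟨w, rfl⟩ := Submodule.Quotient.mk_surjective H x
  refine ⟨v - (l : ℤ_[l]) ^ (k - c) • w, w, ?_, (sub_add_cancel _ _).symm⟩
  exact fun j => ((Submodule.Quotient.eq H).mp (hx.trans (Submodule.Quotient.mk_smul H _ _).symm)) j

end FA.Mazur

end
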