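import Fermat.Agent.Mazur.DiscExp
import Fermat.Agent.Mazur.EisGalois
import Fermat.Agent.Mazur.Saturation
import Fermat.Agent.JTorsion.CycloRes
import Fermat.Agent.JTorsion.Divisible.Descent
import Fermat.Agent.RT.Tate.Det

/-!
# The part of the Eisenstein lattice in the disc at infinity

The classes whose torsion points lie in the disc form a submodule containing the image of
`σ - 1` for inertia elements `σ`, on which twisted functionals give linear forms where inertia
acts by the cyclotomic character.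
-/

set_option autoImplicit false
set_option linter.style.haveILetI false
set_option linter.unusedSectionVars false

noncomputable section

namespace FA.Mazur

open ModularCurve AlgebraicCurve FA.Curve FA.CurveRed FA.ModField FA.Level FA.JTorsion

set_option synthInstance.maxHeartbeats 400000
set_option maxHeartbeats 2000000

local notation "Qb" => AlgebraicClosure ℚ
local notation "GQ" => AlgebraicClosure ℚ ≃ₐ[ℚ] AlgebraicClosure ℚ

variable [Algebra (AlgebraicClosure ℚ) ℂ]

section General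

variable {l : ℕ} [hl : Fact l.Prime]

theorem natCast_resNat_congr (k : ℕ) (a b : ℤ_[l]) (h : PadicInt.toZModPow k a = PadicInt.toZModPow k b) :
    resNat l k a = resNat l k b := by
  rw [resNat, resNat, h]

/-- Scalars congruent modulo `l ^ k`. -/
theorem exists_natCast_add (k : ℕ) (a : ℤ_[l]) :
    ∃ b : ℤ_[l], a = (resNat l k a : ℤ_[l]) + (l : ℤ_[l]) ^ k * b := by
  have h : a - (resNat l k a : ℤ_[l]) ∈ RingHom.ker (PadicInt.toZModPow k) := by
    rw [RingHom.mem_ker, map_sub, map_natCast, cast_resNat, sub_self]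
  rw [PadicInt.ker_toZModPow, Ideal.mem_span_singleton'] at h
  obtain ⟨b, hb⟩ := h
  exact ⟨b, by rw [mul_comm, hb, add_sub_cancel]⟩

theorem cast_eq_of_pow_eq {R : Type*} [CommRing R] [IsDomain R] {ζ : R} {n : ℕ} [NeZero n]
    (h : IsPrimitiveRoot ζ n) {a b : ℕ} (e : ζ ^ a = ζ ^ b) : (a : ZMod n) = b := by
  rw [ZMod.natCast_eq_natCast_iff']
  refine h.pow_inj (Nat.mod_lt _ (NeZero.pos n)) (Nat.mod_lt _ (NeZero.pos n)) ?_
  rwa [← pow_eq_pow_mod a h.pow_eq_one, ← pow_eq_pow_mod b h.pow_eq_one]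

theorem pow_eq_pow_of_cast_eq {R : Type*} [CommRing R] [IsDomain R] {ζ : R} {n : ℕ}
    (h : IsPrimitiveRoot ζ n) {a b : ℕ} (e : (a : ZMod n) = b) : ζ ^ a = ζ ^ b := by
  rw [ZMod.natCast_eq_natCast_iff'] at e
  rw [pow_eq_pow_mod a h.pow_eq_one, pow_eq_pow_mod b h.pow_eq_one, e]

/-- An additive map between modules over `ℤ_l` is linear if the target has no infinitely
divisible element. -/
theorem map_padic_smul {M N : Type*} [AddCommGroup M] [Module ℤ_[l] M] [AddCommGroup N]
    [Module ℤ_[l] N] (hN : ∀ x : N, (∀ k : ℕ, ∃ y, (l : ℤ_[l]) ^ k • y = x) → x = 0)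
    (f : M →+ N) (c : ℤ_[l]) (v : M) : f (c • v) = c • f v := by
  refine sub_eq_zero.1 (hN _ fun k => ?_)
  obtain ⟨b, hb⟩ := exists_natCast_add k c
  refine ⟨f (b • v) - b • f v, ?_⟩
  conv_rhs => rw [hb, add_smul, add_smul, map_add, Nat.cast_smul_eq_nsmul, Nat.cast_smul_eq_nsmul,
    map_nsmul, mul_smul, mul_smul, add_sub_add_left_eq_sub, ← Nat.cast_pow,
    Nat.cast_smul_eq_nsmul, Nat.cast_smul_eq_nsmul, map_nsmul]
  rw [smul_sub, ← Nat.cast_pow, Nat.cast_smul_eq_nsmul, Nat.cast_smul_eq_nsmul]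

variable (l) in
theorem exists_root_system : ∃ η : ℕ → Qb,
    (∀ k, IsPrimitiveRoot (η k) (l ^ k)) ∧ ∀ k, η (k + 1) ^ l = η k := by
  obtain ⟨ζ, hζ⟩ := HasEnoughRootsOfUnity.exists_primitiveRoot Qb l
  have hex : ∀ (k : ℕ) (a : Qb), ∃ b : Qb, b ^ l = a ∧
      (a = 1 → k = 0 → IsPrimitiveRoot b l) := fun k a => by
    by_cases h : a = 1 ∧ k = 0
    · exact ⟨ζ, by rw [hζ.pow_eq_one, h.1], fun _ _ => hζ⟩
    · obtain ⟨b, hb⟩ := IsAlgClosed.exists_pow_nat_eq a hl.out.pos
      exact ⟨b, hb, fun h1 h2 => absurd ⟨h1, h2⟩ h⟩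
  choose nxt hnxt hnxt' using hex
  let η : ℕ → Qb := fun k => Nat.rec 1 (fun k a => nxt k a) k
  have h1 : ∀ k, η (k + 1) ^ l = η k := fun k => hnxt k (η k)
  refine ⟨η, fun k => ?_, h1⟩
  rw [IsPrimitiveRoot.iff_orderOf]
  rcases k with _ | k
  · simp [η]
  have hpow : ∀ j, η j ^ l ^ j = 1 := by
    intro j
    induction j with
    | zero => simp [η]
    | succ j ih => rw [pow_succ', pow_mul, h1, ih]
  have hdesc : ∀ j, η (j + 1) ^ l ^ j = η 1 := by
    intro j
    induction j with
    | zero => simp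
    | succ j ih => rw [pow_succ', pow_mul, h1, ih]
  refine orderOf_eq_prime_pow ?_ (hpow _)
  rw [hdesc]
  exact fun h => hl.out.one_lt.ne' ((hnxt' 0 1 rfl rfl).eq_orderOf.trans (by
    rw [show nxt 0 1 = η 1 from rfl, h, orderOf_one]))

variable (l) in
/-- A compatible system of roots of unity. -/
def rootSys (k : ℕ) : Qb := (exists_root_system l).choose k

theorem rootSys_primitive (k : ℕ) : IsPrimitiveRoot (rootSys l k) (l ^ k) :=
  (exists_root_system l).choose_spec.1 k

theorem rootSys_succ_pow (k : ℕ) : rootSys l (k + 1) ^ l = rootSys l k :=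
  (exists_root_system l).choose_spec.2 k

theorem cycP_spec (σ : GQ) (k : ℕ) :
    σ (rootSys l k) = rootSys l k ^ resNat l k (cycP l σ : ℤ_[l]) := by
  haveI : NeZero (l ^ k) := ⟨pow_ne_zero _ hl.out.ne_zero⟩
  obtain ⟨a, -, ha⟩ := (rootSys_primitive (l := l) k).eq_pow_of_pow_eq_one
    (ξ := σ (rootSys l k)) (by rw [← map_pow, (rootSys_primitive k).pow_eq_one, map_one])
  have h := FA.RT.Tate.cycP_eq_natCast (p := l) (n := k) (a := a) (σ := σ) fun μ hμ => by
    obtain ⟨i, -, rfl⟩ := (rootSys_primitive (l := l) k).eq_pow_of_pow_eq_one hμ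
    rw [map_pow, ← ha, ← pow_mul, ← pow_mul, mul_comm]
  rw [← ha, resNat, h, ZMod.val_natCast]
  exact pow_eq_pow_mod a (rootSys_primitive k).pow_eq_one

end General

variable {p : ℕ} [Fact p.Prime] {l : ℕ} [hl : Fact l.Prime]
  [Algebra (AlgebraicClosure ℚ) (PadicComplex l)]

/-- Every torsion class comes from the lattice. -/
theorem exists_toTors_of_nsmul {n : ℕ} [NeZero n] {x : JZero p} (hx : n • x = 0) :
    ∃ q, toTors p (∅ : Set ℕ) n q = x := by
  refine exists_toTors_eq p (∅ : Set ℕ) n (mem_liftedTors_iff.2 ?_)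
  have key : ∀ e : ℕ, e ≠ 0 → ∀ x : JZero p, ∃ y, e • y = x := by
    intro e
    induction e using Nat.recOnMul with
    | zero => exact fun h => absurd rfl h
    | one => exact fun _ x => ⟨x, one_nsmul x⟩
    | prime r hr => exact fun _ x => jZero_exists_nsmul_eq p hr x
    | mul a b iha ihb =>
      intro hab x
      obtain ⟨ha, hb⟩ := mul_ne_zero_iff.1 hab
      obtain ⟨y, hy⟩ := iha ha x
      obtain ⟨z, hz⟩ := ihb hb y
      exact ⟨z, by rw [mul_nsmul', hz, hy]⟩
  obtain ⟨y, hy⟩ := key (liftExp (lvlGamma0 p)) (liftExp_ne_zero (lvlGamma0 p)) x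
  refine ⟨y, ?_, hy⟩
  rw [Pic0.mem_torsion, natCast_zsmul, mul_nsmul]
  exact (congrArg (n • ·) hy).trans hx

variable (hn : l ∣ eisensteinNumerator p) (hlp : ¬ l ∣ p)
include hlp

omit hn in
/-- Inertia moves classes within the disc classes. -/
theorem smul_sub_mem_discJ {σ : GQ} (hσ : σ ∈ inGp l) (x : JZero p) :
    σ • x - x ∈ discJ (p := p) (l := l) hlp := by
  refine (mem_discClasses_iff l p hlp _).2 ?_
  rw [map_sub, reductionModL_inertia p hlp (placeAt_liesOver l)
    (FA.CurveRed.Modular.reductionInputsModL p hl.out hlp (placeAt l) (placeAt_liesOver l)) hσ,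
    sub_self]

/-- The conditions on the lattice. -/
def discStep (k : ℕ) : AddSubgroup (EisM p l hn) :=
  (discJ (p := p) (l := l) hlp).comap (tauM p l hn k)

theorem mem_discStep {k : ℕ} {v : EisM p l hn} :
    v ∈ discStep hn hlp k ↔ tauM p l hn k v ∈ discJ (l := l) hlp := Iff.rfl

theorem discStep_step (k : ℕ) (v : EisM p l hn) :
    (l : ℤ_[l]) • v ∈ discStep hn hlp (k + 1) ↔ v ∈ discStep hn hlp k := by
  rw [mem_discStep, mem_discStep, Nat.cast_smul_eq_nsmul, map_nsmul, tauM_succ]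

theorem discStep_pow (k : ℕ) (v : EisM p l hn) : (l : ℤ_[l]) ^ k • v ∈ discStep hn hlp k := by
  rw [mem_discStep, (tauM_eq_zero_iff p l hn).2 ⟨v, rfl⟩]
  exact zero_mem _

/-- The classes in the disc at every level. -/
def discInf : Submodule ℤ_[l] (EisM p l hn) := towerInf (discStep hn hlp) (discStep_pow hn hlp)

theorem mem_discInf {v : EisM p l hn} :
    v ∈ discInf hn hlp ↔ ∀ k, tauM p l hn k v ∈ discJ (l := l) hlp := Iff.rfl

theorem rhoM_sub_mem_discInf {σ : GQ} (hσ : σ ∈ inGp l) (v : EisM p l hn) :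
    rhoM p l hn σ v - v ∈ discInf hn hlp := fun k => by
  rw [mem_discStep, map_sub, tauM_rhoM]
  exact smul_sub_mem_discJ hlp hσ _

theorem mem_discInf_of_smul {a : ℤ_[l]} (ha : a ≠ 0) {v : EisM p l hn}
    (h : a • v ∈ discInf hn hlp) : v ∈ discInf hn hlp := by
  rw [PadicInt.unitCoeff_spec ha, mul_smul] at h
  replace h := (Submodule.smul_mem_iff' _ (PadicInt.unitCoeff ha)).mp h
  generalize a.valuation = e at h
  induction e with
  | zero => simpa using h
  | succ e ih =>
    refine ih fun k => mem_towerInf_of_smul (discStep hn hlp) (discStep_step hn hlp)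
      (v := (l : ℤ_[l]) ^ e • v) (fun j => ?_) k
    rw [← mul_smul, ← pow_succ']
    exact h j

theorem exists_discStep_bound :
    ∃ c : ℕ, ∀ k, ∀ v ∈ discStep hn hlp k, ∃ h ∈ discInf hn hlp,
      l ^ c • tauM p l hn k v = tauM p l hn k h := by
  obtain ⟨c, hc⟩ := exists_tower_bound (discStep hn hlp) (discStep_step hn hlp) (discStep_pow hn hlp)
  refine ⟨c, fun k v hv => ?_⟩
  obtain ⟨h, w, hh, rfl⟩ := hc k v hv
  refine ⟨(l : ℤ_[l]) ^ c • h, Submodule.smul_mem _ _ hh, ?_⟩
  rw [← map_nsmul, smul_add, map_add, ← Nat.cast_smul_eq_nsmul ℤ_[l] (l ^ c), Nat.cast_pow,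
    add_eq_left, ← Nat.cast_smul_eq_nsmul ℤ_[l] (l ^ c), Nat.cast_pow, smul_smul, ← pow_add]
  refine (tauM_eq_zero_iff p l hn).2 ⟨(l : ℤ_[l]) ^ (c + (k - c) - k) • w, ?_⟩
  rw [smul_smul, ← pow_add]
  congr 2
  omega

/-! ### The operators -/

omit hlp in
theorem exists_good_approx : ∃ M : ℕ, M ≠ 0 ∧ ∀ (r : EisR p l hn) (k : ℕ),
    ∃ t ∈ goodSub p, ∃ y, (M : EisR p l hn) * r - heckeR p l hn t = (l : EisR p l hn) ^ k * y := by
  obtain ⟨M, hM, hMt⟩ := exists_mul_mem_goodSub p
  have hMN : ∀ t : TAlg p, (M.natAbs : TAlg p) * t ∈ goodSub p := fun t => by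
    rcases Int.natAbs_eq M with h | h
    · rw [← Int.cast_natCast, ← h, ← zsmul_eq_mul]; exact hMt t
    · rw [← Int.cast_natCast, show (M.natAbs : ℤ) = -M by omega, Int.cast_neg, neg_mul,
        ← zsmul_eq_mul]
      exact neg_mem (hMt t)
  refine ⟨M.natAbs, Int.natAbs_ne_zero.2 hM, fun r k => ?_⟩
  obtain ⟨t, y, hy⟩ := exists_heckeR_approx p l hn r k
  refine ⟨(M.natAbs : TAlg p) * t, hMN t, (M.natAbs : EisR p l hn) * y, ?_⟩
  rw [map_mul, map_natCast, ← mul_sub, hy]
  ring

omit hlp in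
theorem tauM_smul_congr {k : ℕ} {r s y : EisR p l hn} (h : r - s = (l : EisR p l hn) ^ k * y)
    (v : EisM p l hn) : tauM p l hn k (r • v) = tauM p l hn k (s • v) := by
  rw [sub_eq_iff_eq_add'.1 h, add_smul, map_add, add_eq_left]
  refine (tauM_eq_zero_iff p l hn).2 ⟨y • v, ?_⟩
  rw [← pow_smul_eq_mul, smul_assoc]

omit hlp in
theorem toTors_good {k : ℕ} {t : TAlg p} (v : EisM p l hn) :
    tauM p l hn k (heckeR p l hn t • v) = toTors p (∅ : Set ℕ) (l ^ k) (t • redM p l hn k v) :=
  congrArg (toTors p (∅ : Set ℕ) (l ^ k)) (redM_smul p l hn k t v)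

/-- The Eisenstein factor preserves the classes in the disc. -/
theorem smul_mem_discInf (r : EisR p l hn) {v : EisM p l hn} (hv : v ∈ discInf hn hlp) :
    r • v ∈ discInf hn hlp := by
  obtain ⟨M, hM, hMr⟩ := exists_good_approx hn
  refine mem_discInf_of_smul hn hlp (Nat.cast_ne_zero.2 hM) fun k => ?_
  obtain ⟨t, ht, y, hy⟩ := hMr r k
  rw [mem_discStep, ← algebraMap_smul (EisR p l hn) (M : ℤ_[l]), map_natCast, smul_smul,
    tauM_smul_congr hn hy, toTors_good]
  exact (discExp_toTors hn hlp ht 0 (hv k)).1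

/-! ### The linear forms -/

/-- The unit value of a twist at a level. -/
def discVal (L : twistSub p l hn) (v : discInf hn hlp) (k : ℕ) : Cl l :=
  ((discExp hn hlp L ⟨tauM p l hn k (v : EisM p l hn), v.2 k⟩).toMul : Cl l)

theorem discVal_add_right (L : twistSub p l hn) (v w : discInf hn hlp) (k : ℕ) :
    discVal hn hlp L (v + w) k = discVal hn hlp L v k * discVal hn hlp L w k := by
  rw [discVal, discVal, discVal, ← Units.val_mul, ← toMul_add, ← map_add]
  congr 3
  exact Subtype.ext (map_add _ _ _)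

theorem discVal_add_left (L L' : twistSub p l hn) (v : discInf hn hlp) (k : ℕ) :
    discVal hn hlp (L + L') v k = discVal hn hlp L v k * discVal hn hlp L' v k := by
  rw [discVal, discVal, discVal, map_add, AddMonoidHom.add_apply, toMul_add, Units.val_mul]

theorem discVal_nsmul_left (L : twistSub p l hn) (v : discInf hn hlp) (k m : ℕ) :
    discVal hn hlp (m • L) v k = discVal hn hlp L v k ^ m := by
  induction m with
  | zero =>
    rw [zero_smul, pow_zero, discVal, map_zero]
    rfl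
  | succ m ih => rw [succ_nsmul, discVal_add_left, ih, pow_succ]

theorem discVal_succ (L : twistSub p l hn) (v : discInf hn hlp) (k : ℕ) :
    discVal hn hlp L v (k + 1) ^ l = discVal hn hlp L v k := by
  rw [discVal, discVal, ← Units.val_pow_eq_pow_val, ← toMul_nsmul, ← map_nsmul]
  congr 3
  exact Subtype.ext (tauM_succ p l hn k _)

theorem discVal_pow (L : twistSub p l hn) (v : discInf hn hlp) (k : ℕ) :
    discVal hn hlp L v k ^ l ^ k = 1 := by
  rw [discVal, ← Units.val_pow_eq_pow_val, ← toMul_nsmul, ← map_nsmul,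
    show l ^ k • (⟨tauM p l hn k (v : EisM p l hn), v.2 k⟩ : discJ (p := p) (l := l) hlp) = 0 from
      Subtype.ext (pow_nsmul_tauM p l hn k _), map_zero, toMul_zero, Units.val_one]

omit hn hlp in
theorem emb_rootSys_primitive (k : ℕ) : IsPrimitiveRoot (emb l (rootSys l k)) (l ^ k) :=
  (rootSys_primitive k).map_of_injective (emb l).injective

theorem existsUnique_phi (L : twistSub p l hn) (v : discInf hn hlp) :
    ∃! a : ℤ_[l], ∀ k, discVal hn hlp L v k = emb l (rootSys l k) ^ resNat l k a := by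
  have hex : ∀ k, ∃ a : ℕ, discVal hn hlp L v k = emb l (rootSys l k) ^ a := fun k => by
    haveI : NeZero (l ^ k) := ⟨pow_ne_zero _ hl.out.ne_zero⟩
    obtain ⟨i, -, hi⟩ :=
      (emb_rootSys_primitive (l := l) k).eq_pow_of_pow_eq_one (discVal_pow hn hlp L v k)
    exact ⟨i, hi.symm⟩
  choose a ha using hex
  have hstep : ∀ k, ∃ y, (l : ℤ_[l]) ^ k • y = (a (k + 1) : ℤ_[l]) - (a k : ℤ_[l]) := fun k => by
    haveI : NeZero (l ^ k) := ⟨pow_ne_zero _ hl.out.ne_zero⟩
    have h1 : emb l (rootSys l k) ^ a k = emb l (rootSys l k) ^ a (k + 1) := by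
      rw [← ha k, ← discVal_succ hn hlp L v k, ha (k + 1), ← pow_mul, mul_comm, pow_mul,
        ← map_pow, rootSys_succ_pow]
    have h2 : ((a (k + 1) : ℤ_[l]) - (a k : ℤ_[l])) ∈ RingHom.ker (PadicInt.toZModPow k) := by
      rw [RingHom.mem_ker, map_sub, map_natCast, map_natCast,
        cast_eq_of_pow_eq (emb_rootSys_primitive (l := l) k) h1, sub_self]
    rw [PadicInt.ker_toZModPow, Ideal.mem_span_singleton'] at h2
    obtain ⟨y, hy⟩ := h2
    exact ⟨y, by rw [smul_eq_mul, mul_comm, hy]⟩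
  obtain ⟨A, hA⟩ := exists_limit l (fun k => (a k : ℤ_[l])) hstep
  have hres : ∀ k, (resNat l k A : ZMod (l ^ k)) = a k := fun k => by
    obtain ⟨y, hy⟩ := hA k
    have h3 := congrArg (PadicInt.toZModPow k) hy
    rw [smul_eq_mul, map_mul, map_natCast_pow, ZMod.natCast_self, zero_mul, map_sub, map_natCast,
      eq_comm, sub_eq_zero] at h3
    rw [cast_resNat, h3]
  refine ⟨A, fun k => ?_, fun B hB => PadicInt.ext_of_toZModPow.mp fun k => ?_⟩
  · haveI : NeZero (l ^ k) := ⟨pow_ne_zero _ hl.out.ne_zero⟩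
    rw [ha k]
    exact pow_eq_pow_of_cast_eq (emb_rootSys_primitive (l := l) k) (hres k).symm
  · haveI : NeZero (l ^ k) := ⟨pow_ne_zero _ hl.out.ne_zero⟩
    rw [← cast_resNat l k B, ← cast_resNat l k A, hres k]
    exact cast_eq_of_pow_eq (emb_rootSys_primitive (l := l) k) ((hB k).symm.trans (ha k))

/-- The linear form of a twist, as a map. -/
def phiFun (L : twistSub p l hn) (v : discInf hn hlp) : ℤ_[l] :=
  (existsUnique_phi hn hlp L v).choose

theorem discVal_eq (L : twistSub p l hn) (v : discInf hn hlp) (k : ℕ) :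
    discVal hn hlp L v k = emb l (rootSys l k) ^ resNat l k (phiFun hn hlp L v) :=
  (existsUnique_phi hn hlp L v).choose_spec.1 k

theorem phiFun_eq (L : twistSub p l hn) (v : discInf hn hlp) {a : ℤ_[l]}
    (h : ∀ k, discVal hn hlp L v k = emb l (rootSys l k) ^ resNat l k a) :
    phiFun hn hlp L v = a :=
  ((existsUnique_phi hn hlp L v).choose_spec.2 a h).symm

omit hn hlp in
theorem rootSys_pow_add (k : ℕ) (a b : ℤ_[l]) :
    emb l (rootSys l k) ^ resNat l k a * emb l (rootSys l k) ^ resNat l k b =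
      emb l (rootSys l k) ^ resNat l k (a + b) := by
  haveI : NeZero (l ^ k) := ⟨pow_ne_zero _ hl.out.ne_zero⟩
  rw [← pow_add]
  refine pow_eq_pow_of_cast_eq (emb_rootSys_primitive (l := l) k) ?_
  rw [Nat.cast_add, cast_resNat, cast_resNat, cast_resNat, map_add]

omit hn hlp in
theorem eq_zero_padic (x : ℤ_[l]) (h : ∀ k : ℕ, ∃ y, (l : ℤ_[l]) ^ k • y = x) : x = 0 :=
  eq_zero_of_forall_pow_smul l h

/-- **The linear forms of the twists.** -/
def discPhi : twistSub p l hn →+ (discInf hn hlp →ₗ[ℤ_[l]] ℤ_[l]) :=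
  AddMonoidHom.mk' (fun L =>
    let f : discInf hn hlp →+ ℤ_[l] := AddMonoidHom.mk' (phiFun hn hlp L) fun v w =>
      phiFun_eq hn hlp L _ fun k => by
        rw [discVal_add_right, discVal_eq, discVal_eq, rootSys_pow_add]
    { f with map_smul' := fun c v => map_padic_smul (fun x => eq_zero_padic x) f c v })
    fun L L' => LinearMap.ext fun v => phiFun_eq hn hlp _ _ fun k => by
      rw [discVal_add_left, discVal_eq, discVal_eq, rootSys_pow_add]
      rfl

theorem discVal_discPhi (L : twistSub p l hn) (v : discInf hn hlp) (k : ℕ) :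
    discVal hn hlp L v k = emb l (rootSys l k) ^ resNat l k (discPhi hn hlp L v) :=
  discVal_eq hn hlp L v k

theorem discPhi_eq (L : twistSub p l hn) (v : discInf hn hlp) {a : ℤ_[l]}
    (h : ∀ k, discVal hn hlp L v k = emb l (rootSys l k) ^ resNat l k a) :
    discPhi hn hlp L v = a :=
  phiFun_eq hn hlp L v h

/-- **Inertia acts by the cyclotomic character on the values.** -/
theorem discPhi_inertia (L : twistSub p l hn) {σ : GQ} (hσ : σ ∈ inGp l) (v : discInf hn hlp)
    (h : rhoM p l hn σ (v : EisM p l hn) ∈ discInf hn hlp) :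
    discPhi hn hlp L ⟨_, h⟩ = (cycP l σ : ℤ_[l]) * discPhi hn hlp L v := by
  refine discPhi_eq hn hlp L _ fun k => ?_
  haveI : NeZero (l ^ k) := ⟨pow_ne_zero _ hl.out.ne_zero⟩
  have h1 := discExp_inertia hn hlp L hσ (v.2 k)
  have h2 : discVal hn hlp L ⟨_, h⟩ k = galExt (inGp_le l hσ) (discVal hn hlp L v k) := by
    rw [discVal, discVal]
    refine Eq.trans ?_ (congrArg (fun z : Additive (Cl l)ˣ => (z.toMul : Cl l)) h1)
    congr 3
    exact Subtype.ext (tauM_rhoM p l hn k σ _)
  rw [h2, discVal_discPhi, map_pow, galExt_emb, cycP_spec, map_pow, ← pow_mul]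
  refine pow_eq_pow_of_cast_eq (emb_rootSys_primitive (l := l) k) ?_
  rw [Nat.cast_mul, cast_resNat, cast_resNat, cast_resNat, map_mul]

/-- **The operators act through the twists.** -/
theorem discPhi_smul (L : twistSub p l hn) (r : EisR p l hn) (v : discInf hn hlp) :
    discPhi hn hlp L ⟨r • (v : EisM p l hn), smul_mem_discInf hn hlp r v.2⟩ =
      discPhi hn hlp (twistMul hn r L) v := by
  obtain ⟨M, hM, hMr⟩ := exists_good_approx hn
  have e : twistMul hn ((M : EisR p l hn) * r) L = M • twistMul hn r L := by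
    refine Subtype.ext (LinearMap.ext fun y => ?_)
    rw [twistMul_apply, Submodule.coe_smul_of_tower, LinearMap.smul_apply, twistMul_apply, mul_assoc,
      ← nsmul_eq_mul, map_nsmul]
  have key : discPhi hn hlp L ⟨((M : EisR p l hn) * r) • (v : EisM p l hn),
      smul_mem_discInf hn hlp _ v.2⟩ = discPhi hn hlp (twistMul hn ((M : EisR p l hn) * r) L) v := by
    refine discPhi_eq hn hlp L _ fun k => ?_
    obtain ⟨t, ht, y, hy⟩ := hMr r k
    obtain ⟨h1, h2⟩ := discExp_toTors hn hlp ht L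
      (q := redM p l hn k (v : EisM p l hn)) (v.2 k)
    have eL : twistMul hn ((M : EisR p l hn) * r) L =
        twistMul hn (heckeR p l hn t) L + l ^ k • twistMul hn y L := by
      refine Subtype.ext (LinearMap.ext fun z => ?_)
      rw [Submodule.coe_add, Submodule.coe_smul_of_tower, LinearMap.add_apply, LinearMap.smul_apply,
        twistMul_apply, twistMul_apply, twistMul_apply, sub_eq_iff_eq_add'.1 hy, add_mul, map_add,
        mul_assoc ((l : EisR p l hn) ^ k), ← Nat.cast_pow, ← nsmul_eq_mul, map_nsmul]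
    have e3 : discVal hn hlp (l ^ k • twistMul hn y L) v k = 1 := by
      rw [discVal_nsmul_left]
      exact discVal_pow hn hlp _ v k
    rw [← discVal_discPhi, eL, discVal_add_left, e3, mul_one, discVal, discVal]
    refine congrArg (fun z : Additive (Cl l)ˣ => (z.toMul : Cl l)) (Eq.trans ?_ h2)
    refine congrArg (discExp hn hlp L) (Subtype.ext ?_)
    show tauM p l hn k (((M : EisR p l hn) * r) • (v : EisM p l hn)) = _
    rw [tauM_smul_congr hn hy, toTors_good]
  have e2 : (⟨((M : EisR p l hn) * r) • (v : EisM p l hn), smul_mem_discInf hn hlp _ v.2⟩ :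
      discInf hn hlp) = M • ⟨r • (v : EisM p l hn), smul_mem_discInf hn hlp r v.2⟩ := by
    refine Subtype.ext ?_
    show ((M : EisR p l hn) * r) • (v : EisM p l hn) = M • (r • (v : EisM p l hn))
    rw [mul_smul, Nat.cast_smul_eq_nsmul]
  rw [e2, e, map_nsmul, map_nsmul, LinearMap.smul_apply] at key
  exact smul_right_injective ℤ_[l] hM key

end FA.Mazur

end
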