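import Fermat.Agent.Mazur.EisSplit
import Fermat.Agent.Mazur.DiscTower
import Fermat.Agent.RT.Tame

/-!
# The finite levels of the Eisenstein lattice and tame inertia at the level prime

At each level the Galois action of inertia at `p` is generated by one element `Σ`; the kernel of
`ρ(Σ) - 1` on the lattice contains its image.
-/

set_option autoImplicit false
set_option linter.style.haveILetI false
set_option linter.unusedSectionVars false

noncomputable section

namespace FA.Mazur

open ModularCurve AlgebraicCurve FA.Curve FA.ModField FA.Level FA.JTorsion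

set_option synthInstance.maxHeartbeats 400000
set_option maxHeartbeats 2000000

local notation "Qb" => AlgebraicClosure ℚ
local notation "GQ" => AlgebraicClosure ℚ ≃ₐ[ℚ] AlgebraicClosure ℚ

variable [Algebra (AlgebraicClosure ℚ) ℂ]
variable {p : ℕ} [Fact p.Prime] {l : ℕ} [hl : Fact l.Prime] (hn : l ∣ eisensteinNumerator p)

/-- The classes of a level. -/
def tauG (j : ℕ) : AddSubgroup (JZero p) := (tauM p l hn j).range

theorem smul_mem_tauG (j : ℕ) (σ : GQ) {x : JZero p} (hx : x ∈ tauG hn j) : σ • x ∈ tauG hn j := by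
  obtain ⟨v, rfl⟩ := hx
  exact ⟨rhoM p l hn σ v, tauM_rhoM p l hn j σ v⟩

instance tauG_action (j : ℕ) : DistribMulAction GQ (tauG hn j) where
  smul σ x := ⟨σ • (x : JZero p), smul_mem_tauG hn j σ x.2⟩
  one_smul x := Subtype.ext (one_smul GQ (x : JZero p))
  mul_smul σ τ x := Subtype.ext (mul_smul σ τ (x : JZero p))
  smul_zero σ := Subtype.ext (smul_zero σ)
  smul_add σ x y := Subtype.ext (smul_add σ (x : JZero p) y)

theorem coe_tauG_smul (j : ℕ) (σ : GQ) (x : tauG hn j) :
    ((σ • x : tauG hn j) : JZero p) = σ • (x : JZero p) := rfl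

theorem pow_nsmul_tauG (j : ℕ) (x : tauG hn j) : l ^ j • x = 0 := by
  obtain ⟨_, v, rfl⟩ := x
  exact Subtype.ext (pow_nsmul_tauM p l hn j v)

instance tauG_finite (j : ℕ) : Finite (tauG hn j) := by
  haveI : NeZero (l ^ j) := ⟨pow_ne_zero _ hl.out.ne_zero⟩
  haveI := tors_finite (lvlGamma0 p) Qb (l ^ j)
  exact Finite.of_injective (fun x : tauG hn j => (⟨(x : JZero p), by
    rw [Pic0.mem_torsion, natCast_zsmul]
    exact congrArg Subtype.val (pow_nsmul_tauG hn j x)⟩ : tors (lvlGamma0 p) Qb (l ^ j)))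
    fun a b h => Subtype.ext (congrArg Subtype.val h :)

/-- A saturated submodule meets `l ^ j M` in `l ^ j` times itself. -/
def IsSat (S : Submodule ℤ_[l] (EisM p l hn)) : Prop :=
  ∀ {a : ℤ_[l]} {v : EisM p l hn}, a ≠ 0 → a • v ∈ S → v ∈ S

/-- **The size of a level of a saturated submodule.** -/
theorem natCard_map_tauM {S : Submodule ℤ_[l] (EisM p l hn)} (hS : IsSat hn S) (j : ℕ) :
    Nat.card (S.toAddSubgroup.map (tauM p l hn j)) = l ^ (j * Module.finrank ℤ_[l] S) := by
  classical
  haveI : Module.IsTorsionFree ℤ_[l] S := S.subtype_injective.moduleIsTorsionFree _ fun _ _ => rfl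
  haveI : Module.Finite ℤ_[l] S := Module.Finite.of_fg (IsNoetherian.noetherian S)
  haveI : Module.Free ℤ_[l] S := Module.free_of_finite_type_torsion_free'
  set b := Module.Free.chooseBasis ℤ_[l] S
  let φ : S →+ (Module.Free.ChooseBasisIndex ℤ_[l] S → ZMod (l ^ j)) :=
    AddMonoidHom.mk' (fun x i => PadicInt.toZModPow j (b.repr x i)) fun x y => funext fun i => by
      simp only [map_add, Finsupp.add_apply, Pi.add_apply]
  let τ : S →+ JZero p := (tauM p l hn j).comp S.subtype.toAddMonoidHom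
  have hker : τ.ker = φ.ker := by
    ext x
    rw [AddMonoidHom.mem_ker, AddMonoidHom.mem_ker]
    show tauM p l hn j (x : EisM p l hn) = 0 ↔ _
    rw [tauM_eq_zero_iff]
    constructor
    · rintro ⟨u, hu⟩
      have hmem : u ∈ S := hS (pow_ne_zero j (Nat.cast_ne_zero.2 hl.out.ne_zero)) (hu ▸ x.2)
      refine funext fun i => ?_
      show PadicInt.toZModPow j (b.repr x i) = 0
      rw [show x = (l : ℤ_[l]) ^ j • (⟨u, hmem⟩ : S) from Subtype.ext hu, map_smul,
        Finsupp.smul_apply, smul_eq_mul, map_mul, map_natCast_pow, ZMod.natCast_self, zero_mul]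
    · intro h
      have h1 : ∀ i, ∃ c, b.repr x i = (l : ℤ_[l]) ^ j * c := fun i => by
        have h2 : b.repr x i ∈ RingHom.ker (PadicInt.toZModPow j) :=
          RingHom.mem_ker.2 (congrFun h i)
        rw [PadicInt.ker_toZModPow, Ideal.mem_span_singleton'] at h2
        obtain ⟨c, hc⟩ := h2
        exact ⟨c, by rw [← hc, mul_comm]⟩
      choose c hc using h1
      refine ⟨((∑ i, c i • b i : S) : EisM p l hn), ?_⟩
      rw [← Submodule.coe_smul_of_tower, Finset.smul_sum]
      refine congrArg Subtype.val ((b.sum_repr x).symm.trans ?_)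
      exact Finset.sum_congr rfl fun i _ => by rw [hc, mul_smul]
  have hφ : Function.Surjective φ := fun f =>
    ⟨∑ i, ((f i).val : ℤ_[l]) • b i, funext fun i => by
      haveI : NeZero (l ^ j) := ⟨pow_ne_zero _ hl.out.ne_zero⟩
      show PadicInt.toZModPow j (b.repr _ i) = f i
      rw [b.repr_sum_self, map_natCast, ZMod.natCast_zmod_val]⟩
  have e : S.toAddSubgroup.map (tauM p l hn j) = τ.range := by
    ext y
    simp only [AddSubgroup.mem_map, AddMonoidHom.mem_range, τ, AddMonoidHom.comp_apply,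
      Submodule.mem_toAddSubgroup]
    exact ⟨fun ⟨v, hv, hy⟩ => ⟨⟨v, hv⟩, hy⟩, fun ⟨v, hy⟩ => ⟨v, v.2, hy⟩⟩
  rw [e, ← Nat.card_congr (QuotientAddGroup.quotientKerEquivRange τ).toEquiv, hker,
    Nat.card_congr (QuotientAddGroup.quotientKerEquivOfSurjective φ hφ).toEquiv, Nat.card_fun,
    Nat.card_zmod, Nat.card_eq_fintype_card, ← Module.finrank_eq_card_chooseBasisIndex, ← pow_mul]

/-- The number of classes of a level. -/
theorem natCard_tauG (j : ℕ) :
    Nat.card (tauG hn j) = l ^ (j * (2 * Module.finrank ℤ_[l] (EisR p l hn))) := by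
  have h := natCard_map_tauM hn (S := (⊤ : Submodule ℤ_[l] (EisM p l hn)))
    (fun _ _ => Submodule.mem_top) j
  rw [finrank_top, finrank_eisM] at h
  rw [← h, Submodule.top_toAddSubgroup, ← AddMonoidHom.range_eq_map]
  rfl

variable (hlp : ¬ l ∣ p)
include hlp

/-- **Tame inertia at `p` is generated by one element on every level.** -/
theorem exists_sigP {A : ValuationSubring Qb} (hA : A.LiesOverPrime p) :
    ∃ s ∈ A.inertiaSubgroupIn ℚ, (∀ (X : Type) [Monoid X] (f : GQ →* X),
      IsOpen (f.ker : Set GQ) → (∀ σ ∈ A.inertiaSubgroupIn ℚ, ∃ m : ℕ, f σ ^ l ^ m = 1) →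
      ∀ σ ∈ A.inertiaSubgroupIn ℚ, ∃ i : ℕ, f σ = f s ^ i) ∧
      ∀ (j : ℕ) (x : JZero p), l ^ j • x = 0 →
        ∀ σ ∈ A.inertiaSubgroupIn ℚ, ∃ i : ℕ, σ • x = s ^ i • x := by
  have hpl : l ≠ p := fun h => hlp (h ▸ dvd_rfl)
  obtain ⟨s, hs, hgen⟩ := FA.RT.exists_tame_gen (p := l) hl.out (Fact.out : p.Prime) hpl hA
  refine ⟨s, hs, hgen, fun j x hx σ hσ => ?_⟩
  haveI : NeZero (l ^ j) := ⟨pow_ne_zero _ hl.out.ne_zero⟩
  obtain ⟨q, rfl⟩ := exists_toTors_of_nsmul hx
  obtain ⟨E, hE, hEact⟩ := exists_field_galMod p (∅ : Set ℕ) (l ^ j)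
  haveI := hE
  have hopen : IsOpen ((actK p l j).ker : Set GQ) :=
    Subgroup.isOpen_mono (H₁ := E.fixingSubgroup) (fun τ hτ => MonoidHom.mem_ker.2
      (hEact τ fun a ha => (IntermediateField.mem_fixingSubgroup_iff _ _).1 hτ a ha))
      (IntermediateField.fixingSubgroup_isOpen _)
  have hord : ∀ τ ∈ A.inertiaSubgroupIn ℚ, ∃ m : ℕ, actK p l j τ ^ l ^ m = 1 := fun τ hτ => ⟨j, by
    set f := actK p l j τ
    have hsq : (f - 1) * (f - 1) = 0 := LinearMap.ext fun y => by
      obtain ⟨y', rfl⟩ := Submodule.Quotient.mk_surjective _ y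
      refine toTors_injective p (∅ : Set ℕ) (l ^ j) ?_
      have h := semistableTors_level p A hA τ hτ (l ^ j) (fun h => hpl.symm
        ((Nat.prime_dvd_prime_iff_eq Fact.out hl.out).1 ((Fact.out : p.Prime).dvd_of_dvd_pow h)))
        _ (nsmul_toTors p (∅ : Set ℕ) (l ^ j) (Submodule.Quotient.mk y'))
      simp only [f, Module.End.mul_apply, LinearMap.sub_apply, Module.End.one_apply,
        LinearMap.zero_apply, map_sub, map_zero, toTors_galMod]
      rw [two_smul] at h
      linear_combination (norm := abel) h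
    have hf : ∀ m : ℕ, f ^ m = 1 + m • (f - 1) := fun m => by
      induction m with
      | zero => simp
      | succ m ih =>
        rw [pow_succ, ih, add_mul, one_mul, smul_mul_assoc,
          show (f - 1) * f = (f - 1) * (f - 1) + (f - 1) by rw [mul_sub (f - 1), mul_one]; abel,
          hsq, zero_add, succ_nsmul]
        abel
    rw [hf, add_eq_left]
    exact LinearMap.ext fun y => by
      rw [LinearMap.smul_apply, LinearMap.zero_apply]; exact pow_smul_xMod p l j _⟩
  obtain ⟨i, hi⟩ := hgen _ (actK p l j) hopen hord σ hσ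
  refine ⟨i, ?_⟩
  rw [← toTors_galMod, ← toTors_galMod, show galMod p (∅ : Set ℕ) (l ^ j) σ =
    galMod p (∅ : Set ℕ) (l ^ j) (s ^ i) by rw [map_pow]; exact hi]

/-- The element generating inertia at `p`. -/
def sigP {A : ValuationSubring Qb} (hA : A.LiesOverPrime p) : GQ :=
  (exists_sigP (l := l) hlp hA).choose

theorem sigP_mem {A : ValuationSubring Qb} (hA : A.LiesOverPrime p) :
    sigP (l := l) hlp hA ∈ A.inertiaSubgroupIn ℚ := (exists_sigP (l := l) hlp hA).choose_spec.1

/-- The element generates inertia in every quotient where inertia has `l`-power order. -/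
theorem sigP_gen {A : ValuationSubring Qb} (hA : A.LiesOverPrime p) (X : Type) [Monoid X]
    (f : GQ →* X) (hf : IsOpen (f.ker : Set GQ))
    (hord : ∀ σ ∈ A.inertiaSubgroupIn ℚ, ∃ m : ℕ, f σ ^ l ^ m = 1) :
    ∀ σ ∈ A.inertiaSubgroupIn ℚ, ∃ i : ℕ, f σ = f (sigP (l := l) hlp hA) ^ i :=
  (exists_sigP (l := l) hlp hA).choose_spec.2.1 X f hf hord

/-- The vectors fixed by inertia at `p`. -/
def kerP {A : ValuationSubring Qb} (hA : A.LiesOverPrime p) : Submodule ℤ_[l] (EisM p l hn) :=
  LinearMap.ker ((rhoM p l hn (sigP (l := l) hlp hA) - 1).restrictScalars ℤ_[l])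

theorem mem_kerP {A : ValuationSubring Qb} (hA : A.LiesOverPrime p) {v : EisM p l hn} :
    v ∈ kerP hn hlp hA ↔ rhoM p l hn (sigP (l := l) hlp hA) v = v := by
  rw [kerP, LinearMap.mem_ker, LinearMap.restrictScalars_apply, LinearMap.sub_apply,
    Module.End.one_apply, sub_eq_zero]

theorem isSat_kerP {A : ValuationSubring Qb} (hA : A.LiesOverPrime p) :
    IsSat hn (kerP hn hlp hA) := fun {a v} ha h => by
  rw [mem_kerP, LinearMap.map_smul_of_tower] at h
  rw [mem_kerP]
  exact smul_right_injective (EisM p l hn) ha h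

/-- Inertia at `p` fixes the levels of `kerP`. -/
theorem smul_eq_of_kerP {A : ValuationSubring Qb} (hA : A.LiesOverPrime p) {v : EisM p l hn}
    (hv : v ∈ kerP hn hlp hA) (j : ℕ) {σ : GQ} (hσ : σ ∈ A.inertiaSubgroupIn ℚ) :
    σ • tauM p l hn j v = tauM p l hn j v := by
  obtain ⟨i, hi⟩ := (exists_sigP (l := l) hlp hA).choose_spec.2.2 j _ (pow_nsmul_tauM p l hn j v) σ hσ
  rw [show (exists_sigP (l := l) hlp hA).choose = sigP (l := l) hlp hA from rfl] at hi
  rw [hi, ← tauM_rhoM, map_pow]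
  refine congrArg _ ?_
  clear hi
  induction i with
  | zero => rw [pow_zero, Module.End.one_apply]
  | succ i ih => rw [pow_succ, Module.End.mul_apply, (mem_kerP hn hlp hA).1 hv, ih]

/-- The image of `ρ(Σ) - 1` is fixed. -/
theorem range_le_kerP {A : ValuationSubring Qb} (hA : A.LiesOverPrime p) (v : EisM p l hn) :
    rhoM p l hn (sigP (l := l) hlp hA) v - v ∈ kerP hn hlp hA := by
  rw [mem_kerP, map_sub]
  have h := rhoM_unip p l hn hlp hA (sigP_mem hlp hA) v
  rw [two_smul] at h
  linear_combination (norm := abel) h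

/-- The kernel has at least half rank. -/
theorem finrank_eisR_le_kerP {A : ValuationSubring Qb} (hA : A.LiesOverPrime p) :
    Module.finrank ℤ_[l] (EisR p l hn) ≤ Module.finrank ℤ_[l] (kerP hn hlp hA) := by
  set N := (rhoM p l hn (sigP (l := l) hlp hA) - 1).restrictScalars ℤ_[l]
  have h1 : Module.finrank ℤ_[l] (LinearMap.range N) ≤ Module.finrank ℤ_[l] (kerP hn hlp hA) :=
    Submodule.finrank_mono (by
      rintro _ ⟨v, rfl⟩
      exact range_le_kerP hn hlp hA v)
  have h2 := N.quotKerEquivRange.finrank_eq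
  have h3 := Submodule.finrank_quotient_add_finrank (LinearMap.ker N)
  rw [finrank_eisM, h2] at h3
  change _ + Module.finrank ℤ_[l] (kerP hn hlp hA) = _ at h3
  omega

end FA.Mazur

end
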