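import Fermat.Agent.Mazur.DiscStruct
import Fermat.Agent.Mazur.TameP
import Fermat.Agent.Mazur.Count
import Fermat.Agent.Mazur.FixedLift

/-!
# The Selmer count on the levels of the Eisenstein lattice

The levels satisfy the hypotheses of the count, every class is a bounded multiple away from
satisfying the unit condition at `l`, and so the vectors fixed by inertia at `p` have half rank and
a bounded multiple of every class with the local conditions is a coboundary.
-/

set_option autoImplicit false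
set_option linter.style.haveILetI false
set_option linter.unusedSectionVars false

noncomputable section

namespace FA.Mazur

open ModularCurve AlgebraicCurve FA.Curve FA.CurveRed FA.ModField FA.Level FA.JTorsion

set_option synthInstance.maxHeartbeats 400000
set_option maxHeartbeats 2000000

local notation "Qb" => AlgebraicClosure ℚ
local notation "GQ" => AlgebraicClosure ℚ ≃ₐ[ℚ] AlgebraicClosure ℚ

variable [Algebra (AlgebraicClosure ℚ) ℂ]
variable {p : ℕ} [Fact p.Prime] {l : ℕ} [hl : Fact l.Prime]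
variable (hn : l ∣ eisensteinNumerator p)

theorem tauM_padic_smul (j : ℕ) (c : ℤ_[l]) (v : EisM p l hn) :
    tauM p l hn j (c • v) = resNat l j c • tauM p l hn j v := by
  show toTors _ _ _ (redM p l hn j (c • v)) = _
  rw [redM_padic_smul, map_nsmul]
  rfl

theorem tauM_add_pow (k e : ℕ) (v : EisM p l hn) :
    l ^ e • tauM p l hn (k + e) v = tauM p l hn k v := by
  induction e with
  | zero => rw [pow_zero, one_nsmul, Nat.add_zero]
  | succ e ih => rw [pow_succ, mul_nsmul', ← add_assoc, tauM_succ, ih]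

/-- Roots of unity of a level as powers. -/
theorem exists_rootSys_pow {j : ℕ} {u : Qbˣ} (hu : u ^ l ^ j = 1) :
    ∃ i : ℕ, (u : Qb) = rootSys l j ^ i := by
  haveI : NeZero (l ^ j) := ⟨pow_ne_zero _ hl.out.ne_zero⟩
  obtain ⟨i, -, hi⟩ := (rootSys_primitive (l := l) j).eq_pow_of_pow_eq_one (ξ := (u : Qb))
    (by rw [← Units.val_pow_eq_pow_val, hu, Units.val_one])
  exact ⟨i, hi.symm⟩

variable [Algebra (AlgebraicClosure ℚ) (PadicComplex l)] (hlp : ¬ l ∣ p)
include hlp

/-- The classes of a level in the disc at every level. -/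
def discG (j : ℕ) : AddSubgroup (tauG hn j) :=
  ((discInf hn hlp).toAddSubgroup.map (tauM p l hn j)).addSubgroupOf (tauG hn j)

theorem isSat_discInf : IsSat hn (discInf hn hlp) := fun ha h => mem_discInf_of_smul hn hlp ha h

theorem natCard_discG (j : ℕ) :
    Nat.card (discG hn hlp j) = l ^ (j * Module.finrank ℤ_[l] (EisR p l hn)) := by
  rw [discG, Nat.card_congr (AddSubgroup.addSubgroupOfEquivOfLe
    (by rintro _ ⟨v, -, rfl⟩; exact ⟨v, rfl⟩)).toEquiv,
    natCard_map_tauM hn (isSat_discInf hn hlp) j, finrank_discInf]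

theorem isAdm_tauG {Ap : ValuationSubring Qb} (hAp : Ap.LiesOverPrime p) (j : ℕ) :
    IsAdm (tauG hn j) l p (placeAt l) Ap (discG hn hlp j) where
  cts b := by
    haveI : NeZero (l ^ j) := ⟨pow_ne_zero _ hl.out.ne_zero⟩
    obtain ⟨E, hE, hEact⟩ := exists_field_galMod p (∅ : Set ℕ) (l ^ j)
    refine ⟨E, hE, fun σ hσ => Subtype.ext ?_⟩
    obtain ⟨q, hq⟩ := exists_toTors_of_nsmul (congrArg Subtype.val (pow_nsmul_tauG hn j b))
    rw [coe_tauG_smul, ← hq, ← toTors_galMod, hEact σ hσ, Module.End.one_apply]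
  unram q hq hql hqp A hA σ hσ b := Subtype.ext ((goodRed_all p).inertia q hq
    (fun h => hqp ((Nat.prime_dvd_prime_iff_eq hq Fact.out).1 h)) A hA σ hσ (l ^ j)
    (fun h => hql ((Nat.prime_dvd_prime_iff_eq hq hl.out).1 (hq.dvd_of_dvd_pow h))) _
    (congrArg Subtype.val (pow_nsmul_tauG hn j b)))
  quot σ hσ b := by
    obtain ⟨_, v, rfl⟩ := b
    refine AddSubgroup.mem_addSubgroupOf.2 ⟨_, rhoM_sub_mem_discInf hn hlp hσ v, ?_⟩
    rw [map_sub, tauM_rhoM]
    rfl
  mult σ hσ b hb f := by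
    obtain ⟨x, hx, hxb⟩ := AddSubgroup.mem_addSubgroupOf.1 hb
    have hσb : σ • b = resNat l j (cycP l σ : ℤ_[l]) • b := Subtype.ext (by
      rw [coe_tauG_smul, AddSubgroupClass.coe_nsmul, ← hxb, ← tauM_rhoM, ← tauM_padic_smul,
        rhoM_discInf hn hlp hσ ⟨x, hx⟩])
    obtain ⟨i, hi⟩ := exists_rootSys_pow (j := j) (u := (f b).toMul)
      (by rw [← toMul_nsmul, ← map_nsmul, pow_nsmul_tauG, map_zero, toMul_zero])
    rw [hσb, map_nsmul, toMul_nsmul, Units.val_pow_eq_pow_val, hi, map_pow, cycP_spec, ← pow_mul,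
      ← pow_mul, mul_comm]
  unip σ hσ b := Subtype.ext (by
    have hlp' : l ≠ p := fun h => hlp (h ▸ dvd_rfl)
    have h := semistableTors_level p Ap hAp σ hσ (l ^ j) (fun h => hlp'.symm
      ((Nat.prime_dvd_prime_iff_eq Fact.out hl.out).1 ((Fact.out : p.Prime).dvd_of_dvd_pow h)))
      _ (congrArg Subtype.val (pow_nsmul_tauG hn j b))
    simp only [AddSubgroupClass.coe_sub, coe_tauG_smul, smul_sub]
    rw [two_smul] at h
    linear_combination (norm := abel) h)
  eis σ := by
    set c : ℤ_[l] := (cycP l σ : ℤ_[l])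
    set w := resNat l (j + 1) c
    set r := tR p l hn σ - (1 + (chiR p l hn σ : EisR p l hn))
    obtain ⟨K, r₁, hK⟩ := exists_pow_eq_mul p l hn (x := r) (by
      rw [map_sub, psiR_tR, map_add, map_one, chiBar, sub_self])
    refine ⟨w, K * j, fun ζ hζ => ?_, ?_⟩
    · obtain ⟨i, -, rfl⟩ := (rootSys_primitive (l := l) (j + 1)).eq_pow_of_pow_eq_one
        (ξ := ζ) (by rw [pow_succ', pow_mul, hζ, one_pow])
      rw [map_pow, cycP_spec, ← pow_mul, ← pow_mul, mul_comm]
    · set e : EisM p l hn →ₗ[EisR p l hn] EisM p l hn := r • rhoM p l hn σ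
      have hstep : ∀ v : EisM p l hn,
          (opD σ 1 * opD σ w : AddMonoid.End (tauG hn j)) ⟨tauM p l hn j v, v, rfl⟩ =
            ⟨tauM p l hn j (e v), e v, rfl⟩ := by
        intro v
        refine Subtype.ext ?_
        show ((opD σ 1 (opD σ w _) : tauG hn j) : JZero p) = _
        rw [opD_apply, opD_apply]
        simp only [one_smul, AddSubgroupClass.coe_sub, coe_tauG_smul, AddSubgroupClass.coe_nsmul]
        have hw : ∀ y, w • tauM p l hn j y = tauM p l hn j (c • y) := fun y => by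
          obtain ⟨b, hb⟩ := exists_natCast_add (j + 1) c
          conv_rhs => rw [hb, add_smul, map_add, Nat.cast_smul_eq_nsmul, map_nsmul]
          rw [(tauM_eq_zero_iff p l hn (v := ((l : ℤ_[l]) ^ (j + 1) * b) • y)).2
            ⟨(l : ℤ_[l]) • (b • y), by
              rw [pow_succ, mul_smul, mul_smul]⟩, add_zero]
        rw [smul_sub, smul_comm σ w, ← tauM_rhoM, ← tauM_rhoM]
        simp only [hw, ← map_sub, e, LinearMap.smul_apply]
        refine congrArg _ ?_
        have h := LinearMap.congr_fun (relOp_eq p l hn σ) (rhoM p l hn σ v)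
        simp only [LinearMap.add_apply, LinearMap.smul_apply, Module.End.one_apply, chiR_val,
          algebraMap_smul] at h
        rw [← Module.End.mul_apply (rhoM p l hn σ⁻¹), ← map_mul, inv_mul_cancel, map_one,
          Module.End.one_apply] at h
        simp only [r, sub_smul, add_smul, one_smul, ← h, chiR_val, algebraMap_smul, map_sub,
          LinearMap.map_smul_of_tower, c]
        abel
      have hpow : ∀ (N : ℕ) (v : EisM p l hn),
          ((opD σ 1 * opD σ w) ^ N : AddMonoid.End (tauG hn j)) ⟨tauM p l hn j v, v, rfl⟩ =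
            ⟨tauM p l hn j ((e ^ N) v), (e ^ N) v, rfl⟩ := by
        intro N
        induction N with
        | zero => exact fun v => rfl
        | succ N ih =>
          intro v
          rw [pow_succ]
          show ((opD σ 1 * opD σ w) ^ N : AddMonoid.End (tauG hn j))
            ((opD σ 1 * opD σ w : AddMonoid.End (tauG hn j)) _) = _
          rw [hstep, ih]
          exact Subtype.ext (congrArg _ (by rw [pow_succ, Module.End.mul_apply]))
      refine DFunLike.ext _ _ fun b => ?_
      obtain ⟨_, v, rfl⟩ := b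
      rw [hpow]
      refine Subtype.ext ((tauM_eq_zero_iff p l hn).2 ⟨(r₁ ^ j) • ((rhoM p l hn σ ^ (K * j)) v), ?_⟩)
      rw [smul_pow, pow_mul r, hK, mul_pow, LinearMap.smul_apply, mul_smul,
        ← map_natCast (algebraMap ℤ_[l] (EisR p l hn)), ← map_pow, algebraMap_smul]
  lpow := ⟨j, pow_nsmul_tauG hn j⟩

/-- A near eigenvector gives a unit eigenvector. -/
theorem exists_unit_of_near {ts : Finset Qb} {U : Cl l} (hts : U ∈ fixSub ts) (hlt : ‖U - 1‖ < 1)
    (ζ : GQ → Qb) (hζ : ∀ σ (hσ : σ ∈ inGp l), galExt (inGp_le l hσ) U = emb l (ζ σ) * U) :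
    ∃ β : Qb, (placeAt l).valuation β = 1 ∧ ∀ σ ∈ inGp l, σ β = ζ σ * β := by
  have hU0 : U ≠ 0 := fun h => by simp [h] at hlt
  obtain ⟨β, hβ, hβσ⟩ := exists_twisted_near hts hU0 ζ hζ one_pos
  have hβ1 : ‖emb l β‖ = 1 := norm_eq_one_of_sub (norm_eq_one_of_sub norm_one hlt)
    (by rwa [norm_sub_rev])
  refine ⟨β, le_antisymm ?_ ?_, hβσ⟩
  · rw [← map_one (placeAt l).valuation, valuation_le_iff, hβ1, map_one, norm_one]
  · rw [← map_one (placeAt l).valuation, valuation_le_iff, hβ1, map_one, norm_one]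

/-- **Homomorphisms to the units are, up to a bounded power, values of twists on the disc part.** -/
theorem exists_twist_hom : ∃ d : ℕ, ∀ (j : ℕ) (f : tauG hn j →+ Additive Qbˣ),
    ∃ L : twistSub p l hn, ∀ x : discInf hn hlp,
      emb l ((f ⟨tauM p l hn j (x : EisM p l hn), (x : EisM p l hn), rfl⟩).toMul : Qb) ^ l ^ d =
        discVal hn hlp L x j := by
  classical
  obtain ⟨d, vv, hval, hcoord⟩ := exists_coordinate_bound hn hlp
  refine ⟨d, fun j f => ?_⟩
  haveI : Module.IsTorsionFree ℤ_[l] (discInf hn hlp) :=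
    (discInf hn hlp).subtype_injective.moduleIsTorsionFree _ fun _ _ => rfl
  haveI : Module.Finite ℤ_[l] (discInf hn hlp) := Module.Finite.of_fg (IsNoetherian.noetherian _)
  haveI : Module.Free ℤ_[l] (discInf hn hlp) := Module.free_of_finite_type_torsion_free'
  set bb := Module.Free.chooseBasis ℤ_[l] (discInf hn hlp)
  -- the values of `f` on the disc part
  let g : discInf hn hlp →+ Additive Qbˣ := f.comp (AddMonoidHom.mk'
    (fun x => (⟨tauM p l hn j (x : EisM p l hn), (x : EisM p l hn), rfl⟩ : tauG hn j))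
    fun x y => Subtype.ext (map_add _ _ _))
  have hg : ∀ (c : ℤ_[l]) (x : discInf hn hlp), g (c • x) = resNat l j c • g x := fun c x => by
    show f _ = _ • f _
    rw [← map_nsmul]
    exact congrArg f (Subtype.ext (tauM_padic_smul hn j c (x : EisM p l hn)))
  have hgi : ∀ i, ∃ a : ℕ, ((g (bb i)).toMul : Qb) = rootSys l j ^ a := fun i =>
    exists_rootSys_pow (j := j) (by
      rw [← toMul_nsmul]
      show (l ^ j • f _).toMul = 1
      rw [← map_nsmul, pow_nsmul_tauG, map_zero, toMul_zero])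
  choose a ha using hgi
  let ψ : discInf hn hlp →ₗ[ℤ_[l]] ℤ_[l] := bb.constr ℤ_[l] fun i => (a i : ℤ_[l])
  have hψ : ∀ x, ((g x).toMul : Qb) = rootSys l j ^ resNat l j (ψ x) := fun x => by
    conv_lhs => rw [← bb.sum_repr x, map_sum]
    rw [toMul_sum, Units.coe_prod]
    simp only [hg, toMul_nsmul, Units.val_pow_eq_pow_val, ha, ← pow_mul]
    rw [Finset.prod_pow_eq_pow_sum]
    refine pow_eq_pow_of_cast_eq (rootSys_primitive j) ?_
    rw [Nat.cast_sum, cast_resNat]
    conv_rhs => rw [show ψ x = ∑ i, bb.repr x i * (a i : ℤ_[l]) from by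
      rw [Module.Basis.constr_apply_fintype]; simp [Module.Basis.equivFun_apply], map_sum]
    exact Finset.sum_congr rfl fun i _ => by
      rw [Nat.cast_mul, cast_resNat, map_mul, map_natCast, mul_comm]
  set L' : twistSub p l hn := ∑ i, ψ (vv i) • twistFam hn hlp i
  have hL' : ∀ x, discPhi hn hlp L' x = (l : ℤ_[l]) ^ d * ψ x := fun x => by
    rw [← smul_eq_mul, ← map_smul, hcoord x, map_sum, LinearMap.sum_apply, map_sum]
    exact Finset.sum_congr rfl fun i _ => by
      rw [discPhi_padic_smul, LinearMap.smul_apply, map_smul, smul_eq_mul, smul_eq_mul, mul_comm]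
  refine ⟨L', fun x => ?_⟩
  rw [discVal_discPhi, hL', ← map_pow, ← map_pow]
  refine congrArg _ ?_
  show ((g x).toMul : Qb) ^ l ^ d = _
  rw [hψ, ← pow_mul]
  refine pow_eq_pow_of_cast_eq (rootSys_primitive j) ?_
  rw [Nat.cast_mul, cast_resNat, cast_resNat, map_mul, map_pow, map_natCast, Nat.cast_pow,
    mul_comm]

/-- **Multiples of classes satisfy the unit condition at `l`.** -/
theorem exists_unit_condition : ∃ d : ℕ, ∀ (j : ℕ) (h : tauG hn j),
    IsUnitClass (placeAt l) (discG hn hlp j) fun σ : GQ => σ • (l ^ d • h) - l ^ d • h := by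
  classical
  obtain ⟨d, hd⟩ := exists_twist_hom hn hlp
  refine ⟨d, fun j h => ⟨fun σ hσ => ?_, fun f => ?_⟩⟩
  · obtain ⟨_, v, rfl⟩ := h
    have hm : σ • (⟨tauM p l hn j v, v, rfl⟩ : tauG hn j) - ⟨tauM p l hn j v, v, rfl⟩ ∈
        discG hn hlp j :=
      AddSubgroup.mem_addSubgroupOf.2 ⟨_, rhoM_sub_mem_discInf hn hlp hσ v, by
        rw [map_sub, tauM_rhoM]; rfl⟩
    show σ • (l ^ d • _) - l ^ d • _ ∈ _
    rw [smul_comm σ, ← nsmul_sub]
    exact AddSubgroup.nsmul_mem _ hm _
  · obtain ⟨_, v, rfl⟩ := h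
    obtain ⟨L', hL'⟩ := hd j f
    -- the class in the disc
    obtain ⟨w, hw, hwr⟩ := exists_fixed_lift_class p hlp (placeAt_liesOver l) (tauM p l hn j v)
    have hz : tauM p l hn j v - w ∈ discJ (l := l) hlp :=
      (mem_discClasses_iff l p hlp _).2 (by rw [map_sub, hwr, sub_self])
    set U : Cl l := ((discExp hn hlp L' ⟨_, hz⟩).toMul : Cl l)
    obtain ⟨ts, hts, hlt⟩ := exists_discExp_mem hn hlp L' hz
    set t : tauG hn j := ⟨tauM p l hn j v, v, rfl⟩
    refine exists_unit_of_near hlp hts hlt _ fun σ hσ => ?_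
    set x : discInf hn hlp := ⟨_, rhoM_sub_mem_discInf hn hlp hσ v⟩
    have h1 := congrArg (fun z : Additive (Cl l)ˣ => (z.toMul : Cl l))
      (discExp_inertia hn hlp L' hσ hz)
    have hx : (⟨σ • (tauM p l hn j v - w), smul_mem_discClasses l p hlp (inGp_le l hσ) hz⟩ :
        discJ (p := p) (l := l) hlp) = ⟨_, x.2 j⟩ + ⟨_, hz⟩ := Subtype.ext (by
      show σ • (tauM p l hn j v - w) = tauM p l hn j (rhoM p l hn σ v - v) + (tauM p l hn j v - w)
      rw [smul_sub, hw σ hσ, map_sub, tauM_rhoM]; abel)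
    rw [hx, map_add, toMul_add, Units.val_mul] at h1
    refine h1.symm.trans (congrArg (· * U) ?_)
    show discVal hn hlp L' x j = _
    beta_reduce
    rw [← hL', ← map_pow, ← Units.val_pow_eq_pow_val, ← toMul_nsmul, ← map_nsmul, smul_comm σ,
      ← nsmul_sub]
    refine congrArg _ (congrArg (fun z => ((f (l ^ d • z)).toMul : Qb)) (Subtype.ext ?_))
    show tauM p l hn j (rhoM p l hn σ v - v) = σ • tauM p l hn j v - tauM p l hn j v
    rw [map_sub, tauM_rhoM]

/-- **The count.** -/
theorem exists_count_bound {Ap : ValuationSubring Qb} (hAp : Ap.LiesOverPrime p) :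
    Module.finrank ℤ_[l] (kerP hn hlp hAp) = Module.finrank ℤ_[l] (EisR p l hn) ∧
      ∃ μ : ℕ, μ ≠ 0 ∧ ∀ j, ∀ x ∈ selPairs l p (placeAt l) Ap (discG hn hlp j),
        ∃ h : tauG hn j, ∀ σ : GQ, μ • x.1 σ = σ • h - h := by
  classical
  obtain ⟨d, hd⟩ := exists_unit_condition hn hlp
  -- rational classes
  obtain ⟨q, hq, hqp⟩ := Nat.exists_infinite_primes (max p l + 1)
  haveI : Fact q.Prime := ⟨hqp⟩
  have hqp' : ¬ q ∣ p := fun h => by
    have := (Nat.prime_dvd_prime_iff_eq hqp Fact.out).1 h; omega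
  have hql : ¬ q ∣ l := fun h => by
    have := (Nat.prime_dvd_prime_iff_eq hqp hl.out).1 h; omega
  obtain ⟨Aq, hAq⟩ := FA.Deform.exists_liesOverPrime hqp
  obtain ⟨σq, hσq⟩ := FA.Deform.exists_isFrobeniusAt hqp hAq
  have hfinS := finite_reduction_frobFixed p hqp' hAq hσq
  set S := reductionModL Aq p '' {x : JZero p | σq • x = x}
  set r := Module.finrank ℤ_[l] (EisR p l hn)
  set r' := Module.finrank ℤ_[l] (kerP hn hlp hAp)
  have hlne : l ≠ p := fun h => hlp (h ▸ dvd_rfl)
  set Cst := l ^ (d * (2 * r)) * (S.ncard + 1)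
  have key : ∀ j, ∃ m : ℕ, 0 < m ∧ m * l ^ (j * r') ≤ Cst * l ^ (j * r) ∧
      ∀ x ∈ selPairs l p (placeAt l) Ap (discG hn hlp j),
        ∃ h : tauG hn j, ∀ σ : GQ, m • x.1 σ = σ • h - h := by
    intro j
    set C : AddSubgroup (tauG hn j) := (nsmulAddMonoidHom (α := tauG hn j) (l ^ d)).range
    set F : AddSubgroup (tauG hn j) :=
      ((kerP hn hlp hAp).toAddSubgroup.map (tauM p l hn j)).addSubgroupOf (tauG hn j)
    let H₀ : AddSubgroup (tauG hn j) :=
      { carrier := {b | ∀ σ : GQ, σ • b = b}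
        zero_mem' := fun σ => smul_zero σ
        add_mem' := fun ha hb σ => by rw [smul_add, ha σ, hb σ]
        neg_mem' := fun ha σ => by rw [smul_neg, ha σ] }
    obtain ⟨m, hm0, hm, hmx⟩ := exists_coboundary_multiple (Fact.out : p.Prime) hlne
      (placeAt_liesOver l) hAp (isAdm_tauG hn hlp hAp j) C F
      (fun b ⟨h, hb⟩ => hb ▸ hd j h)
      (fun σ hσ a ha => by
        obtain ⟨v, hv, hva⟩ := AddSubgroup.mem_addSubgroupOf.1 ha
        refine Subtype.ext ?_
        rw [coe_tauG_smul, ← hva]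
        exact smul_eq_of_kerP hn hlp hAp hv j hσ)
      H₀ (fun b _ _ h => h)
    refine ⟨m, hm0, ?_, hmx⟩
    have hH : Nat.card H₀ ≤ S.ncard + 1 := by
      haveI : Finite S := hfinS.to_subtype
      refine le_trans (Nat.card_le_card_of_injective (fun b : H₀ => (⟨_, ((b : tauG hn j) : JZero p),
        congrArg Subtype.val (b.2 σq), rfl⟩ : S)) fun a b h => ?_) (by
          rw [Nat.card_coe_set_eq]; omega)
      have h1 : reductionModL Aq p (((a : tauG hn j) : JZero p) - ((b : tauG hn j) : JZero p)) = 0 := by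
        rw [map_sub, sub_eq_zero]; exact congrArg Subtype.val h
      have h2 := eq_zero_of_reductionModL p hqp' hAq
        (FA.CurveRed.Modular.reductionInputsModL p hqp hqp' Aq hAq) (m := l ^ j)
        (fun h => hql (hqp.dvd_of_dvd_pow h)) (by
          rw [nsmul_sub, sub_eq_zero]
          exact (congrArg Subtype.val (pow_nsmul_tauG hn j (a : tauG hn j))).trans
            (congrArg Subtype.val (pow_nsmul_tauG hn j (b : tauG hn j))).symm) h1
      exact Subtype.ext (Subtype.ext (sub_eq_zero.1 h2))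
    have hCk : Nat.card (tauG hn j) ≤ Nat.card C * l ^ (d * (2 * r)) := by
      set φ := nsmulAddMonoidHom (α := tauG hn j) (l ^ d)
      rw [AddSubgroup.card_eq_card_quotient_mul_card_addSubgroup φ.ker,
        Nat.card_congr (QuotientAddGroup.quotientKerEquivRange φ).toEquiv]
      refine Nat.mul_le_mul_left _ ?_
      rcases le_or_gt d j with hdj | hdj
      · rw [← natCard_tauG hn d]
        refine Nat.card_le_card_of_injective (fun b : φ.ker =>
          (⟨((b : tauG hn j) : JZero p), ?_⟩ : tauG hn d)) fun a b h =>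
            Subtype.ext (Subtype.ext (congrArg Subtype.val h :))
        obtain ⟨⟨_, v, rfl⟩, hb⟩ := b
        have hb' := congrArg Subtype.val (AddMonoidHom.mem_ker.1 hb)
        rw [nsmulAddMonoidHom_apply, AddSubgroupClass.coe_nsmul, ← map_nsmul] at hb'
        obtain ⟨u, hu⟩ := (tauM_eq_zero_iff p l hn).1 hb'
        refine ⟨u, ?_⟩
        have hv : v = (l : ℤ_[l]) ^ (j - d) • u := by
          refine smul_right_injective (EisM p l hn)
            (pow_ne_zero d (Nat.cast_ne_zero.2 hl.out.ne_zero : (l : ℤ_[l]) ≠ 0)) ?_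
          show (l : ℤ_[l]) ^ d • v = (l : ℤ_[l]) ^ d • _
          rw [smul_smul, ← pow_add, Nat.add_sub_cancel' hdj, ← hu, ← Nat.cast_pow,
            Nat.cast_smul_eq_nsmul]
        show tauM p l hn d u = tauM p l hn j v
        rw [hv, ← Nat.cast_pow, Nat.cast_smul_eq_nsmul, map_nsmul]
        obtain ⟨e, rfl⟩ := Nat.exists_eq_add_of_le hdj
        rw [Nat.add_sub_cancel_left, tauM_add_pow]
      · refine le_trans (Nat.card_le_card_of_injective _ φ.ker.subtype_injective) ?_
        rw [natCard_tauG]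
        exact Nat.pow_le_pow_right hl.out.pos (Nat.mul_le_mul_right _ hdj.le)
    have hFc : Nat.card F = l ^ (j * r') := by
      rw [Nat.card_congr (AddSubgroup.addSubgroupOfEquivOfLe
        (by rintro _ ⟨v, -, rfl⟩; exact ⟨v, rfl⟩)).toEquiv,
        natCard_map_tauM hn (isSat_kerP hn hlp hAp) j]
    rw [natCard_discG, hFc] at hm
    refine Nat.le_of_mul_le_mul_right ?_ (Nat.card_pos (α := tauG hn j))
    calc m * l ^ (j * r') * Nat.card (tauG hn j)
        ≤ m * l ^ (j * r') * (Nat.card C * l ^ (d * (2 * r))) := Nat.mul_le_mul_left _ hCk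
      _ = m * (Nat.card C * l ^ (j * r')) * l ^ (d * (2 * r)) := by ring
      _ ≤ l ^ (j * r) * Nat.card (tauG hn j) * Nat.card H₀ * l ^ (d * (2 * r)) :=
          Nat.mul_le_mul_right _ hm
      _ ≤ l ^ (j * r) * Nat.card (tauG hn j) * (S.ncard + 1) * l ^ (d * (2 * r)) := by gcongr
      _ = _ := by simp only [Cst]; ring
  have hr : r ≤ r' := finrank_eisR_le_kerP hn hlp hAp
  have hr' : r' ≤ r := by
    by_contra hlt
    obtain ⟨m, hm0, hm, -⟩ := key Cst
    have h1 : l ^ (Cst * r) * l ^ Cst ≤ l ^ (Cst * r') := by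
      rw [← pow_add]
      exact Nat.pow_le_pow_right hl.out.pos
        ((le_of_eq (Nat.mul_succ Cst r).symm).trans (Nat.mul_le_mul_left Cst (not_le.1 hlt)))
    have h2 : l ^ (Cst * r) * l ^ Cst ≤ l ^ (Cst * r) * Cst :=
      h1.trans ((Nat.le_mul_of_pos_left _ hm0).trans (hm.trans (le_of_eq (mul_comm _ _))))
    exact absurd (Nat.le_of_mul_le_mul_left h2 (pow_pos hl.out.pos _))
      (not_le.2 (Nat.lt_pow_self hl.out.one_lt))
  refine ⟨le_antisymm hr' hr, Cst.factorial, Nat.factorial_ne_zero _, fun j x hx => ?_⟩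
  obtain ⟨m, hm0, hm, hmx⟩ := key j
  have hmC : m ≤ Cst := Nat.le_of_mul_le_mul_right (hm.trans (le_of_eq (by
    rw [show r' = r from le_antisymm hr' hr]))) (pow_pos hl.out.pos _)
  obtain ⟨e, he⟩ := Nat.dvd_factorial hm0 hmC
  obtain ⟨h, hh⟩ := hmx x hx
  exact ⟨e • h, fun σ => by rw [he, mul_comm, mul_nsmul', hh, nsmul_sub, smul_comm σ e]⟩

end FA.Mazur

end
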