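import Fermat.Agent.Mazur.Residue
import Fermat.Agent.Mazur.HeckeCoeff
import Fermat.Agent.Level.Theta
import Fermat.Agent.Level.Gamma0
import Fermat.Agent.JTorsion.Roots

/-!
# Functions with poles only at the cusp `∞` pair to zero with integral cusp forms

A function of level `p` regular outside the cusp `∞` is a holomorphic invariant function bounded
at the other cusp, so the constant term of its product with a weight two form vanishes.
-/

set_option autoImplicit false
set_option linter.style.haveILetI false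
set_option linter.unusedSectionVars false
set_option synthInstance.maxHeartbeats 200000
set_option maxHeartbeats 1600000

noncomputable section

namespace FA.Mazur

open UpperHalfPlane hiding I
open Complex Filter Set CongruenceSubgroup ModularCurve AlgebraicCurve FA.ModField FA.Level
open FA.JTorsion (exists_factor_at order_tay_eq)
open scoped MatrixGroups Topology Manifold ModularForm

/-- Division of holomorphic functions. -/
theorem exists_hol_div {a b : ℍ → ℂ} (ha : MDiff a) (hb : MDiff b) (ha0 : a ≠ 0) (hb0 : b ≠ 0)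
    (hord : ∀ τ : ℍ, analyticOrderNatAt (b ∘ ofComplex) (τ : ℂ) ≤
      analyticOrderNatAt (a ∘ ofComplex) (τ : ℂ)) :
    ∃ R : ℍ → ℂ, MDiff R ∧ a = R * b := by
  classical
  set U : Set ℂ := {z | 0 < z.im}
  have hU : IsOpen U := isOpen_upperHalfPlaneSet
  have hda : DifferentiableOn ℂ (a ∘ ofComplex) U := UpperHalfPlane.mdifferentiable_iff.1 ha
  have hdb : DifferentiableOn ℂ (b ∘ ofComplex) U := UpperHalfPlane.mdifferentiable_iff.1 hb
  have hfin : ∀ {f : ℍ → ℂ}, MDiff f → f ≠ 0 → ∀ w ∈ U,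
      analyticOrderAt (f ∘ ofComplex) w ≠ ⊤ := by
    intro f hf hf0 w hw htop
    refine hf0 (funext fun z => ?_)
    have hA : AnalyticOnNhd ℂ (f ∘ ofComplex) U :=
      (UpperHalfPlane.mdifferentiable_iff.1 hf).analyticOnNhd hU
    have h := hA.eqOn_zero_of_preconnected_of_eventuallyEq_zero
      ((convex_halfSpace_im_gt 0).isPreconnected) hw (analyticOrderAt_eq_top.1 htop) z.im_pos
    simpa using h
  choose A' hA'd hA'0 hA'eq using fun w : U =>
    exists_factor_at hU hda w.2 (hfin ha ha0 w w.2)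
  choose B' hB'd hB'0 hB'eq using fun w : U =>
    exists_factor_at hU hdb w.2 (hfin hb hb0 w w.2)
  let m : U → ℕ := fun w => analyticOrderNatAt (a ∘ ofComplex) (w : ℂ)
  let k : U → ℕ := fun w => analyticOrderNatAt (b ∘ ofComplex) (w : ℂ)
  have hle : ∀ w : U, k w ≤ m w := fun w => hord ⟨(w : ℂ), w.2⟩
  let loc : U → ℂ → ℂ := fun w x => (x - w) ^ (m w - k w) * A' w x / B' w x
  let r : ℂ → ℂ := fun x => if h : x ∈ U then loc ⟨x, h⟩ x else 0
  have hmul : ∀ (w : U) (x : ℂ), B' w x ≠ 0 →
      (a ∘ ofComplex) x = loc w x * (b ∘ ofComplex) x := fun w x hx => by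
    rw [hA'eq w x, hB'eq w x]
    show (x - w) ^ m w * A' w x = (x - w) ^ (m w - k w) * A' w x / B' w x * ((x - w) ^ k w * B' w x)
    rw [show (x - (w : ℂ)) ^ m w = (x - w) ^ (m w - k w) * (x - w) ^ k w by
      rw [← pow_add, Nat.sub_add_cancel (hle w)]]
    field_simp
  have heq : ∀ w : U, ∀ᶠ x in 𝓝 (w : ℂ), r x = loc w x := fun w => by
    have h1 : ∀ᶠ x in 𝓝 (w : ℂ), B' w x ≠ 0 :=
      ((hB'd w).differentiableAt (hU.mem_nhds w.2)).continuousAt.eventually_ne (hB'0 w)
    filter_upwards [h1, hU.mem_nhds w.2] with x hx hxU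
    simp only [r, dif_pos hxU]
    rcases eq_or_ne x (w : ℂ) with rfl | hne
    · rfl
    · have hbx : (b ∘ ofComplex) x ≠ 0 := by
        rw [hB'eq w x]
        exact mul_ne_zero (pow_ne_zero _ (sub_ne_zero.2 hne)) hx
      exact mul_right_cancel₀ hbx ((hmul ⟨x, hxU⟩ x (hB'0 ⟨x, hxU⟩)).symm.trans (hmul w x hx))
  refine ⟨fun z => r z, ?_, ?_⟩
  · rw [UpperHalfPlane.mdifferentiable_iff]
    intro w hw
    refine DifferentiableAt.differentiableWithinAt ?_
    have hd : DifferentiableAt ℂ (loc ⟨w, hw⟩) w :=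
      ((((differentiableAt_id.sub_const _).pow _).mul
        ((hA'd ⟨w, hw⟩).differentiableAt (hU.mem_nhds hw)))).div
        ((hB'd ⟨w, hw⟩).differentiableAt (hU.mem_nhds hw)) (hB'0 ⟨w, hw⟩)
    refine hd.congr_of_eventuallyEq ?_
    filter_upwards [heq ⟨w, hw⟩, hU.mem_nhds hw] with x hx hxU
    rw [Function.comp_apply, ofComplex_apply_of_im_pos hxU]
    exact hx
  · funext z
    have h := hmul ⟨(z : ℂ), z.im_pos⟩ z (hB'0 _)
    simp only [Function.comp_apply, ofComplex_apply] at h
    rw [Pi.mul_apply, h]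
    simp only [r, dif_pos (show (z : ℂ) ∈ U from z.im_pos)]

/-- A ratio of expansions of nonnegative order is bounded at infinity. -/
theorem isBoundedAtImInfty_of_ratio {F G R : ℍ → ℂ} {A B : LaurentSeries ℂ}
    (hF : HasExp (qp 1) F A) (hG : HasExp (qp 1) G B) (hB : B ≠ 0) (hA : OrdGE B.order A)
    (he : F = R * G) : IsBoundedAtImInfty R := by
  set n := B.order
  set T : LaurentSeries ℂ := HahnSeries.single (-n) 1
  have hF' := hF.mul (qp_ne_zero 1) (hasExp_single (-n) (1 : ℂ))
  have hG' := hG.mul (qp_ne_zero 1) (hasExp_single (-n) (1 : ℂ))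
  have hcoef : ∀ (S : LaurentSeries ℂ) (i : ℤ), (S * T).coeff i = S.coeff (i + n) := fun S i => by
    have h := HahnSeries.coeff_mul_single_add (r := (1 : ℂ)) (x := S) (a := i + n) (b := -n)
    rw [mul_one, show i + n + -n = i by ring] at h
    exact h
  have h0F : OrdGE 0 (A * T) := fun i hi => by rw [hcoef]; exact hA _ (by omega)
  have h0G : OrdGE 0 (B * T) := fun i hi => by
    rw [hcoef]; exact HahnSeries.coeff_eq_zero_of_lt_order (show i + n < n by omega)
  have hlF := tendsto_of_hasExp hF' h0F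
  have hlG := tendsto_of_hasExp hG' h0G
  have hne : (B * T).coeff 0 ≠ 0 := by
    rw [hcoef, zero_add]
    exact fun h => hB (HahnSeries.coeff_order_eq_zero.1 h)
  have hev := hlG.eventually_ne hne
  have hdiv := hlF.div hlG hne
  refine Asymptotics.IsBigO.trans (Filter.EventuallyEq.isBigO ?_) (hdiv.isBigO_one ℝ)
  filter_upwards [hev] with z hz
  simp only [Pi.mul_apply, Pi.div_apply] at hz ⊢
  rw [eq_div_iff hz, he, Pi.mul_apply]
  ring

theorem isBoundedAtImInfty_of_scale {R : ℍ → ℂ} (M : ℕ) [NeZero M]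
    (h : IsBoundedAtImInfty fun z => R (scaleH M z)) : IsBoundedAtImInfty R := by
  rw [UpperHalfPlane.isBoundedAtImInfty_iff] at h ⊢
  obtain ⟨B, A, hB⟩ := h
  have hM : (0 : ℝ) < M := Nat.cast_pos.2 (Nat.pos_of_ne_zero (NeZero.ne M))
  refine ⟨B, M * A, fun z hz => ?_⟩
  have him : 0 < ((z : ℂ) / (M : ℂ)).im := by
    rw [Complex.div_natCast_im]
    exact div_pos z.im_pos hM
  have e : scaleH M ⟨(z : ℂ) / M, him⟩ = z := by
    apply UpperHalfPlane.ext
    rw [coe_scaleH]
    show (M : ℂ) * ((z : ℂ) / M) = z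
    field_simp [Nat.cast_ne_zero.2 (NeZero.ne M)]
  have := hB ⟨(z : ℂ) / M, him⟩ (by
    show A ≤ ((z : ℂ) / M).im
    rw [Complex.div_natCast_im, le_div_iff₀ hM, mul_comm]
    exact hz)
  simpa only [e] using this

theorem qp_scaleH (M : ℕ) [NeZero M] (z : ℍ) : qp M (scaleH M z) = qp 1 z := by
  rw [qp_eq, qp_eq, coe_scaleH]
  congr 1
  field_simp [Nat.cast_ne_zero.2 (NeZero.ne M)]
  push_cast
  ring

variable (p : ℕ) [hp : Fact p.Prime] {L : Type} [Field L] [Algebra ℚ L] [Algebra L ℂ] [IsAlgClosed L]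

/-- The condition: regular outside the cusp at infinity. -/
def IsInftyPole (f : (lvlGamma0 p).fld L) : Prop :=
  ∀ v : Place L ((lvlGamma0 p).fld L),
    (v.ord ((lvlGamma0 p).jF L) ≠ -1 ∨ v.ord ((lvlGamma0 p).sepF L) ≠ -(p : ℤ)) →
      FA.Curve.AtLeast v 0 f

variable {p}

theorem order_le_of_embedding {V : Lvl} {f : V.fld L} {a b : V.alg L}
    (hab : f * V.toFld L b = V.toFld L a) (hb : b ≠ 0) (ha : a ≠ 0) (P : LPar V) (γ : SL(2, ℤ))
    (h : ∀ (v : Place L (V.fld L)) (k : ℤ), 0 < k →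
      (∀ g, (emb (L := L) P γ g).order = k * v.ord g) → FA.Curve.AtLeast v 0 f) :
    (expAt P γ b).order ≤ (expAt P γ a).order := by
  have hf : f ≠ 0 := fun h0 => by
    subst h0
    rw [zero_mul] at hab
    exact ha ((V.toFld_injective L) (hab.symm.trans (map_zero _).symm))
  have heq := congrArg (fun g => (emb P γ g).order) hab
  simp only [map_mul, emb_toFld] at heq
  rw [HahnSeries.order_mul ((_root_.map_ne_zero _).2 hf) (expAt_ne_zero P γ hb)] at heq
  have h0 : 0 ≤ (emb P γ f).order := by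
    rcases exists_place_of_embedding (emb (L := L) P γ) with hall | ⟨v, k, hk, hv⟩
    · rw [hall]
    · rw [hv]
      exact mul_nonneg hk.le (((h v k hk hv).resolve_left hf))
  omega

theorem order_expAt_sep_other {γ : SL(2, ℤ)} (hγ : γ ∉ Gamma0 p) :
    (emb (L := L) (cuspPar (lvlGamma0 p)) γ ((lvlGamma0 p).jF L)).order = -(p : ℤ) ∧
      (emb (L := L) (cuspPar (lvlGamma0 p)) γ ((lvlGamma0 p).sepF L)).order = -1 := by
  have hnd : ¬ (p : ℤ) ∣ γ 1 0 := fun h => hγ (by
    rw [Gamma0_mem, ZMod.intCast_zmod_eq_zero_iff_dvd]; exact h)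
  constructor
  · obtain ⟨a, k, _, c, hk, had, -, hexp⟩ := exists_coset_exp p 1 (one_dvd p) γ
    rw [Lvl.jF, emb_toFld, FA.Level.expAt_eq (hexp.congr (funext fun z => by
      rw [Lvl.funHom_jA]; congr 1; apply UpperHalfPlane.ext; rw [coe_scaleH, Nat.cast_one, one_mul]; rfl)),
      order_qExpand_twist_jq]
    rw [Nat.dvd_one] at had
    rw [hk, had, one_mul, one_mul, Nat.div_one]
  · obtain ⟨a, k, _, c, hk, had, hac, hexp⟩ := exists_coset_exp p p dvd_rfl γ
    rw [Lvl.sepF, emb_toFld, FA.Level.expAt_eq (hexp.congr (funext fun z => by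
      rw [Lvl.funHom_sepA]; rfl)),
      order_qExpand_twist_jq]
    rcases (Nat.dvd_prime hp.out).1 had with h1 | h1
    · rw [hk, h1, Nat.div_self hp.out.pos]; rfl
    · exact absurd (h1 ▸ hac) hnd

/-- A function regular outside the cusp `∞` as a function on the upper half plane. -/
theorem exists_fun_of_inftyPole {f : (lvlGamma0 p).fld L} (hf : IsInftyPole p f) :
    ∃ ψ : ℍ → ℂ, MDiff ψ ∧ (∀ γ ∈ Gamma0 p, ∀ z, ψ (γ • z) = ψ z) ∧
      (∀ γ : SL(2, ℤ), γ ∉ Gamma0 p → IsBoundedAtImInfty fun z => ψ (γ • z)) ∧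
      HasExp (qp 1) ψ (coeffMap (algebraMap L ℂ) (f : LaurentSeries L)) := by
  obtain ⟨a, b, hb, hab⟩ := (lvlGamma0 p).exists_fraction L f
  rcases eq_or_ne a 0 with rfl | ha
  · have h0 : f = 0 := by
      rw [map_zero, mul_eq_zero] at hab
      exact hab.resolve_right fun h => hb (((lvlGamma0 p).toFld_injective L) (h.trans (map_zero _).symm))
    subst h0
    refine ⟨0, mdifferentiable_const, fun _ _ _ => rfl, fun _ _ => ?_, ?_⟩
    · exact Filter.const_boundedAtFilter atImInfty (0 : ℂ)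
    · rw [ZeroMemClass.coe_zero, map_zero]; exact hasExp_zero
  set α := (lvlGamma0 p).funHom L a with hα
  set β := (lvlGamma0 p).funHom L b with hβ
  have hα0 : α ≠ 0 := fun h => ha (((lvlGamma0 p).funHom_injective L) (h.trans (map_zero _).symm))
  have hβ0 : β ≠ 0 := fun h => hb (((lvlGamma0 p).funHom_injective L) (h.trans (map_zero _).symm))
  obtain ⟨R, hR, hRe⟩ := exists_hol_div ((lvlGamma0 p).funHom_mem L a).1 ((lvlGamma0 p).funHom_mem L b).1 hα0 hβ0
    fun τ => by
      have h := order_le_of_embedding hab hb ha (pointPar (lvlGamma0 p) τ) 1 fun v k hk hv => hf v <| by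
        refine Or.inl fun hj => ?_
        have h1 := hv ((lvlGamma0 p).jF L)
        rw [hj, Lvl.jF, emb_toFld, order_expAt_point _ ?_ τ] at h1
        · omega
        · intro h0
          exact (lvlGamma0 p).jF_transcendental L (by
            rw [Lvl.jF, h0, map_zero]; exact isAlgebraic_zero)
      rw [order_expAt_point a ha τ, order_expAt_point b hb τ] at h
      exact_mod_cast h
  have hinv : ∀ γ ∈ Gamma0 p, ∀ z, R (γ • z) = R z := by
    intro γ hγ
    have h1 : (⟨fun z => R (γ • z), mdiff_comp_smul hR γ⟩ : holSub) *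
        ⟨β, ((lvlGamma0 p).funHom_mem L b).1⟩ = ⟨R, hR⟩ * ⟨β, ((lvlGamma0 p).funHom_mem L b).1⟩ := by
      refine Subtype.ext (funext fun z => ?_)
      show R (γ • z) * β z = R z * β z
      have e1 : α (γ • z) = α z := ((lvlGamma0 p).funHom_mem L a).2.1 γ hγ z
      have e2 : β (γ • z) = β z := ((lvlGamma0 p).funHom_mem L b).2.1 γ hγ z
      rw [hα, hRe, ← hβ, Pi.mul_apply, Pi.mul_apply, e2] at e1
      exact e1
    exact congrFun (congrArg Subtype.val
      (mul_right_cancel₀ (fun h => hβ0 (congrArg Subtype.val h)) h1))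
  refine ⟨R, hR, hinv, fun γ hγ => ?_, ?_⟩
  · obtain ⟨hj, hs⟩ := order_expAt_sep_other (L := L) hγ
    have h := order_le_of_embedding hab hb ha (cuspPar (lvlGamma0 p)) γ fun v k hk hv => hf v <| by
      by_contra hc
      push Not at hc
      have h1 := hv ((lvlGamma0 p).jF L)
      have h2 := hv ((lvlGamma0 p).sepF L)
      rw [hj, hc.1] at h1
      rw [hs, hc.2] at h2
      have hp2 : (2 : ℤ) ≤ p := by exact_mod_cast hp.out.two_le
      nlinarith
    have hexp : ∀ c : (lvlGamma0 p).alg L, HasExp (qp 1) (fun z => (lvlGamma0 p).funHom L c (γ • scaleH p z))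
        (expAt (cuspPar (lvlGamma0 p)) γ c) := fun c => by
      have h' := (expAt_spec (cuspPar (lvlGamma0 p)) γ c).comp (U := qp 1) (scaleH p) 1 1 fun z => by
        rw [pow_one, Units.val_one, one_mul]
        exact qp_scaleH p z
      rwa [qExpand_one_apply, twist_one_apply] at h'
    have hbd : IsBoundedAtImInfty fun z => R (γ • scaleH p z) :=
      isBoundedAtImInfty_of_ratio (hexp a) (hexp b) (expAt_ne_zero _ _ hb)
        ((ordGE_order _).mono h) (funext fun z => by
          show α (γ • scaleH p z) = R (γ • scaleH p z) * β (γ • scaleH p z)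
          rw [hα, hRe]; rfl)
    exact isBoundedAtImInfty_of_scale (R := fun z => R (γ • z)) p hbd
  · set Fs := coeffMap (algebraMap L ℂ) (f : LaurentSeries L)
    set A := coeffMap (algebraMap L ℂ) (a : LaurentSeries L)
    set B := coeffMap (algebraMap L ℂ) (b : LaurentSeries L)
    have hser : Fs * B = A := by
      rw [← map_mul]
      exact congrArg _ (congrArg Subtype.val hab)
    have hB0 : B ≠ 0 := fun h0 => hβ0 (((lvlGamma0 p).funHom_exp L b).fun_unique (show HasExp (qp 1) 0 B by rw [h0]; exact hasExp_zero))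
    set m : ℕ := (-Fs.order).toNat
    set S : ℍ → ℂ := fun z => R z * qp 1 z ^ m
    have hexpA : HasExp (qp 1) (fun z => α z * qp 1 z ^ m)
        (A * HahnSeries.single (m : ℤ) 1) := by
      refine (((lvlGamma0 p).funHom_exp L a).mul (qp_ne_zero 1) (hasExp_single (m : ℤ) 1)).congr
        (funext fun z => ?_)
      simp only [Pi.mul_apply, one_mul, zpow_natCast, hα]
    have hSb : IsBoundedAtImInfty S := by
      refine isBoundedAtImInfty_of_ratio hexpA ((lvlGamma0 p).funHom_exp L b) hB0 ?_ (funext fun z => by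
        simp only [S, Pi.mul_apply, hα, hRe]; ring)
      rw [← hser]
      have h1 := (((ordGE_order Fs).mul (ordGE_order B))).mul
        (g := HahnSeries.single (m : ℤ) (1 : ℂ)) (b := (m : ℤ)) fun i hi => by
          rw [HahnSeries.coeff_single_of_ne hi.ne]
      exact h1.mono (show B.order ≤ _ by omega)
    have hqd : MDiff (qp 1) := by
      rw [UpperHalfPlane.mdifferentiable_iff]
      intro w hw
      refine (((qParam_hasDerivAt 1 w).differentiableAt).congr_of_eventuallyEq
        ?_).differentiableWithinAt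
      filter_upwards [isOpen_upperHalfPlaneSet.mem_nhds hw] with x hx
      simp [qp, Function.comp_apply, ofComplex_apply_of_im_pos hx]
    have hSd : MDiff S := hR.mul (hqd.pow m)
    have hper : Function.Periodic (S ∘ ofComplex) (1 : ℝ) :=
      FA.Eis.periodic_of_slash_T (f := S) (k := 0) (funext fun z => by
        rw [ModularForm.SL_slash_apply, neg_zero, zpow_zero, mul_one]
        show R (ModularGroup.T • z) * qp 1 (ModularGroup.T • z) ^ m = R z * qp 1 z ^ m
        rw [hinv _ (lvlGamma0 p).T_mem, qp_T_smul 1]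
        simp [zetaN])
    have hSexp : HasExp (qp 1) S (HahnSeries.ofPowerSeries ℤ ℂ (UpperHalfPlane.qExpansion 1 S)) :=
      hasExp_ofPowerSeries fun z => by
        have := UpperHalfPlane.hasSum_qExpansion (h := (1 : ℝ)) one_pos hper hSd hSb z
        simpa [qp, smul_eq_mul] using this
    have hRexp := (hSexp.mul (qp_ne_zero 1) (hasExp_single (-(m : ℤ)) 1)).congr
      (g := R) (funext fun z => by
        simp only [S, Pi.mul_apply, one_mul, zpow_neg, zpow_natCast]
        rw [mul_assoc, mul_inv_cancel₀ (pow_ne_zero _ (qp_ne_zero 1 z)), mul_one])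
    convert hRexp using 1
    refine mul_right_cancel₀ hB0 ?_
    rw [hser]
    refine ((lvlGamma0 p).funHom_exp L a).unique (covers_qp 1) ?_
    exact ((hRexp.mul (qp_ne_zero 1) ((lvlGamma0 p).funHom_exp L b)).congr hRe.symm)

/-- **Functions regular outside `∞` are orthogonal to integral cusp forms.** -/
theorem coeff_zero_mul_lattice {f : (lvlGamma0 p).fld L} (hf : IsInftyPole p f)
    (g : ↥(CuspForm.intLattice p 2)) :
    ((f : LaurentSeries L) * HahnSeries.ofPowerSeries ℤ L
      (PowerSeries.mk fun n => (FA.Eis.zCoeff n g : L))).coeff 0 = 0 := by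
  haveI := (lvlGamma0 p).finiteIndex
  haveI : (Gamma0 p).FiniteIndex := (lvlGamma0 p).finiteIndex
  obtain ⟨ψ, hψd, hψi, hψb, hψe⟩ := exists_fun_of_inftyPole hf
  set F : CuspForm (Gamma0 p) 2 := (g : CuspForm (Gamma0 p) 2)
  have hge : HasExp (qp 1) (⇑F)
      (HahnSeries.ofPowerSeries ℤ ℂ (FA.Eis.toC (PowerSeries.mk fun n => FA.Eis.zCoeff n g))) :=
    hasExp_ofPowerSeries fun z => by simpa [qp] using FA.Eis.hasQ_lattice g z
  have hz : ∀ γ : SL(2, ℤ), IsZeroAtImInfty (⇑F ∣[(2 : ℤ)] γ) := fun γ => by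
    have hc : IsCusp ((Matrix.SpecialLinearGroup.mapGL ℝ γ) • OnePoint.infty)
        (Gamma0 p : Subgroup (GL (Fin 2) ℝ)) := by
      rw [Subgroup.IsArithmetic.isCusp_iff_isCusp_SL2Z]
      exact isCusp_SL2Z_iff'.mpr ⟨γ, rfl⟩
    exact (CuspFormClass.zero_at_cusps F hc) _ rfl
  have h := coeff_zero_mul_cusp (lvlGamma0 p).T_mem hψd hψi hψb hψe F.holo'
    (fun γ hγ => F.slash_action_eq' _ ⟨γ, hγ, rfl⟩) hz hge
  have e : coeffMap (algebraMap L ℂ) (HahnSeries.ofPowerSeries ℤ L
      (PowerSeries.mk fun n => (FA.Eis.zCoeff n g : L))) =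
      HahnSeries.ofPowerSeries ℤ ℂ (FA.Eis.toC (PowerSeries.mk fun n => FA.Eis.zCoeff n g)) := by
    ext n
    rw [coeffMap_coeff, PowerSeries.coeff_coe, PowerSeries.coeff_coe]
    split_ifs
    · rw [map_zero]
    · rw [PowerSeries.coeff_mk, map_intCast, FA.Eis.coeff_toC, PowerSeries.coeff_mk]
  rw [← e, ← map_mul, coeffMap_coeff] at h
  exact (map_eq_zero _).1 h

end FA.Mazur

end
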