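import Fermat.Agent.Mazur.IntegralRing
import Fermat.Agent.Mazur.DiscHecke
import Fermat.Agent.CurveRed.GoodReduction
import Fermat.Agent.ModField.Congruence.Export

/-!
# The decomposition group on the disc at infinity

The decomposition group permutes the places of the disc through their parameters, and the disc
classes are the kernel of the reduction.
-/

set_option autoImplicit false
set_option linter.style.haveILetI false
set_option linter.unusedSectionVars false

noncomputable section

namespace FA.Mazur

open ModularCurve AlgebraicCurve FA.Curve FA.CurveRed FA.ModField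
open PowerSeries.WithPiTopology

set_option maxHeartbeats 1000000
set_option synthInstance.maxHeartbeats 400000

local notation "Qb" => AlgebraicClosure ℚ
local notation "GQ" => AlgebraicClosure ℚ ≃ₐ[ℚ] AlgebraicClosure ℚ

section Transport

variable {K : Type} [NormedField K] [IsUltrametricDist K] [CompleteSpace K]

theorem continuous_powerSeries_map {f : unitBall K →+* unitBall K} (hf : Continuous f) :
    Continuous (PowerSeries.map f) :=
  continuous_pi fun d => hf.comp (continuous_apply d)

/-- Evaluation commutes with continuous endomorphisms. -/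
theorem evalHom_map (f : unitBall K →+* unitBall K) (hf : Continuous f) {a : unitBall K}
    (ha : ‖(a : K)‖ < 1) (hfa : ‖(f a : K)‖ < 1) (p : PowerSeries (unitBall K)) :
    evalHom (f a) hfa (PowerSeries.map f p) = f (evalHom a ha p) := by
  refine (hasSum_evalHom (f a) hfa (PowerSeries.map f p)).unique ?_
  have h := (hasSum_evalHom a ha p).map f hf
  simpa [Function.comp_def] using h

/-- Re-expansion commutes with continuous automorphisms. -/
theorem shiftHom_map (f g : unitBall K →+* unitBall K) (hf : Continuous f) (hg : Continuous g)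
    (hfg : ∀ x, f (g x) = x) (hgf : ∀ x, g (f x) = x) {a : unitBall K}
    (ha : ‖(a : K)‖ < 1) (hfa : ‖(f a : K)‖ < 1) (p : PowerSeries (unitBall K)) :
    shiftHom (f a) hfa (PowerSeries.map f p) = PowerSeries.map f (shiftHom a ha p) := by
  have h : ((PowerSeries.map f).comp (shiftHom a ha)).comp (PowerSeries.map g) =
      shiftHom (f a) hfa := by
    refine shift_hom_ext
      (((continuous_powerSeries_map hf).comp (continuous_shiftHom a ha)).comp
        (continuous_powerSeries_map hg))
      (continuous_shiftHom _ _) (hasEval_C_add_X (f a) hfa) (fun c => ?_)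
      (fun c => shiftHom_C _ _ c) ?_ (shiftHom_X _ _)
    · rw [RingHom.comp_apply, RingHom.comp_apply, PowerSeries.map_C, shiftHom_C, PowerSeries.map_C,
        hfg]
    · rw [RingHom.comp_apply, RingHom.comp_apply, PowerSeries.map_X, shiftHom_X, map_add,
        PowerSeries.map_C, PowerSeries.map_X]
  rw [← h, RingHom.comp_apply, RingHom.comp_apply]
  congr 2
  ext d
  simp only [PowerSeries.coeff_map, hgf]

end Transport

/-- A function with a reduction is a quotient. -/
theorem isQuot_of_red {W K' F k' Fk : Type} [CommRing W] [Field K'] [IsAlgClosed K'] [Field F]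
    [Algebra K' F] [Field k'] [Field Fk] [Algebra k' Fk] {A : ValuationSubring K'} {u : W →+* F}
    {v : W →+* Fk} {π : A →+* k'} {cA : A →+* W} {spl : Place K' F → Place k' Fk}
    (d : QuotData u v π cA spl) (hF : IsFunctionField K' F) {g : F} {r : Fk}
    (h : (d.toReduction hF).Red g r) : IsQuot u v g r := by
  obtain ⟨hm, hr⟩ := h
  obtain ⟨r', hr'⟩ := id hm
  rw [show r = r' from hr.symm.trans (redFun_eq u v d.u_inj (f := ⟨g, hm⟩) hr')]
  exact hr'

variable {l : ℕ} [hl : Fact l.Prime] [Algebra (AlgebraicClosure ℚ) (PadicComplex l)]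

theorem norm_galBall_lt {σ : GQ} (hσ : σ ∈ decGp l) {a : unitBall (Cl l)}
    (ha : ‖(a : Cl l)‖ < 1) : ‖(galBall hσ a : Cl l)‖ < 1 := by
  rw [coe_galBall, norm_galExt]; exact ha

theorem galBall_inv_apply {σ : GQ} (hσ : σ ∈ decGp l) (x : unitBall (Cl l)) :
    galBall hσ (galBall (inv_mem hσ) x) = x := Subtype.ext (galExt_inv_apply hσ _)

theorem galBall_apply_inv {σ : GQ} (hσ : σ ∈ decGp l) (x : unitBall (Cl l)) :
    galBall (inv_mem hσ) (galBall hσ x) = x := Subtype.ext (galExt_apply_inv hσ _)

/-- The restriction to the integers of the place. -/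
def galInt {σ : GQ} (hσ : σ ∈ decGp l) : placeAt l →+* placeAt l :=
  ((σ : Qb →+* Qb).comp (placeAt l).subtype).codRestrict _ fun x => mem_placeAt_smul hσ x.2

theorem toBall_galInt {σ : GQ} (hσ : σ ∈ decGp l) (x : placeAt l) :
    (isEmbAt_placeAt l).toBall (galInt hσ x) = galBall hσ ((isEmbAt_placeAt l).toBall x) :=
  Subtype.ext (galExt_emb hσ (x : Qb)).symm

/-- The parameter of the conjugate. -/
def galParam {σ : GQ} (hσ : σ ∈ decGp l) (t : Param Qb (Cl l)) : Param Qb (Cl l) :=
  ⟨σ t.1, by rw [norm_emb_smul hσ]; exact t.2⟩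

theorem qPar_galParam {σ : GQ} (hσ : σ ∈ decGp l) (t : Param Qb (Cl l)) :
    qPar (galParam hσ t) = galBall hσ (qPar t) := by
  refine (qPar_unique _ _ (norm_galBall_lt hσ (norm_qPar_lt t)) ?_).symm
  have h := congrArg (galBall hσ) (qPar_eq t)
  rw [map_mul] at h
  rw [← evalHom_map (galBall hσ) (continuous_galBall hσ) (norm_qPar_lt t)
    (norm_galBall_lt hσ (norm_qPar_lt t)), map_jU,
    show galBall hσ (tBall t) = tBall (galParam hσ t) from
      Subtype.ext (galExt_emb hσ t.1)] at h
  exact h

variable (N : ℕ) [NeZero N]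

theorem coeffMap_galInt_mem_intW {σ : GQ} (hσ : σ ∈ decGp l) (y : intW (placeAt l) N) :
    coeffMap (galInt hσ) (y : LaurentSeries (placeAt l)) ∈ intW (placeAt l) N := by
  show coeffMap (placeAt l).subtype _ ∈ upField (L := Qb) N
  have h := (galAut N Qb σ • wUp (placeAt l) N y).2
  rw [coeffMap_coeffMap]
  have e : (placeAt l).subtype.comp (galInt hσ) = (σ : Qb →+* Qb).comp (placeAt l).subtype := rfl
  rw [e, ← coeffMap_coeffMap]
  exact h

variable [Algebra (AlgebraicClosure ℚ) ℂ]

theorem shiftL_galBall {σ : GQ} (hσ : σ ∈ decGp l) {a : unitBall (Cl l)}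
    (ha : ‖(a : Cl l)‖ < 1) (y : LaurentSeries (unitBall (Cl l))) :
    shiftL (galBall hσ a) (norm_galBall_lt hσ ha) (coeffMap (galBall hσ) y) =
      coeffMap (galExt hσ) (shiftL a ha y) := by
  have hps : ∀ (R S : Type) [CommRing R] [CommRing S] (f : R →+* S) (p : PowerSeries R),
      coeffMap f (HahnSeries.ofPowerSeries ℤ R p) =
        HahnSeries.ofPowerSeries ℤ S (PowerSeries.map f p) := fun R S _ _ f p => by
    ext n
    rw [coeffMap_coeff, PowerSeries.coeff_coe, PowerSeries.coeff_coe]
    split_ifs <;> simp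
  have h : (shiftL (galBall hσ a) (norm_galBall_lt hσ ha)).comp (coeffMap (galBall hσ)) =
      (coeffMap (galExt hσ)).comp (shiftL a ha) := by
    refine IsLocalization.ringHom_ext
      (Submonoid.powers (PowerSeries.X : PowerSeries (unitBall (Cl l)))) (RingHom.ext fun p => ?_)
    rw [RingHom.comp_apply, RingHom.comp_apply, RingHom.comp_apply, RingHom.comp_apply,
      LaurentSeries.coe_algebraMap, hps, shiftL_ofPowerSeries, shiftL_ofPowerSeries, shiftPS,
      shiftPS]
    simp only [RingHom.comp_apply]
    rw [shiftHom_map (galBall hσ) (galBall (inv_mem hσ)) (continuous_galBall hσ)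
      (continuous_galBall _) (galBall_inv_apply hσ) (galBall_apply_inv hσ) ha, hps]
    congr 1
  exact RingHom.congr_fun h y

/-- **Re-expansion is equivariant.** -/
theorem evHom_gal {σ : GQ} (hσ : σ ∈ decGp l) {a : unitBall (Cl l)} (ha : ‖(a : Cl l)‖ < 1)
    (f : upField (L := Qb) N) :
    evHom N (isEmbAt_placeAt l) (galBall hσ a) (norm_galBall_lt hσ ha) (galAut N Qb σ • f) =
      coeffMap (galExt hσ) (evHom N (isEmbAt_placeAt l) a ha f) := by
  have h : (evHom N (isEmbAt_placeAt l) (galBall hσ a) (norm_galBall_lt hσ ha)).toRingHom.comp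
      (arithmeticRingAut (modularFunctionFieldFull N) σ).toRingHom =
      (coeffMap (galExt hσ)).comp (evHom N (isEmbAt_placeAt l) a ha).toRingHom := by
    refine IsLocalization.ringHom_ext (nonZeroDivisors (intW (placeAt l) N))
      (RingHom.ext fun y => ?_)
    have e : galAut N Qb σ • wUp (placeAt l) N y =
        wUp (placeAt l) N ⟨_, coeffMap_galInt_mem_intW N hσ y⟩ := by
      refine Subtype.ext ?_
      show coeffMap (σ : Qb →+* Qb) (coeffMap (placeAt l).subtype (y : LaurentSeries (placeAt l))) =
        coeffMap (placeAt l).subtype (coeffMap (galInt hσ) (y : LaurentSeries (placeAt l)))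
      rw [coeffMap_coeffMap, coeffMap_coeffMap]
      rfl
    show evHom N (isEmbAt_placeAt l) (galBall hσ a) (norm_galBall_lt hσ ha)
        (galAut N Qb σ • wUp (placeAt l) N y) =
      coeffMap (galExt hσ) (evHom N (isEmbAt_placeAt l) a ha (wUp (placeAt l) N y))
    rw [e, evHom_wUp, evHom_wUp, ← shiftL_galBall hσ ha, coeffMap_coeffMap, coeffMap_coeffMap]
    refine congrArg _ (coeffMap_congr (RingHom.ext fun x => ?_) _)
    exact toBall_galInt hσ x
  exact RingHom.congr_fun h f

/-- **The decomposition group moves the parameters.** -/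
theorem gal_discPlace {σ : GQ} (hσ : σ ∈ decGp l) (t : Param Qb (Cl l)) :
    galAut N Qb σ • discPlace N (isEmbAt_placeAt l) t =
      discPlace N (isEmbAt_placeAt l) (galParam hσ t) := by
  refine (place_eq_of_ord one_pos one_pos fun f => ?_).1
  rw [one_mul, one_mul]
  conv_lhs => rw [← smul_inv_smul (galAut N Qb σ) f]
  rw [SemilinearAut.ord_smul, ord_discPlace, ord_discPlace]
  set g := (galAut N Qb σ)⁻¹ • f with hg
  have hf : f = galAut N Qb σ • g := (smul_inv_smul _ _).symm
  rw [hf]
  have key : ∀ {b : unitBall (Cl l)} (hb : ‖(b : Cl l)‖ < 1), b = galBall hσ (qPar t) →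
      (evHom N (isEmbAt_placeAt l) b hb (galAut N Qb σ • g)).order =
        (evHom N (isEmbAt_placeAt l) (qPar t) (norm_qPar_lt t) g).order := by
    intro b hb e
    subst e
    rw [evHom_gal N hσ (norm_qPar_lt t)]
    set y := evHom N (isEmbAt_placeAt l) (qPar t) (norm_qPar_lt t) g
    rcases eq_or_ne y 0 with h0 | h0
    · rw [h0, map_zero]
    · have h1 : coeffMap (galExt hσ) y ≠ 0 := fun hz => h0 (HahnSeries.ext (funext fun i => by
        have := congrArg (fun s : LaurentSeries (Cl l) => s.coeff i) hz
        simpa [coeffMap_coeff] using this))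
      refine le_antisymm (HahnSeries.order_le_of_coeff_ne_zero ?_)
        ((HahnSeries.le_order_iff_forall h1).2 fun i hi => ?_)
      · rw [coeffMap_coeff]
        exact (map_ne_zero _).2 fun hc => h0 (HahnSeries.coeff_order_eq_zero.1 hc)
      · rw [coeffMap_coeff, HahnSeries.coeff_eq_zero_of_lt_order hi, map_zero]
  exact (key (norm_qPar_lt _) (qPar_galParam hσ t)).symm

theorem placeVal_gal {σ : GQ} (hσ : σ ∈ decGp l) {E : PowerSeries (unitBall (Cl l))}
    (hE : PowerSeries.constantCoeff E = 1) (P : Place Qb (upField (L := Qb) N)) :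
    placeVal (isEmbAt_placeAt l) (PowerSeries.map (galBall hσ) E) (galAut N Qb σ • P) =
      Units.map (galExt hσ).toMonoidHom (placeVal (isEmbAt_placeAt l) E P) := by
  classical
  by_cases h : ∃ t : Param Qb (Cl l), discPlace N (isEmbAt_placeAt l) t = P
  · obtain ⟨t, rfl⟩ := h
    have hE' : PowerSeries.constantCoeff (PowerSeries.map (galBall hσ) E) = 1 := by
      rw [← PowerSeries.coeff_zero_eq_constantCoeff_apply, PowerSeries.coeff_map,
        PowerSeries.coeff_zero_eq_constantCoeff_apply, hE, map_one]
    rw [gal_discPlace N hσ, placeVal_discPlace, placeVal_discPlace]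
    refine Units.ext ?_
    show ((valUnit (PowerSeries.map (galBall hσ) E) (galParam hσ t) : (Cl l)ˣ) : Cl l) =
      galExt hσ ((valUnit E t : (Cl l)ˣ) : Cl l)
    rw [valUnit_coe hE', valUnit_coe hE, ← coe_galBall,
      ← evalHom_map (galBall hσ) (continuous_galBall hσ) (norm_qPar_lt t)
        (norm_galBall_lt hσ (norm_qPar_lt t))]
    exact congrArg Subtype.val (evalHom_congr (qPar_galParam hσ t) _ _ _)
  · have h' : ¬ ∃ t : Param Qb (Cl l),
        discPlace N (isEmbAt_placeAt l) t = galAut N Qb σ • P := by
      rintro ⟨t, ht⟩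
      refine h ⟨galParam (inv_mem hσ) t, ?_⟩
      rw [← gal_discPlace N (inv_mem hσ), ht, ← mul_smul, galAut, galAut, ← map_mul, inv_mul_cancel,
        map_one, one_smul]
    rw [placeVal, placeVal, dif_neg h, dif_neg h', map_one]

/-- **The product over a conjugate divisor.** -/
theorem discU_gal {σ : GQ} (hσ : σ ∈ decGp l) {E : PowerSeries (unitBall (Cl l))}
    (hE : PowerSeries.constantCoeff E = 1) (D : Divisor Qb (upField (L := Qb) N)) :
    discU (isEmbAt_placeAt l) (PowerSeries.map (galBall hσ) E) (galAut N Qb σ • D) =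
      MonoidHom.toAdditive (Units.map (galExt hσ).toMonoidHom)
        (discU (isEmbAt_placeAt l) E D) := by
  induction D using Finsupp.induction with
  | zero => simp
  | single_add P n D _ _ ih =>
    rw [smul_add, SemilinearAut.smul_single, map_add, map_add, map_add, ih, discU_single,
      discU_single, map_zsmul, placeVal_gal N hσ hE]
    rfl

section Reduction

variable (l) (hlN : ¬ l ∣ N)
include hlN

/-- The reduction at the place. -/
def locRed : Reduction Qb (levelField N Qb) (kRes l) (modularFunctionFieldFullC (kRes l) N)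
    (placeAt l) :=
  haveI : Algebra.IsAlgebraic ℚ Qb := AlgebraicClosure.isAlgebraic ℚ
  haveI := residueAt_charP (ℓ := l) (placeAt_liesOver l)
  haveI := FA.Frob.residueField_isAlgClosed (placeAt l)
  redOf N Qb (π := IsLocalRing.residue (placeAt l)) IsLocalRing.residue_surjective
    residueAt_eq_zero
    (FA.CurveRed.Modular.reductionInputsModL N hl.out hlN (placeAt l) (placeAt_liesOver l)).1

theorem isSeriesRed_locRed :
    IsSeriesRed (IsLocalRing.residue (placeAt l)) (locRed l N hlN) := by
  haveI : Algebra.IsAlgebraic ℚ Qb := AlgebraicClosure.isAlgebraic ℚ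
  haveI := residueAt_charP (ℓ := l) (placeAt_liesOver l)
  haveI := FA.Frob.residueField_isAlgClosed (placeAt l)
  obtain ⟨hin, hg⟩ :=
    FA.CurveRed.Modular.reductionInputsModL N hl.out hlN (placeAt l) (placeAt_liesOver l)
  refine ⟨fun y => red_series N Qb IsLocalRing.residue_surjective residueAt_eq_zero hin
    (y : LaurentSeries (placeAt l)) rfl rfl, fun g r hgr => ?_, residueAt_eq_zero, hg⟩
  obtain ⟨y, z, h1, h2, h3⟩ := isQuot_of_red
    (quotData (π := IsLocalRing.residue (placeAt l)) IsLocalRing.residue_surjective residueAt_eq_zero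
      hin.choose_spec.1 hin.choose_spec.2) (isFunctionField_up N) hgr
  exact ⟨y, z, h1, h2, h3⟩

theorem isFunctionField_locRed :
    IsFunctionField (kRes l) (modularFunctionFieldFullC (kRes l) N) :=
  haveI : Algebra.IsAlgebraic ℚ Qb := AlgebraicClosure.isAlgebraic ℚ
  haveI := FA.Frob.residueField_isAlgClosed (placeAt l)
  isFunctionField_fullC _ N

/-- **The disc classes are the kernel of the reduction.** -/
theorem mem_discClasses_iff (x : JZero N) :
    x ∈ discClasses (locRed l N hlN) ↔ reductionModL (placeAt l) N x = 0 := by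
  haveI : Algebra.IsAlgebraic ℚ Qb := AlgebraicClosure.isAlgebraic ℚ
  haveI := residueAt_charP (ℓ := l) (placeAt_liesOver l)
  haveI := FA.Frob.residueField_isAlgClosed (placeAt l)
  obtain ⟨hin, hg⟩ :=
    FA.CurveRed.Modular.reductionInputsModL N hl.out hlN (placeAt l) (placeAt_liesOver l)
  obtain ⟨D, rfl⟩ := Pic0.mk_surjective x
  obtain ⟨hd, he⟩ := reductionAlong_eq_push N Qb (π := IsLocalRing.residue (placeAt l))
    IsLocalRing.residue_surjective residueAt_eq_zero hin D
  constructor
  · intro h
    refine he.trans ((QuotientAddGroup.eq_zero_iff _).2 ?_)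
    exact push_mem_principal_of_mem (R := locRed l N hlN) (isFunctionField_locRed l N hlN) h
  · intro h
    exact mk_mem_discClasses (isEmbAt_placeAt l) (isSeriesRed_locRed l N hlN)
      (isFunctionField_locRed l N hlN)
      ((QuotientAddGroup.eq_zero_iff
        (⟨_, hd⟩ : Divisor.degZero (K := kRes l) (F := modularFunctionFieldFullC (kRes l) N))).1
        (he.symm.trans h))

/-- Disc classes are stable under the decomposition group. -/
theorem smul_mem_discClasses {σ : GQ} (hσ : σ ∈ decGp l) {x : JZero N}
    (hx : x ∈ discClasses (locRed l N hlN)) : σ • x ∈ discClasses (locRed l N hlN) := by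
  classical
  haveI : Algebra.IsAlgebraic ℚ Qb := AlgebraicClosure.isAlgebraic ℚ
  haveI := residueAt_charP (ℓ := l) (placeAt_liesOver l)
  haveI := FA.Frob.residueField_isAlgClosed (placeAt l)
  obtain ⟨D, hD, rfl⟩ := hx
  refine ⟨SemilinearAut.degZeroSMulHom (galAut N Qb σ) D, fun P hP => ?_, ?_⟩
  · change (galAut N Qb σ • (D : Divisor Qb (levelField N Qb))) P ≠ 0 at hP
    rw [SemilinearAut.divisor_smul_def] at hP
    obtain ⟨Q, hQ, rfl⟩ := Finset.mem_image.1
      (Finsupp.mapDomain_support (Finsupp.mem_support_iff.2 hP))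
    obtain ⟨t, rfl⟩ := exists_param_of_spl (isEmbAt_placeAt l) (isSeriesRed_locRed l N hlN)
      (isFunctionField_locRed l N hlN) (hD Q (Finsupp.mem_support_iff.1 hQ))
    rw [gal_discPlace N hσ]
    exact spl_discPlace (isEmbAt_placeAt l) (isSeriesRed_locRed l N hlN)
      (isFunctionField_locRed l N hlN) _
  · rw [galois_smul_pic0_def, SemilinearAut.pic0_smul_mk]
    rfl

end Reduction

end FA.Mazur

end
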