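import Fermat.Agent.Mazur.DiscHecke
import Fermat.Agent.Mazur.DiscGalois
import Fermat.Agent.ModField.Semistable.Push
import Fermat.Agent.ModField.Semistable.RedModular

/-!
# The places over a value of `1 / j` in the disc

A place of level `p` over such a value lies in one of the two discs: it is the place of the disc
at infinity with this parameter, or its image under the Atkin–Lehner involution is the place of
the disc at infinity with a `p`-th root as parameter.
-/

set_option autoImplicit false
set_option linter.style.haveILetI false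
set_option linter.unusedSectionVars false
set_option synthInstance.maxHeartbeats 400000
set_option maxHeartbeats 1600000

noncomputable section

namespace FA.Mazur

open ModularCurve AlgebraicCurve FA.Curve FA.CurveRed HahnSeries FA.ModField FA.Level
open scoped Pointwise

/-- Restriction along an intertwined embedding. -/
theorem restrictAlong_smul_equiv {K F F' : Type} [Field K] [Field F] [Field F'] [Algebra K F]
    [Algebra K F'] (φ ψ : F →ₐ[K] F') (hφ : φ.toRingHom.IsIntegral) (hψ : ψ.toRingHom.IsIntegral)
    (W : F' ≃ₐ[K] F') (hW : ∀ x, W (ψ x) = φ x) (P : Place K F') :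
    (W • P).restrictAlong φ hφ = P.restrictAlong ψ hψ := by
  apply Place.ext
  ext x
  show φ x ∈ (W • P.toValuationSubring : ValuationSubring F') ↔ ψ x ∈ P.toValuationSubring
  rw [← hW, show W (ψ x) = W • ψ x from rfl, ValuationSubring.smul_mem_pointwise_smul_iff]

section Generic

variable {L : Type} [Field L] [Algebra ℚ L] [IsAlgClosed L] [Algebra L ℂ]

/-- A place of level one is determined by the value of `1 / j`. -/
theorem eq_of_hasValue_one {v v' : Place L (upField (L := L) 1)} {c : L}
    (h : HasValue v (upJ (L := L) 1)⁻¹ c) (h' : HasValue v' (upJ (L := L) 1)⁻¹ c) : v = v' := by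
  classical
  set f := (upJ (L := L) 1)⁻¹ - algebraMap L (upField (L := L) 1) c
  have hadj : IntermediateField.adjoin L {f} = ⊤ := by
    rw [adjoin_sub_eq, adjoin_inv_eq]
    have hj : upJ (L := L) 1 = levelJ 1 L := Subtype.ext rfl
    rw [hj]
    haveI := (isFunctionField_level L 1).finiteDimensional (levelJ_transcendental 1 L)
    refine IntermediateField.finrank_eq_one_iff_eq_top.1 ?_
    rw [finrank_levelJ]
    exact dedekindPsi_one
  have hf : Transcendental L f := fun ha => by
    refine upJ_transcendental (L := L) 1 ?_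
    have h1 : IsAlgebraic L (upJ (L := L) 1)⁻¹ := by
      rw [show (upJ (L := L) 1)⁻¹ = f + algebraMap L _ c from (sub_add_cancel _ _).symm]
      exact ha.add (isAlgebraic_algebraMap c)
    exact IsAlgebraic.inv_iff.1 h1
  have hf0 : f ≠ 0 := fun h0 => hf (h0 ▸ isAlgebraic_zero)
  have hpos : ∀ w ∈ ({v, v'} : Finset (Place L (upField (L := L) 1))), 0 < w.ord f := by
    intro w hw
    have hw' : HasValue w (upJ (L := L) 1)⁻¹ c := by
      rcases Finset.mem_insert.1 hw with rfl | h1
      · exact h
      · rw [Finset.mem_singleton.1 h1]; exact h'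
    rcases hw' with h0 | h1
    · exact absurd h0 hf0
    · exact lt_of_lt_of_le zero_lt_one h1
  by_contra hne
  have h1 := sum_ord_le_finrank (isFunctionField_level L 1) hf {v, v'} hpos
  rw [hadj, IntermediateField.finrank_top, Finset.sum_pair hne] at h1
  have a := hpos v (Finset.mem_insert_self _ _)
  have b := hpos v' (Finset.mem_insert_of_mem (Finset.mem_singleton_self _))
  omega

variable {A : ValuationSubring L} {K : Type} [NormedField K] [IsUltrametricDist K]
  [CompleteSpace K] [CharZero K] [IsAlgClosed K] [Algebra L K]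
  {N r : ℕ} [NeZero N] [hr : Fact r.Prime] (hA : IsEmbAt A K) (hrN : ¬ r ∣ N)

include hrN in
/-- The fibre of `β` over a place of the punctured disc. -/
theorem fiber_beta_cases {t : Param L K} (ht : t.1 ≠ 0) :
    ∃ t'' : Param L K, (∀ τ : Param L K, qPar τ ^ r = qPar t → τ ≠ t'') ∧
      qPar t'' = qPar t ^ r ∧
      ∃ v₀ : Place L (upField (L := L) (N * r)),
        ∀ u : Place L (upField (L := L) (N * r)),
          u.restrictAlong (heckeBetaBar L N r) isIntegral_beta = discPlace N hA t →
            u = v₀ ∨ ∃ τ : Param L K, qPar τ ^ r = qPar t ∧ u = discPlace (N * r) hA τ := by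
  classical
  haveI := hasPrincipalDivisors_up (L := L) (N * r)
  haveI : NeZero r := ⟨hr.out.ne_zero⟩
  haveI : NeZero (r : K) := ⟨Nat.cast_ne_zero.2 hr.out.ne_zero⟩
  have hF := isFunctionField_level L N
  have hF' := isFunctionField_level L (N * r)
  set φ := heckeBetaBar L N r
  obtain ⟨t'', h''⟩ := exists_param_pow hA (r := r) t
  have hq0 : qPar t ≠ 0 := fun h => ht ((qPar_eq_zero_iff t).1 h)
  obtain ⟨b₀, hb₀⟩ := IsAlgClosed.exists_pow_nat_eq ((qPar t : unitBall K) : K) hr.out.pos
  obtain ⟨ζ₀, hζ⟩ := (HasEnoughRootsOfUnity.exists_primitiveRoot K r)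
  have hnb : ‖b₀‖ < 1 := by
    by_contra h1
    push Not at h1
    have := congrArg norm hb₀
    rw [norm_pow] at this
    exact absurd (this ▸ norm_qPar_lt t) (not_lt.2 (one_le_pow₀ h1))
  have hnζ : ‖ζ₀‖ = 1 := by
    have := congrArg norm hζ.pow_eq_one
    rw [norm_pow, norm_one] at this
    exact (pow_eq_one_iff_of_nonneg (norm_nonneg _) hr.out.ne_zero).1 this
  set b : unitBall K := ⟨b₀, hnb.le⟩
  set ζ : unitBall K := ⟨ζ₀, hnζ.le⟩
  have hb : b ^ r = qPar t := Subtype.ext hb₀
  have hbi : ∀ i : Fin r, ‖((ζ ^ (i : ℕ) * b : unitBall K) : K)‖ < 1 := fun i => by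
    simp only [MulMemClass.coe_mul, SubmonoidClass.coe_pow, norm_mul, norm_pow, ζ, b, hnζ, one_pow,
      one_mul]
    exact hnb
  have hζr : ζ ^ r = 1 := Subtype.ext hζ.pow_eq_one
  have hpw : ∀ i : Fin r, (ζ ^ (i : ℕ) * b) ^ r = qPar t := fun i => by
    rw [mul_pow, ← pow_mul, mul_comm (i : ℕ), pow_mul, hζr, one_pow, one_mul, hb]
  choose τ hτ using fun i : Fin r => exists_param_root hA t _ (hbi i) (hpw i)
  have hroot : ∀ i, qPar (τ i) ^ r = qPar t := fun i => by rw [hτ, hpw]
  have hne'' : ∀ τ : Param L K, qPar τ ^ r = qPar t → τ ≠ t'' := by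
    rintro _ h3 rfl
    rw [h'', ← pow_mul] at h3
    have hq : ((qPar t : unitBall K) : K) ≠ 0 := fun e => hq0 (Subtype.ext e)
    have h4 := congrArg (fun z : unitBall K => ‖(z : K)‖) h3
    simp only [SubmonoidClass.coe_pow, norm_pow] at h4
    have h5 : ‖((qPar t : unitBall K) : K)‖ ^ (r * r) < ‖((qPar t : unitBall K) : K)‖ ^ 1 :=
      pow_lt_pow_right_of_lt_one₀ (norm_pos_iff.mpr hq) (norm_qPar_lt t)
        (one_lt_mul'' hr.out.one_lt hr.out.one_lt)
    rw [h4, pow_one] at h5
    exact lt_irrefl _ h5
  obtain ⟨v, hvβ, hve, hvα⟩ := exists_other_place hA hrN h''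
  refine ⟨t'', hne'', h'', v, fun u hu => ?_⟩
  set W : Option (Fin r) → Place L (upField (L := L) (N * r)) :=
    fun i => i.elim v fun i => discPlace (N * r) hA (τ i)
  set S : Finset (Place L (upField (L := L) (N * r))) := Finset.univ.image W
  set Tfib := Place.fiberAlong φ isIntegral_beta (discPlace N hA t)
  have hsub : S ⊆ Tfib := fun X hX => by
    obtain ⟨i, -, rfl⟩ := Finset.mem_image.mp hX
    rw [Place.mem_fiberAlong]
    cases i with
    | none => exact hvβ
    | some i => exact (restrict_beta hA (hroot i)).1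
  have hdeg : (∑ X ∈ Tfib, (Place.ramificationIndexAlong φ X : ℤ)) = r + 1 := by
    have h1 := Divisor.degree_pullbackAlong φ isIntegral_beta
      (fundamentalIdentityAlong hF hF' φ isIntegral_beta) (Finsupp.single (discPlace N hA t) 1)
    rw [Divisor.pullbackAlong_single, map_sum, Divisor.degree_single, hF.deg_eq_one,
      finrank_beta N r hrN L] at h1
    simpa [hF'.deg_eq_one] using h1
  have hvne : ∀ i, v ≠ discPlace (N * r) hA (τ i) := by
    intro i hvi
    have h1 := hvα
    rw [hvi, restrict_alpha] at h1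
    exact hne'' _ (hroot i) (discPlace_injective N hA h1)
  have hb0 : b ≠ 0 := fun e => hq0 (by rw [← hb, e, zero_pow hr.out.ne_zero])
  have hWinj : Function.Injective W := by
    rintro (_ | i) (_ | j) h
    · rfl
    · exact absurd h (hvne j)
    · exact absurd h.symm (hvne i)
    · have h1 := congrArg qPar (discPlace_injective (N * r) hA h)
      rw [hτ, hτ] at h1
      have h2 := congrArg (fun z : unitBall K => (z : K)) (mul_right_cancel₀ hb0 h1)
      simp only [SubmonoidClass.coe_pow] at h2
      exact congrArg some (Fin.ext (hζ.pow_inj i.2 j.2 h2))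
  have he : ∀ i, Place.ramificationIndexAlong φ (W i) = 1 := by
    rintro (_ | i)
    · exact hve
    · show Place.ramificationIndexAlong φ (discPlace (N * r) hA (τ i)) = 1
      rw [(restrict_beta hA (hroot i)).2, ramC_of_ne]
      intro e
      exact hq0 (by rw [← hroot i, e, zero_pow hr.out.ne_zero])
  have hTS : Tfib = S := by
    refine (eq_of_subset_of_sum_eq hsub hdeg ?_ fun X hX => ?_)
    · rw [Finset.sum_image fun x _ y _ h => hWinj h,
        Finset.sum_congr rfl fun i _ => by rw [he i]]
      simp
    · exact_mod_cast ramificationIndexAlong_pos φ isIntegral_beta X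
  have huS : u ∈ S := hTS ▸ (Place.mem_fiberAlong.2 hu)
  obtain ⟨i, -, rfl⟩ := Finset.mem_image.mp huS
  cases i with
  | none => exact Or.inl rfl
  | some i => exact Or.inr ⟨τ i, hroot i, rfl⟩

include hrN in
/-- **The two discs.** -/
theorem disc_or_swap {t : Param L K} (ht : t.1 ≠ 0) [NeZero r]
    {v : Place L (upField (L := L) (N * r))}
    (hv : v.restrictAlong (heckeAlphaBar L N r) isIntegral_alpha = discPlace N hA t) :
    v = discPlace (N * r) hA t ∨
      ∃ τ : Param L K, qPar τ ^ r = qPar t ∧ wLvl N r L hrN • v = discPlace (N * r) hA τ := by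
  obtain ⟨t'', hne, h'', v₀, hfib⟩ := fiber_beta_cases hA hrN ht
  obtain ⟨W, hW, hWα, hWβ⟩ : ∃ W : upField (L := L) (N * r) ≃ₐ[L] upField (L := L) (N * r),
      wLvl N r L hrN = W ∧ (∀ x, W (heckeAlphaBar L N r x) = heckeBetaBar L N r x) ∧
        ∀ x, W (heckeBetaBar L N r x) = heckeAlphaBar L N r x :=
    ⟨_, rfl, FA.ModField.wLvl_alpha N r L hrN, FA.ModField.wLvl_beta N r L hrN⟩
  rw [hW]
  have key : ∀ P : Place L (upField (L := L) (N * r)),
      (W • P).restrictAlong (heckeBetaBar L N r) isIntegral_beta =
        P.restrictAlong (heckeAlphaBar L N r) isIntegral_alpha :=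
    restrictAlong_smul_equiv _ _ isIntegral_beta isIntegral_alpha W hWα
  have h0 : W • discPlace (N * r) hA t = v₀ := by
    rcases hfib _ ((key _).trans (restrict_alpha hA t)) with h | ⟨τ, hτ, h⟩
    · exact h
    exfalso
    -- the place of the disc maps to the parameter `t ^ r` along `α`
    have h3 : (W • discPlace (N * r) hA t).restrictAlong (heckeAlphaBar L N r) isIntegral_alpha =
        discPlace N hA t'' :=
      (restrictAlong_smul_equiv _ _ isIntegral_alpha isIntegral_beta W hWβ _).trans
        (restrict_beta hA h''.symm).1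
    rw [h, restrict_alpha] at h3
    exact hne τ hτ (discPlace_injective N hA h3)
  rcases hfib _ ((key v).trans hv) with h | ⟨τ, hτ, h⟩
  · exact Or.inl (smul_left_cancel W (h.trans h0.symm))
  · exact Or.inr ⟨τ, hτ, h⟩

end Generic

end FA.Mazur

end
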