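import Fermat.Agent.Mazur.Eval
import Mathlib.RingTheory.LaurentSeries

/-!
# Re-expansion of integral Laurent series at a point of the open disc
-/

set_option autoImplicit false

noncomputable section

open Filter Topology

namespace FA.Mazur

variable {K : Type} [NormedField K] [IsUltrametricDist K] [CompleteSpace K]

open PowerSeries.WithPiTopology

/-- Two continuous homomorphisms of integral series agreeing on constants and on the variable. -/
theorem shift_hom_ext {f g : PowerSeries (unitBall K) →+* PowerSeries (unitBall K)}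
    (hf : Continuous f) (hg : Continuous g) {b : PowerSeries (unitBall K)}
    (hb : PowerSeries.HasEval b) (hfC : ∀ c, f (PowerSeries.C c) = PowerSeries.C c)
    (hgC : ∀ c, g (PowerSeries.C c) = PowerSeries.C c) (hfX : f PowerSeries.X = b)
    (hgX : g PowerSeries.X = b) : f = g := by
  have key : ∀ h : PowerSeries (unitBall K) →+* PowerSeries (unitBall K),
      (∀ c, h (PowerSeries.C c) = PowerSeries.C c) → h PowerSeries.X = b →
      ∀ p : Polynomial (unitBall K), h p = p.eval₂ PowerSeries.C b := by
    intro h hC hX p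
    induction p using Polynomial.induction_on' with
    | add p q hp hq => rw [Polynomial.coe_add, map_add, Polynomial.eval₂_add, hp, hq]
    | monomial n c =>
      rw [← Polynomial.C_mul_X_pow_eq_monomial, Polynomial.coe_mul, Polynomial.coe_C,
        Polynomial.coe_pow, Polynomial.coe_X, map_mul, map_pow, hC, hX, Polynomial.eval₂_mul,
        Polynomial.eval₂_C, Polynomial.eval₂_pow, Polynomial.eval₂_X]
  refine RingHom.coe_inj ?_
  rw [PowerSeries.eval₂_unique continuous_C hb hf (key f hfC hfX),
    PowerSeries.eval₂_unique continuous_C hb hg (key g hgC hgX)]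

theorem shiftHom_neg_shiftHom (a : unitBall K) (ha : ‖(a : K)‖ < 1)
    (f : PowerSeries (unitBall K)) :
    shiftHom (-a) (by simpa using ha) (shiftHom a ha f) = f := by
  have ha' : ‖((-a : unitBall K) : K)‖ < 1 := by simpa using ha
  have h : (shiftHom (-a) ha').comp (shiftHom a ha) = RingHom.id _ := by
    refine shift_hom_ext ((continuous_shiftHom (-a) ha').comp (continuous_shiftHom a ha))
      continuous_id
      PowerSeries.HasEval.X (fun c => ?_) (fun c => rfl) ?_ rfl
    · rw [RingHom.comp_apply, shiftHom_C, shiftHom_C]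
    · rw [RingHom.comp_apply, shiftHom_X, map_add, shiftHom_C, shiftHom_X, map_neg,
        add_neg_cancel_left]
  exact RingHom.congr_fun h f

theorem shiftHom_injective (a : unitBall K) (ha : ‖(a : K)‖ < 1) :
    Function.Injective (shiftHom a ha) :=
  Function.LeftInverse.injective (shiftHom_neg_shiftHom a ha)

/-- A series vanishing at `a` is divisible by `X - a`. -/
theorem exists_factor_of_evalHom_eq_zero (a : unitBall K) (ha : ‖(a : K)‖ < 1)
    {x : PowerSeries (unitBall K)} (hx : evalHom a ha x = 0) :
    ∃ y, x = (PowerSeries.X - PowerSeries.C a) * y := by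
  obtain ⟨z, hz⟩ : PowerSeries.X ∣ shiftHom a ha x :=
    PowerSeries.X_dvd_iff.mpr (by rw [constantCoeff_shiftHom]; exact hx)
  refine ⟨shiftHom (-a) (by simpa using ha) z, ?_⟩
  have h := shiftHom_neg_shiftHom a ha x
  rw [hz, map_mul, shiftHom_X, map_neg] at h
  rw [← h]
  ring

/-- Values at two points differ by at most the distance of the points. -/
theorem norm_evalHom_sub_le (a b : unitBall K) (ha : ‖(a : K)‖ < 1) (hb : ‖(b : K)‖ < 1)
    (f : PowerSeries (unitBall K)) :
    ‖(evalHom a ha f : K) - evalHom b hb f‖ ≤ ‖(a : K) - b‖ := by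
  obtain ⟨y, hy⟩ := exists_factor_of_evalHom_eq_zero b hb
    (x := f - PowerSeries.C (evalHom b hb f)) (by
      rw [map_sub, ← Polynomial.coe_C, evalHom_coe, Polynomial.eval_C, sub_self])
  have h := congrArg (evalHom a ha) hy
  rw [map_sub, map_mul, map_sub, ← Polynomial.coe_C, ← Polynomial.coe_C, ← Polynomial.coe_X,
    evalHom_coe, evalHom_coe, evalHom_coe, Polynomial.eval_C, Polynomial.eval_C,
    Polynomial.eval_X] at h
  rw [← AddSubgroupClass.coe_sub, h, MulMemClass.coe_mul, norm_mul, AddSubgroupClass.coe_sub]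
  exact mul_le_of_le_one_right (norm_nonneg _) (evalHom a ha y).2

/-- The solution of `a = c u(a)` in the open disc. -/
theorem existsUnique_eq_mul_evalHom (c : unitBall K) (hc : ‖(c : K)‖ < 1)
    (u : PowerSeries (unitBall K)) :
    ∃! a : unitBall K, ∃ ha : ‖(a : K)‖ < 1, a = c * evalHom a ha u := by
  let F : ℕ → {a : unitBall K // ‖(a : K)‖ < 1} := fun n =>
    Nat.rec ⟨0, by simp⟩ (fun _ b => ⟨c * evalHom b.1 b.2 u, by
      rw [MulMemClass.coe_mul, norm_mul]
      exact (mul_le_of_le_one_right (norm_nonneg _) (evalHom b.1 b.2 u).2).trans_lt hc⟩) n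
  have hstep : ∀ n, ((F (n + 1)).1 : K) = (c : K) * evalHom (F n).1 (F n).2 u := fun n => rfl
  have hd : ∀ n, ‖((F (n + 1)).1 : K) - (F n).1‖ ≤ ‖(c : K)‖ ^ n := by
    intro n
    induction n with
    | zero =>
      rw [pow_zero, hstep, show ((F 0).1 : K) = 0 from rfl, sub_zero, norm_mul]
      exact mul_le_one₀ c.2 (norm_nonneg _) (evalHom (F 0).1 (F 0).2 u).2
    | succ n ih =>
      rw [hstep (n + 1), hstep n, ← mul_sub, norm_mul, pow_succ']
      exact mul_le_mul_of_nonneg_left ((norm_evalHom_sub_le _ _ _ _ u).trans ih) (norm_nonneg _)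
  have hcau : CauchySeq fun n => ((F n).1 : K) := by
    refine cauchySeq_of_le_geometric ‖(c : K)‖ 1 hc fun n => ?_
    rw [dist_eq_norm, norm_sub_rev, one_mul]
    exact hd n
  obtain ⟨x, hx⟩ := cauchySeq_tendsto_of_complete hcau
  have hxle : ‖x‖ ≤ ‖(c : K)‖ := by
    refine le_of_tendsto hx.norm ((Filter.eventually_ge_atTop 1).mono fun n hn => ?_)
    obtain ⟨m, rfl⟩ := Nat.exists_eq_add_of_le hn
    rw [add_comm 1 m, hstep, norm_mul]
    exact mul_le_of_le_one_right (norm_nonneg _) (evalHom (F m).1 (F m).2 u).2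
  let a : unitBall K := ⟨x, hxle.trans c.2⟩
  have ha : ‖(a : K)‖ < 1 := hxle.trans_lt hc
  refine ⟨a, ⟨ha, Subtype.ext ?_⟩, ?_⟩
  · show x = (c : K) * evalHom a ha u
    refine tendsto_nhds_unique (hx.comp (tendsto_add_atTop_nat 1)) ?_
    show Tendsto (fun n => (c : K) * evalHom (F n).1 (F n).2 u) atTop (𝓝 _)
    refine (tendsto_const_nhds (x := (c : K))).mul ?_
    rw [← tendsto_sub_nhds_zero_iff]
    exact squeeze_zero_norm (fun n => norm_evalHom_sub_le _ _ _ _ u)
      (tendsto_zero_iff_norm_tendsto_zero.mp (tendsto_sub_nhds_zero_iff.mpr hx))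
  · rintro b ⟨hb, hbe⟩
    have h := congrArg (fun z : unitBall K => (z : K)) hbe
    have h' : x = (c : K) * evalHom a ha u := by
      refine tendsto_nhds_unique (hx.comp (tendsto_add_atTop_nat 1)) ?_
      show Tendsto (fun n => (c : K) * evalHom (F n).1 (F n).2 u) atTop (𝓝 _)
      refine (tendsto_const_nhds (x := (c : K))).mul ?_
      rw [← tendsto_sub_nhds_zero_iff]
      exact squeeze_zero_norm (fun n => norm_evalHom_sub_le _ _ _ _ u)
        (tendsto_zero_iff_norm_tendsto_zero.mp (tendsto_sub_nhds_zero_iff.mpr hx))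
    refine Subtype.ext (sub_eq_zero.mp (norm_le_zero_iff.mp ?_))
    have h1 : ‖(b : K) - x‖ ≤ ‖(c : K)‖ * ‖(b : K) - x‖ := by
      conv_lhs => rw [show (b : K) = (c : K) * evalHom b hb u from h, h', ← mul_sub, norm_mul]
      exact mul_le_mul_of_nonneg_left (norm_evalHom_sub_le b a hb ha u) (norm_nonneg _)
    show ‖(b : K) - x‖ ≤ 0
    nlinarith [norm_nonneg ((b : K) - x)]

/-- Re-expansion into the Laurent series field. -/
def shiftPS (a : unitBall K) (ha : ‖(a : K)‖ < 1) :
    PowerSeries (unitBall K) →+* LaurentSeries K :=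
  ((HahnSeries.ofPowerSeries ℤ K).comp (PowerSeries.map (unitBall K).subtype)).comp (shiftHom a ha)

set_option maxHeartbeats 1000000 in
theorem shiftPS_injective (a : unitBall K) (ha : ‖(a : K)‖ < 1) :
    Function.Injective (shiftPS a ha) :=
  fun _ _ h => shiftHom_injective a ha (PowerSeries.map_injective (unitBall K).subtype
    Subtype.val_injective (HahnSeries.ofPowerSeries_injective (Γ := ℤ) (R := K) h))

/-- Re-expansion of an integral Laurent series at a point of the open disc. -/
def shiftL (a : unitBall K) (ha : ‖(a : K)‖ < 1) :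
    LaurentSeries (unitBall K) →+* LaurentSeries K :=
  IsLocalization.lift (M := Submonoid.powers (PowerSeries.X : PowerSeries (unitBall K)))
    (g := shiftPS a ha) fun y => by
      obtain ⟨n, hn⟩ := y.2
      rw [← show (PowerSeries.X : PowerSeries (unitBall K)) ^ n = y from hn, map_pow]
      refine (isUnit_iff_ne_zero.mpr fun h => ?_).pow n
      exact PowerSeries.X_ne_zero (shiftPS_injective a ha (h.trans (map_zero _).symm))

theorem shiftL_ofPowerSeries (a : unitBall K) (ha : ‖(a : K)‖ < 1)
    (f : PowerSeries (unitBall K)) :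
    shiftL a ha (HahnSeries.ofPowerSeries ℤ (unitBall K) f) = shiftPS a ha f := by
  rw [← LaurentSeries.coe_algebraMap]
  exact IsLocalization.lift_eq _ f

theorem shiftL_injective (a : unitBall K) (ha : ‖(a : K)‖ < 1) :
    Function.Injective (shiftL a ha) := by
  refine (IsLocalization.lift_injective_iff _).mpr fun x y => ?_
  rw [LaurentSeries.coe_algebraMap, HahnSeries.ofPowerSeries_injective.eq_iff,
    (shiftPS_injective a ha).eq_iff]

end FA.Mazur
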