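import Fermat.Agent.Mazur.EisLattice
import Fermat.Agent.JTorsion.Point

/-!
# The reductions of the Eisenstein lattice into the torsion of `J₀(p)`
-/

set_option autoImplicit false
set_option linter.style.haveILetI false
set_option linter.unusedSectionVars false

noncomputable section

namespace FA.Mazur

open scoped TensorProduct
open ModularCurve IsLocalRing FA.JTorsion FA.Level

set_option synthInstance.maxHeartbeats 400000
set_option maxHeartbeats 1000000

variable [Algebra (AlgebraicClosure ℚ) ℂ]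
variable (p : ℕ) [Fact p.Prime] (l : ℕ) [hl : Fact l.Prime] (hn : l ∣ eisensteinNumerator p)

/-- The lattice modulo `l ^ k`. -/
abbrev XMod (k : ℕ) : Type := ModN p (∅ : Set ℕ) (l ^ k)

theorem pow_smul_xMod (k : ℕ) (q : XMod p l k) : l ^ k • q = 0 := by
  obtain ⟨x, rfl⟩ := Submodule.Quotient.mk_surjective _ q
  rw [← Submodule.mkQ_apply, ← map_nsmul, Submodule.mkQ_apply, Submodule.Quotient.mk_eq_zero]
  exact (mem_nMultiples p _).2 ⟨x, rfl⟩

theorem map_natCast_pow {R S : Type} [CommSemiring R] [CommSemiring S] (f : R →+* S) (a j : ℕ) :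
    f ((a : R) ^ j) = ((a ^ j : ℕ) : S) := by rw [map_pow, map_natCast, Nat.cast_pow]

/-- A residue of a scalar modulo `l ^ k`. -/
def resNat (k : ℕ) (c : ℤ_[l]) : ℕ := (PadicInt.toZModPow k c).val

theorem smul_eq_of_cast_eq {k a b : ℕ} (h : (a : ZMod (l ^ k)) = b) (q : XMod p l k) :
    a • q = b • q := by
  rw [ZMod.natCast_eq_natCast_iff'] at h
  rw [← Nat.mod_add_div a (l ^ k), ← Nat.mod_add_div b (l ^ k), h, add_nsmul, add_nsmul,
    mul_nsmul, mul_nsmul, pow_smul_xMod, nsmul_zero, nsmul_zero]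

theorem cast_resNat (k : ℕ) (c : ℤ_[l]) :
    ((resNat l k c : ℕ) : ZMod (l ^ k)) = PadicInt.toZModPow k c := ZMod.natCast_zmod_val _

theorem resNat_smul_eq {k : ℕ} {c : ℤ_[l]} {n : ℕ} (h : PadicInt.toZModPow k c = n) (q : XMod p l k) :
    resNat l k c • q = n • q := smul_eq_of_cast_eq p l (by rw [cast_resNat, h]) q

/-- Reduction of the `l`-adic lattice. -/
def redX (k : ℕ) : XAdic p l →+ XMod p l k :=
  TensorProduct.liftAddHom
    (AddMonoidHom.mk' (fun c => AddMonoidHom.mk'
      (fun x : XLat p => resNat l k c • (Submodule.Quotient.mk x : XMod p l k))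
      fun x y => by rw [Submodule.Quotient.mk_add, nsmul_add])
      fun c d => AddMonoidHom.ext fun x => by
        simp only [AddMonoidHom.mk'_apply, AddMonoidHom.add_apply, ← add_nsmul]
        exact resNat_smul_eq p l (by
          rw [map_add, Nat.cast_add, cast_resNat, cast_resNat]) _)
    fun z c x => by
      simp only [AddMonoidHom.mk'_apply]
      rw [Submodule.Quotient.mk_smul, smul_comm, ← Int.cast_smul_eq_zsmul ℤ_[l], smul_eq_mul]
      obtain ⟨n, rfl | rfl⟩ := Int.eq_nat_or_neg z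
      · rw [natCast_zsmul, ← mul_nsmul', Int.cast_natCast]
        exact resNat_smul_eq p l (by rw [map_mul, map_natCast, Nat.cast_mul, cast_resNat]) _
      · rw [neg_smul, natCast_zsmul, ← mul_nsmul', Int.cast_neg, Int.cast_natCast, neg_mul,
          eq_neg_iff_add_eq_zero, ← add_nsmul]
        refine (smul_eq_of_cast_eq p l (b := 0) ?_ _).trans (zero_nsmul _)
        rw [Nat.cast_add, cast_resNat, Nat.cast_mul, cast_resNat, map_neg, map_mul, map_natCast,
          neg_add_cancel, Nat.cast_zero]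

theorem redX_tmul (k : ℕ) (c : ℤ_[l]) (x : XLat p) :
    redX p l k (c ⊗ₜ[ℤ] x) = resNat l k c • (Submodule.Quotient.mk x : XMod p l k) := rfl

theorem redX_one_tmul (k : ℕ) (x : XLat p) :
    redX p l k ((1 : ℤ_[l]) ⊗ₜ[ℤ] x) = Submodule.Quotient.mk x :=
  ((redX_tmul p l k 1 x).trans (resNat_smul_eq p l (n := 1) (by rw [map_one, Nat.cast_one]) _)).trans
    (one_nsmul _)

theorem redX_smul (k : ℕ) (c : ℤ_[l]) (w : XAdic p l) :
    redX p l k (c • w) = resNat l k c • redX p l k w := by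
  induction w using TensorProduct.induction_on with
  | zero => rw [smul_zero, map_zero, nsmul_zero]
  | tmul d x =>
    rw [TensorProduct.smul_tmul', smul_eq_mul, redX_tmul, redX_tmul, ← mul_nsmul']
    exact resNat_smul_eq p l (by rw [map_mul, Nat.cast_mul, cast_resNat, cast_resNat]) _
  | add a b ha hb => rw [smul_add, map_add, map_add, ha, hb, nsmul_add]

theorem redX_pow_smul (k : ℕ) {j : ℕ} (hj : k ≤ j) (w : XAdic p l) :
    redX p l k ((l : ℤ_[l]) ^ j • w) = 0 := by
  have e : PadicInt.toZModPow k ((l : ℤ_[l]) ^ j) = ((l ^ j : ℕ) : ZMod (l ^ k)) :=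
    map_natCast_pow _ l j
  rw [redX_smul, resNat_smul_eq p l e (redX p l k w),
    ← Nat.add_sub_cancel' hj, pow_add, mul_comm (l ^ k), mul_nsmul', pow_smul_xMod p l k, nsmul_zero]

/-- Every element is congruent to one of the lattice. -/
theorem exists_xLat_approx (w : XAdic p l) (k : ℕ) :
    ∃ (x : XLat p) (y : XAdic p l), w = (1 : ℤ_[l]) ⊗ₜ[ℤ] x + (l : ℤ_[l]) ^ k • y := by
  induction w using TensorProduct.induction_on with
  | zero => exact ⟨0, 0, by simp⟩
  | tmul c x =>
    obtain ⟨b, hb⟩ := Ideal.mem_span_singleton'.mp (PadicInt.appr_spec k c)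
    refine ⟨(c.appr k) • x, b ⊗ₜ[ℤ] x, ?_⟩
    rw [TensorProduct.smul_tmul', smul_eq_mul, mul_comm, hb, TensorProduct.tmul_smul,
      TensorProduct.smul_tmul', nsmul_one, ← TensorProduct.add_tmul, add_sub_cancel]
  | add a b ha hb =>
    obtain ⟨x, y, rfl⟩ := ha
    obtain ⟨x', y', rfl⟩ := hb
    exact ⟨x + x', y + y', by rw [TensorProduct.tmul_add, smul_add]; abel⟩

theorem redX_eq_zero_iff {k : ℕ} {w : XAdic p l} :
    redX p l k w = 0 ↔ ∃ y, w = (l : ℤ_[l]) ^ k • y := by
  refine ⟨fun h => ?_, fun ⟨y, hy⟩ => by rw [hy]; exact redX_pow_smul p l k le_rfl y⟩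
  obtain ⟨x, y, rfl⟩ := exists_xLat_approx p l w k
  rw [map_add, redX_pow_smul p l k le_rfl, add_zero, redX_one_tmul,
    Submodule.Quotient.mk_eq_zero] at h
  obtain ⟨x', rfl⟩ := (mem_nMultiples p _).1 h
  refine ⟨(1 : ℤ_[l]) ⊗ₜ[ℤ] x' + y, ?_⟩
  rw [smul_add, TensorProduct.tmul_smul, ← Nat.cast_smul_eq_nsmul ℤ_[l], Nat.cast_pow]

theorem redX_incT (k : ℕ) (t : TAlg p) (w : XAdic p l) :
    redX p l k (actX p l (incT p l t) w) = t • redX p l k w := by
  induction w using TensorProduct.induction_on with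
  | zero => rw [map_zero, map_zero, smul_zero]
  | tmul d x =>
    rw [incT_apply, actX_tmul, one_mul, redX_tmul, redX_tmul, Submodule.Quotient.mk_smul, smul_comm]
  | add a b ha hb => rw [map_add, map_add, map_add, ha, hb, smul_add]

theorem redX_eisE (k : ℕ) (w : XAdic p l) :
    redX p l k (actX p l (eisE p l hn) w) = idemSeq p l hn k • redX p l k w := by
  obtain ⟨y, hy⟩ := eisE_spec p l hn k
  have e : eisE p l hn = incT p l (idemSeq p l hn k) - (l : TAdic p l) ^ k * y := by rw [← hy]; ring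
  have e2 : (l : TAdic p l) ^ k * y = (l : ℤ_[l]) ^ k • y := (pow_smul_eq_mul (A := TAdic p l) l k y).symm
  rw [e, map_sub, LinearMap.sub_apply, map_sub, redX_incT, e2, map_smul, LinearMap.smul_apply,
    redX_pow_smul p l k le_rfl, sub_zero]

/-- The reduction of the Eisenstein part. -/
def redM (k : ℕ) : EisM p l hn →+ XMod p l k := (redX p l k).comp (iotaM p l hn)

theorem iotaM_eisE (v : EisM p l hn) :
    actX p l (eisE p l hn) (iotaM p l hn v) = iotaM p l hn v := by
  rw [← iotaM_piM, piM_iotaM]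

theorem redM_smul (k : ℕ) (t : TAlg p) (v : EisM p l hn) :
    redM p l hn k (heckeR p l hn t • v) = t • redM p l hn k v := by
  show redX p l k (iotaM p l hn _) = _
  rw [iotaM_smul, eLift_heckeR, map_mul, Module.End.mul_apply,
    ← Module.End.mul_apply (actX p l (eisE p l hn)), ← map_mul, mul_comm, map_mul,
    Module.End.mul_apply, iotaM_eisE, redX_incT]
  rfl

theorem redM_mkM (k : ℕ) (x : XLat p) :
    redM p l hn k (mkM p l hn 1 x) = idemSeq p l hn k • (Submodule.Quotient.mk x : XMod p l k) := by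
  show redX p l k (iotaM p l hn _) = _
  rw [iotaM_mkM, ← projR_eisE, eLift_projR, eisE_idem, redX_eisE, redX_one_tmul]

theorem redM_eq_zero_iff {k : ℕ} {v : EisM p l hn} :
    redM p l hn k v = 0 ↔ ∃ u, v = (l : ℤ_[l]) ^ k • u := by
  refine ⟨fun h => ?_, fun ⟨u, hu⟩ => ?_⟩
  · obtain ⟨y, hy⟩ := (redX_eq_zero_iff p l).mp h
    exact ⟨piM p l hn y, by rw [← map_smul, ← hy, piM_iotaM]⟩
  · show redX p l k (iotaM p l hn v) = 0
    rw [hu, iotaM_padic_smul, redX_pow_smul p l k le_rfl]

theorem redM_padic_smul (k : ℕ) (c : ℤ_[l]) (v : EisM p l hn) :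
    redM p l hn k (c • v) = resNat l k c • redM p l hn k v := by
  show redX p l k (iotaM p l hn _) = _
  rw [iotaM_padic_smul, redX_smul]
  rfl

/-- The image of the reduction is the multiple by the approximate idempotent. -/
theorem redM_range (k : ℕ) (q : XMod p l k) :
    idemSeq p l hn k • q ∈ (redM p l hn k).range := by
  obtain ⟨x, rfl⟩ := Submodule.Quotient.mk_surjective _ q
  exact ⟨mkM p l hn 1 x, redM_mkM p l hn k x⟩

theorem redM_mem (k : ℕ) (v : EisM p l hn) :
    ∃ q : XMod p l k, redM p l hn k v = idemSeq p l hn k • q :=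
  ⟨redX p l k (iotaM p l hn v), by rw [← redX_eisE, iotaM_eisE]; rfl⟩

/-- The torsion class. -/
def tauM (k : ℕ) : EisM p l hn →+ JZero p := (toTors p (∅ : Set ℕ) (l ^ k)).comp (redM p l hn k)

theorem tauM_eq_zero_iff {k : ℕ} {v : EisM p l hn} :
    tauM p l hn k v = 0 ↔ ∃ u, v = (l : ℤ_[l]) ^ k • u := by
  rw [← redM_eq_zero_iff]
  exact ⟨fun h => toTors_injective _ _ _ (h.trans (map_zero _).symm),
    fun h => (congrArg _ h).trans (map_zero _)⟩

theorem pow_nsmul_tauM (k : ℕ) (v : EisM p l hn) : l ^ k • tauM p l hn k v = 0 :=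
  nsmul_toTors _ _ _ _

theorem tauM_succ (k : ℕ) (v : EisM p l hn) :
    l • tauM p l hn (k + 1) v = tauM p l hn k v := by
  obtain ⟨x, y, hxy⟩ := exists_xLat_approx p l (iotaM p l hn v) (k + 1)
  have e : ∀ j, j ≤ k + 1 → redM p l hn j v = Submodule.Quotient.mk x := fun j hj => by
    show redX p l j (iotaM p l hn v) = _
    rw [hxy, map_add, redX_pow_smul p l j hj, add_zero, redX_one_tmul]
  show l • toTors _ _ _ (redM p l hn (k + 1) v) = toTors _ _ _ (redM p l hn k v)
  rw [e k (Nat.le_succ k), e (k + 1) le_rfl, toTors_mk, toTors_mk]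
  have e' : ∀ (m : ℕ) [NeZero m], m = l * l ^ k →
      l • ((latTors (lvlGamma0 p) (AlgebraicClosure ℚ) m (LatMod.val p (∅ : Set ℕ) x) :
          tors (lvlGamma0 p) (AlgebraicClosure ℚ) m) : AlgebraicCurve.Pic0 (AlgebraicClosure ℚ) ((lvlGamma0 p).fld (AlgebraicClosure ℚ))) =
        latTors (lvlGamma0 p) (AlgebraicClosure ℚ) (l ^ k) (LatMod.val p (∅ : Set ℕ) x) := by
    intro m _ hm
    subst hm
    exact nsmul_latTors (LatMod.val p (∅ : Set ℕ) x)
  exact e' _ (pow_succ' l k)

end FA.Mazur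

end
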