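import Fermat.Agent.Mazur.HeckeCoeff

/-!
# The operators away from the level have finite index

A weight two cusp form of prime level whose coefficients vanish at all indices prime to the level
is zero, so the operators away from the level span the Hecke algebra rationally.
-/

set_option autoImplicit false
set_option linter.style.haveILetI false
set_option linter.unusedSectionVars false

noncomputable section

namespace FA.Mazur

open UpperHalfPlane hiding I
open CongruenceSubgroup CuspForm FA.Deform FA.Eis PowerSeries ModularCurve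
open scoped MatrixGroups ModularForm

set_option synthInstance.maxHeartbeats 400000
set_option maxHeartbeats 1000000

variable (p : ℕ) [Fact p.Prime]

theorem hasQ_unique {f : ℍ → ℂ} {A B : PowerSeries ℂ} (hA : HasQ 1 f A) (hB : HasQ 1 f B) :
    A = B := hA.unique one_pos hB

/-- A series supported at multiples of the level has weight two form zero. -/
theorem eq_zero_of_supported {f : ℍ → ℂ} (hf : IsLv p 2 f)
    (h : ∀ n, ¬ p ∣ n → coeff n (qe f) = 0) : f = 0 := by
  have hp : (p : ℂ) ≠ 0 := NeZero.ne _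
  set A := qe f
  have hA : HasQ 1 f A := hf.hasQ
  set h' := W p 2 f
  have hB : HasQ 1 h' (-((p : ℂ)⁻¹ • Up p A)) := hasQ_W_weight_two hf hA
  set g : ℍ → ℂ := -(p : ℂ) • h'
  have hg : HasQ 1 g (Up p A) := by
    convert hB.smul (-(p : ℂ)) using 1
    ext n
    simp [hp]
  -- the form is a dilation
  have hdil : FA.Eis.dil p g = f := by
    have e : Vp p (Up p A) = A := by
      ext n
      rw [coeff_Vp]
      split_ifs with hd
      · rw [coeff_Up, Nat.div_mul_cancel hd]
      · exact (h n hd).symm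
    exact funext fun τ => ((hg.dil p) τ).unique (e.symm ▸ hA τ)
  -- the substitution
  have hW : h' = ((p : ℂ) ^ (-2 : ℤ)) • (g ∣[(2 : ℤ)] ModularGroup.S) := by
    funext τ
    have hS : scalePt p (ModularGroup.S • scalePt p τ) = ModularGroup.S • τ := by
      apply UpperHalfPlane.ext
      rw [coe_scalePt, coe_S_smul, coe_scalePt, coe_S_smul]
      field_simp
    show W p 2 f τ = _
    rw [W_apply, ← hdil, FA.Eis.dil, hS, mul_zpow, Pi.smul_apply, smul_eq_mul, slash_S_apply']
    ring
  have hSS : (g ∣[(2 : ℤ)] ModularGroup.S) ∣[(2 : ℤ)] ModularGroup.S = g := by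
    have : ModularGroup.S * ModularGroup.S = (-1 : SL(2, ℤ)) := by
      ext i j
      fin_cases i <;> fin_cases j <;>
        simp [Matrix.SpecialLinearGroup.coe_mul, ModularGroup.coe_S]
    rw [← SlashAction.slash_mul, this, neg_one_slash g even_two]
  have hgS : g ∣[(2 : ℤ)] ModularGroup.S = -(p : ℂ) • g := by
    have e : g ∣[(2 : ℤ)] ModularGroup.S = ((p : ℂ) ^ (2 : ℤ)) • h' := by
      rw [hW, smul_smul, ← zpow_add₀ hp]
      norm_num
    rw [e]
    simp only [g, smul_smul]
    congr 1
    rw [zpow_two]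
    ring
  rw [hgS, ModularForm.SL_smul_slash, hgS, smul_smul] at hSS
  have hp2 : -(p : ℂ) * -(p : ℂ) - 1 ≠ 0 := by
    rw [neg_mul_neg, sub_ne_zero]
    exact_mod_cast (Nat.one_lt_mul_iff.mpr ⟨NeZero.pos p, NeZero.pos p, Or.inl (Fact.out : p.Prime).one_lt⟩).ne'
  have hg0 : g = 0 := by
    have e : (-(p : ℂ) * -(p : ℂ) - 1) • g = 0 := by rw [sub_smul, one_smul, hSS, sub_self]
    exact (smul_eq_zero.mp e).resolve_left hp2
  rw [← hdil, hg0]
  rfl

/-- The subalgebra generated by the operators at primes other than the level. -/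
def goodSub : Subalgebra ℤ (TAlg p) :=
  Algebra.adjoin ℤ {t | ∃ r : Nat.Primes, (r : ℕ) ≠ p ∧ tGen p r = t}

theorem tGen_mem_goodSub {r : Nat.Primes} (hr : (r : ℕ) ≠ p) : tGen p r ∈ goodSub p :=
  Algebra.subset_adjoin ⟨r, hr, rfl⟩

theorem hCoeff_mem_goodSub : ∀ n, ¬ p ∣ n → hCoeff p n ∈ goodSub p := by
  intro n
  induction n using Nat.strong_induction_on with
  | _ n ih =>
    intro hn
    rcases eq_or_ne n 1 with rfl | h1
    · rw [hCoeff_one]; exact one_mem _
    rcases Nat.eq_zero_or_pos n with rfl | hpos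
    · exact absurd (dvd_zero p) hn
    obtain ⟨r', hr', k, rfl⟩ := Nat.exists_prime_and_dvd h1
    obtain ⟨r, rfl⟩ : ∃ q : Nat.Primes, (q : ℕ) = r' := ⟨⟨r', hr'⟩, rfl⟩
    have hk : k < (r : ℕ) * k := lt_mul_of_one_lt_left (Nat.pos_of_mul_pos_left hpos) r.2.one_lt
    have hrp : (r : ℕ) ≠ p := fun h => hn (h ▸ dvd_mul_right _ _)
    have hkp : ¬ p ∣ k := fun h => hn (h.mul_left _)
    have h := tGen_mul_hCoeff p r k
    rw [if_neg hrp, mul_comm k] at h
    rw [eq_sub_of_add_eq h.symm]
    refine sub_mem (mul_mem (tGen_mem_goodSub p hrp) (ih k hk hkp)) ?_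
    split_ifs with hd
    · exact mul_mem (natCast_mem _ _) (ih _ ((Nat.div_le_self _ _).trans_lt hk)
        fun hd' => hkp (hd'.trans (Nat.div_dvd_of_dvd hd)))
    · exact zero_mem _

/-- **The operators away from the level have finite index.** -/
theorem exists_mul_mem_goodSub : ∃ M : ℤ, M ≠ 0 ∧ ∀ t : TAlg p, M • t ∈ goodSub p := by
  classical
  haveI := intLattice.moduleFinite p
  haveI := intLattice.moduleFree p
  haveI : Module.Finite ℤ (TAlg p) := FA.Period.moduleFinite_heckeAlgebra p 2 ∅
  haveI : Module.Free ℤ (TAlg p) := Module.free_of_finite_type_torsion_free'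
  set W : Submodule ℤ (TAlg p) := Subalgebra.toSubmodule (goodSub p)
  let φ : ↥(intLattice p 2) →ₗ[ℤ] (W →ₗ[ℤ] ℤ) :=
    (LinearMap.lcomp ℤ ℤ W.subtype).comp (pairT p).flip
  have hφ : Function.Injective φ := by
    rw [injective_iff_map_eq_zero]
    intro f hf
    have hz : ∀ n, ¬ p ∣ n → zCoeff n f = 0 := fun n hn => by
      rw [← pairT_hCoeff]
      exact LinearMap.congr_fun hf ⟨_, hCoeff_mem_goodSub p n hn⟩
    have h0 := eq_zero_of_supported p (isLv_of_cuspForm (f : CuspForm (Gamma0 p) 2)) fun n hn => by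
      rw [hasQ_unique (isLv_of_cuspForm (f : CuspForm (Gamma0 p) 2)).hasQ (hasQ_lattice f),
        coeff_toC, coeff_mk, hz n hn, Int.cast_zero]
    exact Subtype.ext (DFunLike.coe_injective h0)
  have hrank : Module.finrank ℤ W = Module.finrank ℤ (TAlg p) := by
    refine le_antisymm (Submodule.finrank_le W) ?_
    have h := LinearMap.finrank_le_finrank_of_injective hφ
    rwa [Module.finrank_linearMap_self, ← finrank_TAlg] at h
  have hq : Module.finrank ℤ (TAlg p ⧸ W) = 0 := by
    have h := Submodule.finrank_quotient_add_finrank W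
    omega
  set b := Module.Free.chooseBasis ℤ (TAlg p)
  haveI := Fintype.ofFinite (Module.Free.ChooseBasisIndex ℤ (TAlg p))
  choose d hd0 hd using fun i => Module.finrank_eq_zero_iff.mp hq (Submodule.Quotient.mk (b i))
  refine ⟨∏ i, d i, Finset.prod_ne_zero_iff.mpr fun i _ => hd0 i, fun t => ?_⟩
  show (∏ i, d i) • t ∈ W
  rw [← b.sum_repr t, Finset.smul_sum]
  refine W.sum_mem fun i _ => ?_
  rw [smul_comm]
  refine W.smul_mem _ ?_
  rw [← Finset.prod_erase_mul _ _ (Finset.mem_univ i), mul_smul]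
  refine W.smul_mem _ ?_
  have := hd i
  rwa [← Submodule.Quotient.mk_smul, Submodule.Quotient.mk_eq_zero] at this

end FA.Mazur

end
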