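import Fermat.Agent.Mazur.Dwork
import Mathlib.RingTheory.AdicCompletion.Basic
import Mathlib.LinearAlgebra.FreeModule.Finite.Basic
import Mathlib.Data.Nat.Prime.Basic
import Mathlib.Tactic.LinearCombination

/-!
# Functionals on a local Hecke algebra twisted by Frobenius

For a ring `O` with an automorphism `F` such that `F - 1` is surjective, and an algebra `R` with an
element `t` congruent to one up to nilpotents modulo `l`, we solve
`F (L x) = L (t x) - l F⁻¹ (L x)` for linear `L : R → O`.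
-/

set_option autoImplicit false

noncomputable section

namespace FA.Mazur

variable {Λ O R : Type} [CommRing Λ] [CommRing O] [Algebra Λ O] [CommRing R] [Algebra Λ R]
  (l : ℕ) (F : O ≃ₐ[Λ] O) (t : R)

/-- `L ↦ L ∘ (t - 1) - l F⁻¹ L`. -/
def twistN : Module.End Λ (R →ₗ[Λ] O) where
  toFun L := L.comp (LinearMap.mulLeft Λ (t - 1)) - (l : Λ) • F.symm.toLinearMap.comp L
  map_add' L M := by ext x; simp; ring
  map_smul' c L := by ext x; simp [smul_sub, smul_comm c (l : Λ)]

theorem twistN_apply (L : R →ₗ[Λ] O) (x : R) :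
    twistN l F t L x = L ((t - 1) * x) - (l : O) * F.symm (L x) := by
  simp [twistN, Algebra.smul_def]

theorem twistN_pow_congr (j : ℕ) (L : R →ₗ[Λ] O) (x : R) :
    (l : O) ∣ (twistN l F t ^ j) L x - L ((t - 1) ^ j * x) := by
  induction j generalizing x with
  | zero => simp
  | succ j ih =>
    rw [pow_succ' (twistN l F t), Module.End.mul_apply, twistN_apply, pow_succ, mul_assoc,
      show (twistN l F t ^ j) L ((t - 1) * x) - (l : O) * F.symm ((twistN l F t ^ j) L x) -
          L ((t - 1) ^ j * ((t - 1) * x)) =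
        ((twistN l F t ^ j) L ((t - 1) * x) - L ((t - 1) ^ j * ((t - 1) * x))) -
          (l : O) * F.symm ((twistN l F t ^ j) L x) by ring]
    exact dvd_sub (ih _) (dvd_mul_right _ _)

theorem twistN_pow_comm (j : ℕ) (L : R →ₗ[Λ] O) (x : R) :
    F ((twistN l F t ^ j) L x) = (twistN l F t ^ j) (F.toLinearMap.comp L) x := by
  induction j generalizing x with
  | zero => simp
  | succ j ih =>
    rw [pow_succ' (twistN l F t), Module.End.mul_apply, Module.End.mul_apply, twistN_apply,
      twistN_apply, map_sub, map_mul F, map_natCast, ih, ← ih x, F.apply_symm_apply,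
      F.symm_apply_apply]

variable (hF : ∀ c : O, ∃ x, F x - x = c)
include hF

/-- A section of `F - 1` compatible with divisibility by `l`. -/
theorem exists_section : ∃ S : O → O, (∀ c, F (S c) - S c = c) ∧
    ∀ c, (l : O) ∣ c → (l : O) ∣ S c := by
  classical
  choose S₀ hS₀ using hF
  refine ⟨fun c => if h : (l : O) ∣ c then (l : O) * S₀ h.choose else S₀ c, fun c => ?_, fun c h => ?_⟩
  · dsimp only
    split_ifs with h
    · rw [map_mul, map_natCast, ← mul_sub, hS₀]
      exact h.choose_spec.symm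
    · exact hS₀ c
  · simp only [dif_pos h]
    exact dvd_mul_right _ _

variable [Module.Free Λ R] [Module.Finite Λ R]

/-- A section on linear maps, prescribed at one vector. -/
theorem exists_section_linear (e : R →ₗ[Λ] Λ) (x₀ : R) (hx : e x₀ • x₀ = x₀) :
    ∃ S : (R →ₗ[Λ] O) → (R →ₗ[Λ] O), (∀ w x, F (S w x) - S w x = w x) ∧
      ∀ w, (l : O) ∣ w x₀ → (l : O) ∣ S w x₀ := by
  obtain ⟨S, hS, hSl⟩ := exists_section l F hF
  let b := Module.Free.chooseBasis Λ R
  let P : R →ₗ[Λ] R := LinearMap.id - (LinearMap.toSpanSingleton Λ R x₀).comp e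
  refine ⟨fun w => (LinearMap.toSpanSingleton Λ O (S (w x₀))).comp e +
    (b.constr Λ fun i => S (w (b i))).comp P, fun w x => ?_, fun w h => ?_⟩
  · have h2 : F.toLinearMap.comp (b.constr Λ fun i => S (w (b i))) -
        (b.constr Λ fun i => S (w (b i))) = w := b.ext fun i => by
      simp only [LinearMap.sub_apply, LinearMap.comp_apply, Module.Basis.constr_basis]
      exact hS (w (b i))
    have h3 := LinearMap.congr_fun h2 (P x)
    simp only [LinearMap.sub_apply, LinearMap.comp_apply] at h3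
    simp only [LinearMap.add_apply, LinearMap.comp_apply, LinearMap.toSpanSingleton_apply, map_add,
      map_smul]
    rw [show e x • F (S (w x₀)) + F ((b.constr Λ fun i => S (w (b i))) (P x)) -
        (e x • S (w x₀) + (b.constr Λ fun i => S (w (b i))) (P x)) =
      (e x • F (S (w x₀)) - e x • S (w x₀)) +
        (F.toLinearMap ((b.constr Λ fun i => S (w (b i))) (P x)) -
          (b.constr Λ fun i => S (w (b i))) (P x)) by simp; ring, h3, ← smul_sub, hS]
    simp [P]
  · have hP : P x₀ = 0 := by simp [P, hx]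
    simp only [LinearMap.add_apply, LinearMap.comp_apply, hP, map_zero, add_zero,
      LinearMap.toSpanSingleton_apply]
    exact (hSl _ h).trans (by rw [Algebra.smul_def]; exact dvd_mul_left _ _)

variable (K : ℕ) (ht : ∃ r, (t - 1) ^ K = (l : R) * r)
include ht

/-- One step of the approximation. -/
theorem exists_twist_approx (e : R →ₗ[Λ] Λ) (x₀ : R) (hx : e x₀ • x₀ = x₀)
    (hx₀ : ∃ r, (t - 1) * x₀ = (l : R) * r) (w : R →ₗ[Λ] O) :
    ∃ x w' : R →ₗ[Λ] O, (∀ y, F (x y) - x y - twistN l F t x y = w y - (l : O) * w' y) ∧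
      ((l : O) ∣ w x₀ → (l : O) ∣ x x₀) := by
  obtain ⟨S, hS, hSl⟩ := exists_section_linear l F hF e x₀ hx
  set N := twistN l F t
  let T : ℕ → (R →ₗ[Λ] O) := fun j => (N ^ j) (S^[j + 1] w)
  let U : ℕ → (R →ₗ[Λ] O) := fun j => (N ^ j) (S^[j] w)
  have hT : ∀ j y, F (T j y) - T j y - N (T j) y = U j y - U (j + 1) y := fun j y => by
    simp only [T, U]
    rw [twistN_pow_comm]
    have h : F.toLinearMap.comp (S^[j + 1] w) - S^[j + 1] w = S^[j] w := LinearMap.ext fun z => by
      rw [Function.iterate_succ_apply']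
      exact hS _ z
    rw [pow_succ' N j, Module.End.mul_apply, ← LinearMap.sub_apply, ← map_sub, h]
  obtain ⟨r, hr⟩ := ht
  have hK : ∀ y, (l : O) ∣ U K y := fun y => by
    have h := twistN_pow_congr l F t K (S^[K] w) y
    rw [hr, mul_assoc, ← nsmul_eq_mul, map_nsmul, nsmul_eq_mul] at h
    exact (dvd_sub_left (dvd_mul_right _ _)).mp h
  obtain ⟨w', hw'⟩ : ∃ w' : R →ₗ[Λ] O, ∀ y, U K y = (l : O) * w' y := by
    choose c hc using hK
    let b := Module.Free.chooseBasis Λ R
    refine ⟨b.constr Λ fun i => c (b i), fun y => ?_⟩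
    have h : U K = (l : Λ) • b.constr Λ fun i => c (b i) := b.ext fun i => by
      rw [LinearMap.smul_apply, Module.Basis.constr_basis, hc, Algebra.smul_def, map_natCast]
    rw [h, LinearMap.smul_apply, Algebra.smul_def, map_natCast]
  refine ⟨∑ j ∈ Finset.range K, T j, w', fun y => ?_, fun h => ?_⟩
  · simp only [LinearMap.sum_apply, map_sum, ← Finset.sum_sub_distrib, hT]
    rw [Finset.sum_range_sub' (fun j => U j y), hw']
    simp [U]
  · rw [LinearMap.sum_apply]
    refine Finset.dvd_sum fun j _ => ?_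
    rcases j with _ | j
    · simpa [T] using hSl w h
    · obtain ⟨r₀, hr₀⟩ := hx₀
      have h1 := twistN_pow_congr l F t (j + 1) (S^[j + 1 + 1] w) x₀
      rw [pow_succ (t - 1), mul_assoc, hr₀] at h1
      refine (dvd_sub_left ?_).mp h1
      rw [show (t - 1) ^ j * ((l : R) * r₀) = l • ((t - 1) ^ j * r₀) by rw [nsmul_eq_mul]; ring,
        map_nsmul, nsmul_eq_mul]
      exact dvd_mul_right _ _

omit ht in
/-- Convergence of successive approximations. -/
theorem exists_twist_solution [IsAdicComplete (Ideal.span {(l : O)}) O]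
    (ht : ∃ r, (t - 1) ^ K = (l : R) * r) (e : R →ₗ[Λ] Λ) (x₀ : R) (hx : e x₀ • x₀ = x₀)
    (hx₀ : ∃ r, (t - 1) * x₀ = (l : R) * r) (w : R →ₗ[Λ] O) :
    ∃ x : R →ₗ[Λ] O, (∀ y, F (x y) - x y - twistN l F t x y = w y) ∧
      ((l : O) ∣ w x₀ → (l : O) ∣ x x₀) := by
  choose X W hXW hX0 using exists_twist_approx l F t hF K ht e x₀ hx hx₀
  let ws : ℕ → (R →ₗ[Λ] O) := fun n => W^[n] w
  let xs : ℕ → (R →ₗ[Λ] O) := fun n => ∑ i ∈ Finset.range n, ((l : Λ) ^ i) • X (ws i)
  set I := Ideal.span {(l : O)}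
  have hsmul : ∀ (n : ℕ) (z : O), ((l : Λ) ^ n) • z = (l : O) ^ n * z := fun n z => by
    rw [Algebra.smul_def, map_pow, map_natCast]
  have hmem : ∀ (n : ℕ) (z : O), (l : O) ^ n * z ∈ (I ^ n • ⊤ : Submodule O O) := fun n z => by
    rw [Ideal.smul_eq_mul, Ideal.mul_top, Ideal.span_singleton_pow]
    exact Ideal.mem_span_singleton.mpr (dvd_mul_right _ _)
  have hcauchy : ∀ y, ∀ {m n : ℕ}, m ≤ n → xs m y ≡ xs n y [SMOD (I ^ m • ⊤ : Submodule O O)] := by
    intro y m n hmn
    rw [SModEq.sub_mem, ← neg_sub, neg_mem_iff, ← LinearMap.sub_apply]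
    simp only [xs]
    rw [← Finset.sum_Ico_eq_sub _ hmn, LinearMap.sum_apply]
    refine Submodule.sum_mem _ fun i hi => ?_
    rw [LinearMap.smul_apply, hsmul, show i = m + (i - m) by
      have := (Finset.mem_Ico.mp hi).1; omega, pow_add, mul_assoc]
    exact hmem m _
  let b := Module.Free.chooseBasis Λ R
  choose v hv using fun i => IsPrecomplete.prec (I := I) inferInstance
    (f := fun n => xs n (b i)) (fun h => hcauchy (b i) h)
  let x : R →ₗ[Λ] O := b.constr Λ v
  have hxs : ∀ n y, (l : O) ^ n ∣ x y - xs n y := by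
    intro n y
    rw [← b.sum_repr y, map_sum, map_sum, ← Finset.sum_sub_distrib]
    refine Finset.dvd_sum fun i _ => ?_
    rw [map_smul, map_smul, ← smul_sub, Algebra.smul_def]
    refine dvd_mul_of_dvd_right ?_ _
    have h := (hv i n).symm
    rw [SModEq.sub_mem, Ideal.smul_eq_mul, Ideal.mul_top, Ideal.span_singleton_pow,
      Ideal.mem_span_singleton] at h
    simpa [x] using h
  have heq : ∀ n y, F (xs n y) - xs n y - twistN l F t (xs n) y =
      w y - (l : O) ^ n * ws n y := by
    intro n y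
    induction n with
    | zero => simp [xs, ws]
    | succ n ih =>
      have h1 : xs (n + 1) = xs n + ((l : Λ) ^ n) • X (ws n) := Finset.sum_range_succ _ _
      rw [h1, map_add, LinearMap.add_apply, LinearMap.add_apply, map_smul, LinearMap.smul_apply,
        LinearMap.smul_apply, map_add, map_smul, hsmul, hsmul, hsmul]
      have h2 := hXW (ws n) y
      have h3 : ws (n + 1) = W (ws n) := Function.iterate_succ_apply' _ _ _
      rw [h3, pow_succ]
      linear_combination ih + (l : O) ^ n * h2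
  refine ⟨x, fun y => ?_, fun h => ?_⟩
  · rw [← sub_eq_zero]
    refine IsHausdorff.haus (I := I) inferInstance _ fun n => ?_
    rw [SModEq.zero, Ideal.smul_eq_mul, Ideal.mul_top, Ideal.span_singleton_pow,
      Ideal.mem_span_singleton]
    rw [show F (x y) - x y - twistN l F t x y - w y =
      (F (x y - xs n y) - (x y - xs n y) - twistN l F t (x - xs n) y) -
        (l : O) ^ n * ws n y by
      rw [map_sub, map_sub (twistN l F t), LinearMap.sub_apply]; linear_combination heq n y]
    refine dvd_sub (dvd_sub (dvd_sub ?_ (hxs n y)) ?_) (dvd_mul_right _ _)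
    · simpa using map_dvd F (hxs n y)
    · rw [twistN_apply, LinearMap.sub_apply, LinearMap.sub_apply]
      refine dvd_sub (hxs n _) (dvd_mul_of_dvd_right ?_ _)
      simpa using map_dvd F.symm (hxs n y)
  · have h1 := hxs 1 x₀
    rw [pow_one] at h1
    refine (dvd_sub_left ?_).mp h1
    simpa [xs, ws] using hX0 w h

omit ht in
/-- **Twisted functionals exist**, with prescribed value modulo `l` at a vector killed by
`t - 1`. -/
theorem exists_twist [IsAdicComplete (Ideal.span {(l : O)}) O]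
    (ht : ∃ r, (t - 1) ^ K = (l : R) * r) (e : R →ₗ[Λ] Λ) (x₀ : R) (hx : e x₀ • x₀ = x₀)
    (hx₀ : ∃ r, (t - 1) * x₀ = (l : R) * r) :
    ∃ L : R →ₗ[Λ] O, (∀ y, F (L y) = L (t * y) - (l : O) * F.symm (L y)) ∧
      ((l : O) ∣ L x₀ - algebraMap Λ O (e x₀)) ∧
      ((∀ y, (l : Λ) ∣ e ((t - 1) * y)) → ∀ y, (l : O) ∣ L y - algebraMap Λ O (e y)) := by
  set e' : R →ₗ[Λ] O := (Algebra.linearMap Λ O).comp e
  have hFe : ∀ y, F (e' y) = e' y := fun y => F.commutes (e y)
  have hfix : ∀ {x : R →ₗ[Λ] O}, (∀ y, F (x y) - x y - twistN l F t x y = twistN l F t e' y) →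
      ∀ y, F ((e' + x) y) = (e' + x) (t * y) - (l : O) * F.symm ((e' + x) y) := fun {x} h y => by
    have h1 := h y
    rw [twistN_apply, twistN_apply, sub_mul, one_mul, map_sub, map_sub] at h1
    rw [LinearMap.add_apply, LinearMap.add_apply, map_add, map_add, hFe y]
    linear_combination h1
  by_cases hall : ∀ y, (l : Λ) ∣ e ((t - 1) * y)
  · -- the correction is divisible everywhere
    choose c hc using hall
    let b := Module.Free.chooseBasis Λ R
    let w₀ : R →ₗ[Λ] O := b.constr Λ (fun i => algebraMap Λ O (c (b i))) -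
      F.symm.toLinearMap.comp e'
    have hw : ∀ y, twistN l F t e' y = (l : O) * w₀ y := by
      have h : twistN l F t e' = (l : Λ) • w₀ := b.ext fun i => by
        rw [twistN_apply, LinearMap.smul_apply, Algebra.smul_def, map_natCast]
        simp only [w₀, LinearMap.sub_apply, Module.Basis.constr_basis, LinearMap.comp_apply,
          e', Algebra.linearMap_apply]
        rw [hc, map_mul, map_natCast, mul_sub]
        rfl
      intro y
      rw [h, LinearMap.smul_apply, Algebra.smul_def, map_natCast]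
    obtain ⟨x, hx', -⟩ := exists_twist_solution l F t hF K ht e x₀ hx hx₀ w₀
    refine ⟨e' + (l : Λ) • x, hfix (fun y => ?_), ?_, fun _ y => ?_⟩
    · rw [hw, map_smul, LinearMap.smul_apply, LinearMap.smul_apply, map_smul, ← hx' y]
      simp [Algebra.smul_def, mul_sub]
    all_goals simp [e', Algebra.smul_def]
  · obtain ⟨x, hx', hdvd⟩ := exists_twist_solution l F t hF K ht e x₀ hx hx₀ (twistN l F t e')
    refine ⟨e' + x, hfix hx', ?_, fun h => absurd h hall⟩
    have h0 : (l : O) ∣ twistN l F t e' x₀ := by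
      obtain ⟨r, hr⟩ := hx₀
      rw [twistN_apply, hr, ← nsmul_eq_mul, map_nsmul, nsmul_eq_mul]
      exact dvd_sub (dvd_mul_right _ _) (dvd_mul_right _ _)
    simpa [e'] using hdvd h0

omit hF ht in
omit [Module.Free Λ R] [Module.Finite Λ R] in
/-- The congruence between coefficients in the progression of `l`. -/
theorem twist_congr (hl : 1 < l) (L : R →ₗ[Λ] O)
    (hL : ∀ y, F (L y) = L (t * y) - (l : O) * F.symm (L y)) (a : ℕ → R)
    (h1 : ∀ m, l ∣ m → a (l * m) = t * a m - (l : R) * a (m / l))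
    (h2 : ∀ m, ¬ l ∣ m → a (l * m) = t * a m) (m : ℕ) :
    ∀ k, l ^ k ∣ m → (l : O) ^ (k + 1) ∣ L (a (l * m)) - F (L (a m)) := by
  intro k
  induction k generalizing m with
  | zero =>
    intro _
    rw [pow_one, hL (a m)]
    by_cases hm : l ∣ m
    · rw [h1 m hm, map_sub, ← nsmul_eq_mul, map_nsmul, nsmul_eq_mul]
      rw [show L (t * a m) - (l : O) * L (a (m / l)) - (L (t * a m) - (l : O) * F.symm (L (a m))) =
        (l : O) * (F.symm (L (a m)) - L (a (m / l))) by ring]
      exact dvd_mul_right _ _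
    · rw [h2 m hm, sub_sub_cancel]
      exact dvd_mul_right _ _
  | succ k ih =>
    intro hm
    have hlm : l ∣ m := dvd_trans (dvd_pow_self l k.succ_ne_zero) hm
    obtain ⟨m', rfl⟩ := hlm
    rw [h1 (l * m') (dvd_mul_right _ _), Nat.mul_div_cancel_left m' (by omega), map_sub,
      ← nsmul_eq_mul, map_nsmul, nsmul_eq_mul, hL (a (l * m'))]
    have h := map_dvd F.symm (ih m' (by rwa [pow_succ', Nat.mul_dvd_mul_iff_left (by omega)] at hm))
    rw [map_pow, map_natCast, map_sub, F.symm_apply_apply] at h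
    rw [show L (t * a (l * m')) - (l : O) * L (a m') -
        (L (t * a (l * m')) - (l : O) * F.symm (L (a (l * m')))) =
      (l : O) * (F.symm (L (a (l * m'))) - L (a m')) by ring, pow_succ' (l : O) (k + 1)]
    exact mul_dvd_mul_left _ h

end FA.Mazur

namespace FA.Mazur

open PowerSeries in
/-- The integral of the twisted series. -/
def twistPrimitive {K : Type} [Field K] (c : ℕ → K) : K⟦X⟧ :=
  PowerSeries.mk fun n => c n / n

/-- **Integrality of the twisted exponential.** -/
theorem expSeries_twist_mem {K : Type} [Field K] [CharZero K] {l : ℕ} (hl : l.Prime)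
    (O : Subring K) (φ : K →+* K) (hφO : ∀ x ∈ O, φ x ∈ O)
    (hφl : ∀ x ∈ O, ∃ y ∈ O, φ x - x ^ l = (l : K) * y)
    (hinv : ∀ k : ℕ, ¬ l ∣ k → ((k : K))⁻¹ ∈ O) (c : ℕ → K) (hc : ∀ n, c n ∈ O)
    (hcong : ∀ m k, l ^ k ∣ m → ∃ y ∈ O, c (l * m) - φ (c m) = (l : K) ^ (k + 1) * y) :
    ∀ n, PowerSeries.coeff n (expSeries (twistPrimitive c)) ∈ O := by
  have hl0 : (l : K) ≠ 0 := Nat.cast_ne_zero.mpr hl.ne_zero
  refine expSeries_mem_of_dwork hl O φ hφO hφl hinv (by simp [twistPrimitive]) fun n => ?_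
  rw [map_sub, coeff_expand_aux hl.ne_zero, ← map_natCast PowerSeries.C, PowerSeries.coeff_C_mul]
  simp only [twistPrimitive, PowerSeries.coeff_map, PowerSeries.coeff_mk, map_div₀, map_natCast]
  rcases Nat.eq_zero_or_pos n with rfl | hn
  · exact ⟨0, O.zero_mem, by simp⟩
  obtain ⟨a, b, hb, hab⟩ : ∃ a b : ℕ, ¬ l ∣ b ∧ n = l ^ a * b :=
    ⟨_, _, Nat.not_dvd_ordCompl hl hn.ne', (Nat.ordProj_mul_ordCompl_eq_self n l).symm⟩
  have hb0 : (b : K) ≠ 0 := Nat.cast_ne_zero.mpr fun h => hb (h ▸ dvd_zero l)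
  rcases a with _ | a
  · rw [pow_zero, one_mul] at hab
    subst hab
    refine ⟨-(c n * (n : K)⁻¹), O.neg_mem (O.mul_mem (hc n) (hinv n hb)), ?_⟩
    rw [if_neg hb]
    field_simp
    ring
  · have hn' : n = l * (l ^ a * b) := by rw [hab, pow_succ]; ring
    obtain ⟨y, hy, he⟩ := hcong (l ^ a * b) a (dvd_mul_right _ _)
    refine ⟨-(y * (b : K)⁻¹), O.neg_mem (O.mul_mem hy (hinv b hb)), ?_⟩
    rw [hn', if_pos (dvd_mul_right _ _), Nat.mul_div_cancel_left _ hl.pos]
    push_cast
    field_simp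
    linear_combination (-1 : K) * he

end FA.Mazur
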