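import Fermat.Agent.Mazur.DiscGalois
import Fermat.Agent.Mazur.CuspResidue
import Fermat.Agent.Mazur.GoodOps
import Fermat.Agent.Mazur.EisReduce
import Fermat.Agent.Mazur.Twist

/-!
# The exponentials of twisted functionals on the disc at infinity

A twisted functional on the Eisenstein factor gives a homomorphism from the disc classes to the
units of `ℂ_l`, equivariant for inertia and for the operators away from the level.
-/

set_option autoImplicit false
set_option linter.style.haveILetI false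
set_option linter.unusedSectionVars false

noncomputable section

namespace FA.Mazur

open ModularCurve AlgebraicCurve FA.Curve FA.CurveRed FA.ModField FA.Level FA.JTorsion
open HahnSeries (ofPowerSeries)

set_option synthInstance.maxHeartbeats 400000
set_option maxHeartbeats 4000000

local notation "Qb" => AlgebraicClosure ℚ
local notation "GQ" => AlgebraicClosure ℚ ≃ₐ[ℚ] AlgebraicClosure ℚ

variable {p : ℕ} [Fact p.Prime] {l : ℕ} [hl : Fact l.Prime]
  [Algebra (AlgebraicClosure ℚ) ℂ] [Algebra (AlgebraicClosure ℚ) (PadicComplex l)]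

theorem order_coeffMap_complex (x : LaurentSeries Qb) :
    (coeffMap (algebraMap Qb ℂ) x).order = x.order := by
  rcases eq_or_ne x 0 with rfl | hx
  · simp
  have hne : coeffMap (algebraMap Qb ℂ) x ≠ 0 := fun h => hx (HahnSeries.ext (funext fun n => by
    have := congrArg (fun s : LaurentSeries ℂ => s.coeff n) h
    simp only [coeffMap_coeff, HahnSeries.coeff_zero] at this
    rw [HahnSeries.coeff_zero]
    exact (map_eq_zero _).mp this))
  refine le_antisymm (HahnSeries.order_le_of_coeff_ne_zero ?_)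
    (HahnSeries.order_le_of_coeff_ne_zero ?_)
  · rw [coeffMap_coeff, ne_eq, map_eq_zero]
    exact HahnSeries.coeff_order_eq_zero.not.mpr hx
  · have := HahnSeries.coeff_order_eq_zero.not.mpr hne
    rw [coeffMap_coeff, map_eq_zero] at this
    exact this

theorem order_upper_jF :
    ((lvlGamma0 p).jF Qb : LaurentSeries Qb).order = -1 ∧
      ((lvlGamma0 p).sepF Qb : LaurentSeries Qb).order = -(p : ℤ) := by
  constructor
  · show (((lvlGamma0 p).jA Qb : (lvlGamma0 p).alg Qb) : LaurentSeries Qb).order = -1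
    rw [Lvl.coe_jA, ← order_coeffMap_complex, coeffMap_jqModC]
    simpa [qExpand_one_apply, twist_one_apply] using order_qExpand_twist_jq 1 1
  · show (coeffEmb Qb (qExpand ℚ p jq)).order = -(p : ℤ)
    have e : coeffEmb Qb (qExpand ℚ p jq) = qExpand Qb p (jqModC Qb) := by
      show coeffMap (algebraMap ℚ Qb) _ = _
      rw [coeffMap_qExpand, ← jqModC_rat, coeffMap_jqModC]
    rw [e, ← order_coeffMap_complex, coeffMap_qExpand, coeffMap_jqModC]
    simpa [twist_one_apply] using order_qExpand_twist_jq p 1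

/-- A function regular outside the cusp of the disc has poles only at `∞`. -/
theorem isInftyPole_of_cusp {f : upField (L := Qb) p}
    (hf : ∀ P, P ≠ discPlace p (isEmbAt_placeAt l) t0 → AtLeast P 0 f) :
    IsInftyPole p (L := Qb) f := by
  intro v hv
  refine hf v fun h => ?_
  subst h
  rcases hv with h1 | h1
  · exact h1 ((ord_cusp (isEmbAt_placeAt l) _).trans order_upper_jF.1)
  · exact h1 ((ord_cusp (isEmbAt_placeAt l) _).trans order_upper_jF.2)

/-- **A series of Hecke coefficients pairs to zero with functions regular outside `∞`.** -/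
theorem coeff_zero_mul_functional {K : Type} [Field K] [CharZero K] [Algebra Qb K]
    {f : upField (L := Qb) p} (hf : IsInftyPole p (L := Qb) f) (ψ : TAlg p →+ K) :
    (coeffMap (algebraMap Qb K) (f : LaurentSeries Qb) *
      ofPowerSeries ℤ K (PowerSeries.mk fun n => ψ (hCoeff p n))).coeff 0 = 0 := by
  classical
  obtain ⟨D, hD, hform⟩ := exists_form_of_functional p
  haveI : Module.Finite ℤ (TAlg p) := FA.Period.moduleFinite_heckeAlgebra p 2 ∅
  haveI : Module.Free ℤ (TAlg p) := Module.free_of_finite_type_torsion_free'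
  set b := Module.Free.chooseBasis ℤ (TAlg p)
  haveI := Fintype.ofFinite (Module.Free.ChooseBasisIndex ℤ (TAlg p))
  choose g hg using fun i => hform (b.coord i)
  have key : ∀ i, (coeffMap (algebraMap Qb K) (f : LaurentSeries Qb) *
      ofPowerSeries ℤ K (PowerSeries.mk fun n => (FA.Eis.zCoeff n (g i) : K))).coeff 0 = 0 := by
    intro i
    have h := congrArg (algebraMap Qb K) (coeff_zero_mul_lattice hf (g i))
    rw [map_zero, ← coeffMap_coeff, map_mul, coeffMap_ofPowerSeries] at h
    convert h using 4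
    ext n
    rw [PowerSeries.coeff_map, PowerSeries.coeff_mk, PowerSeries.coeff_mk, map_intCast]
  have hser : ofPowerSeries ℤ K (PowerSeries.mk fun n => ψ (hCoeff p n)) =
      ∑ i, HahnSeries.C (ψ (b i) / (D : K)) *
        ofPowerSeries ℤ K (PowerSeries.mk fun n => (FA.Eis.zCoeff n (g i) : K)) := by
    simp only [← HahnSeries.ofPowerSeries_C, ← map_mul, ← map_sum]
    congr 1
    ext n
    rw [map_sum]
    simp only [PowerSeries.coeff_C_mul, PowerSeries.coeff_mk]
    conv_lhs => rw [← b.sum_repr (hCoeff p n), map_sum]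
    refine Finset.sum_congr rfl fun i _ => ?_
    rw [← pairT_hCoeff, hg i, map_zsmul, zsmul_eq_mul, b.coord_apply, Int.cast_mul]
    field_simp [Int.cast_ne_zero.2 hD]
  rw [hser, Finset.mul_sum, HahnSeries.coeff_sum]
  refine Finset.sum_eq_zero fun i _ => ?_
  rw [mul_left_comm, HahnSeries.C_mul_eq_smul, HahnSeries.coeff_smul, key, smul_zero]

variable (hn : l ∣ eisensteinNumerator p)

/-- The operator at `l`. -/
def tEll : EisR p l hn := heckeR p l hn (tGen p ⟨l, hl.out⟩)

variable (p l) in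
/-- The functionals twisted by Frobenius. -/
def twistSub : Submodule ℤ_[l] (EisR p l hn →ₗ[ℤ_[l]] intO l) where
  carrier := {L | ∀ y, frobO l (L y) =
    L (tEll hn * y) - (l : intO l) * (frobO l).symm (L y)}
  zero_mem' y := by simp
  add_mem' {L M} hL hM y := by
    rw [LinearMap.add_apply, map_add, hL y, hM y, LinearMap.add_apply, map_add]; ring
  smul_mem' c L hL y := by
    rw [LinearMap.smul_apply, map_smul, hL y, LinearMap.smul_apply, map_smul, smul_sub,
      mul_smul_comm]

/-- Composition with a multiplication preserves twists. -/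
def twistMul (r : EisR p l hn) (L : twistSub p l hn) : twistSub p l hn :=
  ⟨(L : EisR p l hn →ₗ[ℤ_[l]] intO l).comp (LinearMap.mulLeft ℤ_[l] r), fun y => by
    simp only [LinearMap.comp_apply, LinearMap.mulLeft_apply]
    rw [L.2, mul_left_comm]⟩

theorem twistMul_apply (r : EisR p l hn) (L : twistSub p l hn) (y : EisR p l hn) :
    (twistMul hn r L : EisR p l hn →ₗ[ℤ_[l]] intO l) y =
      (L : EisR p l hn →ₗ[ℤ_[l]] intO l) (r * y) := rfl

/-- The coefficients of a twist. -/
def twC (L : twistSub p l hn) (n : ℕ) : Cl l :=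
  ((L : EisR p l hn →ₗ[ℤ_[l]] intO l) (heckeR p l hn (hCoeff p n)) : intO l)

variable (hlp : ¬ l ∣ p)
include hlp

theorem ne_level : l ≠ p := fun h => hlp (h ▸ dvd_rfl)

theorem hCoeff_ell (m : ℕ) :
    (l ∣ m → heckeR p l hn (hCoeff p (l * m)) = tEll hn * heckeR p l hn (hCoeff p m) -
      (l : EisR p l hn) * heckeR p l hn (hCoeff p (m / l))) ∧
    (¬ l ∣ m → heckeR p l hn (hCoeff p (l * m)) = tEll hn * heckeR p l hn (hCoeff p m)) := by
  have h := congrArg (heckeR p l hn) (tGen_mul_hCoeff p ⟨l, hl.out⟩ m)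
  simp only [map_mul, map_add, if_neg (ne_level hlp), apply_ite (heckeR p l hn), map_zero,
    map_natCast] at h
  rw [mul_comm l m]
  constructor
  · intro hm
    rw [if_pos hm] at h
    rw [tEll, h, add_sub_cancel_right]
  · intro hm
    rw [if_neg hm, add_zero] at h
    rw [tEll, h]

theorem coeff_expSeries_twC_mem (L : twistSub p l hn) (n : ℕ) :
    PowerSeries.coeff n (expSeries (twistPrimitive (twC hn L))) ∈ intO l := by
  refine expSeries_twist_mem hl.out (intO l) (galExt (frobEl_mem l))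
    (fun x hx => galExt_mem_intO _ hx) (fun x hx => ?_) (fun k hk => natCast_inv_mem hk) _
    (fun n => ((L : EisR p l hn →ₗ[ℤ_[l]] intO l) _).2) (fun m k hk => ?_) n
  · obtain ⟨y, hy⟩ :=
      (resO_eq_zero_iff l (frobO l (⟨x, hx⟩ : intO l) - (⟨x, hx⟩ : intO l) ^ l)).1
      (by rw [map_sub, resO_frobO, map_pow, sub_self])
    exact ⟨y, y.2, by simpa [coe_frobO] using congrArg Subtype.val hy⟩
  · obtain ⟨y, hy⟩ := twist_congr l (frobO l) (tEll hn) hl.out.one_lt
      (L : EisR p l hn →ₗ[ℤ_[l]] intO l) L.2 (fun n => heckeR p l hn (hCoeff p n))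
      (fun m => (hCoeff_ell hn hlp m).1) (fun m => (hCoeff_ell hn hlp m).2) m k hk
    exact ⟨y, y.2, by simpa [twC, coe_frobO] using congrArg Subtype.val hy⟩

/-- The exponential series of a twist. -/
def twE (L : twistSub p l hn) : PowerSeries (unitBall (Cl l)) :=
  PowerSeries.mk fun n => ⟨PowerSeries.coeff n (expSeries (twistPrimitive (twC hn L))),
    norm_le_one_of_intO (coeff_expSeries_twC_mem hn hlp L n)⟩

theorem map_twE (L : twistSub p l hn) :
    PowerSeries.map (unitBall (Cl l)).subtype (twE hn hlp L) =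
      expSeries (twistPrimitive (twC hn L)) := by
  ext n
  simp [twE]

omit hlp in
theorem constantCoeff_twistPrimitive (c : ℕ → Cl l) :
    PowerSeries.constantCoeff (twistPrimitive c) = 0 := by
  rw [← PowerSeries.coeff_zero_eq_constantCoeff_apply, twistPrimitive, PowerSeries.coeff_mk]
  simp

theorem isExpOf_twE (L : twistSub p l hn) :
    IsExpOf (twistPrimitive (twC hn L))
      (PowerSeries.map (unitBall (Cl l)).subtype (twE hn hlp L)) := by
  rw [map_twE]
  exact isExpOf_expSeries (constantCoeff_twistPrimitive _)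

theorem constantCoeff_twE (L : twistSub p l hn) :
    PowerSeries.constantCoeff (twE hn hlp L) = 1 := by
  refine Subtype.ext ?_
  have h := (isExpOf_twE hn hlp L).1
  rw [← PowerSeries.coeff_zero_eq_constantCoeff_apply, PowerSeries.coeff_map,
    PowerSeries.coeff_zero_eq_constantCoeff_apply] at h
  exact h

theorem map_galBall_twE (L : twistSub p l hn) {σ : GQ} (hσ : σ ∈ inGp l) :
    PowerSeries.map (galBall (inGp_le l hσ)) (twE hn hlp L) = twE hn hlp L := by
  ext n
  rw [PowerSeries.coeff_map, coe_galBall, twE, PowerSeries.coeff_mk]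
  exact galExt_intO_fix (coeff_expSeries_twC_mem hn hlp L n) hσ

theorem twE_add (L M : twistSub p l hn) :
    twE hn hlp (L + M) = twE hn hlp L * twE hn hlp M := by
  refine PowerSeries.map_injective (unitBall (Cl l)).subtype Subtype.val_injective ?_
  refine (isExpOf_twE hn hlp (L + M)).unique ?_
  rw [map_mul]
  convert (isExpOf_twE hn hlp L).mul (isExpOf_twE hn hlp M) using 1
  ext n
  simp only [twistPrimitive, twC, PowerSeries.coeff_mk, map_add, Submodule.coe_add,
    LinearMap.add_apply, Subring.coe_add, add_div]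

theorem isCuspExp_twE (L : twistSub p l hn) :
    IsCuspExp (N := p) (isEmbAt_placeAt l) (twE hn hlp L) := by
  refine ⟨twistPrimitive (twC hn L), constantCoeff_twistPrimitive _, map_twE hn hlp L,
    fun f hf => ?_⟩
  have e : FA.ModField.thetaFun (ofPowerSeries ℤ (Cl l) (twistPrimitive (twC hn L))) =
      ofPowerSeries ℤ (Cl l) (PowerSeries.mk fun n =>
        ((intO l).subtype.toAddMonoidHom.comp
          ((L : EisR p l hn →ₗ[ℤ_[l]] intO l).toAddMonoidHom.comp
            (heckeR p l hn).toAddMonoidHom)) (hCoeff p n)) := by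
    ext n
    rw [FA.ModField.thetaFun_coeff, PowerSeries.coeff_coe, PowerSeries.coeff_coe]
    split_ifs with h
    · rw [mul_zero]
    · lift n to ℕ using not_lt.1 h with m
      rw [Int.natAbs_natCast, twistPrimitive, PowerSeries.coeff_mk, PowerSeries.coeff_mk,
        Int.cast_natCast]
      show (m : Cl l) * (twC hn L m / m) = twC hn L m
      rcases Nat.eq_zero_or_pos m with rfl | hm
      · simp [twC, hCoeff_zero]
      · rw [mul_div_cancel₀ _ (Nat.cast_ne_zero.2 hm.ne')]
  rw [e]
  exact coeff_zero_mul_functional (isInftyPole_of_cusp hf) _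

/-- The disc classes. -/
abbrev discJ : AddSubgroup (JZero p) := discClasses (locRed l p hlp)

/-- **The exponentials of twists on the disc classes.** -/
def discExp : twistSub p l hn →+ discJ (l := l) hlp →+ Additive (Cl l)ˣ :=
  AddMonoidHom.mk' (fun L => expMap (isEmbAt_placeAt l) (isSeriesRed_locRed l p hlp)
      (isFunctionField_locRed l p hlp) (isCuspExp_twE hn hlp L)) fun L M =>
    AddMonoidHom.ext fun ⟨x, hx⟩ => by
      obtain ⟨D, hD, rfl⟩ := id hx
      rw [AddMonoidHom.add_apply, expMap_mk _ _ _ _ D hD, expMap_mk _ _ _ _ D hD,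
        expMap_mk _ _ _ _ D hD, ← AddMonoidHom.add_apply]
      congr 1
      refine Finsupp.addHom_ext fun P n => ?_
      rw [AddMonoidHom.add_apply, discU_single, discU_single, discU_single, ← zsmul_add,
        ← ofMul_mul]
      congr 2
      by_cases h : ∃ t, discPlace p (isEmbAt_placeAt l) t = P
      · obtain ⟨t, rfl⟩ := h
        rw [placeVal_discPlace, placeVal_discPlace, placeVal_discPlace]
        refine Units.ext ?_
        rw [Units.val_mul, valUnit_coe (constantCoeff_twE hn hlp _),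
          valUnit_coe (constantCoeff_twE hn hlp _), valUnit_coe (constantCoeff_twE hn hlp _),
          ← MulMemClass.coe_mul, ← map_mul, twE_add]
      · rw [placeVal, placeVal, placeVal, dif_neg h, dif_neg h, dif_neg h, mul_one]

theorem discExp_mk (L : twistSub p l hn) (D : Divisor.degZero (K := Qb) (F := upField (L := Qb) p))
    (hD : IsDiscDiv (locRed l p hlp) (D : Divisor Qb (upField (L := Qb) p))) :
    discExp hn hlp L ⟨Pic0.mk D, ⟨D, hD, rfl⟩⟩ =
      discU (isEmbAt_placeAt l) (twE hn hlp L) (D : Divisor Qb (upField (L := Qb) p)) :=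
  expMap_mk (isEmbAt_placeAt l) (isSeriesRed_locRed l p hlp) (isFunctionField_locRed l p hlp)
    (isCuspExp_twE hn hlp L) D hD

omit hn in
theorem discClass_mem_discJ (t : Param Qb (Cl l)) :
    discClass (isEmbAt_placeAt l) t ∈ discJ (p := p) hlp :=
  discClass_mem (isEmbAt_placeAt l) (isSeriesRed_locRed l p hlp) (isFunctionField_locRed l p hlp) t

theorem discExp_discClass (L : twistSub p l hn) (t : Param Qb (Cl l)) :
    discExp hn hlp L ⟨discClass (isEmbAt_placeAt l) t, discClass_mem_discJ hlp t⟩ =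
      Additive.ofMul (valUnit (twE hn hlp L) t) :=
  expMap_discClass (isEmbAt_placeAt l) (isSeriesRed_locRed l p hlp)
    (isFunctionField_locRed l p hlp) (isCuspExp_twE hn hlp L) t

/-- **Inertia acts through its action on values.** -/
theorem discExp_inertia (L : twistSub p l hn) {σ : GQ} (hσ : σ ∈ inGp l)
    {x : JZero p} (hx : x ∈ discJ hlp) :
    discExp hn hlp L ⟨σ • x, smul_mem_discClasses l p hlp (inGp_le l hσ) hx⟩ =
      MonoidHom.toAdditive (Units.map (galExt (inGp_le l hσ)).toMonoidHom)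
        (discExp hn hlp L ⟨x, hx⟩) := by
  classical
  obtain ⟨D, hD, rfl⟩ := id hx
  have hD' : IsDiscDiv (locRed l p hlp)
      ((SemilinearAut.degZeroSMulHom (galAut p Qb σ) D : Divisor.degZero) :
        Divisor Qb (upField (L := Qb) p)) := by
    intro P hP
    change (galAut p Qb σ • (D : Divisor Qb (upField (L := Qb) p))) P ≠ 0 at hP
    rw [SemilinearAut.divisor_smul_def] at hP
    obtain ⟨Q, hQ, rfl⟩ := Finset.mem_image.1
      (Finsupp.mapDomain_support (Finsupp.mem_support_iff.2 hP))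
    obtain ⟨t, rfl⟩ := exists_param_of_spl (isEmbAt_placeAt l) (isSeriesRed_locRed l p hlp)
      (isFunctionField_locRed l p hlp) (hD Q (Finsupp.mem_support_iff.1 hQ))
    rw [gal_discPlace p (inGp_le l hσ)]
    exact spl_discPlace (isEmbAt_placeAt l) (isSeriesRed_locRed l p hlp)
      (isFunctionField_locRed l p hlp) _
  have e : σ • (Pic0.mk D : JZero p) =
      Pic0.mk (SemilinearAut.degZeroSMulHom (galAut p Qb σ) D) := by
    rw [galois_smul_pic0_def, SemilinearAut.pic0_smul_mk]
    rfl
  have h1 := discU_gal p (inGp_le l hσ) (constantCoeff_twE hn hlp L)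
    (D : Divisor Qb (upField (L := Qb) p))
  rw [map_galBall_twE hn hlp L hσ, ← discExp_mk hn hlp L D hD] at h1
  rw [← h1]
  refine Eq.trans ?_ (discExp_mk hn hlp L _ hD')
  congr 1

omit hn in
/-- The disc classes are generated by those of the disc parameters. -/
theorem discJ_le_closure : discJ (p := p) (l := l) hlp ≤
    AddSubgroup.closure (Set.range fun t : Param Qb (Cl l) =>
      (discClass (isEmbAt_placeAt l) t : JZero p)) := by
  classical
  rintro x ⟨D, hD, rfl⟩
  set F : Place Qb (upField (L := Qb) p) → Divisor.degZero (K := Qb) (F := upField (L := Qb) p) :=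
    fun P => ⟨Finsupp.single P 1 - Finsupp.single (discPlace p (isEmbAt_placeAt l) t0) 1, by
      simp [Divisor.mem_degZero, (isFunctionField_up (L := Qb) p).deg_eq_one]⟩
  have e : D = ∑ P ∈ (D : Divisor Qb (upField (L := Qb) p)).support,
      (D : Divisor Qb (upField (L := Qb) p)) P • F P := by
    have hdeg : ∑ P ∈ (D : Divisor Qb (upField (L := Qb) p)).support,
        (D : Divisor Qb (upField (L := Qb) p)) P = 0 := by
      have := D.2
      rw [Divisor.mem_degZero] at this
      simpa [Divisor.degree, Finsupp.sum, (isFunctionField_up (L := Qb) p).deg_eq_one] using this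
    refine Subtype.ext ?_
    rw [AddSubmonoidClass.coe_finsetSum]
    simp only [AddSubgroupClass.coe_zsmul, F, smul_sub, Finsupp.smul_single, smul_eq_mul, mul_one,
      Finset.sum_sub_distrib, ← Finsupp.single_finsetSum, hdeg, Finsupp.single_zero, sub_zero]
    exact (Finsupp.sum_single (D : Divisor Qb (upField (L := Qb) p))).symm
  rw [e, show (Pic0.mk : Divisor.degZero → JZero p) = ⇑(QuotientAddGroup.mk' _) from rfl, map_sum]
  refine sum_mem fun P hP => ?_
  rw [map_zsmul]
  refine zsmul_mem ?_ _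
  obtain ⟨t, rfl⟩ := exists_param_of_spl (isEmbAt_placeAt l) (isSeriesRed_locRed l p hlp)
    (isFunctionField_locRed l p hlp) (hD P (Finsupp.mem_support_iff.1 hP))
  exact AddSubgroup.subset_closure ⟨t, rfl⟩

omit hn hlp in
/-- Two homomorphisms related along an endomorphism on generators. -/
theorem exists_apply_eq_of_generators {A B ι : Type*} [AddCommGroup A] [AddCommGroup B]
    {S : AddSubgroup A} (T : A →+ A) (f g : S →+ B) (G : ι → A)
    (hS : S ≤ AddSubgroup.closure (Set.range G)) (hG : ∀ i, G i ∈ S)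
    (h : ∀ i, ∃ hi : T (G i) ∈ S, f ⟨_, hi⟩ = g ⟨G i, hG i⟩) {x : A} (hx : x ∈ S) :
    ∃ hT : T x ∈ S, f ⟨_, hT⟩ = g ⟨x, hx⟩ := by
  suffices ∀ hx : x ∈ S, ∃ hT : T x ∈ S, f ⟨_, hT⟩ = g ⟨x, hx⟩ from this hx
  suffices x ∈ S ∧ ∀ hx : x ∈ S, ∃ hT : T x ∈ S, f ⟨_, hT⟩ = g ⟨x, hx⟩ from this.2
  refine AddSubgroup.closure_induction (p := fun x _ => x ∈ S ∧
    ∀ hx : x ∈ S, ∃ hT : T x ∈ S, f ⟨_, hT⟩ = g ⟨x, hx⟩) ?_ ?_ ?_ ?_ (hS hx)
  · rintro _ ⟨i, rfl⟩
    exact ⟨hG i, fun _ => h i⟩
  · refine ⟨zero_mem _, fun _ => ⟨by rw [map_zero]; exact zero_mem _, ?_⟩⟩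
    rw [show (⟨T 0, _⟩ : S) = 0 from Subtype.ext (map_zero T),
      show (⟨(0 : A), _⟩ : S) = 0 from rfl, map_zero, map_zero]
  · rintro a b _ _ ⟨ha, iha⟩ ⟨hb, ihb⟩
    refine ⟨add_mem ha hb, fun _ => ?_⟩
    obtain ⟨h1, e1⟩ := iha ha
    obtain ⟨h2, e2⟩ := ihb hb
    refine ⟨by rw [map_add]; exact add_mem h1 h2, ?_⟩
    rw [show (⟨T (a + b), _⟩ : S) = ⟨_, h1⟩ + ⟨_, h2⟩ from Subtype.ext (map_add T a b),
      show (⟨a + b, _⟩ : S) = ⟨a, ha⟩ + ⟨b, hb⟩ from rfl, map_add, map_add, e1, e2]
  · rintro a _ ⟨ha, iha⟩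
    refine ⟨neg_mem ha, fun _ => ?_⟩
    obtain ⟨h1, e1⟩ := iha ha
    refine ⟨by rw [map_neg]; exact neg_mem h1, ?_⟩
    rw [show (⟨T (-a), _⟩ : S) = -⟨_, h1⟩ from Subtype.ext (map_neg T a),
      show (⟨-a, _⟩ : S) = -⟨a, ha⟩ from rfl, map_neg, map_neg, e1]

theorem discExp_apply (L : twistSub p l hn) (x : discJ (l := l) hlp) :
    discExp hn hlp L x = expMap (isEmbAt_placeAt l) (isSeriesRed_locRed l p hlp)
      (isFunctionField_locRed l p hlp) (isCuspExp_twE hn hlp L) x := rfl

/-- The operators on the generators. -/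
theorem discExp_heckeGenerator (L : twistSub p l hn) {r : Nat.Primes} (hr : (r : ℕ) ≠ p)
    (t : Param Qb (Cl l)) :
    haveI : NeZero (r : ℕ) := ⟨r.2.ne_zero⟩
    ∃ h : heckeOperatorAlong Qb p (r : ℕ) (discClass (isEmbAt_placeAt l) t) ∈ discJ hlp,
      discExp hn hlp L ⟨_, h⟩ = discExp hn hlp (twistMul hn (heckeR p l hn (tGen p r)) L)
        ⟨discClass (isEmbAt_placeAt l) t, discClass_mem_discJ hlp t⟩ := by
  haveI : NeZero (r : ℕ) := ⟨r.2.ne_zero⟩
  haveI : Fact (r : ℕ).Prime := ⟨r.2⟩
  have hrp : ¬ (r : ℕ) ∣ p := fun h => hr ((Nat.prime_dvd_prime_iff_eq r.2 Fact.out).1 h)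
  set L' := twistMul hn (heckeR p l hn (tGen p r)) L
  have hrel : ∀ n, PowerSeries.coeff n (twistPrimitive (twC hn L')) =
      (if (r : ℕ) ∣ n then PowerSeries.coeff (n / (r : ℕ)) (twistPrimitive (twC hn L)) else 0) +
        (r : ℕ) * PowerSeries.coeff ((r : ℕ) * n) (twistPrimitive (twC hn L)) := fun n => by
    simp only [twistPrimitive, PowerSeries.coeff_mk, L', twC, twistMul_apply]
    rw [← map_mul, tGen_mul_hCoeff, if_neg hr]
    have hr0 : ((r : ℕ) : Cl l) ≠ 0 := Nat.cast_ne_zero.2 r.2.ne_zero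
    rcases Nat.eq_zero_or_pos n with rfl | hn0
    · simp [hCoeff_zero]
    have hn' : (n : Cl l) ≠ 0 := Nat.cast_ne_zero.2 hn0.ne'
    rw [map_add, map_add, mul_comm n (r : ℕ), Subring.coe_add, add_div, add_comm]
    congr 1
    · split_ifs with hd
      · rw [map_mul, map_natCast, ← nsmul_eq_mul, map_nsmul, nsmul_eq_mul, Subring.coe_mul,
          Subring.coe_natCast, Nat.cast_div hd hr0]
        field_simp
      · simp
    · rw [Nat.cast_mul]
      field_simp
  obtain ⟨h, e⟩ := expMap_hecke (isEmbAt_placeAt l) hrp (isSeriesRed_locRed l p hlp)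
    (isFunctionField_locRed l p hlp) (isCuspExp_twE hn hlp L) (isExpOf_twE hn hlp L)
    (isExpOf_twE hn hlp L') hrel t
  exact ⟨h, (discExp_apply hn hlp L _).trans (e.trans (discExp_discClass hn hlp L' t).symm)⟩

/-- **The operators away from the level.** -/
theorem discExp_heckeLvl (L : twistSub p l hn) {r : Nat.Primes} (hr : (r : ℕ) ≠ p)
    {x : JZero p} (hx : x ∈ discJ hlp) :
    haveI : NeZero (r : ℕ) := ⟨r.2.ne_zero⟩
    ∃ h : heckeLvl p (r : ℕ) x ∈ discJ hlp, discExp hn hlp L ⟨_, h⟩ =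
      discExp hn hlp (twistMul hn (heckeR p l hn (tGen p r)) L) ⟨x, hx⟩ :=
  haveI : NeZero (r : ℕ) := ⟨r.2.ne_zero⟩
  exists_apply_eq_of_generators (heckeLvl p (r : ℕ) : JZero p →+ JZero p) (discExp hn hlp L)
    (discExp hn hlp (twistMul hn (heckeR p l hn (tGen p r)) L)) _ (discJ_le_closure hlp)
    (discClass_mem_discJ hlp) (discExp_heckeGenerator hn hlp L hr) hx

omit hn hlp in
theorem apply_eq_zsmul {A B : Type*} [AddCommGroup A] [AddCommGroup B] {S : AddSubgroup A}
    (f : S →+ B) (z : ℤ) {a b : A} (ha : a ∈ S) (hb : b ∈ S) (e : b = z • a) :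
    f ⟨b, hb⟩ = (z • f) ⟨a, ha⟩ := by
  subst e
  exact map_zsmul f z ⟨a, ha⟩

omit hn hlp in
theorem apply_eq_add {A B : Type*} [AddCommGroup A] [AddCommGroup B] {S : AddSubgroup A}
    (f : S →+ B) {a b c : A} (ha : a ∈ S) (hb : b ∈ S) (hc : c ∈ S) (e : c = a + b) :
    f ⟨c, hc⟩ = f ⟨a, ha⟩ + f ⟨b, hb⟩ := by
  subst e
  exact map_add f ⟨a, ha⟩ ⟨b, hb⟩

omit hlp in
theorem tGen_eq_T {r : Nat.Primes} (hr : ¬ (r : ℕ) ∣ p) :
    haveI : NeZero (r : ℕ) := ⟨r.2.ne_zero⟩
    tGen p r = CuspForm.heckeAlgebra.T (k := 2) r.2 hr (Set.notMem_empty _) :=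
  CuspForm.heckeEvalForms_heckeGen_of_not_dvd hr

/-- **The good operators on torsion in the disc.** -/
theorem discExp_toTors {n : ℕ} [NeZero n] {t : TAlg p} (ht : t ∈ goodSub p)
    (L : twistSub p l hn) {q : ModN p (∅ : Set ℕ) n}
    (hq : toTors p ∅ n q ∈ discJ (l := l) hlp) :
    ∃ h : toTors p ∅ n (t • q) ∈ discJ (l := l) hlp, discExp hn hlp L ⟨_, h⟩ =
      discExp hn hlp (twistMul hn (heckeR p l hn t) L) ⟨_, hq⟩ := by
  induction ht using Algebra.adjoin_induction generalizing L q with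
  | mem t ht =>
    obtain ⟨r, hr, rfl⟩ := ht
    haveI : NeZero (r : ℕ) := ⟨r.2.ne_zero⟩
    have hrp : ¬ (r : ℕ) ∣ p := fun h => hr ((Nat.prime_dvd_prime_iff_eq r.2 Fact.out).1 h)
    have e : toTors p ∅ n (tGen p r • q) = heckeLvl p (r : ℕ) (toTors p ∅ n q) := by
      rw [tGen_eq_T hrp]
      exact toTors_T_smul p n r.2 hrp (Set.notMem_empty _) q
    obtain ⟨h, h'⟩ := discExp_heckeLvl hn hlp L hr hq
    exact ⟨e ▸ h, Eq.trans (congrArg _ (Subtype.ext e)) h'⟩
  | algebraMap z =>
    have e : toTors p ∅ n (algebraMap ℤ (TAlg p) z • q) = z • toTors p ∅ n q := by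
      rw [algebraMap_smul, map_zsmul]
    refine ⟨e ▸ zsmul_mem hq z, ?_⟩
    have e2 : twistMul hn (heckeR p l hn (algebraMap ℤ (TAlg p) z)) L = z • L := by
      refine Subtype.ext (LinearMap.ext fun y => ?_)
      rw [twistMul_apply, eq_intCast, map_intCast, ← zsmul_eq_mul, map_zsmul]
      rfl
    rw [e2, map_zsmul (discExp hn hlp)]
    exact apply_eq_zsmul _ z hq _ e
  | add a b _ _ iha ihb =>
    obtain ⟨h1, e1⟩ := iha L hq
    obtain ⟨h2, e2⟩ := ihb L hq
    have e : toTors p ∅ n ((a + b) • q) = toTors p ∅ n (a • q) + toTors p ∅ n (b • q) := by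
      rw [add_smul, map_add]
    refine ⟨e ▸ add_mem h1 h2, ?_⟩
    have e3 : twistMul hn (heckeR p l hn (a + b)) L =
        twistMul hn (heckeR p l hn a) L + twistMul hn (heckeR p l hn b) L := by
      refine Subtype.ext (LinearMap.ext fun y => ?_)
      rw [Submodule.coe_add, LinearMap.add_apply, twistMul_apply, twistMul_apply, twistMul_apply,
        map_add, add_mul, map_add]
    rw [e3, map_add (discExp hn hlp), AddMonoidHom.add_apply, ← e1, ← e2]
    exact apply_eq_add _ h1 h2 _ e
  | mul a b _ _ iha ihb =>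
    obtain ⟨h1, e1⟩ := ihb (twistMul hn (heckeR p l hn a) L) hq
    obtain ⟨h2, e2⟩ := iha L h1
    have e : toTors p ∅ n ((a * b) • q) = toTors p ∅ n (a • b • q) := by rw [mul_smul]
    refine ⟨e ▸ h2, ?_⟩
    have e3 : twistMul hn (heckeR p l hn (a * b)) L =
        twistMul hn (heckeR p l hn b) (twistMul hn (heckeR p l hn a) L) := by
      refine Subtype.ext (LinearMap.ext fun y => ?_)
      rw [twistMul_apply, twistMul_apply, twistMul_apply, map_mul (heckeR p l hn), mul_assoc]
    rw [e3, ← e1, ← e2]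
    exact congrArg _ (Subtype.ext e)

end FA.Mazur

end
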