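import Fermat.Agent.Mazur.DiscPlace
import Fermat.Agent.CurveRed.Basic

/-!
# The disc at infinity is the residue disc of the cusp
-/

set_option autoImplicit false
set_option linter.style.haveILetI false
set_option linter.unusedSectionVars false
set_option synthInstance.maxHeartbeats 200000
set_option maxHeartbeats 1000000

noncomputable section

namespace FA.Mazur

open ModularCurve AlgebraicCurve FA.Curve FA.CurveRed HahnSeries

variable {L : Type} [Field L] [Algebra ℚ L] [IsAlgClosed L] {A : ValuationSubring L}
  {k : Type} [Field k] [IsAlgClosed k]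
  {K : Type} [NormedField K] [IsUltrametricDist K] [CompleteSpace K] [Algebra L K]
  {N : ℕ} [NeZero N] (π : A →+* k)

/-- The reduction is given by reducing expansions. -/
structure IsSeriesRed
    (R : Reduction L (upField (L := L) N) k (modularFunctionFieldFullC k N) A) : Prop where
  of_series : ∀ y : intSeries A π N, R.Red (toUp A π N y) (toDown A π N y)
  quot : ∀ g r, R.Red g r → ∃ y z : intSeries A π N, toDown A π N z ≠ 0 ∧
    g * toUp A π N z = toUp A π N y ∧ r * toDown A π N z = toDown A π N y
  π_eq_zero : ∀ a : A, π a = 0 ↔ A.valuation (a : L) < 1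
  genus_le : genus L (upField (L := L) N) ≤ genus k (modularFunctionFieldFullC k N)

variable {π}
variable {R : Reduction L (upField (L := L) N) k (modularFunctionFieldFullC k N) A}

theorem coeff_toUp (y : intSeries A π N) (n : ℤ) :
    ((toUp A π N y : upField (L := L) N) : LaurentSeries L).coeff n =
      (((y : LaurentSeries A).coeff n : A) : L) := rfl

theorem coeff_toDown (y : intSeries A π N) (n : ℤ) :
    ((toDown A π N y : modularFunctionFieldFullC k N) : LaurentSeries k).coeff n =
      π ((y : LaurentSeries A).coeff n) := rfl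

theorem coeff_eq_zero_of_toUp {y : intSeries A π N} {n : ℤ}
    (h : ((toUp A π N y : upField (L := L) N) : LaurentSeries L).coeff n = 0) :
    ((toDown A π N y : modularFunctionFieldFullC k N) : LaurentSeries k).coeff n = 0 := by
  rw [coeff_toUp, ZeroMemClass.coe_eq_zero] at h
  rw [coeff_toDown, h, map_zero]

/-- A bounded function with a reduction has an integral expansion. -/
theorem norm_coeff_le_one (hA : IsEmbAt A K) (hR : IsSeriesRed π R) {g : upField (L := L) N}
    {r : modularFunctionFieldFullC k N} (hb : (g : LaurentSeries L) ∈ bddSub A)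
    (hg : R.Red g r) (n : ℤ) :
    ‖algebraMap L K ((g : LaurentSeries L).coeff n)‖ ≤ 1 := by
  classical
  obtain ⟨y, z, hz, hgz, -⟩ := hR.quot g r hg
  set c : ℤ → ℝ := fun n => ‖algebraMap L K ((g : LaurentSeries L).coeff n)‖ with hc
  set d : ℤ → ℝ := fun n => ‖algebraMap L K ((toUp A π N z : LaurentSeries L).coeff n)‖ with hd
  have hd1 : ∀ n, d n ≤ 1 := fun n => (hA _).mp (((z : LaurentSeries A).coeff n)).2
  -- the bound
  obtain ⟨e, he, w, hw⟩ := hb
  have he' : 0 < ‖algebraMap L K e‖ := norm_pos_iff.mpr ((map_ne_zero _).mpr he)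
  have hbdd : BddAbove (Set.range c) := by
    refine ⟨‖algebraMap L K e‖⁻¹, ?_⟩
    rintro _ ⟨m, rfl⟩
    have h := congrArg (fun s : LaurentSeries L => ‖algebraMap L K (s.coeff m)‖) hw
    simp only [C_apply, coeff_single_zero_mul, map_mul, norm_mul] at h
    have h2 : ‖algebraMap L K (((coeffMap A.subtype w).coeff m))‖ ≤ 1 := (hA _).mp (w.coeff m).2
    rw [← h] at h2
    simp only [hc]
    rw [← one_div, le_div_iff₀ he', mul_comm]
    exact h2
  -- the first unit coefficient of `z`
  have hex : ∃ m, d m = 1 := by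
    by_contra hno
    push Not at hno
    refine hz (Subtype.ext (HahnSeries.ext (funext fun m => ?_)))
    rw [coeff_toDown, ZeroMemClass.coe_zero, coeff_zero, hR.π_eq_zero, hA.valuation_lt_one_iff]
    exact lt_of_le_of_ne (hd1 m) (hno m)
  have hlow : ∀ m, m < (toUp A π N z : LaurentSeries L).order → d m = 0 := fun m hm => by
    simp only [hd]
    rw [HahnSeries.coeff_eq_zero_of_lt_order hm, map_zero, norm_zero]
  obtain ⟨n₀, hn₀, hmin⟩ := Int.exists_least_of_bdd
    (P := fun m => d m = 1) ⟨(toUp A π N z : LaurentSeries L).order, fun m hm => by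
      by_contra h
      rw [hlow m (not_le.mp h)] at hm
      exact zero_ne_one hm⟩ hex
  obtain ⟨θ, hθ0, hθ1, hθ⟩ : ∃ θ : ℝ, 0 ≤ θ ∧ θ < 1 ∧ ∀ m < n₀, d m ≤ θ := by
    let s := Finset.Ico (toUp A π N z : LaurentSeries L).order n₀
    rcases s.eq_empty_or_nonempty with hs | hs
    · refine ⟨0, le_rfl, one_pos, fun m hm => (hlow m ?_).le⟩
      by_contra h
      exact Finset.notMem_empty m (hs ▸ Finset.mem_Ico.mpr ⟨not_lt.mp h, hm⟩)
    · obtain ⟨m₁, hm₁, hmax⟩ := s.exists_max_image d hs
      refine ⟨d m₁, norm_nonneg _, lt_of_le_of_ne (hd1 _) fun h => ?_, fun m hm => ?_⟩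
      · exact (not_le.mpr (Finset.mem_Ico.mp hm₁).2) (hmin m₁ h)
      · rcases lt_or_ge m (toUp A π N z : LaurentSeries L).order with h | h
        · rw [hlow m h]; exact norm_nonneg _
        · exact hmax m (Finset.mem_Ico.mpr ⟨h, hm⟩)
  by_contra hn
  push Not at hn
  set S := sSup (Set.range c)
  have hS1 : 1 < S := lt_of_lt_of_le hn (le_csSup hbdd ⟨n, rfl⟩)
  have hTlt : max 1 (θ * S) < S := max_lt hS1 (by nlinarith)
  obtain ⟨_, ⟨m', rfl⟩, hm'⟩ := exists_lt_of_lt_csSup (Set.range_nonempty c) hTlt
  obtain ⟨m, hm, hmmin⟩ := Int.exists_least_of_bdd (P := fun j => max 1 (θ * S) < c j)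
    ⟨(g : LaurentSeries L).order, fun j hj => by
      by_contra h
      have h0 : c j = 0 := by
        simp only [hc]
        rw [HahnSeries.coeff_eq_zero_of_lt_order (not_le.mp h), map_zero, norm_zero]
      rw [h0] at hj
      linarith [le_max_left (1 : ℝ) (θ * S)]⟩ ⟨m', hm'⟩
  have hy : ‖algebraMap L K (((g : LaurentSeries L) * (toUp A π N z : LaurentSeries L)).coeff
      (m + n₀))‖ ≤ 1 := by
    rw [← MulMemClass.coe_mul, hgz]
    exact (hA _).mp ((y : LaurentSeries A).coeff (m + n₀)).2
  rw [HahnSeries.coeff_mul, map_sum] at hy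
  set t := Finset.antidiagonal (g : LaurentSeries L).isPWO_support
    (toUp A π N z : LaurentSeries L).isPWO_support (m + n₀)
  have hmem : (m, n₀) ∈ t := by
    rw [Finset.mem_antidiagonal]
    refine ⟨?_, ?_, rfl⟩
    · intro h0
      simp only [hc] at hm
      rw [h0, map_zero, norm_zero] at hm
      linarith [le_max_left (1 : ℝ) (θ * S)]
    · intro h0
      simp only [hd] at hn₀
      rw [h0, map_zero, norm_zero] at hn₀
      exact zero_ne_one hn₀
  rw [← Finset.add_sum_erase _ _ hmem] at hy
  set main := algebraMap L K ((g : LaurentSeries L).coeff m *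
    (toUp A π N z : LaurentSeries L).coeff n₀)
  have hmain : ‖main‖ = c m := by
    simp only [main, map_mul, norm_mul]
    show c m * d n₀ = c m
    rw [hn₀, mul_one]
  have hrest : ‖∑ ij ∈ t.erase (m, n₀), algebraMap L K ((g : LaurentSeries L).coeff ij.1 *
      (toUp A π N z : LaurentSeries L).coeff ij.2)‖ ≤ max 1 (θ * S) := by
    refine IsUltrametricDist.norm_sum_le_of_forall_le_of_nonneg
      (le_trans zero_le_one (le_max_left _ _)) fun ij hij => ?_
    rw [Finset.mem_erase, Finset.mem_antidiagonal] at hij
    obtain ⟨hne, -, -, hsum⟩ := hij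
    rw [map_mul, norm_mul]
    show c ij.1 * d ij.2 ≤ _
    rcases lt_or_ge ij.2 n₀ with h | h
    · refine le_trans ?_ (le_max_right _ _)
      rw [mul_comm θ S]
      exact mul_le_mul (le_csSup hbdd ⟨_, rfl⟩) (hθ _ h) (norm_nonneg _) (by linarith)
    · have hlt : ij.1 < m := by
        by_contra hge
        exact hne (Prod.ext (by simp at hsum ⊢; omega) (by simp at hsum ⊢; omega))
      have hle : c ij.1 ≤ max 1 (θ * S) := by
        by_contra hgt
        exact absurd (hmmin _ (not_le.mp hgt)) (not_le.mpr hlt)
      exact (mul_le_of_le_one_right (norm_nonneg _) (hd1 _)).trans hle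
  have hfin : ‖main‖ ≤ max 1 (θ * S) := by
    have h := IsUltrametricDist.norm_add_le_max (main + ∑ ij ∈ t.erase (m, n₀),
      algebraMap L K ((g : LaurentSeries L).coeff ij.1 *
        (toUp A π N z : LaurentSeries L).coeff ij.2))
      (-∑ ij ∈ t.erase (m, n₀), algebraMap L K ((g : LaurentSeries L).coeff ij.1 *
        (toUp A π N z : LaurentSeries L).coeff ij.2))
    rw [add_neg_cancel_right, norm_neg] at h
    exact h.trans (max_le (hy.trans (le_max_left _ _)) hrest)
  rw [hmain] at hfin
  exact absurd hfin (not_le.mpr hm)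

/-- A bounded function with a reduction is an integral series. -/
theorem exists_series_of_red (hA : IsEmbAt A K) (hR : IsSeriesRed π R) {g : upField (L := L) N}
    {r : modularFunctionFieldFullC k N} (hb : (g : LaurentSeries L) ∈ bddSub A)
    (hg : R.Red g r) : ∃ y : intSeries A π N, toUp A π N y = g ∧ toDown A π N y = r := by
  have hco : ∀ n, (g : LaurentSeries L).coeff n ∈ A := fun n =>
    (hA _).mpr (norm_coeff_le_one hA hR hb hg n)
  let s : LaurentSeries A :=
    { coeff := fun n => ⟨_, hco n⟩
      isPWO_support' := (g : LaurentSeries L).isPWO_support.mono fun n hn h0 =>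
        hn (Subtype.ext h0) }
  have hs : coeffMap A.subtype s = (g : LaurentSeries L) := by ext n; rfl
  obtain ⟨y, z, hz, hgz, hrz⟩ := hR.quot g r hg
  have hprod : s * (z : LaurentSeries A) = y := by
    apply coeffMap_subtype_injective A
    rw [map_mul, hs]
    exact congrArg Subtype.val hgz
  have hπ : coeffMap π s = (r : LaurentSeries k) := by
    have h1 := congrArg (coeffMap π) hprod
    rw [map_mul] at h1
    have h2 := congrArg Subtype.val hrz
    rw [MulMemClass.coe_mul] at h2
    exact mul_right_cancel₀ (fun h => hz (Subtype.ext h)) (h1.trans h2.symm)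
  refine ⟨⟨s, ?_, ?_⟩, Subtype.ext hs, Subtype.ext hπ⟩
  · show coeffMap A.subtype s ∈ upField (L := L) N
    rw [hs]; exact g.2
  · show coeffMap π s ∈ modularFunctionFieldFullC k N
    rw [hπ]; exact r.2

variable (hA : IsEmbAt A K)

/-- An integral series re-expanded at a point of the disc. -/
theorem evHom_toUp (a : unitBall K) (ha : ‖(a : K)‖ < 1) (y : intSeries A π N) :
    evHom N hA a ha (toUp A π N y) =
      shiftL a ha (coeffMap hA.toBall (y : LaurentSeries A)) :=
  evHom_wUp N hA a ha ⟨(y : LaurentSeries A), y.2.1⟩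

/-- Functions without poles in the punctured disc have bounded expansions. -/
theorem mem_bddSub_of_noPole {f : upField (L := L) N}
    (hf : ∀ t : Param L K, t.1 ≠ 0 → AtLeast (discPlace N hA t) 0 f) :
    (f : LaurentSeries L) ∈ bddSub A := by
  classical
  have hex : ∃ d : ℕ, ∃ D : Polynomial L, D ≠ 0 ∧ D.natDegree = d ∧
      Polynomial.aeval (jqModC L) D * (f : LaurentSeries L) ∈ bddSub A := by
    obtain ⟨D, hD, h⟩ := mem_nearBdd A N f
    exact ⟨_, D, hD, rfl, h⟩
  obtain ⟨D, hD, hdeg, hmem⟩ := Nat.find_spec hex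
  rcases Nat.eq_zero_or_pos D.natDegree with h0 | hpos
  · obtain ⟨c, hc⟩ : ∃ c, D = Polynomial.C c := ⟨_, Polynomial.eq_C_of_natDegree_eq_zero h0⟩
    have hc0 : c ≠ 0 := fun h => hD (by rw [hc, h, map_zero])
    rw [hc, Polynomial.aeval_C] at hmem
    have h := mul_mem ((bddSub A).algebraMap_mem c⁻¹) hmem
    rwa [← mul_assoc, ← map_mul, inv_mul_cancel₀ hc0, map_one, one_mul] at h
  exfalso
  obtain ⟨c, hc⟩ := IsAlgClosed.exists_root D (fun h => by
    rw [Polynomial.degree_eq_natDegree hD] at h
    exact hpos.ne' (WithBot.coe_injective h))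
  obtain ⟨D', hD'⟩ := Polynomial.dvd_iff_isRoot.mpr hc
  have hD'0 : D' ≠ 0 := fun h => hD (by rw [hD', h, mul_zero])
  have hlt : D'.natDegree < Nat.find hex := by
    rw [← hdeg, hD', Polynomial.natDegree_mul (Polynomial.X_sub_C_ne_zero c) hD'0,
      Polynomial.natDegree_X_sub_C]
    omega
  refine Nat.find_min hex hlt ⟨D', hD'0, rfl, ?_⟩
  rw [hD', map_mul, Polynomial.aeval_sub, Polynomial.aeval_X, Polynomial.aeval_C, mul_assoc] at hmem
  set g : upField (L := L) N := Polynomial.aeval (upJ (L := L) N) D' * f with hg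
  have hgc : (g : LaurentSeries L) = Polynomial.aeval (jqModC L) D' * (f : LaurentSeries L) := by
    rw [hg, MulMemClass.coe_mul]
    congr 1
    exact coe_aeval_jq (upField (L := L) N) (upJ N).2 D'
  rw [← hgc] at hmem ⊢
  have hinv : ∀ (x : LaurentSeries L) (w : PowerSeries A),
      x * coeffMap A.subtype (ofPowerSeries ℤ A w) = 1 → x * (g : LaurentSeries L) ∈ bddSub A →
        (g : LaurentSeries L) ∈ bddSub A := fun x w h1 h2 => by
    have h := mul_mem (coeffMap_mem_bddSub (A := A) (ofPowerSeries ℤ A w)) h2
    rwa [← mul_assoc, mul_comm _ x, h1, one_mul] at h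
  by_cases hcA : c ∈ A
  · set u : PowerSeries A := jU A - PowerSeries.X * PowerSeries.C ⟨c, hcA⟩
    have hu : PowerSeries.constantCoeff u = 1 := by simp [u, constantCoeff_jU]
    refine hinv _ (PowerSeries.X * PowerSeries.invOfUnit u 1) ?_ hmem
    rw [← coeffMap_jqModC A.subtype, algebraMap_laurentSeries_eq_single, ← C_apply,
      show c = A.subtype ⟨c, hcA⟩ from rfl, ← coeffMap_C', ← map_sub, ← map_mul]
    rw [jqModC_eq, show (HahnSeries.C (⟨c, hcA⟩ : A) : LaurentSeries A) =
        single (-1 : ℤ) 1 * ofPowerSeries ℤ A (PowerSeries.X * PowerSeries.C ⟨c, hcA⟩) by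
      rw [map_mul, ofPowerSeries_X, ofPowerSeries_C, ← mul_assoc, single_mul_single]; simp,
      ← mul_sub, ← map_sub, map_mul (ofPowerSeries ℤ A), ofPowerSeries_X, mul_mul_mul_comm,
      single_mul_single, ← map_mul, show jU A - PowerSeries.X * PowerSeries.C ⟨c, hcA⟩ = u from rfl,
      PowerSeries.mul_invOfUnit u 1 (by rw [hu, Units.val_one]), map_one]
    simp
  · -- the root is in the disc
    have hc0 : c ≠ 0 := fun h => hcA (h ▸ zero_mem A)
    have hct : ‖algebraMap L K c⁻¹‖ < 1 := by
      rw [map_inv₀, norm_inv]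
      exact inv_lt_one_of_one_lt₀ (not_le.mp fun h => hcA ((hA c).mpr h))
    let t : Param L K := ⟨c⁻¹, hct⟩
    set h₀ : upField (L := L) N := (upJ (L := L) N)⁻¹ - algebraMap L (upField (L := L) N) c⁻¹
    have hmem' : ((h₀ * g : upField (L := L) N) : LaurentSeries L) ∈ bddSub A := by
      have e : ((h₀ : upField (L := L) N) : LaurentSeries L) =
          algebraMap L (LaurentSeries L) (-c⁻¹) * ((jqModC L)⁻¹ *
            (jqModC L - algebraMap L (LaurentSeries L) c)) := by
        rw [AddSubgroupClass.coe_sub, IntermediateField.coe_inv, coe_upJ]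
        show (jqModC L)⁻¹ - algebraMap L (LaurentSeries L) c⁻¹ = _
        have hj0 : jqModC L ≠ 0 := jqModC_ne_zero_of_nontrivial L
        rw [map_neg, map_inv₀]
        have hc' : algebraMap L (LaurentSeries L) c ≠ 0 := (map_ne_zero _).mpr hc0
        field_simp
        ring
      rw [MulMemClass.coe_mul, e, mul_assoc, mul_assoc]
      refine mul_mem ((bddSub A).algebraMap_mem _) (mul_mem ?_ hmem)
      rw [← coe_upJ (L := L) N, ← IntermediateField.coe_inv, ← wUp_jInvW (A := A) N]
      exact coeffMap_mem_bddSub _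
    obtain ⟨e, he, w, hw⟩ := hmem'
    -- the product vanishes at the point
    have hval : AtLeast (discPlace N hA t) 1 (algebraMap L (upField (L := L) N) e * (h₀ * g)) := by
      have hj : AtLeast (discPlace N hA t) 0 (upJ (L := L) N) := by
        have h1 := hasValue_jInv N hA t
        have ht0 : (t.1 : L) ≠ 0 := inv_ne_zero hc0
        rcases eq_or_ne (upJ (L := L) N) 0 with h | h
        · exact Or.inl h
        refine Or.inr ?_
        by_contra hlt
        have h2 : AtLeast (discPlace N hA t) 1 (upJ (L := L) N)⁻¹ :=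
          Or.inr (by rw [Place.ord_inv]; omega)
        exact ht0 (h1.unique (hasValue_zero_iff.mpr h2))
      have hgL : AtLeast (discPlace N hA t) 0 g := by
        rw [hg]
        refine (AtLeast.mul (n := 0) (m := 0) ?_ (hf t (inv_ne_zero hc0))).mono (by omega)
        refine Polynomial.induction_on' D' (fun p q hp hq => ?_) fun n a => ?_
        · rw [map_add]; exact hp.add hq
        · rw [Polynomial.aeval_monomial]
          exact ((by simpa using (atLeast_pow hj n)) :
            AtLeast (discPlace N hA t) 0 (upJ (L := L) N ^ n)).smul a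
      exact (((hasValue_jInv N hA t).mul hgL).smul e).mono (by omega)
    set W : intW A N := ⟨w, by
      show coeffMap A.subtype w ∈ upField (L := L) N
      rw [← hw]
      exact mul_mem (by
        rw [C_apply, ← algebraMap_laurentSeries_eq_single]
        exact (upField (L := L) N).algebraMap_mem e) (SetLike.coe_mem _)⟩ with hW
    have hWup : wUp A N W = algebraMap L (upField (L := L) N) e * (h₀ * g) := by
      apply Subtype.ext
      rw [coe_wUp, MulMemClass.coe_mul]
      show coeffMap A.subtype w = algebraMap L (LaurentSeries L) e * _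
      rw [algebraMap_laurentSeries_eq_single, ← C_apply, hw]
    -- write `w = q ^ M p`
    obtain ⟨M, p, hp⟩ : ∃ (M : ℤ) (p : PowerSeries (unitBall K)),
        coeffMap hA.toBall w = single M 1 * ofPowerSeries ℤ (unitBall K) p :=
      ⟨_, _, (LaurentSeries.single_order_mul_powerSeriesPart _).symm⟩
    set a := qPar t
    have ha0 : (a : K) ≠ 0 := by
      simp only [a, Ne, ZeroMemClass.coe_eq_zero, qPar_eq_zero_iff]
      exact inv_ne_zero hc0
    have hpa : evalHom a (norm_qPar_lt t) p = 0 := by
      have h1 := (coeff_zero_of_hasValue N hA (c := 0) (hasValue_zero_iff.mpr hval)).1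
      rw [← hWup, evHom_wUp] at h1
      simp only [hW] at h1
      rw [hp, map_mul, shiftL_ofPowerSeries, map_zero] at h1
      have hX : shiftL a (norm_qPar_lt t) (single (1 : ℤ) 1) =
          HahnSeries.C (a : K) + single (1 : ℤ) 1 := by
        rw [← ofPowerSeries_X, shiftL_ofPowerSeries, shiftPS, RingHom.comp_apply,
          RingHom.comp_apply, shiftHom_X, map_add, map_add, PowerSeries.map_C, PowerSeries.map_X,
          ofPowerSeries_C, ofPowerSeries_X]
        rfl
      have hne : HahnSeries.C (a : K) + single (1 : ℤ) 1 ≠ (0 : LaurentSeries K) := fun h => by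
        have := congrArg (fun s : LaurentSeries K => s.coeff 1) h
        simp [C_apply] at this
      have hM : shiftL a (norm_qPar_lt t) (single M 1) =
          (HahnSeries.C (a : K) + single (1 : ℤ) 1) ^ M := by
        rcases Int.eq_nat_or_neg M with ⟨n, rfl | rfl⟩
        · rw [zpow_natCast, ← hX, ← map_pow, single_pow, one_pow]; simp
        · rw [zpow_neg, zpow_natCast, ← hX, ← map_pow, single_pow, one_pow]
          refine eq_inv_of_mul_eq_one_left ?_
          rw [← map_mul, single_mul_single]
          simp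
      rw [hM] at h1
      set Y : PowerSeries K := PowerSeries.map (unitBall K).subtype (shiftHom a (norm_qPar_lt t) p)
      set Z : PowerSeries K := PowerSeries.C (a : K) + PowerSeries.X
      have hZ : HahnSeries.C (a : K) + single (1 : ℤ) 1 = ofPowerSeries ℤ K Z := by
        rw [map_add, ofPowerSeries_C, ofPowerSeries_X]
      have hZc : PowerSeries.constantCoeff Z = a := by simp [Z]
      obtain ⟨Zi, hZi⟩ : ∃ Zi : PowerSeries K, ofPowerSeries ℤ K Zi = (ofPowerSeries ℤ K Z) ^ M ∧
          PowerSeries.constantCoeff Zi ≠ 0 := by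
        rcases Int.eq_nat_or_neg M with ⟨n, rfl | rfl⟩
        · exact ⟨Z ^ n, by rw [map_pow, zpow_natCast],
            by rw [map_pow, hZc]; exact pow_ne_zero _ ha0⟩
        · refine ⟨(Z ^ n)⁻¹, ?_, by
            rw [PowerSeries.constantCoeff_inv, map_pow, hZc]
            exact inv_ne_zero (pow_ne_zero _ ha0)⟩
          rw [zpow_neg, zpow_natCast]
          refine eq_inv_of_mul_eq_one_left ?_
          rw [← map_pow, ← map_mul, PowerSeries.inv_mul_cancel _ (by
            rw [map_pow, hZc]; exact pow_ne_zero _ ha0), map_one]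
      rw [hZ, ← hZi.1, shiftPS, RingHom.comp_apply, RingHom.comp_apply, ← map_mul,
        show (0 : ℤ) = ((0 : ℕ) : ℤ) from rfl, ofPowerSeries_apply_coeff,
        PowerSeries.coeff_zero_eq_constantCoeff_apply, map_mul, mul_eq_zero] at h1
      have h2 := h1.resolve_left hZi.2
      rw [← PowerSeries.coeff_zero_eq_constantCoeff_apply, PowerSeries.coeff_map,
        PowerSeries.coeff_zero_eq_constantCoeff_apply, constantCoeff_shiftHom] at h2
      exact Subtype.ext h2
    obtain ⟨p', hp'⟩ := exists_factor_of_evalHom_eq_zero a (norm_qPar_lt t) hpa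
    obtain ⟨y₀, hy₀, hy₀1⟩ := exists_factor_param t
    -- divide over the ball
    set U : PowerSeries (unitBall K) := y₀ * jV (unitBall K)
    have hU : IsUnit U := by
      rw [PowerSeries.isUnit_iff_constantCoeff, map_mul, constantCoeff_jV, mul_one,
        isUnit_iff_exists_inv]
      refine ⟨⟨((PowerSeries.constantCoeff y₀ : unitBall K) : K)⁻¹, ?_⟩, Subtype.ext ?_⟩
      · rw [mem_unitBall, norm_inv, hy₀1, inv_one]
      · exact mul_inv_cancel₀ (norm_ne_zero_iff.mp (by rw [hy₀1]; exact one_ne_zero))
    obtain ⟨U', hU'⟩ := hU.exists_right_inv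
    set toK : LaurentSeries L →+* LaurentSeries K := coeffMap (algebraMap L K)
    set toK' : LaurentSeries (unitBall K) →+* LaurentSeries K := coeffMap (unitBall K).subtype
    have hh₀ : toK (h₀ : LaurentSeries L) =
        toK' (ofPowerSeries ℤ (unitBall K) ((PowerSeries.X - PowerSeries.C a) * U)) := by
      rw [← mul_assoc, ← hy₀, sub_mul, mul_assoc, jU_mul_jV, mul_one, map_sub, map_sub,
        ofPowerSeries_C, AddSubgroupClass.coe_sub, map_sub]
      congr 1
      · rw [← wUp_jInvW (A := A) N, coe_wUp]
        simp only [toK, toK']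
        rw [coeffMap_coeffMap]
        show coeffMap ((algebraMap L K).comp A.subtype)
          (ofPowerSeries ℤ A (PowerSeries.X * jV A)) = _
        simp only [coeffMap_ofPowerSeries, map_mul, PowerSeries.map_X, map_jV]
      · show toK (algebraMap L (LaurentSeries L) c⁻¹) = toK' (HahnSeries.C (tBall t))
        simp only [toK, toK']
        rw [algebraMap_laurentSeries_eq_single, ← C_apply, coeffMap_C', coeffMap_C']
        rfl
    have hwK : toK' (single M 1 * ofPowerSeries ℤ (unitBall K) p) =
        toK (HahnSeries.C e * ((h₀ : LaurentSeries L) * (g : LaurentSeries L))) := by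
      rw [← hp, ← MulMemClass.coe_mul, hw]
      simp only [toK, toK']
      rw [coeffMap_coeffMap, coeffMap_coeffMap]
      rfl
    have hne : toK' (ofPowerSeries ℤ (unitBall K) (PowerSeries.X - PowerSeries.C a)) ≠ 0 := by
      intro h
      have := congrArg (fun s : LaurentSeries K => s.coeff ((1 : ℕ) : ℤ)) h
      simp only [toK', coeffMap_coeff, ofPowerSeries_apply_coeff, coeff_zero] at this
      simp at this
    have hfin : toK (HahnSeries.C e * (g : LaurentSeries L)) =
        toK' (single M 1 * ofPowerSeries ℤ (unitBall K) (p' * U')) := by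
      refine mul_right_cancel₀ (b := toK' (ofPowerSeries ℤ (unitBall K)
        ((PowerSeries.X - PowerSeries.C a) * U))) ?_ ?_
      · rw [map_mul, map_mul]
        refine mul_ne_zero hne fun h => ?_
        have h1 := congrArg (fun s => s * toK' (ofPowerSeries ℤ (unitBall K) U')) h
        simp only [← map_mul, hU', map_one, zero_mul] at h1
        exact one_ne_zero h1
      · conv_lhs => rw [← hh₀, ← map_mul, mul_assoc, mul_comm (g : LaurentSeries L), ← hwK, hp']
        rw [← map_mul, mul_assoc, ← map_mul]
        congr 3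
        calc (PowerSeries.X - PowerSeries.C a) * p' =
            (PowerSeries.X - PowerSeries.C a) * p' * (U * U') := by rw [hU', mul_one]
          _ = _ := by ring
    have hint : ∀ n, (HahnSeries.C e * (g : LaurentSeries L)).coeff n ∈ A := fun n => by
      rw [hA]
      have h1 := congrArg (fun s : LaurentSeries K => ‖s.coeff n‖) hfin
      simp only [toK, toK', coeffMap_coeff] at h1
      rw [h1]
      exact ((single M 1 * ofPowerSeries ℤ (unitBall K) (p' * U')).coeff n).2
    exact ⟨e, he, { coeff := fun n => ⟨_, hint n⟩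
                    isPWO_support' := (HahnSeries.C e * (g : LaurentSeries L)).isPWO_support.mono
                      fun n hn h0 => hn (Subtype.ext h0) }, by ext n; rfl⟩

end FA.Mazur
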