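import Fermat.Agent.CurveRed.Basic
import Fermat.Agent.Curve.Duality
import Fermat.Agent.ModField.Congruence.Fibre

/-!
# A separating function is a coordinate at all but finitely many places
-/

set_option autoImplicit false
set_option linter.style.haveILetI false
set_option linter.unusedSectionVars false

noncomputable section

namespace FA.Mazur

open AlgebraicCurve FA.ModField FA.Curve IntermediateField

variable {K F : Type*} [Field K] [Field F] [Algebra K F] [IsAlgClosed K]

/-- Outside a finite set of places a separating function takes a value simply. -/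
theorem exists_finite_ord_sub_eq_one (hF : IsFunctionField K F) {x : F} (hx : Transcendental K x)
    [Algebra.IsSeparable K⟮x⟯ F] :
    ∃ B : Set (Place K F), B.Finite ∧ ∀ w ∉ B,
      ∃ c : K, HasValue w x c ∧ w.ord (x - algebraMap K F c) = 1 := by
  haveI := hF.finiteDimensional hx
  haveI := hasPrincipalDivisors hF
  have hE := isFunctionField_simple (K := K) (F := F) hx
  obtain ⟨B₀, hB₀, hgood⟩ := finite_bad_fibres hE hF Set.univ (Algebra.adjoin_univ _ _)
  refine ⟨{w | w.restrict K⟮x⟯ ∈ B₀} ∪ {w | ¬ x ∈ w.toValuationSubring},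
    ?_, fun w hw => ?_⟩
  · refine (Set.Finite.subset (hB₀.biUnion fun v _ => (v.fiber F).finite_toSet) fun w hw => ?_).union
      (finite_not_mem hF x)
    exact Set.mem_biUnion hw (Place.mem_fiber.2 rfl)
  simp only [Set.mem_union, Set.mem_setOf_eq, not_or, not_not] at hw
  obtain ⟨c, hc⟩ := exists_hasValue hF (atLeast_zero_of_mem hw.2)
  refine ⟨c, hc, ?_⟩
  have hne : x - algebraMap K F c ≠ 0 := fun h =>
    hx (by rw [sub_eq_zero.1 h]; exact isAlgebraic_algebraMap c)
  have hpos : 0 < w.ord (x - algebraMap K F c) := by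
    have := (atLeast_iff hne).1 hc
    omega
  have htop : K⟮x - algebraMap K F c⟯ = K⟮x⟯ := adjoin_sub_eq x c
  have ht : x - algebraMap K F c ∈ K⟮x⟯ := htop ▸ mem_adjoin_simple_self K _
  obtain ⟨h1, -⟩ := restrict_of_pos hF hx ht htop (w := w) hpos
  rw [show x - algebraMap K F c = ((⟨_, ht⟩ : K⟮x⟯) : F) from rfl, ord_coe hF hx, h1, mul_one,
    (hgood _ hw.1).2.1 w (Place.mem_fiber.2 rfl), Nat.cast_one]

end FA.Mazur

end
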