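import Fermat.Agent.Mazur.RLemma
import Fermat.Agent.Mazur.UnitLift
import Fermat.Agent.Mazur.Unramified
import Fermat.Agent.Mazur.InertiaValue
import Fermat.Agent.CurveRed.ModularBase
import Fermat.Agent.JTorsion.GoodRedAll

/-!
# Unramified torsion at the residue characteristic with zero reduction

On `J₀(N)`, `l ∤ N`, a torsion class of `l`-power order fixed by the inertia group at `l` with
zero reduction is zero for odd `l` and is killed by two for `l = 2`.
-/

set_option autoImplicit false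
set_option linter.style.haveILetI false
set_option linter.unusedSectionVars false
set_option synthInstance.maxHeartbeats 200000
set_option maxHeartbeats 1600000

noncomputable section

namespace FA.Mazur

open ModularCurve AlgebraicCurve FA.Curve FA.CurveRed FA.ModField

local notation "AQ" => AlgebraicClosure ℚ
local notation "GQ" => AlgebraicClosure ℚ ≃ₐ[ℚ] AlgebraicClosure ℚ

variable (N : ℕ) [NeZero N] {l : ℕ} [hl : Fact l.Prime] (hlN : ¬ l ∣ N)
  {A : ValuationSubring AQ} (hA : A.LiesOverPrime l)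

include hA in
/-- Below one, inertia fixed numbers are at most `l`. -/
theorem valuation_le_of_fixed {x : AQ} (hx : ∀ σ ∈ A.inertiaSubgroupIn ℚ, σ x = x)
    (hlt : A.valuation x < 1) : A.valuation x ≤ A.valuation (l : AQ) := by
  rcases eq_or_ne x 0 with rfl | hx0
  · simp
  obtain ⟨j, hj⟩ := exists_zpow_of_fixed hl.out hA hx0 hx
  have hv : A.valuation (l : AQ) < 1 := A.mem_nonunits_iff.mp hA
  have hv0 : 0 < A.valuation (l : AQ) :=
    zero_lt_iff.mpr (A.valuation.ne_zero_iff.mpr (Nat.cast_ne_zero.mpr hl.out.ne_zero))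
  rw [hj] at hlt ⊢
  have h1 : 1 ≤ j := by
    by_contra h
    exact absurd hlt (not_lt.mpr (one_le_zpow_of_nonpos₀ hv0 hv.le (by omega)))
  calc A.valuation (l : AQ) ^ j ≤ A.valuation (l : AQ) ^ (1 : ℤ) :=
        zpow_right_anti₀ hv0 hv.le h1
    _ = _ := zpow_one _

/-- The semilinear automorphisms of inertia. -/
def inertiaAuts (A : ValuationSubring AQ) : Set (SemilinearAut AQ (levelField N AQ)) :=
  {g | ∃ σ ∈ A.inertiaSubgroupIn ℚ, galAut N AQ σ = g}

include hlN hA in
/-- Good discs with coordinates and centres fixed by inertia. -/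
theorem exists_fixed_discs :
    ∃ (_ : IsAlgClosed (IsLocalRing.ResidueField A))
      (R : Reduction AQ (levelField N AQ) (IsLocalRing.ResidueField A)
        (modularFunctionFieldFullC (IsLocalRing.ResidueField A) N) A)
      (S : Finset (Place (IsLocalRing.ResidueField A)
        (modularFunctionFieldFullC (IsLocalRing.ResidueField A) N)))
      (P₀ : S → Place AQ (levelField N AQ)) (t : S → levelField N AQ),
      (S.card : ℤ) = genus AQ (levelField N AQ) ∧
      ell (∑ Q : S, Finsupp.single Q.1 (1 : ℤ)) = 1 ∧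
      (∀ Q, R.spl (P₀ Q) = Q.1) ∧ (∀ Q : S, Reduction.IsCoord R Q.1 (t Q)) ∧
      (∀ g ∈ inertiaAuts N A, ∀ Q, g • t Q = t Q) ∧
      (∀ g ∈ inertiaAuts N A, ∀ Q, g • P₀ Q = P₀ Q) ∧
      (∀ g ∈ inertiaAuts N A, ∀ (Q : S) (P : Place AQ (levelField N AQ)),
        R.spl P = Q.1 → R.spl (g • P) = Q.1) ∧
      ∀ D : Divisor.degZero (K := AQ) (F := levelField N AQ),
        reductionModL A N (Pic0.mk D) = 0 →
          (R.push (D : Divisor AQ (levelField N AQ))).IsPrincipal := by
  classical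
  haveI : Algebra.IsAlgebraic ℚ AQ := AlgebraicClosure.isAlgebraic ℚ
  letI : Algebra AQ ℂ := (IsAlgClosed.lift (R := ℚ) (S := AQ) (M := ℂ)).toRingHom.toAlgebra
  haveI := residueAt_charP hA
  haveI hac : IsAlgClosed (IsLocalRing.ResidueField A) := FA.Frob.residueField_isAlgClosed A
  obtain ⟨hin, hg⟩ := FA.CurveRed.Modular.reductionInputsModL N hl.out hlN A hA
  set k := IsLocalRing.ResidueField A
  set π := IsLocalRing.residue A
  have hπs : Function.Surjective π := IsLocalRing.residue_surjective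
  have hπ0 : ∀ a : A, π a = 0 ↔ A.valuation a < 1 := residueAt_eq_zero
  set R := redOf N AQ hπs hπ0 hin
  have hF := isFunctionField_level AQ N
  have hk := isFunctionField_fullC k N
  -- places where `j` is a coordinate
  have hjt : Transcendental k (redGen N k 0) := redGen_zero_transcendental N
  haveI : Algebra.IsSeparable (IntermediateField.adjoin k {redGen N k 0})
      (modularFunctionFieldFullC k N) := by
    refine FA.CurveRed.Modular.isSeparable_down (redGen N k 0) hjt ?_
    rw [redGen_zero]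
    exact FA.CurveRed.Modular.theta_ne_zero_of_coeff jqModC_coeff_neg_one
  obtain ⟨B, hB, hord⟩ := exists_finite_ord_sub_eq_one hk hjt
  obtain ⟨S₀, hS₀card, hdisj, hell'⟩ := exists_nonspecial hk (hB.union (finite_not_isSep N k)).toFinset
  obtain ⟨S, hSsub, hScard⟩ := S₀.exists_subset_card_eq (hS₀card.symm ▸ hg)
  have hgood : ∀ Q : S, IsSep N k Q.1 ∧ Q.1 ∉ B := fun Q => by
    have h1 := Finset.disjoint_left.1 hdisj (hSsub Q.2)
    simp only [Set.Finite.mem_toFinset, Set.mem_union, Set.mem_setOf_eq, not_or, not_not] at h1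
    exact ⟨h1.2, h1.1⟩
  have hell : ell (∑ Q : S, Finsupp.single Q.1 (1 : ℤ)) = 1 := by
    refine le_antisymm ?_ ?_
    · refine le_of_le_of_eq ?_ hell'
      refine ell_mono hk ?_
      rw [Finset.sum_coe_sort S (fun Q => Finsupp.single Q (1 : ℤ))]
      exact Finset.sum_le_sum_of_subset_of_nonneg hSsub
        fun Q _ _ => Finsupp.single_nonneg.2 zero_le_one
    · refine le_of_eq_of_le (ell_zero hk).symm ?_
      exact ell_mono hk (Finset.sum_nonneg fun j _ => Finsupp.single_nonneg.2 zero_le_one)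
  choose c hc hc1 using fun Q : S => hord Q.1 (hgood Q).2
  choose a ha hafix using fun Q : S => exists_fixed_lift (q := l) hA (c Q)
  set t : S → levelField N AQ := fun Q =>
    levelGen N AQ 0 - algebraMap AQ (levelField N AQ) (a Q : AQ) with ht_def
  have hredt : ∀ Q : S, R.Red (t Q)
      (redGen N k 0 - algebraMap k (modularFunctionFieldFullC k N) (c Q)) := fun Q => by
    rw [← ha Q]
    exact (red_levelGen N AQ hπs hπ0 hin 0).sub (Reduction.red_const (R := R) (a Q))
  have hnp : ∀ Q : S, Reduction.NoPole R Q.1 (t Q) := fun Q P hP =>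
    ((regular_gens N l hlN AQ hπs hπ0 hin Q.1 (hgood Q).1.1 0).2 P hP).sub (atLeast_algebraMap _)
  have ht : ∀ Q : S, Reduction.IsCoord R Q.1 (t Q) := fun Q =>
    ⟨_, hredt Q, hc1 Q, hnp Q⟩
  have hr0 : ∀ Q : S, redGen N k 0 - algebraMap k (modularFunctionFieldFullC k N) (c Q) ≠ 0 :=
    fun Q h => by simpa [h] using hc1 Q
  have hzero : ∀ Q : S, ∃ P, R.spl P = Q.1 ∧ HasValue P (t Q) 0 := fun Q => by
    have hsum := Reduction.push_divOf hF (hredt Q) (hr0 Q) Q.1
    rw [hc1 Q, Reduction.push_apply] at hsum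
    obtain ⟨P, -, hP⟩ := Finset.exists_ne_zero_of_sum_ne_zero (hsum.symm ▸ one_ne_zero)
    split_ifs at hP with h
    · refine ⟨P, h, hasValue_zero_iff.2 (Or.inr ?_)⟩
      have h1 := (atLeast_iff ((hredt Q).ne_zero (hr0 Q))).1 (hnp Q P h)
      rw [divOf_apply] at hP
      omega
    · exact absurd rfl hP
  choose P₀ hP₀ hP₀v using hzero
  have hGt : ∀ g ∈ inertiaAuts N A, ∀ Q, g • t Q = t Q := by
    rintro _ ⟨σ, hσ, rfl⟩ Q
    simp only [ht_def]
    rw [smul_sub, galAut_levelGen, SemilinearAut.smul_algebraMap, baseAut_galAut, hafix Q σ hσ]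
  have hGQ : ∀ g ∈ inertiaAuts N A, ∀ (Q : S) (P : Place AQ (levelField N AQ)),
      R.spl P = Q.1 → R.spl (g • P) = Q.1 := by
    rintro _ ⟨σ, hσ, rfl⟩ Q P hP
    rw [spl_gal_inertia N AQ l hlN hπs hπ0 hin (inducesOn_inertia hσ) (P := P)
      (by rw [hP]; exact (hgood Q).1), hP]
  refine ⟨hac, R, S, P₀, t, by rw [hScard], hell, hP₀, ht, hGt, fun g hg Q => ?_, hGQ, fun D hD => ?_⟩
  · refine Reduction.eq_of_value_eq hF hk ht (hP₀ Q) (hGQ g hg Q _ (hP₀ Q)) (hP₀v Q) ?_
    have hv := Reduction.hasValue_smul hF g (hP₀v Q)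
    rwa [hGt g hg Q, map_zero] at hv
  · obtain ⟨hd, he⟩ := reductionAlong_eq_push N AQ hπs hπ0 hin D
    have h1 : Pic0.mk (⟨_, hd⟩ : Divisor.degZero (K := k) (F := modularFunctionFieldFullC k N)) = 0 :=
      he.symm.trans hD
    exact (QuotientAddGroup.eq_zero_iff _).1 h1

include hlN hA in
/-- An odd torsion class of order `l`, fixed by inertia, with zero reduction, is zero. -/
theorem eq_zero_of_fixed_of_prime (hl2 : l ≠ 2) {x : JZero N}
    (hfix : ∀ σ ∈ A.inertiaSubgroupIn ℚ, σ • x = x)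
    (hred : reductionModL A N x = 0) (hx : l • x = 0) : x = 0 := by
  haveI : Algebra.IsAlgebraic ℚ AQ := AlgebraicClosure.isAlgebraic ℚ
  letI : Algebra AQ ℂ := (IsAlgClosed.lift (R := ℚ) (S := AQ) (M := ℂ)).toRingHom.toAlgebra
  obtain ⟨_, R, S, P₀, t, hcard, hell, hP₀, ht, hGt, hGP, hGQ, hpush⟩ := exists_fixed_discs N hlN hA
  obtain ⟨D, rfl⟩ := Pic0.mk_surjective x
  have hlt : A.valuation (l : AQ) < 1 := A.mem_nonunits_iff.mp hA
  refine (QuotientAddGroup.eq_zero_iff _).2 ?_
  refine Reduction.mem_principal_of_fixed_odd (R := R) (isFunctionField_level AQ N)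
    (isFunctionField_fullC _ N) hcard hell hP₀ ht hGt hGP hGQ (Divisor.mem_degZero.1 D.2)
    (hpush D hred) ?_ ?_ hl.out hl2 hlt (Nat.cast_ne_zero.mpr hl.out.ne_zero) ?_
  · rintro _ ⟨σ, hσ, rfl⟩
    have h1 := sub_eq_zero.2 (hfix σ hσ)
    rw [galois_smul_pic0_def, SemilinearAut.pic0_smul_mk] at h1
    exact (QuotientAddGroup.eq_zero_iff (SemilinearAut.degZeroSMulHom
      (arithmeticGalois (modularFunctionFieldFull N) σ) D - D)).1 h1
  · intro y hy hy1 q hq hqA
    have hql : q = l := by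
      by_contra hne
      rw [valuation_natCast_eq_one hA fun h => hne ((Nat.prime_dvd_prime_iff_eq hl.out hq).1 h).symm]
        at hqA
      exact lt_irrefl _ hqA
    subst hql
    exact valuation_le_of_fixed hA (fun σ hσ => hy _ ⟨σ, hσ, rfl⟩) hy1
  · exact (QuotientAddGroup.eq_zero_iff (l • D)).1 hx

include hlN hA in
/-- At `2` a class of order four, fixed by inertia, with zero reduction, has order two. -/
theorem two_nsmul_eq_zero_of_fixed_four (hl2 : l = 2) {x : JZero N}
    (hfix : ∀ σ ∈ A.inertiaSubgroupIn ℚ, σ • x = x)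
    (hred : reductionModL A N x = 0) (hx : 4 • x = 0) : 2 • x = 0 := by
  subst hl2
  haveI : Algebra.IsAlgebraic ℚ AQ := AlgebraicClosure.isAlgebraic ℚ
  letI : Algebra AQ ℂ := (IsAlgClosed.lift (R := ℚ) (S := AQ) (M := ℂ)).toRingHom.toAlgebra
  obtain ⟨_, R, S, P₀, t, hcard, hell, hP₀, ht, hGt, hGP, hGQ, hpush⟩ := exists_fixed_discs N hlN hA
  obtain ⟨D, rfl⟩ := Pic0.mk_surjective x
  have hlt : A.valuation ((2 : ℕ) : AQ) < 1 := A.mem_nonunits_iff.mp hA
  refine (QuotientAddGroup.eq_zero_iff (2 • D)).2 ?_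
  refine Reduction.two_nsmul_mem_principal_of_fixed (R := R) (isFunctionField_level AQ N)
    (isFunctionField_fullC _ N) hcard hell hP₀ ht hGt hGP hGQ (Divisor.mem_degZero.1 D.2)
    (hpush D hred) ?_ ?_ hlt two_ne_zero ?_
  · rintro _ ⟨σ, hσ, rfl⟩
    have h1 := sub_eq_zero.2 (hfix σ hσ)
    rw [galois_smul_pic0_def, SemilinearAut.pic0_smul_mk] at h1
    exact (QuotientAddGroup.eq_zero_iff (SemilinearAut.degZeroSMulHom
      (arithmeticGalois (modularFunctionFieldFull N) σ) D - D)).1 h1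
  · intro y hy hy1 q hq hqA
    have hql : q = 2 := by
      by_contra hne
      rw [valuation_natCast_eq_one hA fun h => hne ((Nat.prime_dvd_prime_iff_eq hl.out hq).1 h).symm]
        at hqA
      exact lt_irrefl _ hqA
    subst hql
    exact valuation_le_of_fixed hA (fun σ hσ => hy _ ⟨σ, hσ, rfl⟩) hy1
  · exact (QuotientAddGroup.eq_zero_iff (4 • D)).1 hx

include hlN hA in
/-- **Fixed torsion with zero reduction**: odd residue characteristic. -/
theorem eq_zero_of_fixed_of_pow (hl2 : l ≠ 2) (j : ℕ) : ∀ {x : JZero N},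
    (∀ σ ∈ A.inertiaSubgroupIn ℚ, σ • x = x) → reductionModL A N x = 0 → l ^ j • x = 0 → x = 0 := by
  induction j with
  | zero => intro x _ _ hx; simpa using hx
  | succ j ih =>
    intro x hfix hred hx
    refine eq_zero_of_fixed_of_prime N hlN hA hl2 hfix hred ?_
    exact ih (fun σ hσ => by rw [← nsmul_gal, hfix σ hσ]) (by rw [map_nsmul, hred, nsmul_zero])
      (by rw [← mul_nsmul', ← pow_succ]; exact hx)

include hlN hA in
/-- **Fixed torsion with zero reduction**: residue characteristic two. -/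
theorem two_nsmul_eq_zero_of_fixed (hl2 : l = 2) (j : ℕ) : ∀ {x : JZero N},
    (∀ σ ∈ A.inertiaSubgroupIn ℚ, σ • x = x) → reductionModL A N x = 0 → 2 ^ j • x = 0 →
      2 • x = 0 := by
  induction j with
  | zero => intro x _ _ hx; rw [pow_zero, one_smul] at hx; rw [hx, nsmul_zero]
  | succ j ih =>
    intro x hfix hred hx
    refine two_nsmul_eq_zero_of_fixed_four N hlN hA hl2 hfix hred ?_
    have := ih (x := 2 • x) (fun σ hσ => by rw [← nsmul_gal, hfix σ hσ])
      (by rw [map_nsmul, hred, nsmul_zero]) (by rw [← mul_nsmul', ← pow_succ]; exact hx)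
    rwa [← mul_nsmul'] at this

end FA.Mazur

end
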