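import Mathlib.FieldTheory.IsAlgClosed.Basic
import Mathlib.LinearAlgebra.FiniteDimensional.Defs
import Mathlib.LinearAlgebra.Dimension.Finite
import Mathlib.Tactic.LinearCombination

/-!
# Fixed vectors of semilinear maps over an algebraically closed field
-/

set_option autoImplicit false
set_option linter.style.haveILetI false

noncomputable section

open Polynomial

namespace FA.Mazur

/-- An injective `a ↦ a ^ q` semilinear endomorphism of a nonzero finite dimensional space over
an algebraically closed field fixes a nonzero vector. -/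
theorem exists_fixed_vector {k V : Type*} [Field k] [IsAlgClosed k] [AddCommGroup V] [Module k V]
    [Module.Finite k V] [Nontrivial V] {q : ℕ} (hq : 2 ≤ q)
    (φ : V →+ V) (hφ : ∀ (a : k) (v : V), φ (a • v) = a ^ q • φ v) (hinj : Function.Injective φ) :
    ∃ w : V, w ≠ 0 ∧ φ w = w := by
  classical
  obtain ⟨v, hv⟩ := exists_ne (0 : V)
  set u : ℕ → V := fun i => φ^[i] v with hu
  have hu0 : ∀ i, u i ≠ 0 := fun i h => hv (hinj.iterate i (by
    show φ^[i] v = φ^[i] 0
    rw [show φ^[i] v = u i from rfl, h]
    exact (Function.iterate_fixed (map_zero φ) i).symm))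
  have hex : ∃ n, ¬ LinearIndependent k (fun i : Fin n => u i) := by
    refine ⟨Module.finrank k V + 1, fun h => ?_⟩
    have := h.fintype_card_le_finrank
    rw [Fintype.card_fin] at this
    omega
  set n := Nat.find hex
  have hdep := Nat.find_spec hex
  have hn : n ≠ 0 := fun h => hdep (by
    show LinearIndependent k fun i : Fin n => u i
    haveI : IsEmpty (Fin n) := by rw [h]; exact Fin.isEmpty
    exact linearIndependent_empty_type)
  obtain ⟨m, hm⟩ := Nat.exists_eq_succ_of_ne_zero hn
  have hind : LinearIndependent k (fun i : Fin m => u i) :=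
    not_not.1 (Nat.find_min hex (show m < n by omega))
  have hmem : u m ∈ Submodule.span k (Set.range fun i : Fin m => u i) := by
    by_contra hno
    refine hdep ?_
    show LinearIndependent k fun i : Fin n => u i
    rw [hm]
    have := linearIndependent_finSnoc.2 ⟨hind, hno⟩
    convert this using 1
    funext i
    refine Fin.lastCases ?_ (fun j => ?_) i
    · simp
    · simp
  rw [Submodule.mem_span_range_iff_exists_fun] at hmem
  obtain ⟨c, hc⟩ := hmem
  set C' : ℕ → k := fun i => if h : i < m then c ⟨i, h⟩ else 0 with hC'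
  have hrel : ∑ i ∈ Finset.range m, C' i • u i = u m := by
    rw [← hc, Finset.sum_range]
    exact Finset.sum_congr rfl fun i _ => by simp [hC', i.2]
  -- the polynomials
  let P : ℕ → k[X] := fun i => Nat.rec (C (C' 0) * X ^ q) (fun j Pj => Pj ^ q + C (C' (j + 1)) * X ^ q) i
  have hP0 : P 0 = C (C' 0) * X ^ q := rfl
  have hP1 : ∀ i, P (i + 1) = P i ^ q + C (C' (i + 1)) * X ^ q := fun _ => rfl
  have hdvd : ∀ i, X ^ q ∣ P i := by
    intro i
    induction i with
    | zero => exact Dvd.intro_left _ rfl
    | succ i ih => exact dvd_add (dvd_pow ih (by omega)) (Dvd.intro_left _ rfl)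
  have hne : ∀ i, (∃ j ≤ i, C' j ≠ 0) → P i ≠ 0 ∧ q ≤ (P i).natDegree := by
    intro i
    induction i with
    | zero =>
      rintro ⟨j, hj, hcj⟩
      obtain rfl : j = 0 := by omega
      rw [hP0, natDegree_C_mul_X_pow _ _ hcj]
      exact ⟨mul_ne_zero (C_ne_zero.2 hcj) (pow_ne_zero _ X_ne_zero), le_rfl⟩
    | succ i ih =>
      intro hex'
      rw [hP1]
      by_cases hprev : ∃ j ≤ i, C' j ≠ 0
      · obtain ⟨h0, hd⟩ := ih hprev
        have hlt : (C (C' (i + 1)) * X ^ q).natDegree < (P i ^ q).natDegree := by
          refine lt_of_le_of_lt (natDegree_C_mul_X_pow_le _ _) ?_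
          rw [natDegree_pow]
          nlinarith
        have hdeg := natDegree_add_eq_left_of_natDegree_lt hlt
        refine ⟨fun h => ?_, ?_⟩
        · rw [h, natDegree_zero] at hdeg
          omega
        · rw [hdeg, natDegree_pow]; nlinarith
      · push Not at hprev
        have hz : ∀ j ≤ i, P j = 0 := by
          intro j
          induction j with
          | zero => intro _; rw [hP0, hprev 0 (by omega), map_zero, zero_mul]
          | succ j ihj =>
            intro hj
            rw [hP1, ihj (by omega), hprev (j + 1) hj, map_zero, zero_mul, zero_pow (by omega),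
              add_zero]
        obtain ⟨j, hj, hcj⟩ := hex'
        obtain rfl : j = i + 1 := by
          by_contra h
          exact hcj (hprev j (by omega))
        rw [hz i le_rfl, zero_pow (by omega), zero_add, natDegree_C_mul_X_pow _ _ hcj]
        exact ⟨mul_ne_zero (C_ne_zero.2 hcj) (pow_ne_zero _ X_ne_zero), le_rfl⟩
  obtain ⟨m', rfl⟩ : ∃ m', m = m' + 1 := by
    refine Nat.exists_eq_succ_of_ne_zero fun h => hu0 m ?_
    subst h
    simpa using hrel.symm
  obtain ⟨hPne, hPdeg⟩ := hne m' (by
    by_contra h
    push Not at h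
    refine hu0 (m' + 1) ?_
    rw [← hrel]
    exact Finset.sum_eq_zero fun i hi => by
      rw [h i (by have := Finset.mem_range.1 hi; omega), zero_smul])
  obtain ⟨G, hG⟩ := hdvd m'
  -- a nonzero root
  obtain ⟨y, hy⟩ := IsAlgClosed.exists_root (X ^ (q - 1) * G - 1) (by
    intro hdeg
    obtain ⟨a, ha⟩ := natDegree_eq_zero.1 (natDegree_eq_of_degree_eq_some (by exact hdeg))
    have h1 : X ^ (q - 1) * G = C (a + 1) := by rw [map_add, ha, map_one, sub_add_cancel]
    have h2 := congrArg (fun p : k[X] => p.coeff 0) h1
    simp only [coeff_C_zero, mul_coeff_zero, coeff_X_pow] at h2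
    rw [if_neg (by omega), zero_mul] at h2
    rw [← h2, map_zero] at h1
    exact hPne (by rw [hG, show q = q - 1 + 1 by omega, pow_succ', mul_assoc, h1, mul_zero]))
  rw [IsRoot, eval_sub, eval_mul, eval_pow, eval_X, eval_one, sub_eq_zero] at hy
  have hy0 : y ≠ 0 := fun h => by
    rw [h, zero_pow (by omega), zero_mul] at hy
    exact zero_ne_one hy
  have hroot : (P m').eval y = y := by
    rw [hG, eval_mul, eval_pow, eval_X, show q = q - 1 + 1 by omega, pow_succ', mul_assoc, hy, mul_one]
  set x : ℕ → k := fun i => (P i).eval y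
  have hx0 : x 0 = C' 0 * y ^ q := by simp [x, hP0]
  have hx1 : ∀ i, x (i + 1) = x i ^ q + C' (i + 1) * y ^ q := fun i => by simp [x, hP1]
  set w : V := ∑ i ∈ Finset.range (m' + 1), x i • u i
  refine ⟨w, fun h => ?_, ?_⟩
  · have hl := Fintype.linearIndependent_iff.1 hind (fun i => x i)
      (by rw [← Finset.sum_range fun i => x i • u i]; exact h) ⟨m', by omega⟩
    exact hy0 (hroot ▸ hl)
  · have hφu : ∀ i, φ (u i) = u (i + 1) := fun i => (Function.iterate_succ_apply' φ i v).symm
    rw [map_sum]
    simp only [hφ, hφu]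
    rw [Finset.sum_range_succ, ← hrel, Finset.smul_sum]
    simp only [smul_smul]
    rw [show x m' = y from hroot, Finset.sum_range_succ' (fun i => (y ^ q * C' i) • u i),
      ← add_assoc, ← Finset.sum_add_distrib]
    show _ = ∑ i ∈ Finset.range (m' + 1), x i • u i
    rw [Finset.sum_range_succ']
    congr 1
    · refine Finset.sum_congr rfl fun i _ => ?_
      rw [hx1, ← add_smul]
      congr 1
      ring
    · rw [hx0, mul_comm]

end FA.Mazur

end
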