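import Fermat.Agent.Mazur.Twist
import Fermat.Agent.Mazur.FixedVector
import Mathlib.LinearAlgebra.Matrix.NonsingularInverse
import Mathlib.LinearAlgebra.Matrix.ToLin

/-!
# Twisted functionals span modulo `l`
-/

set_option autoImplicit false
set_option linter.style.haveILetI false
set_option linter.unusedSectionVars false

noncomputable section

namespace FA.Mazur

variable {Λ O R : Type} [CommRing Λ] [CommRing O] [Algebra Λ O] [CommRing R] [Algebra Λ R]
  (l : ℕ) (F : O ≃ₐ[Λ] O) (t : R)

/-- Solutions of the twisted equation. -/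
def IsTwist (L : R →ₗ[Λ] O) : Prop := ∀ y, F (L y) = L (t * y) - (l : O) * F.symm (L y)

variable {l F t}

theorem IsTwist.comp_mul {L : R →ₗ[Λ] O} (h : IsTwist l F t L) (s : R) :
    IsTwist l F t (L.comp (LinearMap.mulLeft Λ s)) := fun y => by
  simp only [LinearMap.comp_apply, LinearMap.mulLeft_apply]
  rw [h (s * y), mul_left_comm]

theorem IsTwist.add {L M : R →ₗ[Λ] O} (h : IsTwist l F t L) (h' : IsTwist l F t M) :
    IsTwist l F t (L + M) := fun y => by
  simp only [LinearMap.add_apply, map_add, h y, h' y]; ring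

theorem IsTwist.smul {L : R →ₗ[Λ] O} (h : IsTwist l F t L) (c : Λ) :
    IsTwist l F t (c • L) := fun y => by
  simp only [LinearMap.smul_apply, map_smul, h y, smul_sub, mul_smul_comm]

theorem isTwist_zero : IsTwist l F t (0 : R →ₗ[Λ] O) := fun y => by simp

variable (hF : ∀ c : O, ∃ x, F x - x = c) (K : ℕ) (ht : ∃ r, (t - 1) ^ K = (l : R) * r)
  [IsAdicComplete (Ideal.span {(l : O)}) O] (hl : 2 ≤ l)
  {k : Type} [Field k] [IsAlgClosed k] [CharP k l] [Fact l.Prime] (π : O →+* k)
  (hπ : Function.Surjective π) (hπ0 : ∀ x, π x = 0 ↔ (l : O) ∣ x) (hπF : ∀ x, π (F x) = π x ^ l)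
  (hfix : ∀ z : k, z ^ l = z → ∃ c : Λ, π (algebraMap Λ O c) = z)
  (hunit : ∀ c : Λ, π (algebraMap Λ O c) ≠ 0 → IsUnit c)
  (hdivΛ : ∀ c : Λ, π (algebraMap Λ O c) = 0 → (l : Λ) ∣ c)
  {ι : Type} [Fintype ι] [DecidableEq ι] (b : Module.Basis ι Λ R)

include hF ht hl hπ hπ0 hπF hfix hunit hdivΛ in
/-- **Twisted functionals form a basis over `O`.** -/
theorem exists_twist_basis :
    ∃ L : ι → (R →ₗ[Λ] O), (∀ i, IsTwist l F t (L i)) ∧ IsUnit (Matrix.of fun i j => L i (b j)).det := by
  classical
  haveI : Module.Free Λ R := Module.Free.of_basis b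
  haveI : Module.Finite Λ R := Module.Finite.of_basis b
  set S : Set (ι → k) := {φ | ∃ L, IsTwist l F t L ∧ ∀ j, φ j = π (L (b j))}
  have hlk : (l : k) = 0 := CharP.cast_eq_zero k l
  have hspan : Submodule.span k S = ⊤ := by
    by_contra hne
    -- relations among the reductions
    let W : Submodule k (ι → k) :=
      { carrier := {ψ | ∀ L, IsTwist l F t L → ∑ j, ψ j * π (L (b j)) = 0}
        add_mem' := fun {x y} hx hy L hL => by
          simp only [Pi.add_apply, add_mul, Finset.sum_add_distrib, hx L hL, hy L hL, add_zero]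
        zero_mem' := fun L _ => by simp
        smul_mem' := fun c x hx L hL => by
          simp only [Pi.smul_apply, smul_eq_mul, mul_assoc, ← Finset.mul_sum, hx L hL, mul_zero] }
    obtain ⟨f, hf0, hfS⟩ := Submodule.exists_le_ker_of_lt_top _ (lt_top_iff_ne_top.2 hne)
    have hW : Nontrivial W := by
      refine ⟨⟨⟨fun j => f (Pi.single j 1), fun L hL => ?_⟩, 0, fun h => hf0 ?_⟩⟩
      · have h1 : f (fun j => π (L (b j))) = 0 := hfS (Submodule.subset_span ⟨L, hL, fun _ => rfl⟩)
        rw [pi_eq_sum_univ (fun j => π (L (b j))), map_sum] at h1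
        rw [← h1]
        refine Finset.sum_congr rfl fun j _ => ?_
        rw [map_smul, smul_eq_mul, mul_comm]
        refine congrArg (_ * ·) (congrArg f (funext fun i => ?_))
        simp [Pi.single_apply, eq_comm]
      · refine LinearMap.pi_ext' fun j => LinearMap.ext_ring ?_
        have := congrFun (congrArg Subtype.val h) j
        simpa using this
    -- Frobenius preserves the relations
    have hstab : ∀ ψ ∈ W, (fun j => ψ j ^ l) ∈ W := fun ψ hψ L hL => by
      have h1 : ∀ s : R, ∑ j, ψ j * π (L (s * b j)) = 0 := fun s => hψ _ (hL.comp_mul s)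
      obtain ⟨r, hr⟩ := ht
      -- `t` is invertible modulo `l`
      obtain ⟨u, hu⟩ : ∃ u : R, ∃ v, u * t = 1 + (l : R) * v := by
        obtain ⟨w, hw⟩ := sub_one_dvd_pow_sub_one (1 - t) K
        refine ⟨-(∑ i ∈ Finset.range K, (1 - t) ^ i) * (-1), -((-1) ^ K * r), ?_⟩
        rw [mul_assoc]
        have hg := geom_sum_mul (1 - t) K
        have e : (1 - t) ^ K = (-1) ^ K * ((l : R) * r) := by
          rw [← hr, ← mul_pow]; congr 1; ring
        rw [e] at hg
        linear_combination -hg
      have h2 : ∀ s : R, ∑ j, ψ j ^ l * π (L (s * b j)) ^ l = 0 := fun s => by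
        have h3 := congrArg (· ^ l) (h1 s)
        simp only [zero_pow (show l ≠ 0 by omega), sum_pow_char l, mul_pow] at h3
        exact h3
      obtain ⟨v, hv⟩ := hu
      have h4 := h2 u
      simp only [← hπF, hL (u * _), map_sub, map_mul, map_natCast, hlk, zero_mul, sub_zero,
        ← mul_assoc, mul_comm t u, hv] at h4
      have e : ∀ z, π (L ((1 + (l : R) * v) * z)) = π (L z) := fun z => by
        rw [add_mul, one_mul, mul_assoc, ← nsmul_eq_mul, map_add, map_nsmul, map_add π, map_nsmul,
          nsmul_eq_mul, hlk, zero_mul, add_zero]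
      simpa only [e] using h4
    let φ : W →+ W := AddMonoidHom.mk' (fun ψ => ⟨fun j => (ψ : ι → k) j ^ l, hstab _ ψ.2⟩)
      fun x y => Subtype.ext (funext fun j => add_pow_char ..)
    obtain ⟨⟨ψ, hψW⟩, hψ0, hψfix⟩ := exists_fixed_vector (k := k) hl φ
      (fun a v => Subtype.ext (funext fun j => mul_pow a _ _))
      (fun x y hxy => Subtype.ext (funext fun j => frobenius_inj k l
        (congrFun (congrArg Subtype.val hxy) j)))
    choose c hc using fun j => hfix (ψ j) (congrFun (congrArg Subtype.val hψfix) j)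
    -- a rational relation
    have hrel : ∀ L, IsTwist l F t L → π (L (∑ j, c j • b j)) = 0 := fun L hL => by
      rw [map_sum, map_sum, ← hψW L hL]
      refine Finset.sum_congr rfl fun j _ => ?_
      rw [map_smul, Algebra.smul_def, map_mul, hc]
    set x : R := ∑ j, c j • b j with hxdef
    obtain ⟨r, hr⟩ := ht
    have hex : ∃ n, ∀ j, π (algebraMap Λ O (b.repr ((t - 1) ^ n * x) j)) = 0 := by
      refine ⟨K, fun j => ?_⟩
      rw [hr, mul_assoc, ← nsmul_eq_mul, map_nsmul, Finsupp.smul_apply, map_nsmul, map_nsmul,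
        nsmul_eq_mul, hlk, zero_mul]
    have hx1 : ¬ ∀ j, π (algebraMap Λ O (b.repr ((t - 1) ^ 0 * x) j)) = 0 := fun h0 => by
      refine hψ0 (Subtype.ext (funext fun j => ?_))
      have := h0 j
      rw [pow_zero, one_mul, hxdef, b.repr_sum_self, hc] at this
      simpa using this
    obtain ⟨m, hm⟩ : ∃ m, Nat.find hex = m + 1 :=
      Nat.exists_eq_succ_of_ne_zero fun h => hx1 (h ▸ Nat.find_spec hex)
    have hlast := Nat.find_spec hex
    rw [hm] at hlast
    set x₀ := (t - 1) ^ m * x
    obtain ⟨j₀, hj₀⟩ := not_forall.1 (Nat.find_min hex (show m < Nat.find hex by omega))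
    obtain ⟨cu, hcu⟩ := hunit _ hj₀
    have hdiv : ∀ z : R, (∀ j, π (algebraMap Λ O (b.repr z j)) = 0) → ∃ z', z = (l : R) * z' := by
      intro z hz
      have h1 : ∀ j, ∃ d : Λ, b.repr z j = (l : Λ) * d := fun j => hdivΛ _ (hz j)
      choose d hd using h1
      refine ⟨∑ j, d j • b j, ?_⟩
      conv_lhs => rw [← b.sum_repr z]
      rw [Finset.mul_sum]
      refine Finset.sum_congr rfl fun j _ => ?_
      rw [hd, mul_smul, Nat.cast_smul_eq_nsmul, nsmul_eq_mul]
    obtain ⟨z', hz'⟩ := hdiv ((t - 1) * x₀) fun j => by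
      have := hlast j
      rwa [pow_succ', mul_assoc] at this
    set e : R →ₗ[Λ] Λ := (↑cu⁻¹ : Λ) • b.coord j₀ with he
    have he1 : e x₀ = 1 := by
      simp only [he, LinearMap.smul_apply, Module.Basis.coord_apply, smul_eq_mul]
      rw [← hcu, Units.inv_mul]
    obtain ⟨L, hL, hL0, -⟩ := exists_twist l F t hF K ⟨r, hr⟩ e x₀ (by rw [he1, one_smul]) ⟨z', hz'⟩
    rw [← hπ0, map_sub, he1, map_one, map_one, sub_eq_zero] at hL0
    have h0 := hrel _ (IsTwist.comp_mul (fun y => hL y) ((t - 1) ^ m))
    rw [LinearMap.comp_apply, LinearMap.mulLeft_apply] at h0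
    exact one_ne_zero (hL0.symm.trans h0)
  -- choose a basis
  obtain ⟨κ, w, hw, hwspan, hwind⟩ := exists_linearIndependent' k (fun φ : S => (φ : ι → k))
  rw [Subtype.range_coe_subtype] at hwspan
  have hbasis : Submodule.span k (Set.range ((fun φ : S => (φ : ι → k)) ∘ w)) = ⊤ :=
    hwspan.trans hspan
  let B := Module.Basis.mk hwind hbasis.ge
  haveI : Finite κ := Module.Finite.finite_basis B
  let eqv : κ ≃ ι := B.indexEquiv (Pi.basisFun k ι)
  choose L hL hLval using fun i => (w (eqv.symm i)).2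
  refine ⟨L, hL, ?_⟩
  have hdet : π (Matrix.of fun i j => L i (b j)).det ≠ 0 := by
    rw [RingHom.map_det]
    have hind : LinearIndependent k fun i => fun j => π (L i (b j)) := by
      have h1 : (fun i => fun j => π (L i (b j))) =
          ((fun φ : S => (φ : ι → k)) ∘ w) ∘ eqv.symm :=
        funext fun i => funext fun j => (hLval i j).symm
      rw [h1]
      exact hwind.comp _ eqv.symm.injective
    have := (Matrix.linearIndependent_rows_iff_isUnit (A := Matrix.of fun i j => π (L i (b j)))).1 hind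
    exact ((Matrix.isUnit_iff_isUnit_det _).1 this).ne_zero
  -- units modulo `l` are units
  obtain ⟨y, hy⟩ := hπ (π (Matrix.of fun i j => L i (b j)).det)⁻¹
  have h1 : (l : O) ∣ (Matrix.of fun i j => L i (b j)).det * y - 1 := by
    rw [← hπ0, map_sub, map_mul, hy, mul_inv_cancel₀ hdet, map_one, sub_self]
  have h2 : IsUnit ((Matrix.of fun i j => L i (b j)).det * y) := by
    have := Ideal.mem_span_singleton.2 h1
    have h3 := (Ideal.mem_jacobson_bot.1
      (IsAdicComplete.le_jacobson_bot (Ideal.span {(l : O)}) this)) 1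
    rwa [mul_one, sub_add_cancel] at h3
  exact isUnit_of_mul_isUnit_left h2

end FA.Mazur

end
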