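import Fermat.Agent.Mazur.DiscTest
import Fermat.Agent.Mazur.EisSplit
import Fermat.Agent.Mazur.TwistRank
import Fermat.Agent.Mazur.RModular

/-!
# The part of the Eisenstein lattice in the disc at infinity is multiplicative of half rank

Inertia at `l` acts on the classes in the disc by the cyclotomic character, and the linear forms of
a basis of twists are coordinates on them up to a bounded power of `l`.
-/

set_option autoImplicit false
set_option linter.style.haveILetI false
set_option linter.unusedSectionVars false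

noncomputable section

namespace FA.Mazur

open scoped TensorProduct
open ModularCurve AlgebraicCurve FA.Curve FA.CurveRed FA.ModField FA.Level FA.JTorsion

set_option synthInstance.maxHeartbeats 400000
set_option maxHeartbeats 2000000

local notation "Qb" => AlgebraicClosure ℚ
local notation "GQ" => AlgebraicClosure ℚ ≃ₐ[ℚ] AlgebraicClosure ℚ

section Local

variable [Algebra (AlgebraicClosure ℚ) ℂ]
variable (l : ℕ) [hl : Fact l.Prime] [Algebra (AlgebraicClosure ℚ) (PadicComplex l)]

/-- The cyclotomic character is not trivial on inertia at `l`. -/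
theorem exists_inGp_cycP_ne_one : ∃ σ ∈ inGp l, (cycP l σ : ℤ_[l]) ≠ 1 := by
  by_contra hall
  push Not at hall
  have key : ∀ k, ∃ x : intO l, (x : Cl l) = emb l (rootSys l k) ∧
      ‖(x : Cl l) - 1‖ ≤ ‖(l : Cl l)‖ := by
    intro k
    have hmem : rootSys l k ∈ fixedInt l := by
      refine ⟨?_, fun σ hσ => ?_⟩
      · show ‖emb l (rootSys l k)‖ ≤ 1
        have h1 : ‖emb l (rootSys l k)‖ ^ l ^ k = 1 := by
          rw [← norm_pow, (emb_rootSys_primitive (l := l) k).pow_eq_one, norm_one]
        exact ((pow_eq_one_iff_of_nonneg (norm_nonneg _)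
          (pow_ne_zero _ hl.out.ne_zero)).1 h1).le
      · rw [cycP_spec, hall σ hσ]
        conv_rhs => rw [← pow_one (rootSys l k)]
        exact pow_eq_pow_of_cast_eq (rootSys_primitive k) (by rw [cast_resNat, map_one, Nat.cast_one])
    refine ⟨⟨_, emb_mem_intO hmem⟩, rfl, ?_⟩
    set x : intO l := ⟨_, emb_mem_intO hmem⟩
    have hx : x ^ l ^ k = 1 := Subtype.ext (by
      rw [SubmonoidClass.coe_pow, OneMemClass.coe_one]
      exact (emb_rootSys_primitive (l := l) k).pow_eq_one)
    have h0 : resO l x = 1 := by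
      have h := congrArg (resO l) hx
      rw [map_pow, map_one, ← sub_eq_zero] at h
      rw [← one_pow (l ^ k), ← sub_pow_char_pow] at h
      exact sub_eq_zero.1 (eq_zero_of_pow_eq_zero h)
    have hlt : ‖((x - 1 : intO l) : Cl l)‖ < 1 :=
      (norm_lt_one_iff_resO l _).2 (by rw [map_sub, map_one, h0, sub_self])
    obtain ⟨y, hy, he⟩ := exists_eq_mul_of_lt (x - 1).2 hlt
    show ‖((x - 1 : intO l) : Cl l)‖ ≤ _
    rw [he, norm_mul]
    exact mul_le_of_le_one_right (norm_nonneg _) (norm_le_one_of_intO hy)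
  by_cases hl2 : l = 2
  · subst hl2
    obtain ⟨x, hx, hb⟩ := key 2
    set z : Cl 2 := (x : Cl 2)
    have hprim : IsPrimitiveRoot z (2 ^ 2) := hx ▸ emb_rootSys_primitive (l := 2) 2
    have hz : z ^ 2 = -1 := (hprim.pow (by norm_num) (by norm_num : (2 : ℕ) ^ 2 = 2 * 2)).eq_neg_one_of_two_right
    have e : (z - 1) * (z - 1) = -((2 : ℕ) : Cl 2) * z := by push_cast; linear_combination hz
    have hn : ‖z - 1‖ * ‖z - 1‖ = ‖((2 : ℕ) : Cl 2)‖ := by
      have hz1 : ‖z‖ = 1 :=
        (pow_eq_one_iff_of_nonneg (norm_nonneg _) two_ne_zero).1 (by rw [← norm_pow, hz, norm_neg, norm_one])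
      rw [← norm_mul, e, norm_mul, norm_neg, hz1, mul_one]
    have h0 := norm_natCast_pos 2
    have h1 := norm_natCast_lt_one 2
    nlinarith [mul_le_mul hb hb (norm_nonneg _) (norm_nonneg _)]
  · obtain ⟨x, hx, hb⟩ := key 1
    have hprim : IsPrimitiveRoot (x : Cl l) (l ^ 1) := hx ▸ emb_rootSys_primitive (l := l) 1
    have h1 := eq_one_of_pow_prime_pow hl.out hl2 (norm_natCast_lt_one l) hb hprim.pow_eq_one
    have h2 := hprim.eq_orderOf
    rw [h1, orderOf_one, pow_one] at h2
    exact hl.out.one_lt.ne' h2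

theorem algebraMap_intO_injective : Function.Injective (algebraMap ℤ_[l] (intO l)) :=
  fun a b h => (isometry_padicEmb (l := l)).injective (by
    rw [← coe_algebraMap_intO, ← coe_algebraMap_intO, h])

end Local

variable [Algebra (AlgebraicClosure ℚ) ℂ]
variable {p : ℕ} [Fact p.Prime] {l : ℕ} [hl : Fact l.Prime]
  [Algebra (AlgebraicClosure ℚ) (PadicComplex l)]
variable (hn : l ∣ eisensteinNumerator p) (hlp : ¬ l ∣ p)
include hlp

/-- The index set of a basis of the Eisenstein factor. -/
abbrev eisIdx : Type := Module.Free.ChooseBasisIndex ℤ_[l] (EisR p l hn)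

theorem exists_twistFam : ∃ L : eisIdx hn → twistSub p l hn,
    (∀ r : EisR p l hn, (∀ i y, (L i : EisR p l hn →ₗ[ℤ_[l]] intO l) (r * y) = 0) → r = 0) ∧
    ∀ c : eisIdx hn → ℤ_[l], ∑ i, c i • L i = 0 → c = 0 := by
  classical
  set b := Module.Free.chooseBasis ℤ_[l] (EisR p l hn)
  obtain ⟨K, r, hK⟩ := exists_pow_eq_mul p l hn (x := tEll hn - 1) (by
    rw [map_sub, map_one, tEll, psiR_heckeR, psi0_tGen,
      if_neg (show (l : ℕ) ≠ p from ne_level hlp), ZMod.natCast_self, add_zero, sub_self])
  obtain ⟨L, hL, hdet⟩ := exists_twist_basis (F := frobO l) (t := tEll hn) (exists_frobO_sub_eq l) K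
    ⟨r, hK⟩ hl.out.two_le (resO l) (resO_surjective l) (resO_eq_zero_iff l) (resO_frobO l)
    (fun z hz => exists_algebraMap_of_pow_eq l hz) (fun c hc => isUnit_of_resO_ne_zero l hc)
    (fun c hc => dvd_of_resO_eq_zero l hc) b
  refine ⟨fun i => ⟨L i, hL i⟩, fun x hx => ?_, fun c hc => funext fun j => ?_⟩
  · refine b.ext_elem fun j => algebraMap_intO_injective l ?_
    have h := Matrix.eq_zero_of_mulVec_eq_zero hdet.ne_zero
      (v := fun j => algebraMap ℤ_[l] (intO l) (b.repr x j)) (funext fun i => ?_)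
    · rw [map_zero, Finsupp.zero_apply, map_zero]
      exact congrFun h j
    · have h1 := hx i 1
      rw [mul_one, show (L i) x = L i (∑ j, b.repr x j • b j) by rw [b.sum_repr], map_sum] at h1
      rw [Pi.zero_apply]
      refine Eq.trans ?_ h1
      simp only [Matrix.mulVec, dotProduct, Matrix.of_apply]
      exact Finset.sum_congr rfl fun j _ => by rw [map_smul, Algebra.smul_def, mul_comm]
  · refine algebraMap_intO_injective l ?_
    have h := Matrix.eq_zero_of_vecMul_eq_zero hdet.ne_zero
      (v := fun i => algebraMap ℤ_[l] (intO l) (c i)) (funext fun j => ?_)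
    · rw [Pi.zero_apply, map_zero]
      exact congrFun h j
    · have h1 := LinearMap.congr_fun (congrArg Subtype.val hc) (b j)
      rw [Submodule.coe_sum, LinearMap.sum_apply, ZeroMemClass.coe_zero, LinearMap.zero_apply] at h1
      rw [Pi.zero_apply]
      refine Eq.trans ?_ h1
      simp only [Matrix.vecMul, dotProduct, Matrix.of_apply]
      exact Finset.sum_congr rfl fun i _ => by
        rw [Submodule.coe_smul_of_tower, LinearMap.smul_apply, Algebra.smul_def]

/-- The basis of twists. -/
def twistFam (i : eisIdx hn) : twistSub p l hn := (exists_twistFam hn hlp).choose i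

theorem eq_zero_of_twists {r : EisR p l hn}
    (h : ∀ L : twistSub p l hn, twistMul hn r L = 0) : r = 0 :=
  (exists_twistFam hn hlp).choose_spec.1 r fun i y => by
    have h1 := LinearMap.congr_fun (congrArg Subtype.val (h (twistFam hn hlp i))) y
    rw [twistMul_apply, ZeroMemClass.coe_zero, LinearMap.zero_apply] at h1
    exact h1

theorem discPhi_padic_smul (c : ℤ_[l]) (L : twistSub p l hn) :
    discPhi hn hlp (c • L) = c • discPhi hn hlp L :=
  map_padic_smul (fun f hf => LinearMap.ext fun v => eq_zero_padic (f v) fun k => by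
    obtain ⟨g, hg⟩ := hf k
    exact ⟨g v, by rw [← hg, LinearMap.smul_apply]⟩) _ c L

theorem rhoM_mem_discInf {σ : GQ} (hσ : σ ∈ inGp l) {v : EisM p l hn} (hv : v ∈ discInf hn hlp) :
    rhoM p l hn σ v ∈ discInf hn hlp := by
  rw [← sub_add_cancel (rhoM p l hn σ v) v]
  exact add_mem (rhoM_sub_mem_discInf hn hlp hσ v) hv

/-- **The scalar of the relation on inertia at `l`.** -/
theorem tR_inertia {σ : GQ} (hσ : σ ∈ inGp l) :
    tR p l hn σ = 1 + (chiR p l hn σ : EisR p l hn) := by
  refine sub_eq_zero.1 (eq_zero_of_twists hn hlp fun L => eq_zero_of_discPhi_eq_zero hn hlp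
    (LinearMap.ext fun v => ?_))
  set r := tR p l hn σ - (1 + (chiR p l hn σ : EisR p l hn))
  rw [LinearMap.zero_apply, ← discPhi_smul hn hlp L r v]
  set a : ℤ_[l] := (cycP l σ : ℤ_[l])
  set w : discInf hn hlp := ⟨_, rhoM_mem_discInf hn hlp hσ v.2⟩
  set w' : discInf hn hlp := ⟨_, rhoM_mem_discInf hn hlp (inv_mem hσ) v.2⟩
  have e : (⟨r • (v : EisM p l hn), smul_mem_discInf hn hlp r v.2⟩ : discInf hn hlp) =
      w + a • w' - v - a • v := by
    refine Subtype.ext ?_
    have h := LinearMap.congr_fun (relOp_eq p l hn σ) (v : EisM p l hn)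
    simp only [LinearMap.add_apply, LinearMap.smul_apply, Module.End.one_apply, chiR_val,
      algebraMap_smul] at h
    simp only [r, sub_smul, add_smul, one_smul, chiR_val, algebraMap_smul, AddSubgroupClass.coe_sub,
      Submodule.coe_add, Submodule.coe_smul_of_tower, w, w', a, ← h]
    abel
  have ha : a * (cycP l σ⁻¹ : ℤ_[l]) = 1 := by
    rw [← Units.val_mul, ← map_mul, mul_inv_cancel, map_one, Units.val_one]
  rw [e, map_sub, map_sub, map_add, map_smul, map_smul,
    discPhi_inertia hn hlp L hσ v, discPhi_inertia hn hlp L (inv_mem hσ) v, smul_eq_mul, smul_eq_mul,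
    ← mul_assoc, ha, one_mul]
  ring

/-- A number of coordinates on the classes in the disc. -/
theorem exists_coordinates : ∃ v : eisIdx hn → discInf hn hlp,
    (Matrix.of fun i j => discPhi hn hlp (twistFam hn hlp i) (v j)).det ≠ 0 := by
  classical
  set val : discInf hn hlp → (eisIdx hn → ℚ_[l]) := fun x i =>
    algebraMap ℤ_[l] ℚ_[l] (discPhi hn hlp (twistFam hn hlp i) x)
  have hspan : Submodule.span ℚ_[l] (Set.range val) = ⊤ := by
    by_contra hne
    obtain ⟨f, hf0, hfS⟩ := Submodule.exists_le_ker_of_lt_top _ (lt_top_iff_ne_top.2 hne)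
    -- clear denominators
    obtain ⟨c, hc⟩ := IsLocalization.exist_integer_multiples_of_finite (nonZeroDivisors ℤ_[l])
      fun i => f (Pi.single i 1)
    choose a ha using hc
    have hzero : ∑ i, a i • twistFam hn hlp i = 0 := by
      refine eq_zero_of_discPhi_eq_zero hn hlp (LinearMap.ext fun x => ?_)
      rw [map_sum, LinearMap.sum_apply, LinearMap.zero_apply]
      simp only [discPhi_padic_smul, LinearMap.smul_apply, smul_eq_mul]
      refine IsFractionRing.injective ℤ_[l] ℚ_[l] ?_
      have h1 : f (val x) = 0 := hfS (Submodule.subset_span ⟨x, rfl⟩)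
      rw [pi_eq_sum_univ (val x), map_sum] at h1
      rw [map_sum, map_zero]
      refine Eq.trans ?_ ((congrArg (((c : ℤ_[l])) • ·) h1).trans (smul_zero _))
      simp only [Finset.smul_sum]
      refine Finset.sum_congr rfl fun i _ => ?_
      rw [map_mul, ha, map_smul, smul_eq_mul, mul_comm, mul_smul_comm]
      refine congrArg (fun z => (c : ℤ_[l]) • (val x i * z)) (congrArg f (funext fun j => ?_))
      simp [Pi.single_apply, eq_comm]
    have ha0 := (exists_twistFam hn hlp).choose_spec.2 a hzero
    refine hf0 (LinearMap.pi_ext' fun i => LinearMap.ext_ring ?_)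
    have h1 := ha i
    rw [congrFun ha0 i, Pi.zero_apply, map_zero, eq_comm, ← algebraMap_smul ℚ_[l], smul_eq_zero] at h1
    exact h1.resolve_left fun h => nonZeroDivisors.ne_zero c.2
      (IsFractionRing.injective ℤ_[l] ℚ_[l] (h.trans (map_zero _).symm))
  obtain ⟨κ, w, hw, hwspan, hwind⟩ := exists_linearIndependent' ℚ_[l] val
  rw [hspan] at hwspan
  let B := Module.Basis.mk hwind hwspan.ge
  haveI : Finite κ := Module.Finite.finite_basis B
  let eqv : κ ≃ eisIdx hn := B.indexEquiv (Pi.basisFun ℚ_[l] (eisIdx hn))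
  refine ⟨fun j => w (eqv.symm j), fun h0 => ?_⟩
  have hind : LinearIndependent ℚ_[l] fun j => val (w (eqv.symm j)) :=
    hwind.comp _ eqv.symm.injective
  have h2 := (Matrix.linearIndependent_rows_iff_isUnit
    (A := Matrix.of fun j i => val (w (eqv.symm j)) i)).1 hind
  refine ((Matrix.isUnit_iff_isUnit_det _).1 h2).ne_zero ?_
  rw [← Matrix.det_transpose]
  refine Eq.trans ?_ ((congrArg (algebraMap ℤ_[l] ℚ_[l]) h0).trans (map_zero _))
  rw [RingHom.map_det]
  rfl

/-- **Classes in the disc moved by an element with two eigenvalues are detected by the forms.** -/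
theorem rhoM_fixed_of_discPhi {s : GQ} (hs : s ∈ inGp l) (hs1 : (cycP l s : ℤ_[l]) ≠ 1)
    (v : discInf hn hlp) (hv : ∀ i, discPhi hn hlp (twistFam hn hlp i) v = 0) :
    rhoM p l hn s (v : EisM p l hn) = (v : EisM p l hn) := by
  classical
  obtain ⟨vv, hdet⟩ := exists_coordinates hn hlp
  by_contra hne
  -- the family
  let m : Option (eisIdx hn) → discInf hn hlp := fun o => o.elim v vv
  let d : discInf hn hlp → discInf hn hlp := fun x =>
    ⟨_, rhoM_mem_discInf hn hlp hs x.2⟩ - x
  have hd : ∀ (x : discInf hn hlp) i, discPhi hn hlp (twistFam hn hlp i) (d x) =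
      ((cycP l s : ℤ_[l]) - 1) * discPhi hn hlp (twistFam hn hlp i) x := fun x i => by
    rw [map_sub, discPhi_inertia hn hlp _ hs x, sub_one_mul]
  set P := eigP (rhoV p l hn) (chiQ l) s
  have hrange : ∀ o, (1 : ℚ_[l]) ⊗ₜ[ℤ_[l]] ((d (m o) : discInf hn hlp) : EisM p l hn) ∈
      LinearMap.range (P.restrictScalars ℚ_[l]) := fun o =>
    ⟨((chiQ l s : ℚ_[l]) - 1) • ((1 : ℚ_[l]) ⊗ₜ[ℤ_[l]] (m o : EisM p l hn)), by
      rw [map_smul, LinearMap.restrictScalars_apply]
      simp only [P, eigP, LinearMap.smul_apply, LinearMap.sub_apply, Module.End.one_apply, rhoV_tmul]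
      rw [smul_inv_smul₀ (sub_ne_zero.2 (chiQ_ne_one l hs1)), ← TensorProduct.tmul_sub]
      rfl⟩
  have hf : ∀ r : EisR p l hn, (∀ x, r • (rhoM p l hn s x - x) = 0) → r = 0 := fun r hr =>
    eq_zero_of_twists hn hlp fun L => eq_zero_of_discPhi_eq_zero hn hlp (LinearMap.ext fun x => by
      have h1 : discPhi hn hlp (twistMul hn r L) (d x) = 0 := by
        rw [← discPhi_smul hn hlp L r (d x)]
        exact (congrArg _ (show (⟨r • ((d x : discInf hn hlp) : EisM p l hn), smul_mem_discInf hn hlp r (d x).2⟩ :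
          discInf hn hlp) = 0 from Subtype.ext (hr (x : EisM p l hn)))).trans (map_zero _)
      rw [map_sub, discPhi_inertia hn hlp _ hs x, ← sub_one_mul, mul_eq_zero] at h1
      exact h1.resolve_left (sub_ne_zero.2 hs1))
  have hrk := finrank_eigP p l hn hlp hs hs1 (fun g hg => tR_inertia hn hlp hg) hf
  let f : Option (eisIdx hn) → LinearMap.range (P.restrictScalars ℚ_[l]) := fun o => ⟨_, hrange o⟩
  have hind : LinearIndependent ℚ_[l] f := by
    refine LinearIndependent.of_comp (LinearMap.range (P.restrictScalars ℚ_[l])).subtype ?_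
    rw [← LinearIndependent.iff_fractionRing (R := ℤ_[l]), Fintype.linearIndependent_iff]
    intro g hg
    have h1 : ∑ o, g o • d (m o) = 0 := by
      refine Subtype.ext (mk_injective p l hn ?_)
      simp only [Submodule.coe_sum, Submodule.coe_smul_of_tower, ZeroMemClass.coe_zero,
        TensorProduct.tmul_zero, TensorProduct.tmul_sum, TensorProduct.tmul_smul]
      exact hg
    have hsome : (fun j => g (some j)) = 0 := by
      refine Matrix.eq_zero_of_mulVec_eq_zero hdet (funext fun i => ?_)
      have h2 := congrArg (discPhi hn hlp (twistFam hn hlp i)) h1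
      simp only [map_sum, map_add, map_smul, map_zero, hd, smul_eq_mul, Fintype.sum_option, m,
        Option.elim_none, Option.elim_some, hv i, mul_zero, zero_add] at h2
      simp only [mul_left_comm (g (some _)), ← Finset.mul_sum, mul_eq_zero] at h2
      rw [Pi.zero_apply]
      refine Eq.trans ?_ (h2.resolve_left (sub_ne_zero.2 hs1))
      simp only [Matrix.mulVec, dotProduct, Matrix.of_apply]
      exact Finset.sum_congr rfl fun j _ => mul_comm _ _
    intro o
    cases o with
    | some j => exact congrFun hsome j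
    | none =>
      rw [Fintype.sum_option] at h1
      simp only [show ∀ j, g (some j) = 0 from congrFun hsome, zero_smul, Finset.sum_const_zero,
        add_zero, smul_eq_zero] at h1
      exact h1.resolve_right fun h => hne (sub_eq_zero.1 (congrArg Subtype.val h))
  have hcard := hind.fintype_card_le_finrank
  rw [Fintype.card_option, hrk, Module.finrank_eq_card_chooseBasisIndex] at hcard
  rw [Fintype.card_congr (Equiv.refl (eisIdx hn))] at hcard
  simp at hcard

/-- **The forms are injective on the classes in the disc.** -/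
theorem eq_zero_of_discPhi (v : discInf hn hlp)
    (hv : ∀ i, discPhi hn hlp (twistFam hn hlp i) v = 0) : v = 0 := by
  obtain ⟨s, hs, hs1⟩ := exists_inGp_cycP_ne_one l
  set a : ℤ_[l] := (cycP l s : ℤ_[l])
  have hsv := rhoM_fixed_of_discPhi hn hlp hs hs1 v hv
  have hsinv : rhoM p l hn s⁻¹ (v : EisM p l hn) = (v : EisM p l hn) := by
    conv_lhs => rw [← hsv]
    rw [← Module.End.mul_apply, ← map_mul, inv_mul_cancel, map_one, Module.End.one_apply]
  have hfix : ∀ τ ∈ inGp l, rhoM p l hn τ (v : EisM p l hn) = (v : EisM p l hn) := by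
    intro τ hτ
    set b : ℤ_[l] := (cycP l τ : ℤ_[l])
    set w : discInf hn hlp := ⟨_, rhoM_mem_discInf hn hlp hτ v.2⟩ - v with hwdef
    have hw : ∀ i, discPhi hn hlp (twistFam hn hlp i) w = 0 := fun i => by
      rw [map_sub, discPhi_inertia hn hlp _ hτ v, hv, mul_zero, sub_zero]
    have hws := rhoM_fixed_of_discPhi hn hlp hs hs1 w hw
    have h1 := LinearMap.congr_fun (relOp_eq p l hn (s * τ)) (v : EisM p l hn)
    have h2 := LinearMap.congr_fun (relOp_eq p l hn τ) (v : EisM p l hn)
    rw [tR_inertia hn hlp (mul_mem hs hτ)] at h1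
    rw [tR_inertia hn hlp hτ] at h2
    simp only [LinearMap.add_apply, LinearMap.smul_apply, mul_inv_rev, map_mul, Units.val_mul,
      Module.End.mul_apply, Module.End.one_apply, chiR_val, hsinv, add_smul, one_smul,
      algebraMap_smul, mul_smul] at h1 h2
    rw [eq_sub_of_add_eq' h2, smul_sub, smul_add] at h1
    set x : EisM p l hn := (v : EisM p l hn)
    set y := rhoM p l hn τ x
    have h3 : rhoM p l hn s y - rhoM p l hn s x = a • (y - x) := by
      rw [hsv, smul_sub]
      linear_combination (norm := abel) h1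
    have h4 : (a - 1) • (y - x) = 0 := by
      have h5 : rhoM p l hn s (y - x) = y - x := hws
      rw [sub_smul, one_smul, sub_eq_zero, ← h3, ← map_sub, h5]
    exact sub_eq_zero.1 ((smul_eq_zero.1 h4).resolve_left (sub_ne_zero.2 hs1))
  have hzero : ∀ k, (if l = 2 then 2 else 1) • tauM p l hn k (v : EisM p l hn) = 0 := fun k => by
    have h1 : ∀ σ ∈ inGp l, σ • tauM p l hn k (v : EisM p l hn) = tauM p l hn k (v : EisM p l hn) :=
      fun σ hσ => by rw [← tauM_rhoM, hfix σ hσ]
    have h2 := (mem_discClasses_iff l p hlp _).1 (v.2 k)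
    split_ifs with hl2
    · exact two_nsmul_eq_zero_of_fixed p hlp (placeAt_liesOver l) hl2 k h1 h2
        (by have := pow_nsmul_tauM p l hn k (v : EisM p l hn); subst hl2; exact this)
    · rw [one_nsmul]
      exact eq_zero_of_fixed_of_pow p hlp (placeAt_liesOver l) hl2 k h1 h2
        (pow_nsmul_tauM p l hn k _)
  set m : ℕ := if l = 2 then 2 else 1
  have hm : m • (v : EisM p l hn) = 0 := eq_zero_of_forall_pow_smul l fun k => by
    obtain ⟨u, hu⟩ := (tauM_eq_zero_iff p l hn).1 ((map_nsmul _ m _).trans (hzero k))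
    exact ⟨u, hu.symm⟩
  rw [← Nat.cast_smul_eq_nsmul ℤ_[l], smul_eq_zero] at hm
  refine Subtype.ext (hm.resolve_left ?_)
  simp only [m]; split_ifs <;> norm_num

/-- **Inertia acts by the cyclotomic character on the classes in the disc.** -/
theorem rhoM_discInf {σ : GQ} (hσ : σ ∈ inGp l) (v : discInf hn hlp) :
    rhoM p l hn σ (v : EisM p l hn) = (cycP l σ : ℤ_[l]) • (v : EisM p l hn) := by
  have h := eq_zero_of_discPhi hn hlp
    (⟨_, rhoM_mem_discInf hn hlp hσ v.2⟩ - (cycP l σ : ℤ_[l]) • v) fun i => by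
      rw [map_sub, map_smul, discPhi_inertia hn hlp _ hσ v, smul_eq_mul, sub_self]
  exact sub_eq_zero.1 (congrArg Subtype.val h)

/-- **Coordinates up to a bounded power of `l`.** -/
theorem exists_coordinate_bound : ∃ (d : ℕ) (v : eisIdx hn → discInf hn hlp),
    (∀ i j, discPhi hn hlp (twistFam hn hlp i) (v j) = if i = j then (l : ℤ_[l]) ^ d else 0) ∧
    ∀ x : discInf hn hlp,
      (l : ℤ_[l]) ^ d • x = ∑ i, discPhi hn hlp (twistFam hn hlp i) x • v i := by
  classical
  obtain ⟨w, hdet⟩ := exists_coordinates hn hlp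
  set A := Matrix.of fun i j => discPhi hn hlp (twistFam hn hlp i) (w j) with hA
  set u := PadicInt.unitCoeff hdet
  set d := A.det.valuation
  have hval : ∀ i j, discPhi hn hlp (twistFam hn hlp i)
      ((↑u⁻¹ : ℤ_[l]) • ∑ k, A.adjugate k j • w k) = if i = j then (l : ℤ_[l]) ^ d else 0 := by
    intro i j
    simp only [map_smul, map_sum, smul_eq_mul]
    have h := congrFun (congrFun (Matrix.mul_adjugate A) i) j
    rw [Matrix.mul_apply, Matrix.smul_apply, Matrix.one_apply, smul_eq_mul, mul_ite, mul_one,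
      mul_zero] at h
    rw [show ∑ k, A.adjugate k j * discPhi hn hlp (twistFam hn hlp i) (w k) =
      if i = j then A.det else 0 from (Finset.sum_congr rfl fun k _ => mul_comm _ _).trans h]
    split_ifs
    · rw [PadicInt.unitCoeff_spec hdet, ← mul_assoc, Units.inv_mul, one_mul]
    · rw [mul_zero]
  refine ⟨d, _, hval, fun x => sub_eq_zero.1 (eq_zero_of_discPhi hn hlp _ fun i => ?_)⟩
  simp only [map_sub, map_smul, map_sum, smul_eq_mul, hval, mul_ite, mul_zero,
    Finset.sum_ite_eq, Finset.mem_univ, if_true]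
  ring

/-- **The rank of the classes in the disc.** -/
theorem finrank_discInf :
    Module.finrank ℤ_[l] (discInf hn hlp) = Module.finrank ℤ_[l] (EisR p l hn) := by
  classical
  rw [Module.finrank_eq_card_chooseBasisIndex ℤ_[l] (EisR p l hn)]
  refine le_antisymm ?_ ?_
  · let Ψ : discInf hn hlp →ₗ[ℤ_[l]] (eisIdx hn → ℤ_[l]) :=
      LinearMap.pi fun i => discPhi hn hlp (twistFam hn hlp i)
    have hΨ : Function.Injective Ψ := by
      rw [← LinearMap.ker_eq_bot, LinearMap.ker_eq_bot']
      exact fun v hv => eq_zero_of_discPhi hn hlp v fun i => congrFun hv i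
    exact (LinearMap.finrank_le_finrank_of_injective hΨ).trans (Module.finrank_pi ℤ_[l]).le
  · obtain ⟨d, v, hv, -⟩ := exists_coordinate_bound hn hlp
    refine LinearIndependent.fintype_card_le_finrank (b := v) ?_
    rw [Fintype.linearIndependent_iff]
    intro g hg i
    have h := congrArg (discPhi hn hlp (twistFam hn hlp i)) hg
    simp only [map_sum, map_smul, map_zero, hv, smul_eq_mul, mul_ite, mul_zero, Finset.sum_ite_eq,
      Finset.mem_univ, if_true, mul_eq_zero] at h
    exact h.resolve_right (pow_ne_zero _ (Nat.cast_ne_zero.2 hl.out.ne_zero))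

end FA.Mazur

end
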