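import Fermat.Agent.Mazur.Formal
import Mathlib.RingTheory.PowerSeries.Evaluation
import Mathlib.RingTheory.MvPowerSeries.LinearTopology
import Mathlib.Analysis.Normed.Field.Ultra
import Mathlib.Analysis.Normed.Group.Ultra
import Mathlib.FieldTheory.IsAlgClosed.Basic

/-!
# Evaluating integral power series on the disc, and the norm identity

For a complete algebraically closed ultrametric field, the product of an exponential `E` over the
zeros in the disc of a function congruent to one with a single pole at the centre is one.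
-/

set_option autoImplicit false

noncomputable section

open Filter Topology

namespace FA.Mazur

section Ball

variable (K : Type) [NormedField K] [IsUltrametricDist K]

/-- The closed unit ball, as a subring. -/
def unitBall : Subring K where
  carrier := {x | ‖x‖ ≤ 1}
  mul_mem' := fun {a b} (ha : ‖a‖ ≤ 1) (hb : ‖b‖ ≤ 1) =>
    show ‖a * b‖ ≤ 1 by rw [norm_mul]; exact mul_le_one₀ ha (norm_nonneg _) hb
  one_mem' := (norm_one (α := K)).le
  add_mem' := fun {a b} (ha : ‖a‖ ≤ 1) (hb : ‖b‖ ≤ 1) =>
    (IsUltrametricDist.norm_add_le_max a b).trans (max_le ha hb)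
  zero_mem' := by simp
  neg_mem' := fun {a} ha => by simpa using ha

variable {K}

theorem mem_unitBall {x : K} : x ∈ unitBall K ↔ ‖x‖ ≤ 1 := Iff.rfl

theorem dvd_iff_norm_le {x y : unitBall K} : y ∣ x ↔ ‖(x : K)‖ ≤ ‖(y : K)‖ := by
  constructor
  · rintro ⟨c, rfl⟩
    rw [MulMemClass.coe_mul, norm_mul]
    exact mul_le_of_le_one_right (norm_nonneg _) c.2
  · intro h
    rcases eq_or_ne (y : K) 0 with hy | hy
    · rw [hy, norm_zero] at h
      have hx : x = 0 := Subtype.ext (norm_le_zero_iff.mp h)
      rw [hx]; exact dvd_zero _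
    · refine ⟨⟨(x : K) / y, ?_⟩, Subtype.ext (by simp [mul_div_cancel₀, hy])⟩
      rw [mem_unitBall, norm_div, div_le_one (norm_pos_iff.mpr hy)]
      exact h

/-- The ideal of elements of bounded norm. -/
def normIdeal (ε : {r : ℝ // 0 < r}) : Submodule (unitBall K) (unitBall K) where
  carrier := {x | ‖(x : K)‖ ≤ ε.1}
  add_mem' := fun {a b} (ha : ‖(a : K)‖ ≤ ε.1) (hb : ‖(b : K)‖ ≤ ε.1) =>
    (IsUltrametricDist.norm_add_le_max (a : K) b).trans (max_le ha hb)
  zero_mem' := by
    show ‖((0 : unitBall K) : K)‖ ≤ ε.1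
    rw [ZeroMemClass.coe_zero, norm_zero]; exact ε.2.le
  smul_mem' := fun r a (ha : ‖(a : K)‖ ≤ ε.1) => by
    show ‖((r * a : unitBall K) : K)‖ ≤ ε.1
    rw [MulMemClass.coe_mul, norm_mul]
    exact (mul_le_of_le_one_left (norm_nonneg _) r.2).trans ha

instance : IsLinearTopology (unitBall K) (unitBall K) :=
  IsLinearTopology.mk_of_hasBasis (unitBall K) (p := fun _ => True) (s := normIdeal (K := K)) <| by
    refine (Metric.nhds_basis_closedBall (x := (0 : unitBall K))).to_hasBasis
      (fun ε hε => ⟨⟨ε, hε⟩, trivial, ?_⟩) (fun ε _ => ⟨ε.1, ε.2, ?_⟩)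
    · intro x (hx : ‖(x : K)‖ ≤ ε)
      simpa [Subtype.dist_eq] using hx
    · intro x hx
      show ‖(x : K)‖ ≤ ε.1
      simpa [Subtype.dist_eq] using hx

theorem isClosed_unitBall : IsClosed (unitBall K : Set K) :=
  isClosed_le continuous_norm continuous_const

instance [CompleteSpace K] : CompleteSpace (unitBall K) :=
  isClosed_unitBall.completeSpace_coe

instance : IsUniformAddGroup (unitBall K) :=
  inferInstanceAs (IsUniformAddGroup (unitBall K).toAddSubgroup)

theorem hasEval_of_norm_lt_one {a : unitBall K} (ha : ‖(a : K)‖ < 1) : PowerSeries.HasEval a := by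
  show Tendsto (fun n : ℕ => a ^ n) atTop (𝓝 0)
  rw [tendsto_subtype_rng]
  simpa using tendsto_pow_atTop_nhds_zero_of_norm_lt_one ha

end Ball

section EvalHom

variable {K : Type} [NormedField K] [IsUltrametricDist K] [CompleteSpace K]

open PowerSeries.WithPiTopology

/-- Evaluation of an integral series at a point of the open disc. -/
def evalHom (a : unitBall K) (ha : ‖(a : K)‖ < 1) : PowerSeries (unitBall K) →+* unitBall K :=
  PowerSeries.eval₂Hom (φ := RingHom.id _) continuous_id (hasEval_of_norm_lt_one ha)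

theorem hasSum_evalHom (a : unitBall K) (ha : ‖(a : K)‖ < 1) (f : PowerSeries (unitBall K)) :
    HasSum (fun d : ℕ => PowerSeries.coeff d f * a ^ d) (evalHom a ha f) := by
  rw [evalHom, PowerSeries.coe_eval₂Hom]
  exact PowerSeries.hasSum_eval₂ (φ := RingHom.id _) continuous_id (hasEval_of_norm_lt_one ha) f

theorem evalHom_coe (a : unitBall K) (ha : ‖(a : K)‖ < 1) (p : Polynomial (unitBall K)) :
    evalHom a ha p = p.eval a := by
  rw [evalHom, PowerSeries.coe_eval₂Hom, PowerSeries.eval₂_coe, Polynomial.eval₂_id]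

theorem hasSum_evalHom' (a : unitBall K) (ha : ‖(a : K)‖ < 1) (f : PowerSeries (unitBall K)) :
    HasSum (fun d : ℕ => ((PowerSeries.coeff d f : unitBall K) : K) * (a : K) ^ d) (evalHom a ha f : K) := by
  have h := (hasSum_evalHom a ha f).map (unitBall K).subtype continuous_subtype_val
  simpa [Function.comp_def] using h

/-- The truncation approximates the evaluation. -/
theorem norm_eval_trunc_sub_evalHom_le (a : unitBall K) (ha : ‖(a : K)‖ < 1)
    (f : PowerSeries (unitBall K)) (n : ℕ) :
    ‖(((PowerSeries.trunc n f).eval a : unitBall K) : K) - evalHom a ha f‖ ≤ ‖(a : K)‖ ^ n := by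
  obtain ⟨g, hg⟩ : PowerSeries.X ^ n ∣ f - (PowerSeries.trunc n f : PowerSeries (unitBall K)) := by
    rw [PowerSeries.X_pow_dvd_iff]
    intro i hi
    rw [map_sub, Polynomial.coeff_coe, PowerSeries.coeff_trunc, if_pos hi, sub_self]
  have h := congrArg (evalHom a ha) hg
  rw [map_sub, evalHom_coe, map_mul, map_pow] at h
  rw [show evalHom a ha PowerSeries.X = a by
    rw [evalHom, PowerSeries.coe_eval₂Hom, PowerSeries.eval₂_X]] at h
  rw [norm_sub_rev, ← AddSubgroupClass.coe_sub, h, MulMemClass.coe_mul, SubmonoidClass.coe_pow,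
    norm_mul, norm_pow]
  exact mul_le_of_le_one_right (by positivity) (evalHom a ha g).2

/-- The value differs from the constant coefficient by at most the norm of the argument. -/
theorem norm_evalHom_sub_constant_le (a : unitBall K) (ha : ‖(a : K)‖ < 1)
    (f : PowerSeries (unitBall K)) :
    ‖(evalHom a ha f : K) - ((PowerSeries.constantCoeff f : unitBall K) : K)‖ ≤ ‖(a : K)‖ := by
  have h := norm_eval_trunc_sub_evalHom_le a ha f 1
  rw [norm_sub_rev, pow_one] at h
  have h1 : (PowerSeries.trunc 1 f).eval a = PowerSeries.constantCoeff f := by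
    rw [← Polynomial.eval₂_id, PowerSeries.eval₂_trunc_eq_sum_range]
    simp
  rwa [h1] at h

instance : IsLinearTopology (PowerSeries (unitBall K)) (PowerSeries (unitBall K)) :=
  inferInstanceAs (IsLinearTopology (MvPowerSeries Unit (unitBall K)) (MvPowerSeries Unit (unitBall K)))

omit [CompleteSpace K] in
theorem hasEval_C_add_X (a : unitBall K) (ha : ‖(a : K)‖ < 1) :
    PowerSeries.HasEval (PowerSeries.C a + PowerSeries.X : PowerSeries (unitBall K)) :=
  IsTopologicallyNilpotent.add
    (PowerSeries.HasEval.map (φ := (PowerSeries.C : unitBall K →+* PowerSeries (unitBall K)))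
      continuous_C (hasEval_of_norm_lt_one ha))
    PowerSeries.HasEval.X

/-- Re-expansion of an integral series at a point of the open disc. -/
def shiftHom (a : unitBall K) (ha : ‖(a : K)‖ < 1) :
    PowerSeries (unitBall K) →+* PowerSeries (unitBall K) :=
  PowerSeries.eval₂Hom (φ := PowerSeries.C) continuous_C (hasEval_C_add_X a ha)

theorem shiftHom_C (a : unitBall K) (ha : ‖(a : K)‖ < 1) (c : unitBall K) :
    shiftHom a ha (PowerSeries.C c) = PowerSeries.C c := by
  rw [shiftHom, PowerSeries.coe_eval₂Hom, PowerSeries.eval₂_C]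

theorem shiftHom_X (a : unitBall K) (ha : ‖(a : K)‖ < 1) :
    shiftHom a ha PowerSeries.X = PowerSeries.C a + PowerSeries.X := by
  rw [shiftHom, PowerSeries.coe_eval₂Hom, PowerSeries.eval₂_X]

theorem continuous_shiftHom (a : unitBall K) (ha : ‖(a : K)‖ < 1) :
    Continuous (shiftHom a ha) := by
  rw [shiftHom, PowerSeries.coe_eval₂Hom]
  exact PowerSeries.continuous_eval₂ continuous_C (hasEval_C_add_X a ha)

theorem constantCoeff_shiftHom (a : unitBall K) (ha : ‖(a : K)‖ < 1)
    (f : PowerSeries (unitBall K)) :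
    PowerSeries.constantCoeff (shiftHom a ha f) = evalHom a ha f := by
  have h := PowerSeries.eval₂_unique (φ := RingHom.id (unitBall K)) continuous_id
    (hasEval_of_norm_lt_one ha)
    (ε := fun f => PowerSeries.constantCoeff (shiftHom a ha f))
    ((continuous_constantCoeff _).comp (continuous_shiftHom a ha)) fun p => by
      rw [shiftHom, PowerSeries.coe_eval₂Hom, PowerSeries.eval₂_coe, Polynomial.hom_eval₂,
        map_add, PowerSeries.constantCoeff_C, PowerSeries.constantCoeff_X, add_zero]
      congr 1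
  rw [evalHom, PowerSeries.coe_eval₂Hom]
  exact congrFun h f

open Classical in
/-- The order of a product of linear factors and a unit at a point. -/
theorem order_shiftHom_prod {R : ℕ} (r : Fin R → unitBall K) (U : PowerSeries (unitBall K))
    (b : unitBall K) (hb : ‖(b : K)‖ < 1) (hU : evalHom b hb U ≠ 0) :
    (shiftHom b hb (((∏ i, (Polynomial.X - Polynomial.C (r i)) : Polynomial (unitBall K)) :
      PowerSeries (unitBall K)) * U)).order =
      ((Finset.univ.filter fun i => r i = b).card : ℕ∞) := by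
  classical
  have hord : ∀ i, (shiftHom b hb ((PowerSeries.X : PowerSeries (unitBall K)) -
      PowerSeries.C (r i))).order = if r i = b then 1 else 0 := fun i => by
    rw [map_sub, shiftHom_X, shiftHom_C]
    split_ifs with h
    · rw [h, add_sub_cancel_left, PowerSeries.order_X]
    · refine nonpos_iff_eq_zero.mp (PowerSeries.order_le 0 ?_)
      simp [sub_ne_zero, Ne.symm h]
  have hU0 : (shiftHom b hb U).order = 0 := nonpos_iff_eq_zero.mp (PowerSeries.order_le 0 (by
    rw [PowerSeries.coeff_zero_eq_constantCoeff_apply, constantCoeff_shiftHom]; exact hU))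
  rw [map_mul, PowerSeries.order_mul, hU0, add_zero, ← Polynomial.coeToPowerSeries.ringHom_apply,
    map_prod, map_prod]
  simp only [Polynomial.coeToPowerSeries.ringHom_apply, Polynomial.coe_sub, Polynomial.coe_X,
    Polynomial.coe_C]
  have hprod : ∀ t : Finset (Fin R), (∏ i ∈ t, shiftHom b hb
      ((PowerSeries.X : PowerSeries (unitBall K)) - PowerSeries.C (r i))).order =
      ((t.filter fun i => r i = b).card : ℕ∞) := by
    intro t
    induction t using Finset.induction_on with
    | empty => simp
    | insert i t hi ih =>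
      rw [Finset.prod_insert hi, PowerSeries.order_mul, ih, hord, Finset.filter_insert]
      split_ifs with h
      · rw [Finset.card_insert_of_notMem (by simp [hi]), Nat.cast_add, Nat.cast_one, add_comm]
      · rw [zero_add]
  exact hprod Finset.univ

end EvalHom

section Weierstrass

variable {O : Type} [CommRing O]

/-- The recursion commutes with ring maps. -/
theorem w_map {K' : Type} [CommRing K'] (f : O →+* K') (R : ℕ) (Ψ : PowerSeries O) (k : ℕ) :
    (wP R Ψ k).map f = wP R (PowerSeries.map f Ψ) k ∧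
      PowerSeries.map f (wU R Ψ k) = wU R (PowerSeries.map f Ψ) k := by
  induction k using Nat.strong_induction_on with
  | _ k ih =>
    rcases k with _ | k
    · simp [wP_zero, wU_zero]
    · have hW : PowerSeries.map f ((if k = 0 then Ψ else 0) -
          ∑ i ∈ Finset.Icc 1 k, (wP R Ψ i : PowerSeries O) * wU R Ψ (k + 1 - i)) =
          (if k = 0 then PowerSeries.map f Ψ else 0) - ∑ i ∈ Finset.Icc 1 k,
            (wP R (PowerSeries.map f Ψ) i : PowerSeries K') *
              wU R (PowerSeries.map f Ψ) (k + 1 - i) := by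
        rw [map_sub, map_sum]
        congr 1
        · split_ifs <;> simp
        · refine Finset.sum_congr rfl fun i hi => ?_
          have := Finset.mem_Icc.mp hi
          rw [map_mul, ← Polynomial.polynomial_map_coe, (ih i (by omega)).1,
            (ih (k + 1 - i) (by omega)).2]
      rw [(wW_eq R Ψ k).1, (wW_eq R Ψ k).2, (wW_eq R _ k).1, (wW_eq R _ k).2, ← hW]
      constructor
      · rw [PowerSeries.trunc_map]
      · ext n; rw [PowerSeries.coeff_map, PowerSeries.coeff_mk, PowerSeries.coeff_mk, PowerSeries.coeff_map]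

theorem wPoly_map {K' : Type} [CommRing K'] (f : O →+* K') (R : ℕ) (Ψ : PowerSeries O) (m : ℕ) :
    (wPoly R Ψ m).map (Polynomial.mapRingHom f) = wPoly R (PowerSeries.map f Ψ) m := by
  simp only [wPoly, Polynomial.map_add, Polynomial.map_pow, Polynomial.map_X, Polynomial.map_sum,
    Polynomial.map_mul, Polynomial.map_C, Polynomial.coe_mapRingHom, Polynomial.map_map]
  refine congrArg _ (Finset.sum_congr rfl fun k _ => ?_)
  rw [← (w_map f R Ψ k).1, Polynomial.map_map, Polynomial.mapRingHom_comp_C]

end Weierstrass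

section Main

variable {K : Type} [NormedField K] [IsUltrametricDist K] [CompleteSpace K]

open PowerSeries.WithPiTopology

theorem summable_pow_mul (π : unitBall K) (hπ : ‖(π : K)‖ < 1) (c : ℕ → unitBall K) :
    Summable fun k => π ^ k * c k := by
  refine NonarchimedeanAddGroup.summable_of_tendsto_cofinite_zero ?_
  rw [Nat.cofinite_eq_atTop]
  refine squeeze_zero_norm (fun k => ?_) (tendsto_pow_atTop_nhds_zero_of_lt_one
    (norm_nonneg (π : K)) hπ)
  show ‖((π ^ k * c k : unitBall K) : K)‖ ≤ _
  rw [MulMemClass.coe_mul, SubmonoidClass.coe_pow, norm_mul, norm_pow]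
  exact mul_le_of_le_one_right (by positivity) (c k).2

/-- The tail of an expansion in powers of `π` is divisible by `π ^ m`. -/
theorem pow_dvd_tsum_sub_sum (π : unitBall K) (hπ : ‖(π : K)‖ < 1) (c : ℕ → unitBall K) (m : ℕ) :
    π ^ m ∣ (∑' k, π ^ k * c k) - ∑ k ∈ Finset.range m, π ^ k * c k := by
  have h := summable_pow_mul π hπ c
  rw [← h.sum_add_tsum_nat_add m, add_sub_cancel_left]
  refine ⟨∑' k, π ^ k * c (k + m), ?_⟩
  rw [← (summable_pow_mul π hπ fun k => c (k + m)).tsum_mul_left]
  exact tsum_congr fun k => by rw [← mul_assoc, ← pow_add, add_comm m k]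

omit [CompleteSpace K] in
theorem eq_zero_of_forall_pow_dvd (π x : unitBall K) (hπ : ‖(π : K)‖ < 1)
    (h : ∀ m, 0 < m → π ^ m ∣ x) : x = 0 := by
  refine Subtype.ext (norm_le_zero_iff.mp (ge_of_tendsto
    (tendsto_pow_atTop_nhds_zero_of_lt_one (norm_nonneg (π : K)) hπ)
    ((Filter.eventually_gt_atTop 0).mono fun m hm => ?_)))
  have := dvd_iff_norm_le.mp (h m hm)
  rwa [SubmonoidClass.coe_pow, norm_pow] at this

/-- The Weierstrass polynomial of `X ^ R + π Ψ`. -/
def limP (R : ℕ) (π : unitBall K) (Ψ : PowerSeries (unitBall K)) : Polynomial (unitBall K) :=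
  Polynomial.X ^ R + ∑ i ∈ Finset.range R,
    Polynomial.monomial i (∑' k, π ^ k * (wP R Ψ k).coeff i)

/-- The Weierstrass unit of `X ^ R + π Ψ`. -/
def limU (R : ℕ) (π : unitBall K) (Ψ : PowerSeries (unitBall K)) : PowerSeries (unitBall K) :=
  PowerSeries.mk fun i => ∑' k, π ^ k * PowerSeries.coeff i (wU R Ψ k)

omit [CompleteSpace K] in
theorem coeff_wPoly_map (R : ℕ) (π : unitBall K) (Ψ : PowerSeries (unitBall K)) {m : ℕ}
    (hm : 0 < m) (i : ℕ) :
    ((wPoly R Ψ m).map (Polynomial.evalRingHom π)).coeff i =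
      (if i = R then 1 else 0) + ∑ k ∈ Finset.range m, π ^ k * (wP R Ψ k).coeff i := by
  rw [Finset.range_eq_Ico, Finset.sum_eq_sum_Ico_succ_bot hm, wP_zero, Polynomial.coeff_zero,
    mul_zero, zero_add, wPoly]
  have hid : (Polynomial.evalRingHom π).comp Polynomial.C = RingHom.id (unitBall K) :=
    RingHom.ext fun r => by simp
  simp [Polynomial.map_sum, Polynomial.map_map, Polynomial.coeff_X_pow, hid]
  refine Finset.sum_congr rfl fun k _ => ?_
  rw [← map_pow, Polynomial.coeff_C_mul]

omit [CompleteSpace K] in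
theorem coeff_limP (R : ℕ) (hR : 0 < R) (π : unitBall K) (Ψ : PowerSeries (unitBall K)) (i : ℕ) :
    (limP R π Ψ).coeff i = (if i = R then 1 else 0) + ∑' k, π ^ k * (wP R Ψ k).coeff i := by
  rw [limP, Polynomial.coeff_add, Polynomial.coeff_X_pow, Polynomial.finsetSum_coeff]
  congr 1
  rcases lt_or_ge i R with hi | hi
  · rw [Finset.sum_eq_single i (fun j _ hj => Polynomial.coeff_monomial_of_ne _ (Ne.symm hj))
      (fun h => absurd (Finset.mem_range.mpr hi) h), Polynomial.coeff_monomial_same]
  · rw [Finset.sum_eq_zero fun j hj => Polynomial.coeff_monomial_of_ne _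
      (fun h => by have := Finset.mem_range.mp hj; omega)]
    symm
    rw [tsum_congr (g := fun _ => 0) fun k => by
      rw [Polynomial.coeff_eq_zero_of_natDegree_lt ((natDegree_wP R Ψ hR k).trans_le hi), mul_zero],
      tsum_zero]

/-- Modulo `π ^ m` the limit is the `m`-th approximation. -/
theorem limP_congr (R : ℕ) (hR : 0 < R) (π : unitBall K) (hπ : ‖(π : K)‖ < 1)
    (Ψ : PowerSeries (unitBall K)) {m : ℕ} (hm : 0 < m) :
    (limP R π Ψ).map (Ideal.Quotient.mk (Ideal.span {π ^ m})) =
      ((wPoly R Ψ m).map (Polynomial.evalRingHom π)).map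
        (Ideal.Quotient.mk (Ideal.span {π ^ m})) := by
  ext i
  rw [Polynomial.coeff_map, Polynomial.coeff_map, coeff_limP R hR, coeff_wPoly_map R π Ψ hm,
    Ideal.Quotient.eq, add_sub_add_left_eq_sub, Ideal.mem_span_singleton]
  exact pow_dvd_tsum_sub_sum π hπ _ m

theorem limP_mul_limU (R : ℕ) (hR : 0 < R) (π : unitBall K) (hπ : ‖(π : K)‖ < 1)
    (Ψ : PowerSeries (unitBall K)) :
    (limP R π Ψ : PowerSeries (unitBall K)) * limU R π Ψ =
      PowerSeries.X ^ R + PowerSeries.C π * Ψ := by
  refine PowerSeries.ext fun n => ?_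
  rw [← sub_eq_zero]
  refine eq_zero_of_forall_pow_dvd π _ hπ fun m hm => ?_
  rw [← Ideal.mem_span_singleton, ← Ideal.Quotient.eq]
  set q := Ideal.Quotient.mk (Ideal.span {π ^ m}) with hq
  rw [← PowerSeries.coeff_map, ← PowerSeries.coeff_map, map_mul, ← Polynomial.polynomial_map_coe,
    limP_congr R hR π hπ Ψ hm, Polynomial.map_map, map_add, map_pow, PowerSeries.map_X,
    map_mul (PowerSeries.map q) (PowerSeries.C π), PowerSeries.map_C]
  have hU : PowerSeries.map q (limU R π Ψ) =
      PowerSeries.map (q.comp (Polynomial.evalRingHom π)) (wUnit R Ψ m) := by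
    ext i
    rw [PowerSeries.coeff_map, limU, PowerSeries.coeff_mk, PowerSeries.coeff_map, wUnit, map_sum,
      RingHom.comp_apply, map_sum, hq, Ideal.Quotient.eq, Ideal.mem_span_singleton]
    convert pow_dvd_tsum_sub_sum π hπ (fun k => PowerSeries.coeff i (wU R Ψ k)) m using 2
    refine Finset.sum_congr rfl fun k _ => ?_
    rw [PowerSeries.coeff_C_mul, PowerSeries.coeff_map]
    simp
    exact mul_comm _ _
  have hs : (q.comp (Polynomial.evalRingHom π)) Polynomial.X ^ m = 0 := by
    rw [RingHom.comp_apply, Polynomial.coe_evalRingHom, Polynomial.eval_X, ← map_pow, hq,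
      Ideal.Quotient.eq_zero_iff_mem]
    exact Ideal.mem_span_singleton_self _
  rw [hU, wPoly_mul_wUnit R Ψ (q.comp (Polynomial.evalRingHom π)) hm hs]
  have hqe : (q.comp (Polynomial.evalRingHom π)).comp Polynomial.C = q :=
    RingHom.ext fun r => by simp
  rw [hqe, RingHom.comp_apply, Polynomial.coe_evalRingHom, Polynomial.eval_X]

theorem norm_limU_sub_one_lt (R : ℕ) (π : unitBall K) (hπ : ‖(π : K)‖ < 1)
    (Ψ : PowerSeries (unitBall K)) :
    ‖((PowerSeries.constantCoeff (limU R π Ψ) : unitBall K) : K) - 1‖ < 1 := by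
  have h := pow_dvd_tsum_sub_sum π hπ (fun k => PowerSeries.coeff 0 (wU R Ψ k)) 1
  rw [Finset.sum_range_one, pow_zero, one_mul, wU_zero, PowerSeries.coeff_one, if_pos rfl, pow_one,
    dvd_iff_norm_le] at h
  rw [← PowerSeries.coeff_zero_eq_constantCoeff_apply, limU, PowerSeries.coeff_mk]
  exact lt_of_le_of_lt (by simpa using h) hπ

theorem eval_limU_ne_zero (R : ℕ) (π : unitBall K) (hπ : ‖(π : K)‖ < 1)
    (Ψ : PowerSeries (unitBall K)) (b : unitBall K) (hb : ‖(b : K)‖ < 1) :
    evalHom b hb (limU R π Ψ) ≠ 0 := by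
  intro h
  have h1 := norm_evalHom_sub_constant_le b hb (limU R π Ψ)
  rw [h, ZeroMemClass.coe_zero, zero_sub, norm_neg] at h1
  have h2 := IsUltrametricDist.norm_add_le_max
    (((PowerSeries.constantCoeff (limU R π Ψ) : unitBall K) : K))
    (1 - ((PowerSeries.constantCoeff (limU R π Ψ) : unitBall K) : K))
  rw [add_sub_cancel, norm_one, norm_sub_rev (1 : K)] at h2
  have h3 := max_lt (h1.trans_lt hb) (norm_limU_sub_one_lt R π hπ Ψ)
  linarith

/-- The resultant of the Weierstrass polynomial with a truncated exponential is close to one. -/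
theorem resultant_limP_congr [CharZero K] {R : ℕ} (hR : 0 < R) (π : unitBall K)
    (hπ : ‖(π : K)‖ < 1) (Ψ E : PowerSeries (unitBall K)) (G : PowerSeries K)
    (hG : PowerSeries.constantCoeff G = 0)
    (hE : PowerSeries.map (unitBall K).subtype E = expSeries G)
    (hvan : ∀ k : ℕ, (poleSeries R (PowerSeries.map (unitBall K).subtype Ψ) ^ (k + 1) *
      FA.ModField.thetaFun (HahnSeries.ofPowerSeries ℤ K G)).coeff 0 = 0)
    {m N : ℕ} (hm : 0 < m) (hN : R * m ≤ N) :
    π ^ m ∣ Polynomial.resultant (limP R π Ψ) (PowerSeries.trunc (N + 1) E) R N - 1 := by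
  let ι := (unitBall K).subtype
  let Res := Polynomial.resultant (wPoly R Ψ m)
    ((PowerSeries.trunc (N + 1) E).map Polynomial.C) R N
  have hK : (Polynomial.X : Polynomial K) ^ m ∣ Res.map ι - 1 := by
    have h := resultant_wPoly_eq_one R (PowerSeries.map ι Ψ) hR hG hvan hm hN
    rw [← hE, PowerSeries.trunc_map, ← wPoly_map ι R Ψ m] at h
    rw [show Res.map ι = Polynomial.mapRingHom ι Res from rfl]
    simp only [Res]
    rw [← Polynomial.resultant_map_map, Polynomial.map_map]
    rw [Polynomial.map_map] at h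
    convert h using 4
    exact RingHom.ext fun r => by simp [ι]
  have hO : (Polynomial.X : Polynomial (unitBall K)) ^ m ∣ Res - 1 := by
    rw [Polynomial.X_pow_dvd_iff] at hK ⊢
    intro d hd
    refine Subtype.ext ?_
    have h := hK d hd
    rw [← Polynomial.map_one ι, ← Polynomial.map_sub, Polynomial.coeff_map] at h
    exact h
  have h := map_dvd (Polynomial.evalRingHom π) hO
  rw [map_pow, map_sub, map_one, Polynomial.coe_evalRingHom, Polynomial.eval_X] at h
  rw [← Ideal.mem_span_singleton, ← Ideal.Quotient.eq] at h ⊢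
  rw [← h, ← Polynomial.coe_evalRingHom, ← Polynomial.resultant_map_map,
    ← Polynomial.resultant_map_map, limP_congr R hR π hπ Ψ hm]
  rw [← Polynomial.resultant_map_map]
  congr 2
  rw [Polynomial.map_map Polynomial.C (Polynomial.evalRingHom π)]
  conv_lhs => rw [← Polynomial.map_id (p := PowerSeries.trunc (N + 1) E)]
  congr 1
  exact RingHom.ext fun r => by simp

/-- **The norm identity on the disc.** -/
theorem exists_roots_prod_eval_eq_one [CharZero K] [IsAlgClosed K] {R : ℕ} (hR : 0 < R)
    (π : unitBall K) (hπ : ‖(π : K)‖ < 1) (Ψ : PowerSeries (unitBall K)) :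
    ∃ (a : Fin R → unitBall K) (ha : ∀ i, ‖(a i : K)‖ < 1),
      (∀ (b : unitBall K) (hb : ‖(b : K)‖ < 1),
        (shiftHom b hb (PowerSeries.X ^ R + PowerSeries.C π * Ψ)).order =
          ({i | a i = b}.ncard : ℕ∞)) ∧
      ∀ (E : PowerSeries (unitBall K)) (G : PowerSeries K),
        PowerSeries.constantCoeff G = 0 → PowerSeries.map (unitBall K).subtype E = expSeries G →
        (∀ k : ℕ, (poleSeries R (PowerSeries.map (unitBall K).subtype Ψ) ^ (k + 1) *
          FA.ModField.thetaFun (HahnSeries.ofPowerSeries ℤ K G)).coeff 0 = 0) →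
        ∏ i, evalHom (a i) (ha i) E = 1 := by
  classical
  set P := limP R π Ψ with hPdef
  let ι := (unitBall K).subtype
  have hcoeffR : P.coeff R = 1 := by
    rw [hPdef, coeff_limP R hR, if_pos rfl, tsum_congr (g := fun _ => 0) fun k => by
      rw [Polynomial.coeff_eq_zero_of_natDegree_lt (natDegree_wP R Ψ hR k), mul_zero],
      tsum_zero, add_zero]
  have hdegle : P.natDegree ≤ R := by
    rw [Polynomial.natDegree_le_iff_coeff_eq_zero]
    intro i hi
    rw [hPdef, coeff_limP R hR, if_neg (by omega), zero_add]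
    rw [tsum_congr (g := fun _ => 0) fun k => by
      rw [Polynomial.coeff_eq_zero_of_natDegree_lt ((natDegree_wP R Ψ hR k).trans hi), mul_zero],
      tsum_zero]
  have hdeg : P.natDegree = R :=
    le_antisymm hdegle (Polynomial.le_natDegree_of_ne_zero (by rw [hcoeffR]; exact one_ne_zero))
  have hmon : P.Monic := by rw [Polynomial.Monic, Polynomial.leadingCoeff, hdeg, hcoeffR]
  have hsplit := IsAlgClosed.splits (P.map ι)
  have hroots : (P.map ι).roots.toList.length = R := by
    rw [Multiset.length_toList, ← hsplit.natDegree_eq_card_roots, hmon.natDegree_map, hdeg]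
  let r : Fin R → K := fun i => (P.map ι).roots.toList.get (i.cast hroots.symm)
  have hr : P.map ι = ∏ i, (Polynomial.X - Polynomial.C (r i)) := by
    conv_lhs => rw [hsplit.eq_prod_roots_of_monic (hmon.map ι), ← Multiset.coe_toList
      (P.map ι).roots, Multiset.map_coe, Multiset.prod_coe, ← List.ofFn_get (P.map ι).roots.toList,
      List.map_ofFn, List.prod_ofFn]
    exact (Fintype.prod_equiv (finCongr hroots.symm) _ _ fun i => rfl).symm
  have hsmall : ∀ i, i < R → ‖((P.coeff i : unitBall K) : K)‖ ≤ ‖(π : K)‖ := fun i hi => by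
    refine dvd_iff_norm_le.mp ?_
    rw [hPdef, coeff_limP R hR, if_neg (by omega), zero_add]
    have h := pow_dvd_tsum_sub_sum π hπ (fun k => (wP R Ψ k).coeff i) 1
    rwa [pow_one, Finset.sum_range_one, wP_zero, Polynomial.coeff_zero, mul_zero, sub_zero] at h
  have hrlt : ∀ i, ‖r i‖ < 1 := fun i => by
    by_contra hge
    rw [not_lt] at hge
    have h0 : (P.map ι).eval (r i) = 0 := by
      rw [hr, Polynomial.eval_prod]
      exact Finset.prod_eq_zero (Finset.mem_univ i) (by simp)
    rw [Polynomial.eval_eq_sum_range, hmon.natDegree_map, hdeg, Finset.sum_range_succ,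
      Polynomial.coeff_map, hcoeffR, map_one, one_mul, add_eq_zero_iff_eq_neg'] at h0
    have hpos : 0 < ‖r i‖ ^ R := pow_pos (lt_of_lt_of_le one_pos hge) R
    have hb : ‖∑ j ∈ Finset.range R, (P.map ι).coeff j * r i ^ j‖ ≤ ‖(π : K)‖ * ‖r i‖ ^ R := by
      refine IsUltrametricDist.norm_sum_le_of_forall_le_of_nonneg (by positivity) fun j hj => ?_
      rw [norm_mul, norm_pow, Polynomial.coeff_map]
      exact mul_le_mul (hsmall j (Finset.mem_range.mp hj))
        (pow_le_pow_right₀ hge (Finset.mem_range.mp hj).le) (by positivity) (norm_nonneg _)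
    rw [← norm_neg, ← h0, norm_pow] at hb
    nlinarith
  let a : Fin R → unitBall K := fun i => ⟨r i, (hrlt i).le⟩
  have hP : P = ∏ i, (Polynomial.X - Polynomial.C (a i)) := by
    refine Polynomial.map_injective ι Subtype.val_injective ?_
    rw [hr, Polynomial.map_prod]
    refine Finset.prod_congr rfl fun i _ => ?_
    rw [Polynomial.map_sub, Polynomial.map_X, Polynomial.map_C]
    rfl
  refine ⟨a, hrlt, fun b hb => ?_, fun E G hG hE hvan => ?_⟩
  · rw [← limP_mul_limU R hR π hπ Ψ, show limP R π Ψ = _ from hP,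
      order_shiftHom_prod a _ b hb (eval_limU_ne_zero R π hπ Ψ b hb)]
    rw [Set.ncard_eq_toFinset_card', Set.toFinset_ofPred]
  · set v : ℕ → K := fun N => ∏ i, (((PowerSeries.trunc (N + 1) E).eval (a i) : unitBall K) : K)
    have h1 : Tendsto v atTop (𝓝 (∏ i, (evalHom (a i) (hrlt i) E : K))) := by
      refine tendsto_finsetProd _ fun i _ => ?_
      rw [← tendsto_sub_nhds_zero_iff]
      refine squeeze_zero_norm (fun N => norm_eval_trunc_sub_evalHom_le (a i) (hrlt i) E (N + 1)) ?_
      exact (tendsto_pow_atTop_nhds_zero_of_lt_one (norm_nonneg _) (hrlt i)).comp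
        (tendsto_add_atTop_nat 1)
    have h2 : Tendsto v atTop (𝓝 1) := by
      rw [← tendsto_sub_nhds_zero_iff]
      refine squeeze_zero_norm' (a := fun N => ‖(π : K)‖ ^ (N / R))
        ((Filter.eventually_ge_atTop R).mono fun N hN => ?_)
        ((tendsto_pow_atTop_nhds_zero_of_lt_one (norm_nonneg _) hπ).comp
          (Nat.tendsto_div_const_atTop hR.ne'))
      have h := resultant_limP_congr hR π hπ Ψ E G hG hE hvan (m := N / R) (N := N)
        (Nat.div_pos hN hR) (Nat.mul_div_le N R)
      rw [show limP R π Ψ = _ from hP, resultant_prod_X_sub_C _ _ _ (Nat.lt_succ_iff.mp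
        (PowerSeries.natDegree_trunc_lt _ _)), dvd_iff_norm_le, SubmonoidClass.coe_pow,
        norm_pow] at h
      refine le_trans (le_of_eq ?_) h
      rw [AddSubgroupClass.coe_sub, OneMemClass.coe_one, SubmonoidClass.coe_finsetProd]
    refine Subtype.ext ?_
    rw [SubmonoidClass.coe_finsetProd, OneMemClass.coe_one]
    exact tendsto_nhds_unique h1 h2

end Main

end FA.Mazur
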