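import Fermat.Agent.Mazur.IntegralRing
import Fermat.Agent.Mazur.Eval
import Fermat.Agent.Mazur.Dwork
import Fermat.Agent.Mazur.DiscPlace

/-!
# Principal units of `ℂ_l` and integral series at small arguments
-/

set_option autoImplicit false
set_option linter.style.haveILetI false
set_option linter.unusedSectionVars false

noncomputable section

namespace FA.Mazur

open ModularCurve Filter Topology

set_option maxHeartbeats 1000000

variable {K : Type} [NormedField K] [IsUltrametricDist K] [CompleteSpace K]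

theorem norm_add_one_pow_sub_one_le {x : K} (hx : ‖x‖ ≤ 1) (n : ℕ) :
    ‖(x + 1) ^ n - 1‖ ≤ ‖x‖ := by
  induction n with
  | zero => simp
  | succ n ih =>
    rw [show (x + 1) ^ (n + 1) - 1 = ((x + 1) ^ n - 1) * (x + 1) + x by ring]
    refine (IsUltrametricDist.norm_add_le_max _ _).trans (max_le ?_ le_rfl)
    rw [norm_mul]
    refine le_trans (mul_le_of_le_one_right (norm_nonneg _) ?_) ih
    exact (IsUltrametricDist.norm_add_le_max _ _).trans (max_le hx norm_one.le)

/-- A step towards one. -/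
theorem norm_pow_prime_sub_one_le {x : K} {l : ℕ} (hl : l.Prime) (hl1 : ‖(l : K)‖ ≤ 1)
    (hx : ‖x - 1‖ ≤ ‖(l : K)‖) : ‖x ^ l - 1‖ ≤ ‖(l : K)‖ * ‖x - 1‖ := by
  set y := x - 1
  have hy : ‖y‖ ≤ 1 := hx.trans hl1
  have e : x = y + 1 := by simp [y]
  rw [e, add_pow, Finset.sum_range_succ']
  simp only [one_pow, mul_one, pow_zero, Nat.choose_zero_right, Nat.cast_one, add_sub_cancel_right]
  refine IsUltrametricDist.norm_sum_le_of_forall_le_of_nonneg (by positivity) fun i hi => ?_
  have hi' : i < l := Finset.mem_range.1 hi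
  rw [norm_mul, norm_pow]
  rcases eq_or_lt_of_le (Nat.succ_le_of_lt hi') with he | hlt
  · rw [show i + 1 = l from he, Nat.choose_self, Nat.cast_one, norm_one, mul_one,
      ← Nat.sub_add_cancel hl.two_le, pow_succ, pow_succ]
    refine mul_le_mul_of_nonneg_right ?_ (norm_nonneg _)
    exact (mul_le_of_le_one_left (norm_nonneg _) (pow_le_one₀ (norm_nonneg _) hy)).trans
      (hx.trans_eq (congrArg (fun m : ℕ => ‖(m : K)‖) (Nat.sub_add_cancel hl.two_le).symm))
  · obtain ⟨c, hc⟩ := hl.dvd_choose_self (Nat.succ_ne_zero i) hlt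
    rw [hc, Nat.cast_mul, norm_mul, mul_left_comm]
    refine mul_le_mul_of_nonneg_left ?_ (norm_nonneg _)
    exact (mul_le_of_le_one_right (pow_nonneg (norm_nonneg _) _)
      (IsUltrametricDist.norm_natCast_le_one _ _)).trans
        (pow_le_of_le_one (norm_nonneg _) hy (Nat.succ_ne_zero i))

theorem norm_pow_prime_pow_sub_one_le {x : K} {l : ℕ} (hl : l.Prime) (hl1 : ‖(l : K)‖ ≤ 1)
    (hx : ‖x - 1‖ ≤ ‖(l : K)‖) : ∀ n, ‖x ^ l ^ n - 1‖ ≤ ‖(l : K)‖ ^ (n + 1)
  | 0 => by simpa using hx
  | n + 1 => by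
    have ih := norm_pow_prime_pow_sub_one_le hl hl1 hx n
    rw [pow_succ l, pow_mul, pow_succ' ‖(l : K)‖]
    refine (norm_pow_prime_sub_one_le hl hl1 (ih.trans ?_)).trans
      (mul_le_mul_of_nonneg_left ih (norm_nonneg _))
    exact pow_le_of_le_one (norm_nonneg _) hl1 (Nat.succ_ne_zero n)

/-- A root of unity of odd prime power order congruent to one modulo `l` is one. -/
theorem eq_one_of_pow_prime_pow [CharZero K] {x : K} {l : ℕ} (hl : l.Prime) (hl2 : l ≠ 2)
    (hl1 : ‖(l : K)‖ < 1) (hx : ‖x - 1‖ ≤ ‖(l : K)‖) : ∀ {n : ℕ}, x ^ l ^ n = 1 → x = 1 := by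
  intro n
  induction n with
  | zero => exact fun h => by simpa using h
  | succ n ih =>
    intro h
    refine ih ?_
    set z := x ^ l ^ n with hz
    have hz1 : ‖z - 1‖ ≤ ‖(l : K)‖ :=
      (norm_pow_prime_pow_sub_one_le hl hl1.le hx n).trans
        (pow_le_of_le_one (norm_nonneg _) hl1.le (Nat.succ_ne_zero n))
    have hzl : z ^ l = 1 := by rw [hz, ← pow_mul, ← pow_succ, h]
    by_contra hne
    set y := z - 1 with hy
    have hy0 : y ≠ 0 := sub_ne_zero.2 hne
    have e : z = y + 1 := by simp [y]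
    rw [e, add_pow, Finset.sum_range_succ'] at hzl
    simp only [one_pow, mul_one, pow_zero, Nat.choose_zero_right, Nat.cast_one,
      add_eq_right] at hzl
    obtain ⟨m, hm⟩ : ∃ m, l = m + 1 := ⟨l - 1, (Nat.sub_add_cancel hl.one_lt.le).symm⟩
    have hsplit : (l : K) * y + ∑ i ∈ Finset.range m, y ^ (i + 1 + 1) * (l.choose (i + 1 + 1) : K) = 0 := by
      conv_rhs => rw [← hzl, show Finset.range l = Finset.range (m + 1) from by rw [← hm]]
      rw [Finset.sum_range_succ']
      simp [Nat.choose_one_right]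
      ring
    have hl0 : (l : K) ≠ 0 := Nat.cast_ne_zero.2 hl.ne_zero
    have hlt : ‖∑ i ∈ Finset.range m, y ^ (i + 1 + 1) * (l.choose (i + 1 + 1) : K)‖ <
        ‖(l : K) * y‖ := by
      have hpos : 0 < ‖(l : K) * y‖ := norm_pos_iff.2 (mul_ne_zero hl0 hy0)
      have hy1 : ‖y‖ < 1 := hz1.trans_lt hl1
      have hbound : ∀ i ∈ Finset.range m,
          ‖y ^ (i + 1 + 1) * (l.choose (i + 1 + 1) : K)‖ ≤ ‖(l : K) * y‖ * ‖y‖ := by
        intro i hi
        have hi' : i + 1 + 1 ≤ l := by have := Finset.mem_range.1 hi; omega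
        rw [norm_mul, norm_pow, norm_mul]
        rcases eq_or_lt_of_le hi' with he | hlt
        · rw [he, Nat.choose_self, Nat.cast_one, norm_one, mul_one]
          have h3 : 3 ≤ l := by have := hl.two_le; omega
          calc ‖y‖ ^ l ≤ ‖y‖ ^ 3 := pow_le_pow_of_le_one (norm_nonneg _) hy1.le h3
            _ ≤ ‖(l : K)‖ * ‖y‖ * ‖y‖ := by
              rw [pow_succ, pow_two]
              exact mul_le_mul_of_nonneg_right (mul_le_mul_of_nonneg_right hz1 (norm_nonneg _))
                (norm_nonneg _)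
        · obtain ⟨c, hc⟩ := hl.dvd_choose_self (Nat.succ_ne_zero (i + 1)) hlt
          rw [hc, Nat.cast_mul, norm_mul, mul_left_comm, mul_assoc ‖(l : K)‖]
          refine mul_le_mul_of_nonneg_left ?_ (norm_nonneg _)
          refine (mul_le_of_le_one_right (pow_nonneg (norm_nonneg _) _)
            (IsUltrametricDist.norm_natCast_le_one _ _)).trans ?_
          rw [← pow_two]
          exact pow_le_pow_of_le_one (norm_nonneg _) hy1.le (by omega)
      exact (IsUltrametricDist.norm_sum_le_of_forall_le_of_nonneg (by positivity) hbound).trans_lt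
        (mul_lt_of_lt_one_right hpos hy1)
    rw [add_eq_zero_iff_eq_neg] at hsplit
    rw [hsplit, norm_neg] at hlt
    exact lt_irrefl _ hlt

/-- An integral series vanishing at points accumulating at zero is zero. -/
theorem eq_zero_of_evalHom_zero {F : PowerSeries (unitBall K)} (q : ℕ → unitBall K)
    (hq : ∀ n, ‖(q n : K)‖ < 1) (h0 : ∀ n, q n ≠ 0)
    (hlim : Tendsto (fun n => ‖(q n : K)‖) atTop (𝓝 0))
    (hF : ∀ n, evalHom (q n) (hq n) F = 0) : F = 0 := by
  by_contra hne
  obtain ⟨G, hG⟩ : ∃ G, PowerSeries.X ^ F.order.toNat * G = F :=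
    ⟨_, PowerSeries.X_pow_order_mul_divXPowOrder⟩
  have hc : PowerSeries.constantCoeff G ≠ 0 := by
    intro hc
    have h1 : PowerSeries.coeff F.order.toNat F = 0 := by
      rw [congrArg (PowerSeries.coeff F.order.toNat) hG.symm, PowerSeries.coeff_X_pow_mul', if_pos le_rfl, Nat.sub_self,
        PowerSeries.coeff_zero_eq_constantCoeff_apply, hc]
    exact PowerSeries.coeff_order hne h1
  have hpos : 0 < ‖((PowerSeries.constantCoeff G : unitBall K) : K)‖ :=
    norm_pos_iff.2 fun h => hc (Subtype.ext h)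
  obtain ⟨n, hn⟩ := ((tendsto_order.1 hlim).2 _ hpos).exists
  have h1 : evalHom (q n) (hq n) G = 0 := by
    have h2 := hF n
    rw [← hG, map_mul, map_pow, mul_eq_zero] at h2
    refine h2.resolve_left fun h3 => h0 n ?_
    rw [← show evalHom (q n) (hq n) PowerSeries.X = q n by
      rw [evalHom, PowerSeries.coe_eval₂Hom, PowerSeries.eval₂_X]]
    exact (pow_eq_zero_iff'.1 h3).1
  have h4 := norm_evalHom_sub_constant_le (q n) (hq n) G
  rw [h1, ZeroMemClass.coe_zero, zero_sub, norm_neg] at h4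
  exact absurd (h4.trans_lt hn) (lt_irrefl _)

open PowerSeries in
/-- A series with trivial exponential power is zero. -/
theorem IsExpOf.eq_zero_of_pow_eq_one {k : Type} [Field k] [CharZero k] {G E : k⟦X⟧}
    (h : IsExpOf G E) (hG : constantCoeff G = 0) {B : ℕ} (hB : B ≠ 0) (hE : E ^ B = 1) : G = 0 := by
  have h1 := (h.nsmul B).2
  rw [hE, derivative_one, mul_one, map_nsmul, eq_comm] at h1
  have h3 : d⁄dX k G = 0 := PowerSeries.ext fun i => by
    have h4 := congrArg (coeff i) h1
    rw [map_nsmul, map_zero, nsmul_eq_mul, mul_eq_zero] at h4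
    rw [map_zero]
    exact h4.resolve_left (Nat.cast_ne_zero.2 hB)
  have h2 : d⁄dX k G = d⁄dX k (0 : k⟦X⟧) := by rw [h3, map_zero]
  exact derivative.ext h2 (by rw [hG, map_zero])

end FA.Mazur

end
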