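import Fermat.Agent.Mazur.DiscTower
import Fermat.Agent.Mazur.Approx
import Fermat.Agent.Mazur.UnitSeries
import Fermat.Agent.Mazur.FrobFixed
import Fermat.Agent.Mazur.EigenBound

/-!
# A twist whose linear form vanishes is zero

Division points of classes of the disc fixed by Frobenius may be taken inside the disc up to a
bounded factor; their values show that the exponential of such a twist is trivial.
-/

set_option autoImplicit false
set_option linter.style.haveILetI false
set_option linter.unusedSectionVars false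

noncomputable section

namespace FA.Mazur

open ModularCurve AlgebraicCurve FA.Curve FA.CurveRed FA.ModField FA.Level FA.JTorsion Filter Topology

set_option synthInstance.maxHeartbeats 400000
set_option maxHeartbeats 4000000

local notation "Qb" => AlgebraicClosure ℚ
local notation "GQ" => AlgebraicClosure ℚ ≃ₐ[ℚ] AlgebraicClosure ℚ

/-- Classes moved into a finite subgroup by an endomorphism with finitely many fixed points. -/
theorem nsmul_sq_mem_of_sub_mem {Q : Type*} [AddCommGroup Q] (φ : Q →+ Q) (X : AddSubgroup Q)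
    [Finite X] (hX : ∀ x ∈ X, φ x ∈ X) (F : AddSubgroup Q) [Finite F]
    (hF : ∀ x, x ∈ F ↔ φ x = x) {a : Q} (ha : φ a - a ∈ X) :
    Nat.card F ^ 2 • a ∈ X := by
  set m := Nat.card F
  let ψ : X →+ X := AddMonoidHom.mk' (fun x => ⟨φ x - x, sub_mem (hX x x.2) x.2⟩) fun x y =>
    Subtype.ext (by
      show φ ((x : Q) + y) - ((x : Q) + y) = (φ x - x) + (φ y - y)
      rw [map_add]; abel)
  have hdvd : ψ.range.index ∣ m := by
    have h1 : Nat.card X = Nat.card ψ.range * Nat.card ψ.ker := by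
      rw [AddSubgroup.card_eq_card_quotient_mul_card_addSubgroup ψ.ker,
        Nat.card_congr (QuotientAddGroup.quotientKerEquivRange ψ).toEquiv]
    have h2 := AddSubgroup.index_mul_card ψ.range
    rw [h1, mul_comm (Nat.card ψ.range)] at h2
    rw [Nat.eq_of_mul_eq_mul_right Nat.card_pos h2]
    exact AddSubgroup.card_dvd_of_injective
      (AddMonoidHom.mk' (fun x : ψ.ker => (⟨((x : X) : Q), (hF _).2
        (sub_eq_zero.1 (congrArg Subtype.val (AddMonoidHom.mem_ker.1 x.2)))⟩ : F)) fun x y => rfl)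
      fun x y h => Subtype.ext (Subtype.ext (congrArg (fun z : F => (z : Q)) h))
  obtain ⟨e, he⟩ := hdvd
  obtain ⟨u, hu⟩ : ∃ u : X, ψ u = m • ⟨φ a - a, ha⟩ := by
    obtain ⟨u, hu⟩ := ψ.range.nsmul_index_mem ⟨φ a - a, ha⟩
    exact ⟨e • u, by rw [map_nsmul, hu, he, mul_comm, mul_nsmul']⟩
  have hker : m • a - (u : Q) ∈ F := by
    have h' : φ (u : Q) - (u : Q) = m • (φ a - a) := congrArg Subtype.val hu
    rw [hF, map_sub, map_nsmul]
    rw [nsmul_sub] at h'
    linear_combination (norm := abel) -h'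
  have h0 : m • (m • a - (u : Q)) = 0 :=
    congrArg Subtype.val (card_nsmul_eq_zero' (x := (⟨_, hker⟩ : F)))
  rw [nsmul_sub, sub_eq_zero, ← mul_nsmul', ← pow_two] at h0
  exact h0 ▸ nsmul_mem u.2 _

variable [Algebra (AlgebraicClosure ℚ) ℂ]
variable {p : ℕ} [Fact p.Prime] {l : ℕ} [hl : Fact l.Prime]
  [Algebra (AlgebraicClosure ℚ) (PadicComplex l)]

theorem exists_pow_nsmul_eq (n : ℕ) (x : JZero p) : ∃ y, l ^ n • y = x := by
  induction n generalizing x with
  | zero => exact ⟨x, by rw [pow_zero, one_nsmul]⟩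
  | succ n ih =>
    obtain ⟨y, hy⟩ := jZero_exists_nsmul_eq p hl.out x
    obtain ⟨z, hz⟩ := ih y
    exact ⟨z, by rw [pow_succ', mul_nsmul', hz, hy]⟩

/-- The Hecke coefficients span up to finite index. -/
theorem eq_zero_of_hCoeff {K : Type} [AddCommGroup K] (hK : ∀ (m : ℕ) (x : K), m ≠ 0 → m • x = 0 → x = 0)
    (ψ : TAlg p →+ K) (h : ∀ n, ψ (hCoeff p n) = 0) : ψ = 0 := by
  classical
  haveI : Module.Finite ℤ (TAlg p) := FA.Period.moduleFinite_heckeAlgebra p 2 ∅
  obtain ⟨D, hD, hform⟩ := exists_form_of_functional p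
  set S := Submodule.span ℤ (Set.range (hCoeff p))
  have htors : ∀ t : TAlg p, (Submodule.Quotient.mk t : TAlg p ⧸ S) ∈
      Submodule.torsion ℤ (TAlg p ⧸ S) := by
    intro t
    by_contra hne
    haveI : Module.Free ℤ ((TAlg p ⧸ S) ⧸ Submodule.torsion ℤ (TAlg p ⧸ S)) :=
      Module.free_of_finite_type_torsion_free'
    set b := Module.Free.chooseBasis ℤ ((TAlg p ⧸ S) ⧸ Submodule.torsion ℤ (TAlg p ⧸ S))
    set π : TAlg p →ₗ[ℤ] (TAlg p ⧸ S) ⧸ Submodule.torsion ℤ (TAlg p ⧸ S) :=
      (Submodule.torsion ℤ (TAlg p ⧸ S)).mkQ.comp S.mkQ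
    have hπt : π t ≠ 0 := fun h0 => hne ((Submodule.Quotient.mk_eq_zero _).1 h0)
    obtain ⟨i, hi⟩ : ∃ i, b.coord i (π t) ≠ 0 := by
      by_contra hall
      push Not at hall
      exact hπt (b.repr.injective (Finsupp.ext fun i => by simpa using hall i))
    obtain ⟨f, hf⟩ := hform ((b.coord i).comp π)
    have hcoeff : ∀ n, FA.Eis.zCoeff n f = 0 := fun n => by
      rw [← pairT_hCoeff, hf, LinearMap.comp_apply, show π (hCoeff p n) = 0 from by
        rw [LinearMap.comp_apply, Submodule.mkQ_apply S, (Submodule.Quotient.mk_eq_zero S).2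
          (Submodule.subset_span ⟨n, rfl⟩), map_zero], map_zero, mul_zero]
    have hf0 : f = 0 := Subtype.ext (FA.Period.cuspForm_eq_zero_of_coeff p 2 _ fun n _ => by
      have := FA.Eis.cast_zCoeff n f
      rw [hcoeff n, Int.cast_zero] at this
      exact this.symm)
    have := hf t
    rw [hf0, map_zero, LinearMap.comp_apply, eq_comm, mul_eq_zero] at this
    exact hi (this.resolve_left hD)
  refine AddMonoidHom.ext fun t => ?_
  obtain ⟨⟨a, ha⟩, hat⟩ := htors t
  have hat' : a • t ∈ S := (Submodule.Quotient.mk_eq_zero S).1 hat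
  have h0 : ψ (a • t) = 0 := by
    refine Submodule.span_induction (p := fun x _ => ψ x = 0) ?_ (map_zero ψ)
      (fun x y _ _ hx hy => by rw [map_add, hx, hy, add_zero])
      (fun c x _ hx => by rw [map_zsmul, hx, zsmul_zero]) hat'
    rintro _ ⟨n, rfl⟩
    exact h n
  rw [map_zsmul] at h0
  refine hK a.natAbs _ (Int.natAbs_ne_zero.2 (mem_nonZeroDivisors_iff_ne_zero.1 ha)) ?_
  rcases Int.natAbs_eq a with e | e
  · rw [← natCast_zsmul, ← e, h0]
  · rw [e, neg_smul, neg_eq_zero, natCast_zsmul] at h0; exact h0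

theorem exists_nat_mul_mem_goodSub : ∃ M : ℕ, M ≠ 0 ∧ ∀ t : TAlg p, (M : TAlg p) * t ∈ goodSub p := by
  obtain ⟨M, hM, hMt⟩ := exists_mul_mem_goodSub p
  refine ⟨M.natAbs, Int.natAbs_ne_zero.2 hM, fun t => ?_⟩
  rcases Int.natAbs_eq M with h | h
  · rw [← Int.cast_natCast, ← h, ← zsmul_eq_mul]; exact hMt t
  · rw [← Int.cast_natCast, show (M.natAbs : ℤ) = -M by omega, Int.cast_neg, neg_mul,
      ← zsmul_eq_mul]
    exact neg_mem (hMt t)

variable (hn : l ∣ eisensteinNumerator p) (hlp : ¬ l ∣ p)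
include hlp

omit hn in
/-- **Division inside the disc up to a bounded factor.** -/
theorem exists_disc_division : ∃ M₀ : ℕ, M₀ ≠ 0 ∧ ∀ (n : ℕ) (y y' : JZero p),
    frobEl l • y = y → l ^ n • y' = y →
      ∃ u : JZero p, l ^ n • u = 0 ∧ M₀ • y' - u ∈ discJ (l := l) hlp := by
  classical
  set H := discJ (p := p) (l := l) hlp
  set s : JZero p →+ JZero p := DistribSMul.toAddMonoidHom (JZero p) (frobEl l)
  let φ : JZero p ⧸ H →+ JZero p ⧸ H :=
    QuotientAddGroup.map H H s fun x hx => smul_mem_discClasses l p hlp (frobEl_mem l) hx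
  let rd : JZero p ⧸ H →+ _ :=
    QuotientAddGroup.lift H (reductionModL (placeAt l) p) fun x hx =>
      (mem_discClasses_iff l p hlp x).1 hx
  have hrd : Function.Injective rd := by
    rw [injective_iff_map_eq_zero]
    intro q
    induction q using QuotientAddGroup.induction_on with
    | H x => exact fun hx => (QuotientAddGroup.eq_zero_iff x).2 ((mem_discClasses_iff l p hlp x).2 hx)
  set F : AddSubgroup (JZero p ⧸ H) := φ.eqLocus (AddMonoidHom.id (JZero p ⧸ H)) with hFdef
  haveI hfix : Finite F := by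
    refine Set.Finite.to_subtype (Set.Finite.of_finite_image
      ((finite_reduction_frobStable p hlp (placeAt_liesOver l) (frobEl_spec l)).subset ?_)
      hrd.injOn)
    rintro _ ⟨q, hq, rfl⟩
    induction q using QuotientAddGroup.induction_on with
    | H x => exact ⟨x, congrArg rd hq, rfl⟩
  refine ⟨Nat.card F ^ 2, pow_ne_zero _ Nat.card_pos.ne',
    fun n y y' hy hy' => ?_⟩
  haveI : NeZero (l ^ n) := ⟨pow_ne_zero _ hl.out.ne_zero⟩
  let T : AddSubgroup (JZero p) := (nsmulAddMonoidHom (l ^ n)).ker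
  set X : AddSubgroup (JZero p ⧸ H) := T.map (QuotientAddGroup.mk' H)
  haveI : Finite T := by
    haveI := tors_finite (lvlGamma0 p) Qb (l ^ n)
    exact Finite.of_injective (fun x : T => (⟨(x : JZero p), by
      rw [Pic0.mem_torsion, natCast_zsmul]
      exact AddMonoidHom.mem_ker.1 x.2⟩ : tors (lvlGamma0 p) Qb (l ^ n)))
      fun a b h => Subtype.ext (congrArg Subtype.val h :)
  haveI : Finite X := Set.Finite.to_subtype
    ((Set.toFinite (T : Set (JZero p))).image (QuotientAddGroup.mk' H))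
  have hX : ∀ x ∈ X, φ x ∈ X := by
    rintro _ ⟨u, hu, rfl⟩
    exact ⟨frobEl l • u, AddMonoidHom.mem_ker.2 (by
      rw [nsmulAddMonoidHom_apply, nsmul_gal, show l ^ n • u = 0 from hu, gal_zero]), rfl⟩
  have ha : φ (QuotientAddGroup.mk y') - QuotientAddGroup.mk y' ∈ X :=
    ⟨frobEl l • y' - y', AddMonoidHom.mem_ker.2 (by
      rw [nsmulAddMonoidHom_apply, nsmul_sub, nsmul_gal, hy', hy, sub_self]), rfl⟩
  obtain ⟨u, hu, hue⟩ := nsmul_sq_mem_of_sub_mem φ X hX F (fun _ => Iff.rfl)
    (a := (QuotientAddGroup.mk y' : JZero p ⧸ H)) ha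
  refine ⟨u, hu, ?_⟩
  rw [← QuotientAddGroup.eq_iff_sub_mem]
  exact hue.symm

/-- The values lie in closures of inertia fixed fields and are principal units. -/
theorem exists_discExp_mem (L : twistSub p l hn) {x : JZero p} (hx : x ∈ discJ (l := l) hlp) :
    ∃ ts : Finset Qb, ((discExp hn hlp L ⟨x, hx⟩).toMul : Cl l) ∈ fixSub ts ∧
      ‖((discExp hn hlp L ⟨x, hx⟩).toMul : Cl l) - 1‖ < 1 := by
  classical
  have hone : ∀ u : Cl l, ‖u - 1‖ < 1 → ‖u‖ = 1 := fun u hu => norm_eq_one_of_sub norm_one hu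
  have hmono : ∀ {s t : Finset Qb}, s ⊆ t → fixSub (l := l) s ≤ fixSub t := fun {s t} hst => by
    refine Subfield.topologicalClosure_minimal _ ?_ (isClosed_fixSub t)
    rintro _ ⟨a, ha, rfl⟩
    exact emb_mem_fixSub fun σ hσ h => ha σ hσ fun b hb => h b (hst hb)
  suffices ∀ y : discJ (p := p) (l := l) hlp, ∃ ts : Finset Qb,
      ((discExp hn hlp L y).toMul : Cl l) ∈ fixSub ts ∧
        ‖((discExp hn hlp L y).toMul : Cl l) - 1‖ < 1 from this ⟨x, hx⟩
  suffices ∀ x ∈ AddSubgroup.closure (Set.range fun t : Param Qb (Cl l) =>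
      (⟨discClass (isEmbAt_placeAt l) t, discClass_mem_discJ hlp t⟩ : discJ (p := p) (l := l) hlp)),
      ∃ ts : Finset Qb, ((discExp hn hlp L x).toMul : Cl l) ∈ fixSub ts ∧
        ‖((discExp hn hlp L x).toMul : Cl l) - 1‖ < 1 by
    intro y
    refine this y ?_
    have h1 := discJ_le_closure (p := p) (l := l) hlp y.2
    rw [show (Set.range fun t : Param Qb (Cl l) => (discClass (isEmbAt_placeAt l) t : JZero p)) =
      (discJ (p := p) (l := l) hlp).subtype '' (Set.range fun t : Param Qb (Cl l) =>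
        (⟨discClass (isEmbAt_placeAt l) t, discClass_mem_discJ hlp t⟩ : discJ (p := p) (l := l) hlp))
      by rw [← Set.range_comp]; rfl, ← AddMonoidHom.map_closure] at h1
    obtain ⟨z, hz, hzy⟩ := h1
    exact Subtype.ext hzy ▸ hz
  intro x hx
  induction hx using AddSubgroup.closure_induction with
  | mem x hx =>
    obtain ⟨t, rfl⟩ := hx
    rw [discExp_discClass, toMul_ofMul, valUnit_coe (constantCoeff_twE hn hlp L)]
    refine ⟨{t.1}, evalHom_mem_of_coeff (S := (fixSub (l := l) {t.1}).toSubring)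
      (isClosed_fixSub _) (norm_qPar_lt t) ?_ fun d => ?_, ?_⟩
    · exact qPar_mem (S := (fixSub (l := l) {t.1}).toSubring) (isClosed_fixSub _) t
        (emb_mem_fixSub fun σ _ h => h t.1 (Finset.mem_singleton_self _))
    · rw [twE, PowerSeries.coeff_mk]
      exact intO_le_fixSub _ (coeff_expSeries_twC_mem hn hlp L d)
    · have h := norm_evalHom_sub_constant_le (qPar t) (norm_qPar_lt t) (twE hn hlp L)
      rw [constantCoeff_twE, OneMemClass.coe_one] at h
      exact h.trans_lt (norm_qPar_lt t)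
  | zero => exact ⟨∅, by rw [map_zero, toMul_zero, Units.val_one]; exact one_mem _,
      by rw [map_zero, toMul_zero, Units.val_one, sub_self, norm_zero]; exact one_pos⟩
  | add a b _ _ iha ihb =>
    obtain ⟨sa, ha1, ha2⟩ := iha
    obtain ⟨sb, hb1, hb2⟩ := ihb
    refine ⟨sa ∪ sb, ?_, ?_⟩
    · rw [map_add, toMul_add, Units.val_mul]
      exact mul_mem (hmono Finset.subset_union_left ha1) (hmono Finset.subset_union_right hb1)
    · rw [map_add, toMul_add, Units.val_mul]
      set A : Cl l := ((discExp hn hlp L a).toMul : Cl l)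
      set B : Cl l := ((discExp hn hlp L b).toMul : Cl l)
      rw [show A * B - 1 = (A - 1) * B + (B - 1) by ring]
      refine (IsUltrametricDist.norm_add_le_max _ _).trans_lt (max_lt ?_ hb2)
      rw [norm_mul, hone B hb2, mul_one]
      exact ha2
  | neg a _ iha =>
    obtain ⟨sa, ha1, ha2⟩ := iha
    refine ⟨sa, ?_, ?_⟩
    · rw [map_neg, toMul_neg, Units.val_inv_eq_inv_val]
      exact inv_mem ha1
    · rw [map_neg, toMul_neg, Units.val_inv_eq_inv_val]
      set A : Cl l := ((discExp hn hlp L a).toMul : Cl l)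
      have hA : A ≠ 0 := Units.ne_zero _
      rw [show A⁻¹ - 1 = -(A - 1) * A⁻¹ by field_simp; ring, norm_mul, norm_neg, norm_inv,
        hone A ha2, inv_one, mul_one]
      exact ha2

/-- The values at inertia invariant classes are congruent to one modulo `l`. -/
theorem discExp_near_one (L : twistSub p l hn) {x : JZero p} (hx : x ∈ discJ (l := l) hlp) {B : ℕ}
    (hfix : ∀ σ (hσ : σ ∈ inGp l), galExt (inGp_le l hσ)
      (((discExp hn hlp L ⟨x, hx⟩).toMul : Cl l) ^ B) = ((discExp hn hlp L ⟨x, hx⟩).toMul : Cl l) ^ B) :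
    ((discExp hn hlp L ⟨x, hx⟩).toMul : Cl l) ^ B ∈ intO l ∧
      ‖((discExp hn hlp L ⟨x, hx⟩).toMul : Cl l) ^ B - 1‖ ≤ ‖(l : Cl l)‖ := by
  obtain ⟨ts, h1, h2⟩ := exists_discExp_mem hn hlp L hx
  set u : Cl l := ((discExp hn hlp L ⟨x, hx⟩).toMul : Cl l)
  have h3 : ‖u ^ B - 1‖ < 1 := by
    have := norm_add_one_pow_sub_one_le (x := u - 1) h2.le B
    rw [sub_add_cancel] at this
    exact this.trans_lt h2
  have hmem : u ^ B ∈ intO l :=
    mem_intO_of_fixed (pow_mem h1 B) (norm_eq_one_of_sub norm_one h3).le hfix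
  obtain ⟨y, hy, he⟩ := exists_eq_mul_of_lt (sub_mem hmem (one_mem _)) h3
  refine ⟨hmem, ?_⟩
  rw [he, norm_mul]
  exact mul_le_of_le_one_right (norm_nonneg _) (norm_le_one_of_intO hy)

/-- With a vanishing linear form the values on torsion are killed by a fixed number. -/
theorem exists_kill_of_discPhi {L : twistSub p l hn} (hL : discPhi hn hlp L = 0) :
    ∃ B : ℕ, B ≠ 0 ∧ ∀ (k : ℕ) (z : discJ (p := p) (l := l) hlp), l ^ k • (z : JZero p) = 0 →
      B • discExp hn hlp L z = 0 := by
  obtain ⟨c, hc⟩ := exists_discStep_bound hn hlp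
  obtain ⟨M, hM, hMt⟩ := exists_nat_mul_mem_goodSub (p := p)
  refine ⟨l ^ c * M, mul_ne_zero (pow_ne_zero _ hl.out.ne_zero) hM, fun k ⟨z, hz⟩ hkz => ?_⟩
  haveI : NeZero (l ^ k) := ⟨pow_ne_zero _ hl.out.ne_zero⟩
  obtain ⟨q, rfl⟩ := exists_toTors_of_nsmul hkz
  obtain ⟨v, hv⟩ := redM_range p l hn k q
  obtain ⟨h1, h2⟩ := discExp_toTors hn hlp (hMt (idemSeq p l hn k)) L hz
  have hMv : tauM p l hn k (M • v) =
      toTors p (∅ : Set ℕ) (l ^ k) (((M : TAlg p) * idemSeq p l hn k) • q) := by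
    show toTors _ _ _ (redM p l hn k (M • v)) = _
    rw [map_nsmul, hv, mul_smul, Nat.cast_smul_eq_nsmul]
  obtain ⟨h, hh, he⟩ := hc k (M • v) (by rw [mem_discStep, hMv]; exact h1)
  obtain ⟨y, hy⟩ := heckeR_idemSeq p l hn k
  have eL : twistMul hn (heckeR p l hn ((M : TAlg p) * idemSeq p l hn k)) L =
      M • L + l ^ k • (M • twistMul hn y L) := by
    refine Subtype.ext (LinearMap.ext fun x => ?_)
    rw [Submodule.coe_add, Submodule.coe_smul_of_tower, Submodule.coe_smul_of_tower,
      Submodule.coe_smul_of_tower, LinearMap.add_apply, LinearMap.smul_apply, LinearMap.smul_apply,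
      LinearMap.smul_apply, twistMul_apply, twistMul_apply, map_mul (heckeR p l hn), map_natCast,
      sub_eq_iff_eq_add'.1 hy, mul_assoc (M : EisR p l hn), ← nsmul_eq_mul, map_nsmul, add_mul,
      one_mul, map_add, nsmul_add, mul_assoc, ← Nat.cast_pow, ← nsmul_eq_mul, map_nsmul,
      smul_comm M (l ^ k)]
  set z : discJ (p := p) (l := l) hlp := ⟨_, hz⟩
  have hz0 : l ^ k • z = 0 := Subtype.ext hkz
  have e1 : discExp hn hlp L ⟨_, h1⟩ = M • discExp hn hlp L z := by
    rw [h2, eL, map_add, map_nsmul, map_nsmul, AddMonoidHom.add_apply]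
    show M • discExp hn hlp L z + l ^ k • discExp hn hlp (M • twistMul hn y L) z = _
    rw [← map_nsmul (discExp hn hlp (M • twistMul hn y L)), hz0, map_zero, add_zero]
  have e2 : l ^ c • discExp hn hlp L ⟨_, h1⟩ = 0 := by
    rw [← map_nsmul, show l ^ c • (⟨_, h1⟩ : discJ (p := p) (l := l) hlp) =
      ⟨tauM p l hn k h, hh k⟩ from
        Subtype.ext ((congrArg (fun z => l ^ c • z) hMv.symm).trans he)]
    have h5 := discVal_discPhi hn hlp L ⟨h, hh⟩ k
    rw [hL, LinearMap.zero_apply, resNat, map_zero, ZMod.val_zero, pow_zero, discVal,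
      Units.val_eq_one] at h5
    exact Additive.toMul.injective h5
  rw [e1, ← mul_nsmul'] at e2
  exact e2

/-- **A twist with vanishing linear form is zero.** -/
theorem eq_zero_of_discPhi_eq_zero {L : twistSub p l hn} (hL : discPhi hn hlp L = 0) : L = 0 := by
  obtain ⟨B, hB, hkill⟩ := exists_kill_of_discPhi hn hlp hL
  obtain ⟨M₀, hM₀, hdiv⟩ := exists_disc_division (p := p) (l := l) hlp
  let t : ℕ → Param Qb (Cl l) := fun i => ⟨(l : Qb) ^ (i + 1), by
    rw [map_pow, map_natCast, norm_pow]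
    exact pow_lt_one₀ (norm_nonneg _) (norm_natCast_lt_one l) (Nat.succ_ne_zero i)⟩
  set E := twE hn hlp L
  have hval : ∀ i, ((evalHom (qPar (t i)) (norm_qPar_lt (t i)) E : unitBall (Cl l)) : Cl l) ^ (B * M₀) =
      1 := by
    intro i
    set y : JZero p := discClass (isEmbAt_placeAt l) (t i)
    have hfixy : ∀ σ ∈ decGp l, σ • y = y := by
      intro σ hσ
      have e1 : galParam hσ (t i) = t i :=
        Subtype.ext (show σ ((l : Qb) ^ (i + 1)) = _ by rw [map_pow, map_natCast])
      have e0 : galParam hσ (t0 : Param Qb (Cl l)) = t0 :=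
        Subtype.ext (show σ (0 : Qb) = 0 from map_zero σ)
      show σ • Pic0.mk _ = Pic0.mk _
      rw [galois_smul_pic0_def, SemilinearAut.pic0_smul_mk]
      refine congrArg Pic0.mk (Subtype.ext ?_)
      show galAut p Qb σ • (Finsupp.single _ (1 : ℤ) - Finsupp.single _ (1 : ℤ) :
        Divisor Qb (upField (L := Qb) p)) = _
      rw [smul_sub, SemilinearAut.smul_single, SemilinearAut.smul_single, gal_discPlace p hσ,
        gal_discPlace p hσ, e1, e0]
    set U : Cl l := ((discExp hn hlp L ⟨y, discClass_mem_discJ hlp (t i)⟩).toMul : Cl l)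
    have hU : U = evalHom (qPar (t i)) (norm_qPar_lt (t i)) E := by
      show ((discExp hn hlp L ⟨_, _⟩).toMul : Cl l) = _
      rw [discExp_discClass, toMul_ofMul, valUnit_coe (constantCoeff_twE hn hlp L)]
    rw [← hU]
    have hsmall : ∀ n, ‖U ^ (B * M₀) - 1‖ ≤ ‖(l : Cl l)‖ ^ (n + 1) := by
      intro n
      obtain ⟨y', hy'⟩ := exists_pow_nsmul_eq (p := p) (l := l) n y
      obtain ⟨u, hu, hw⟩ := hdiv n y y' (hfixy _ (frobEl_mem l)) hy'
      set w := M₀ • y' - u
      have hlw : l ^ n • w = M₀ • y := by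
        rw [nsmul_sub, hu, sub_zero, smul_comm, hy']
      have hfix : ∀ σ (hσ : σ ∈ inGp l), galExt (inGp_le l hσ)
          (((discExp hn hlp L ⟨w, hw⟩).toMul : Cl l) ^ B) =
            ((discExp hn hlp L ⟨w, hw⟩).toMul : Cl l) ^ B := by
        intro σ hσ
        have h1 := discExp_inertia hn hlp L hσ hw
        have hd : l ^ n • (((⟨σ • w, smul_mem_discClasses l p hlp (inGp_le l hσ) hw⟩ :
            discJ (p := p) (l := l) hlp) - ⟨w, hw⟩ : discJ (p := p) (l := l) hlp) : JZero p) = 0 := by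
          show l ^ n • (σ • w - w) = 0
          rw [nsmul_sub, nsmul_gal, hlw, ← nsmul_gal, hfixy σ (inGp_le l hσ), sub_self]
        have h2 := hkill n _ hd
        rw [map_sub, nsmul_sub, sub_eq_zero, h1] at h2
        have h3 := congrArg (fun z : Additive (Cl l)ˣ => (z.toMul : Cl l)) h2
        simp only [toMul_nsmul, Units.val_pow_eq_pow_val] at h3
        rw [map_pow]
        exact h3
      obtain ⟨-, hclose⟩ := discExp_near_one hn hlp L hw hfix
      have hUw : U ^ (B * M₀) = (((discExp hn hlp L ⟨w, hw⟩).toMul : Cl l) ^ B) ^ l ^ n := by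
        have e : l ^ n • (⟨w, hw⟩ : discJ (p := p) (l := l) hlp) =
            M₀ • ⟨y, discClass_mem_discJ hlp (t i)⟩ := Subtype.ext hlw
        have h4 := congrArg (fun z => ((discExp hn hlp L z).toMul : Cl l)) e
        simp only [map_nsmul, toMul_nsmul, Units.val_pow_eq_pow_val] at h4
        rw [← pow_mul, mul_comm B, mul_comm B, pow_mul, pow_mul, h4]
      rw [hUw]
      exact norm_pow_prime_pow_sub_one_le hl.out (norm_natCast_lt_one l).le hclose n
    refine sub_eq_zero.1 (norm_le_zero_iff.1 ?_)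
    exact ge_of_tendsto' ((tendsto_pow_atTop_nhds_zero_of_lt_one (norm_nonneg _)
      (norm_natCast_lt_one l)).comp (tendsto_add_atTop_nat 1)) hsmall
  have hE : E ^ (B * M₀) = 1 := by
    refine sub_eq_zero.1 (eq_zero_of_evalHom_zero (fun i => qPar (t i)) (fun i => norm_qPar_lt _)
      (fun i h => pow_ne_zero (i + 1) (Nat.cast_ne_zero.2 hl.out.ne_zero)
        ((qPar_eq_zero_iff (t i)).1 h)) ?_ fun i => ?_)
    · simp only [norm_qPar, t, map_pow, map_natCast, norm_pow]
      exact (tendsto_pow_atTop_nhds_zero_of_lt_one (norm_nonneg _)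
        (norm_natCast_lt_one l)).comp (tendsto_add_atTop_nat 1)
    · rw [map_sub, map_pow, map_one, sub_eq_zero]
      refine Subtype.ext ?_
      rw [SubmonoidClass.coe_pow, OneMemClass.coe_one]
      exact hval i
  have hG : twistPrimitive (twC hn L) = 0 :=
    (isExpOf_twE hn hlp L).eq_zero_of_pow_eq_one (constantCoeff_twistPrimitive _)
      (mul_ne_zero hB hM₀) (by rw [← map_pow, hE, map_one])
  refine Subtype.ext (LinearMap.ext fun x => ?_)
  have hO : ∀ (m : ℕ) (z : intO l), m ≠ 0 → m • z = 0 → z = 0 := fun m z hm h => by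
    rw [nsmul_eq_mul] at h
    have h2 := congrArg Subtype.val h
    simp only [Subring.coe_mul, Subring.coe_natCast, ZeroMemClass.coe_zero] at h2
    exact Subtype.ext ((mul_eq_zero.1 h2).resolve_left (Nat.cast_ne_zero.2 hm))
  set Lf := (L : EisR p l hn →ₗ[ℤ_[l]] intO l)
  have hT : Lf.toAddMonoidHom.comp (heckeR p l hn).toAddMonoidHom = 0 := by
    refine eq_zero_of_hCoeff hO _ fun n => Subtype.ext ?_
    show twC hn L n = 0
    rcases Nat.eq_zero_or_pos n with rfl | hn0
    · simp [twC, hCoeff_zero]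
    · have := congrArg (PowerSeries.coeff n) hG
      rw [twistPrimitive, PowerSeries.coeff_mk, map_zero, div_eq_zero_iff] at this
      exact this.resolve_right (Nat.cast_ne_zero.2 hn0.ne')
  refine IsHausdorff.haus (I := Ideal.span {(l : intO l)}) inferInstance _ fun k => ?_
  obtain ⟨s, y, hy⟩ := exists_heckeR_approx p l hn x k
  rw [SModEq.zero, smul_eq_mul, Ideal.mul_top, Ideal.span_singleton_pow, Ideal.mem_span_singleton]
  refine ⟨Lf y, ?_⟩
  rw [sub_eq_iff_eq_add'.1 hy, map_add, show Lf (heckeR p l hn s) = 0 from DFunLike.congr_fun hT s,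
    zero_add, ← Nat.cast_pow, ← nsmul_eq_mul, map_nsmul, nsmul_eq_mul, Nat.cast_pow]

end FA.Mazur

end
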