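import Fermat.Agent.Mazur.GoodOps
import Mathlib.RingTheory.Ideal.GoingUp
import Mathlib.RingTheory.Artinian.Module
import Mathlib.LinearAlgebra.FreeModule.Int

/-!
# The Eisenstein residual system and an element idempotent modulo `l`

For a prime `l` dividing the numerator of `(p - 1)/12`: the residual system `ψ₀ : T → ℤ/l`, and
an element idempotent modulo `l` which is `1` at the Eisenstein maximal ideal and lies in every
other maximal ideal over `l`; for `l = 2` it comes from the operators away from the level.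
-/

set_option autoImplicit false
set_option linter.style.haveILetI false
set_option linter.unusedSectionVars false

noncomputable section

namespace FA.Mazur

open CongruenceSubgroup CuspForm FA.Deform FA.Eis ModularCurve

set_option synthInstance.maxHeartbeats 400000
set_option maxHeartbeats 1000000

variable (p : ℕ) [Fact p.Prime]

/-- The level as a prime. -/
def pPrime : Nat.Primes := ⟨p, Fact.out⟩

/-- The operator at the level. -/
def uOp : TAlg p := tGen p (pPrime p)

theorem uOp_mul_self : uOp p * uOp p = 1 := by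
  refine intAct_injective p ?_
  rw [map_mul, map_one]
  refine LinearMap.ext fun f => zCoeff_ext fun n => ?_
  have h1 : ∀ (g : ↥(intLattice p 2)) (m : ℕ),
      zCoeff m (intAct p (uOp p) g) = zCoeff (m * p) g := fun g m => by
    rw [uOp, intAct_tGen, zCoeff_gen, if_pos (show ((pPrime p : Nat.Primes) : ℕ) = p from rfl), add_zero]; rfl
  show zCoeff n (intAct p (uOp p) (intAct p (uOp p) f)) = zCoeff n f
  rw [h1, h1]
  have hf := isLv_of_cuspForm (f : CuspForm (Gamma0 p) 2)
  have hA := hasQ_lattice f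
  set A := toC (PowerSeries.mk fun m => zCoeff m f)
  have hp : (p : ℂ) ≠ 0 := NeZero.ne _
  have h2 := hasQ_W_weight_two (hf.W even_two) (hasQ_W_weight_two hf hA)
  have h3 : HasQ 1 (W p 2 (W p 2 ⇑(f : CuspForm (Gamma0 p) 2))) ((p : ℂ) ^ (-2 : ℤ) • A) := by
    rw [W_W p even_two]
    exact hA.smul _
  have h4 := congrArg (PowerSeries.coeff n) (h2.unique one_pos h3)
  simp only [map_neg, PowerSeries.coeff_smul, coeff_Up, A, coeff_toC, PowerSeries.coeff_mk,
    smul_eq_mul] at h4
  apply Int.cast_injective (α := ℂ)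
  rw [zpow_neg, zpow_two] at h4
  field_simp at h4
  linear_combination h4

/-- Every operator is a combination `u + v U_p` of operators away from the level. -/
theorem exists_good_decomp (t : TAlg p) :
    ∃ u ∈ goodSub p, ∃ v ∈ goodSub p, t = u + v * uOp p := by
  have h : ∀ r : Nat.Primes, ∃ u ∈ goodSub p, ∃ v ∈ goodSub p, tGen p r = u + v * uOp p := fun r => by
    by_cases hr : (r : ℕ) = p
    · refine ⟨0, zero_mem _, 1, one_mem _, ?_⟩
      rw [zero_add, one_mul, uOp, show r = pPrime p from Subtype.ext hr]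
    · exact ⟨_, tGen_mem_goodSub p hr, 0, zero_mem _, by rw [zero_mul, add_zero]⟩
  obtain ⟨t, ht⟩ := t
  refine Algebra.adjoin_induction
    (p := fun t ht => ∃ u ∈ goodSub p, ∃ v ∈ goodSub p, (⟨t, ht⟩ : TAlg p) = u + v * uOp p)
    ?_ ?_ ?_ ?_ ht
  · rintro _ (⟨r, hr, hrN, -, rfl⟩ | ⟨r, hrN, hr, -, rfl⟩)
    · obtain ⟨u, hu, v, hv, e⟩ := h ⟨r, hr⟩
      exact ⟨u, hu, v, hv, (heckeEvalForms_heckeGen_of_not_dvd (ℓ := (⟨r, hr⟩ : Nat.Primes)) hrN).symm.trans e⟩
    · obtain ⟨u, hu, v, hv, e⟩ := h ⟨r, hr⟩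
      exact ⟨u, hu, v, hv, (heckeEvalForms_heckeGen_of_dvd (q := (⟨r, hr⟩ : Nat.Primes)) hrN).symm.trans e⟩
  · exact fun c => ⟨algebraMap ℤ _ c, Subalgebra.algebraMap_mem _ c, 0, zero_mem _, by
      rw [zero_mul, add_zero]; rfl⟩
  · rintro a b ha hb ⟨u, hu, v, hv, e⟩ ⟨u', hu', v', hv', e'⟩
    refine ⟨u + u', add_mem hu hu', v + v', add_mem hv hv', ?_⟩
    rw [show (⟨a + b, add_mem ha hb⟩ : TAlg p) = ⟨a, ha⟩ + ⟨b, hb⟩ from rfl, e, e']
    ring
  · rintro a b ha hb ⟨u, hu, v, hv, e⟩ ⟨u', hu', v', hv', e'⟩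
    refine ⟨u * u' + v * v', add_mem (mul_mem hu hu') (mul_mem hv hv'), u * v' + v * u',
      add_mem (mul_mem hu hv') (mul_mem hv hu'), ?_⟩
    rw [show (⟨a * b, mul_mem ha hb⟩ : TAlg p) = ⟨a, ha⟩ * ⟨b, hb⟩ from rfl, e, e']
    linear_combination (v * v') * uOp_mul_self p

variable (l : ℕ) [hl : Fact l.Prime] (hn : l ∣ eisensteinNumerator p)

include hn in
theorem exists_psi0 : ∃ ψ : TAlg p →+* ZMod l,
    ∀ r : Nat.Primes, ψ (tGen p r) = if (r : ℕ) = p then 1 else 1 + ((r : ℕ) : ZMod l) := by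
  set I := Ideal.map (latEval p) (eisensteinIdeal p)
  set Q := ↥(heckeLatticeAlgebra p ∅) ⧸ I
  set π : ↥(heckeLatticeAlgebra p ∅) →+* Q := Ideal.Quotient.mk I
  have hval : ∀ x : HeckeAlg, π (latEval p x) =
      ((MvPolynomial.aeval (eisensteinSystem p) x : ℤ) : Q) := by
    intro x
    have hmem : x - MvPolynomial.C (MvPolynomial.aeval (eisensteinSystem p) x) ∈ eisensteinIdeal p := by
      rw [eisensteinIdeal, mem_eigenIdeal_iff, map_sub, MvPolynomial.aeval_C]
      simp
    have h := Ideal.mem_map_of_mem (latEval p) hmem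
    rw [← Ideal.Quotient.eq_zero_iff_mem] at h
    change π _ = 0 at h
    rwa [map_sub, map_sub, latEval_C, map_intCast, sub_eq_zero] at h
  set e := ZMod.castHom (dvd_refl (ringChar Q)) Q
  have hbij : Function.Bijective e := by
    refine ⟨ZMod.castHom_injective Q, fun y => ?_⟩
    obtain ⟨t, rfl⟩ := Ideal.Quotient.mk_surjective y
    obtain ⟨x, rfl⟩ := latEval_surjective t
    exact ⟨(MvPolynomial.aeval (eisensteinSystem p) x : ℤ), by rw [map_intCast]; exact (hval x).symm⟩
  have hdvd : l ∣ ringChar Q := by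
    have h := natCard_eisensteinQuotient (p := p)
    rw [← Nat.card_eq_of_bijective e hbij, Nat.card_zmod] at h
    rw [h]; exact hn
  refine ⟨((ZMod.castHom hdvd (ZMod l)).comp (RingEquiv.ofBijective e hbij).symm.toRingHom).comp
    (π.comp (latticeRestrictHom p ∅).toRingHom), fun r => ?_⟩
  have e1 : π ((latticeRestrictHom p ∅).toRingHom (tGen p r)) = π (latEval p (heckeGen r)) := rfl
  simp only [RingHom.comp_apply]
  rw [e1, hval, map_intCast, map_intCast, heckeGen, MvPolynomial.aeval_X, eisensteinSystem_eq]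
  split_ifs <;> simp

/-- The residual Eisenstein system. -/
def psi0 : TAlg p →+* ZMod l := (exists_psi0 p l hn).choose

theorem psi0_tGen (r : Nat.Primes) :
    psi0 p l hn (tGen p r) = if (r : ℕ) = p then 1 else 1 + ((r : ℕ) : ZMod l) :=
  (exists_psi0 p l hn).choose_spec r

include hn in
theorem psi0_surjective : Function.Surjective (psi0 p l hn) := fun z =>
  ⟨(z.val : TAlg p), by rw [map_natCast, ZMod.natCast_zmod_val]⟩

include hn in
theorem natCast_mem_ker : (l : TAlg p) ∈ RingHom.ker (psi0 p l hn) := by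
  rw [RingHom.mem_ker, map_natCast, ZMod.natCast_self]

set_option maxHeartbeats 2000000 in
include hn in
/-- **An element idempotent modulo `l` at the Eisenstein maximal ideal.** -/
theorem exists_idem_mod : ∃ a : TAlg p, psi0 p l hn a = 1 ∧ (l = 2 → a ∈ goodSub p) ∧
    (∃ b, a * a - a = (l : TAlg p) * b) ∧
    ∀ y, psi0 p l hn y = 0 → ∃ (K : ℕ) (b : TAlg p), (y * a) ^ K = (l : TAlg p) * b := by
  classical
  haveI : Module.Finite ℤ (TAlg p) := FA.Period.moduleFinite_heckeAlgebra p 2 ∅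
  set I : Ideal (TAlg p) := Ideal.span {(l : TAlg p)}
  set B := TAlg p ⧸ I
  haveI : Finite B := by
    have : Submodule.FG (⊤ : Submodule ℤ B) :=
      (Module.Finite.of_surjective (Submodule.mkQ I |>.restrictScalars ℤ)
        (Submodule.mkQ_surjective I)).fg_top
    haveI : Module.Finite ℤ B := ⟨this⟩
    refine Module.finite_of_fg_torsion B fun x => ⟨⟨(l : ℤ), by
      simpa using hl.out.ne_zero⟩, ?_⟩
    show (l : ℤ) • x = 0
    obtain ⟨t, rfl⟩ := Ideal.Quotient.mk_surjective x
    rw [natCast_zsmul, ← map_nsmul, Ideal.Quotient.eq_zero_iff_mem, nsmul_eq_mul]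
    exact Ideal.mul_mem_right _ _ (Ideal.mem_span_singleton_self _)
  set π : TAlg p →+* B := Ideal.Quotient.mk I
  set m := RingHom.ker (psi0 p l hn)
  haveI hm : m.IsMaximal := RingHom.ker_isMaximal_of_surjective _ (psi0_surjective p l hn)
  haveI := Fintype.ofFinite (Ideal B)
  -- elements avoiding `m`
  have key : ∀ P : Ideal B, P.IsPrime → P.comap π ≠ m →
      ∃ x : TAlg p, π x ∈ P ∧ x ∉ m ∧ (l = 2 → x ∈ goodSub p) := by
    intro P hP hne
    haveI : P.IsMaximal := hP.isMaximal'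
    set Q := P.comap π
    haveI hQ : Q.IsMaximal := Ideal.comap_isMaximal_of_surjective π Ideal.Quotient.mk_surjective
    by_contra hno
    push Not at hno
    by_cases h2 : l = 2
    · -- the two ideals have the same trace on the good operators
      have hsub : ∀ x ∈ goodSub p, x ∈ Q → x ∈ m := fun x hx hxQ => by
        by_contra hxm
        exact (hno x hxQ hxm).2 hx
      have hl2 : ∀ {P' : Ideal (TAlg p)}, P'.IsPrime → (l : TAlg p) ∈ P' → uOp p - 1 ∈ P' :=
        fun {P'} hP' hlP => by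
        refine hP'.mem_of_pow_mem 2 ?_
        have e : (uOp p - 1) ^ 2 = (2 : TAlg p) * (1 - uOp p) := by
          linear_combination uOp_mul_self p
        rw [e]
        exact Ideal.mul_mem_right _ _ (by rw [h2] at hlP; exact_mod_cast hlP)
      have hlQ : (l : TAlg p) ∈ Q := by
        show π (l : TAlg p) ∈ P
        rw [Ideal.Quotient.eq_zero_iff_mem.mpr (Ideal.mem_span_singleton_self _)]
        exact zero_mem _
      refine hne (hQ.eq_of_le hm.ne_top fun t ht => ?_)
      obtain ⟨u, hu, v, hv, rfl⟩ := exists_good_decomp p t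
      have e : u + v * uOp p = (u + v) + v * (uOp p - 1) := by ring
      rw [e] at ht ⊢
      refine add_mem (hsub _ (add_mem hu hv) ?_)
        (Ideal.mul_mem_left _ _ (hl2 hm.isPrime (natCast_mem_ker p l hn)))
      exact (Ideal.add_mem_iff_left _ (Ideal.mul_mem_left _ _ (hl2 hQ.isPrime hlQ))).mp ht
    · exact hne (hQ.eq_of_le hm.ne_top fun t ht => by
        by_contra htm
        exact h2 (hno t ht htm).1)
  choose! x hxP hxm hx2 using key
  set S : Finset (Ideal B) := Finset.univ.filter fun P => P.IsPrime ∧ P.comap π ≠ m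
  set a₁ := ∏ P ∈ S, x P
  have ha₁ : a₁ ∉ m := fun h => by
    obtain ⟨P, hP, hh⟩ := hm.isPrime.prod_mem_iff.mp h
    obtain ⟨hP1, hP2⟩ := (Finset.mem_filter.mp hP).2
    exact hxm P hP1 hP2 hh
  obtain ⟨i, j, hij, he⟩ := Finite.exists_ne_map_eq_of_infinite fun i : ℕ => π a₁ ^ i
  obtain ⟨i, d, hd, he⟩ : ∃ i d, 0 < d ∧ π a₁ ^ (i + d) = π a₁ ^ i := by
    rcases lt_or_gt_of_ne hij with h | h
    · exact ⟨i, j - i, by omega, by rw [Nat.add_sub_cancel' h.le]; exact he.symm⟩
    · exact ⟨j, i - j, by omega, by rw [Nat.add_sub_cancel' h.le]; exact he⟩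
  set N := d * (i + 1)
  have hrep : ∀ k m', i ≤ k → π a₁ ^ (k + d * m') = π a₁ ^ k := by
    intro k m' hk
    induction m' with
    | zero => simp
    | succ m' ih =>
      obtain ⟨s, rfl⟩ := Nat.exists_eq_add_of_le hk
      rw [show i + s + d * (m' + 1) = (i + d) + (s + d * m') by ring, pow_add, he, ← pow_add,
        ← add_assoc, ih]
  have hiN : i ≤ N := le_trans (Nat.le_succ i) (Nat.le_mul_of_pos_left _ hd)
  have hidem : π (a₁ ^ N) * π (a₁ ^ N) = π (a₁ ^ N) := by
    rw [map_pow, ← pow_add]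
    exact hrep N (i + 1) hiN
  have hN : N ≠ 0 := Nat.mul_ne_zero hd.ne' i.succ_ne_zero
  have hψ : psi0 p l hn (a₁ ^ N) = 1 := by
    have h1 : psi0 p l hn (a₁ ^ N) * psi0 p l hn (a₁ ^ N) = psi0 p l hn (a₁ ^ N) := by
      rw [← map_mul, ← sub_eq_zero, ← map_sub, ← RingHom.mem_ker]
      refine (?_ : I ≤ m) ?_
      · rw [Ideal.span_le, Set.singleton_subset_iff]
        exact natCast_mem_ker p l hn
      · rw [← Ideal.Quotient.eq_zero_iff_mem, map_sub, map_mul, sub_eq_zero]
        exact hidem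
    refine (mul_eq_right₀ fun h => ha₁ (hm.isPrime.mem_of_pow_mem N h)).mp h1
  refine ⟨a₁ ^ N, hψ, fun h2 => pow_mem (Subalgebra.prod_mem _ fun P hP => ?_) N, ?_, fun y hy => ?_⟩
  · exact hx2 P (Finset.mem_filter.mp hP).2.1 (Finset.mem_filter.mp hP).2.2 h2
  · obtain ⟨b, hb⟩ := Ideal.mem_span_singleton'.mp
      (Ideal.Quotient.eq_zero_iff_mem.mp (show π (a₁ ^ N * a₁ ^ N - a₁ ^ N) = 0 by
        rw [map_sub, map_mul, hidem, sub_self]))
    exact ⟨b, by rw [← hb, mul_comm]⟩
  · have hnil : IsNilpotent (π (y * a₁ ^ N)) := by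
      rw [nilpotent_iff_mem_prime]
      intro P hP
      by_cases hPm : P.comap π = m
      · rw [map_mul]
        refine P.mul_mem_right _ ?_
        exact (hPm ▸ (RingHom.mem_ker.mpr hy : y ∈ m) : y ∈ P.comap π)
      · rw [map_mul, map_pow]
        refine P.mul_mem_left _ (Ideal.pow_mem_of_mem _ ?_ N (Nat.pos_of_ne_zero hN))
        rw [map_prod]
        exact hP.prod_mem_iff.mpr ⟨P, Finset.mem_filter.mpr ⟨Finset.mem_univ _, hP, hPm⟩, hxP P hP hPm⟩
    obtain ⟨K, hK⟩ := hnil
    obtain ⟨b, hb⟩ := Ideal.mem_span_singleton'.mp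
      (Ideal.Quotient.eq_zero_iff_mem.mp (show π ((y * a₁ ^ N) ^ K) = 0 by rw [map_pow, hK]))
    exact ⟨K, b, by rw [← hb, mul_comm]⟩

end FA.Mazur

end
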