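import Fermat.Agent.Mazur.EisRing
import Fermat.Agent.Mazur.TraceId
import Fermat.Agent.JTorsion.LatMod
import Mathlib.LinearAlgebra.Trace

/-!
# The Eisenstein part of the `l`-adic lattice

`EisM p l = EisR ⊗ X` is the direct summand `e (ℤ_l ⊗ X)`; it is free over `ℤ_l` of rank twice
the rank of `EisR`.
-/

set_option autoImplicit false
set_option linter.style.haveILetI false
set_option linter.unusedSectionVars false

noncomputable section

namespace FA.Mazur

open scoped TensorProduct
open ModularCurve IsLocalRing FA.JTorsion FA.Level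

set_option synthInstance.maxHeartbeats 400000
set_option maxHeartbeats 1000000

variable [Algebra (AlgebraicClosure ℚ) ℂ]
variable (p : ℕ) [Fact p.Prime] (l : ℕ) [hl : Fact l.Prime] (hn : l ∣ eisensteinNumerator p)

/-- The lattice. -/
abbrev XLat : Type := LatMod p (∅ : Set ℕ)

instance xLat_free : Module.Free ℤ (XLat p) := by
  haveI := (cuspLat_free_finite (lvlGamma0 p)).1
  exact Module.Free.of_equiv (LatMod.val p (∅ : Set ℕ)).symm.toIntLinearEquiv

/-- The `l`-adic lattice. -/
abbrev XAdic : Type := ℤ_[l] ⊗[ℤ] XLat p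

/-- The action of the Hecke algebra on the lattice. -/
def actHom : TAlg p →ₐ[ℤ] Module.End ℤ (XLat p) :=
  (Module.toModuleEnd ℤ (S := TAlg p) (XLat p)).toIntAlgHom

theorem actHom_apply (t : TAlg p) (x : XLat p) : actHom p t x = t • x := rfl

/-- The action of the `l`-adic algebra. -/
def actX : TAdic p l →ₐ[ℤ_[l]] Module.End ℤ_[l] (XAdic p l) :=
  Algebra.TensorProduct.lift (Algebra.ofId ℤ_[l] _)
    ((Module.End.baseChangeHom ℤ ℤ_[l] (XLat p)).comp (actHom p))
    fun c t => Algebra.commutes c _

theorem actX_tmul (c d : ℤ_[l]) (t : TAlg p) (x : XLat p) :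
    actX p l (c ⊗ₜ[ℤ] t) (d ⊗ₜ[ℤ] x) = (c * d) ⊗ₜ[ℤ] (t • x) := by
  erw [Algebra.TensorProduct.lift_tmul]
  rw [Module.End.mul_apply]
  show (algebraMap ℤ_[l] (Module.End ℤ_[l] (XAdic p l)) c) (d ⊗ₜ[ℤ] (t • x)) = _
  rw [Module.algebraMap_end_apply, TensorProduct.smul_tmul', smul_eq_mul]

/-- The Eisenstein factor as an algebra over the Hecke algebra. -/
instance eisR_heckeAlgebra : Algebra (TAlg p) (EisR p l hn) := (heckeR p l hn).toAlgebra

theorem algebraMap_eisR (t : TAlg p) :
    algebraMap (TAlg p) (EisR p l hn) t = heckeR p l hn t := rfl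

instance eisR_smulComm : SMulCommClass (TAlg p) ℤ_[l] (EisR p l hn) :=
  ⟨fun t c r => by rw [Algebra.smul_def, Algebra.smul_def, Algebra.smul_def, Algebra.smul_def]; ring⟩

/-- The Eisenstein part of the lattice. -/
def EisM : Type := EisR p l hn ⊗[TAlg p] XLat p

instance eisM_addCommGroup : AddCommGroup (EisM p l hn) :=
  inferInstanceAs (AddCommGroup (EisR p l hn ⊗[TAlg p] XLat p))

instance eisM_module : Module (EisR p l hn) (EisM p l hn) :=
  inferInstanceAs (Module (EisR p l hn) (EisR p l hn ⊗[TAlg p] XLat p))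

instance eisM_module_padic : Module ℤ_[l] (EisM p l hn) :=
  Module.compHom _ (algebraMap ℤ_[l] (EisR p l hn))

instance eisM_tower : IsScalarTower ℤ_[l] (EisR p l hn) (EisM p l hn) :=
  ⟨fun c r x => by
    show (c • r) • x = algebraMap ℤ_[l] (EisR p l hn) c • (r • x)
    rw [Algebra.smul_def, mul_smul]⟩

/-- The class of `r ⊗ x`. -/
def mkM (r : EisR p l hn) (x : XLat p) : EisM p l hn := r ⊗ₜ[TAlg p] x

theorem padic_smul_mkM (c : ℤ_[l]) (r : EisR p l hn) (x : XLat p) :
    c • mkM p l hn r x = mkM p l hn (c • r) x := by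
  rw [← algebraMap_smul (EisR p l hn) c, Algebra.smul_def]
  rfl

theorem mkM_smul (r : EisR p l hn) (t : TAlg p) (x : XLat p) :
    mkM p l hn r (t • x) = mkM p l hn (heckeR p l hn t * r) x := by
  show r ⊗ₜ[TAlg p] (t • x) = (heckeR p l hn t * r) ⊗ₜ[TAlg p] x
  rw [← algebraMap_eisR, ← Algebra.smul_def, TensorProduct.smul_tmul]

theorem smul_mkM (s r : EisR p l hn) (x : XLat p) :
    s • mkM p l hn r x = mkM p l hn (s * r) x := rfl

theorem eisM_induction {P : EisM p l hn → Prop} (h0 : P 0)
    (h1 : ∀ r x, P (mkM p l hn r x)) (h2 : ∀ a b, P a → P b → P (a + b)) (v : EisM p l hn) : P v :=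
  TensorProduct.induction_on (motive := P) v h0 h1 h2

theorem mkM_add_left (r r' : EisR p l hn) (x : XLat p) :
    mkM p l hn (r + r') x = mkM p l hn r x + mkM p l hn r' x := TensorProduct.add_tmul r r' x

theorem mkM_add_right (r : EisR p l hn) (x x' : XLat p) :
    mkM p l hn r (x + x') = mkM p l hn r x + mkM p l hn r x' := TensorProduct.tmul_add r x x'

/-- Multiplication by the idempotent, lifted. -/
def eLift : EisR p l hn →+ TAdic p l :=
  AddMonoidHom.mk' (fun r => eisE p l hn * (projR_surjective p l hn r).choose) fun r s => by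
    rw [← mul_add, ← sub_eq_zero, ← mul_sub, ← mem_eisIdeal, ← projR_eq_zero, map_sub, map_add,
      (projR_surjective p l hn r).choose_spec, (projR_surjective p l hn s).choose_spec,
      (projR_surjective p l hn (r + s)).choose_spec, sub_self]

theorem eLift_projR (x : TAdic p l) : eLift p l hn (projR p l hn x) = eisE p l hn * x := by
  show eisE p l hn * _ = _
  rw [← sub_eq_zero, ← mul_sub, ← mem_eisIdeal, ← projR_eq_zero, map_sub,
    (projR_surjective p l hn _).choose_spec, sub_self]

theorem projR_eLift (r : EisR p l hn) : projR p l hn (eLift p l hn r) = r := by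
  obtain ⟨x, rfl⟩ := projR_surjective p l hn r
  rw [eLift_projR, map_mul, projR_eisE, one_mul]

theorem eLift_mul (r s : EisR p l hn) :
    eLift p l hn (r * s) = eLift p l hn r * eLift p l hn s := by
  obtain ⟨x, rfl⟩ := projR_surjective p l hn r
  obtain ⟨y, rfl⟩ := projR_surjective p l hn s
  rw [← map_mul, eLift_projR, eLift_projR, eLift_projR]
  linear_combination (-(x * y)) * eisE_idem p l hn

theorem eLift_heckeR (t : TAlg p) : eLift p l hn (heckeR p l hn t) = eisE p l hn * incT p l t :=
  eLift_projR p l hn _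

/-- The inclusion into the `l`-adic lattice. -/
def iotaM : EisM p l hn →+ XAdic p l :=
  TensorProduct.liftAddHom
    (AddMonoidHom.mk' (fun r => AddMonoidHom.mk'
      (fun x : XLat p => actX p l (eLift p l hn r) ((1 : ℤ_[l]) ⊗ₜ[ℤ] x))
      fun x y => by rw [TensorProduct.tmul_add, map_add])
      fun r s => AddMonoidHom.ext fun x => by
        simp only [AddMonoidHom.mk'_apply, AddMonoidHom.add_apply, map_add, LinearMap.add_apply])
    fun t r x => by
      simp only [AddMonoidHom.mk'_apply]
      have e : ((1 : ℤ_[l]) ⊗ₜ[ℤ] (t • x) : XAdic p l) = actX p l (incT p l t) (1 ⊗ₜ[ℤ] x) := by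
        rw [incT_apply, actX_tmul, one_mul]
      rw [Algebra.smul_def, algebraMap_eisR, eLift_mul, eLift_heckeR, e, ← Module.End.mul_apply,
        ← map_mul]
      refine congrArg (fun a => actX p l a _) ?_
      obtain ⟨y, rfl⟩ := projR_surjective p l hn r
      rw [eLift_projR]
      linear_combination (y * incT p l t) * eisE_idem p l hn

theorem iotaM_mkM (r : EisR p l hn) (x : XLat p) :
    iotaM p l hn (mkM p l hn r x) = actX p l (eLift p l hn r) ((1 : ℤ_[l]) ⊗ₜ[ℤ] x) := rfl

/-- The projection onto the Eisenstein part. -/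
def piM : XAdic p l →ₗ[ℤ_[l]] EisM p l hn :=
  LinearMap.liftBaseChange ℤ_[l]
    (AddMonoidHom.mk' (mkM p l hn 1) (mkM_add_right p l hn 1)).toIntLinearMap

theorem piM_tmul (c : ℤ_[l]) (x : XLat p) :
    piM p l hn (c ⊗ₜ[ℤ] x) = c • mkM p l hn 1 x := LinearMap.liftBaseChange_tmul _ _ _ _

theorem piM_actX (y : TAdic p l) (w : XAdic p l) :
    piM p l hn (actX p l y w) = projR p l hn y • piM p l hn w := by
  induction y using TensorProduct.induction_on with
  | zero => rw [map_zero, LinearMap.zero_apply, map_zero, map_zero, zero_smul]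
  | tmul c t =>
    induction w using TensorProduct.induction_on with
    | zero => rw [map_zero, map_zero, smul_zero]
    | tmul d x =>
      have e : projR p l hn (c ⊗ₜ[ℤ] t) = c • heckeR p l hn t := by
        rw [show (c ⊗ₜ[ℤ] t : TAdic p l) = c • incT p l t by
          rw [incT_apply, TensorProduct.smul_tmul', smul_eq_mul, mul_one]]
        exact map_smul (projAlg p l hn) c _
      rw [actX_tmul, piM_tmul, piM_tmul, mkM_smul, padic_smul_mkM, padic_smul_mkM, e, smul_mkM]
      refine congrArg (fun r => mkM p l hn r x) ?_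
      rw [Algebra.smul_def, Algebra.smul_def, Algebra.smul_def, map_mul]
      ring
    | add a b ha hb => rw [map_add, map_add, ha, hb, map_add, smul_add]
  | add a b ha hb => rw [map_add, LinearMap.add_apply, map_add, ha, hb, map_add, add_smul]

theorem piM_iotaM (v : EisM p l hn) : piM p l hn (iotaM p l hn v) = v := by
  induction v using eisM_induction with
  | h0 => rw [map_zero, map_zero]
  | h1 r x =>
    rw [iotaM_mkM, piM_actX, projR_eLift, piM_tmul, one_smul, smul_mkM, mul_one]
  | h2 a b ha hb => rw [map_add, map_add, ha, hb]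

theorem iotaM_injective : Function.Injective (iotaM p l hn) :=
  Function.LeftInverse.injective (piM_iotaM p l hn)

theorem iotaM_smul (r : EisR p l hn) (v : EisM p l hn) :
    iotaM p l hn (r • v) = actX p l (eLift p l hn r) (iotaM p l hn v) := by
  induction v using eisM_induction with
  | h0 => rw [smul_zero, map_zero, map_zero]
  | h1 s x => rw [smul_mkM, iotaM_mkM, iotaM_mkM, eLift_mul, map_mul, Module.End.mul_apply]
  | h2 a b ha hb => rw [smul_add, map_add, map_add, map_add, ha, hb]

theorem iotaM_padic_smul (c : ℤ_[l]) (v : EisM p l hn) :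
    iotaM p l hn (c • v) = c • iotaM p l hn v := by
  have e : algebraMap ℤ_[l] (EisR p l hn) c = projR p l hn (algebraMap ℤ_[l] (TAdic p l) c) :=
    ((projAlg p l hn).commutes c).symm
  have e1 : iotaM p l hn v = actX p l (eisE p l hn) (iotaM p l hn v) := by
    conv_lhs => rw [← one_smul (EisR p l hn) v, iotaM_smul, ← projR_eisE, eLift_projR, eisE_idem]
  rw [← algebraMap_smul (EisR p l hn) c v, iotaM_smul, e, eLift_projR, map_mul, AlgHom.commutes,
    Module.End.mul_apply, Module.algebraMap_end_apply, map_smul, ← e1]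

/-- The inclusion as a linear map. -/
def iotaLin : EisM p l hn →ₗ[ℤ_[l]] XAdic p l :=
  { toFun := iotaM p l hn, map_add' := map_add _, map_smul' := iotaM_padic_smul p l hn }

theorem iotaM_piM (w : XAdic p l) :
    iotaM p l hn (piM p l hn w) = actX p l (eisE p l hn) w := by
  induction w using TensorProduct.induction_on with
  | zero => rw [map_zero, map_zero, map_zero]
  | tmul c x =>
    rw [piM_tmul, iotaM_padic_smul, iotaM_mkM, ← map_smul, TensorProduct.smul_tmul', smul_eq_mul,
      mul_one, ← projR_eisE, eLift_projR, eisE_idem]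
  | add a b ha hb => rw [map_add, map_add, map_add, ha, hb]

instance eisM_finite : Module.Finite ℤ_[l] (EisM p l hn) :=
  Module.Finite.of_surjective (piM p l hn) fun v => ⟨_, piM_iotaM p l hn v⟩

instance eisM_free : Module.Free ℤ_[l] (EisM p l hn) := by
  haveI : Module.IsTorsionFree ℤ_[l] (EisM p l hn) :=
    Function.Injective.moduleIsTorsionFree (iotaLin p l hn) (iotaM_injective p l hn)
      fun c v => (iotaLin p l hn).map_smul c v
  exact Module.free_of_finite_type_torsion_free'

theorem trace_actX (y : TAdic p l) :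
    LinearMap.trace ℤ_[l] (XAdic p l) (actX p l y) =
      2 * LinearMap.trace ℤ_[l] (TAdic p l) (LinearMap.mulLeft ℤ_[l] y) := by
  induction y using TensorProduct.induction_on with
  | zero => simp
  | tmul c t =>
    have e1 : actX p l (c ⊗ₜ[ℤ] t) = c • (actHom p t).baseChange ℤ_[l] :=
      TensorProduct.AlgebraTensorModule.ext fun d x => by
        rw [actX_tmul, LinearMap.smul_apply, LinearMap.baseChange_tmul, actHom_apply,
          TensorProduct.smul_tmul', smul_eq_mul]
    have e2 : LinearMap.mulLeft ℤ_[l] (c ⊗ₜ[ℤ] t : TAdic p l) =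
        c • (LinearMap.mulLeft ℤ t).baseChange ℤ_[l] :=
      TensorProduct.AlgebraTensorModule.ext fun d s => by
        rw [LinearMap.mulLeft_apply, Algebra.TensorProduct.tmul_mul_tmul, LinearMap.smul_apply,
          LinearMap.baseChange_tmul, LinearMap.mulLeft_apply, TensorProduct.smul_tmul', smul_eq_mul]
    have e3 : LinearMap.trace ℤ (XLat p) (actHom p t) =
        LinearMap.trace ℤ ↥(cuspLat (lvlGamma0 p)) (latRep p ∅ t) := by
      haveI := (cuspLat_free_finite (lvlGamma0 p)).1
      haveI := (cuspLat_free_finite (lvlGamma0 p)).2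
      exact (LinearMap.trace_conj' (actHom p t) (LatMod.val p (∅ : Set ℕ)).toIntLinearEquiv).symm
    rw [e1, e2, map_smul, map_smul, LinearMap.trace_baseChange, LinearMap.trace_baseChange, e3,
      trace_latRep]
    simp [smul_eq_mul]
    ring
  | add a b ha hb =>
    have e : LinearMap.mulLeft ℤ_[l] (a + b) =
        LinearMap.mulLeft ℤ_[l] a + LinearMap.mulLeft ℤ_[l] b :=
      LinearMap.ext fun z => add_mul a b z
    rw [map_add, map_add, e, map_add, ha, hb, mul_add]

/-- A retraction gives the trace of the projector. -/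
theorem trace_of_retract {Λ M X : Type} [CommRing Λ] [AddCommGroup M] [Module Λ M]
    [AddCommGroup X] [Module Λ X] [Module.Free Λ M] [Module.Finite Λ M] [Module.Free Λ X]
    [Module.Finite Λ X] (i : M →ₗ[Λ] X) (r : X →ₗ[Λ] M) (h : r ∘ₗ i = LinearMap.id) :
    LinearMap.trace Λ X (i ∘ₗ r) = (Module.finrank Λ M : Λ) := by
  rw [LinearMap.trace_comp_comm', h, LinearMap.trace_id]

/-- **The rank of the Eisenstein part.** -/
theorem finrank_eisM :
    Module.finrank ℤ_[l] (EisM p l hn) = 2 * Module.finrank ℤ_[l] (EisR p l hn) := by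
  let i : EisR p l hn →ₗ[ℤ_[l]] TAdic p l :=
    { toFun := eLift p l hn
      map_add' := map_add _
      map_smul' := fun c r => by
        obtain ⟨x, rfl⟩ := projR_surjective p l hn r
        rw [show c • projR p l hn x = projR p l hn (c • x) from (map_smul (projAlg p l hn) c x).symm,
          eLift_projR, eLift_projR, RingHom.id_apply, mul_smul_comm] }
  have hR := trace_of_retract i (projAlg p l hn).toLinearMap
    (LinearMap.ext fun r => projR_eLift p l hn r)
  have hi : i ∘ₗ (projAlg p l hn).toLinearMap = LinearMap.mulLeft ℤ_[l] (eisE p l hn) :=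
    LinearMap.ext fun x => eLift_projR p l hn x
  have hM := trace_of_retract (iotaLin p l hn) (piM p l hn)
    (LinearMap.ext fun v => piM_iotaM p l hn v)
  have hm : iotaLin p l hn ∘ₗ piM p l hn = actX p l (eisE p l hn) :=
    LinearMap.ext fun w => iotaM_piM p l hn w
  rw [hm, trace_actX, ← hi, hR] at hM
  exact_mod_cast hM.symm

end FA.Mazur

end
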