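import Fermat.Agent.Mazur.EisIdem
import Fermat.Agent.JTorsion.PadicRep
import Mathlib.NumberTheory.Padics.RingHoms
import Mathlib.RingTheory.TensorProduct.Free

/-!
# The Eisenstein factor of the `l`-adic Hecke algebra

`EisR p l` is the direct factor of `ℤ_l ⊗ T` cut out by the idempotent at the Eisenstein maximal
ideal: a free `ℤ_l`-algebra with residual system `psiR`, in which every element with residual
value zero is nilpotent modulo `l`.
-/

set_option autoImplicit false
set_option linter.style.haveILetI false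
set_option linter.unusedSectionVars false

noncomputable section

namespace FA.Mazur

open scoped TensorProduct
open ModularCurve IsLocalRing

set_option synthInstance.maxHeartbeats 400000
set_option maxHeartbeats 1000000

variable (p : ℕ) [Fact p.Prime] (l : ℕ) [hl : Fact l.Prime] (hn : l ∣ eisensteinNumerator p)

/-- The `l`-adic Hecke algebra. -/
abbrev TAdic : Type := ℤ_[l] ⊗[ℤ] TAlg p

instance tAlg_finite : Module.Finite ℤ (TAlg p) := FA.Period.moduleFinite_heckeAlgebra p 2 ∅

instance tAlg_free : Module.Free ℤ (TAlg p) := Module.free_of_finite_type_torsion_free'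

/-- A finite module over `ℤ_l` is complete. -/
theorem isAdicComplete_padic (M : Type) [AddCommGroup M] [Module ℤ_[l] M] [Module.Finite ℤ_[l] M] :
    IsAdicComplete (maximalIdeal ℤ_[l]) M :=
  P2MW.S_IsLocalRing_isAdicComplete_of_module_finite.M4cP1X1.isAdicComplete_of_module_finite
    (maximalIdeal ℤ_[l])

/-- Congruence modulo powers of `l` as congruence modulo powers of the maximal ideal. -/
theorem mem_maximalIdeal_pow_smul {M : Type} [AddCommGroup M] [Module ℤ_[l] M] (n : ℕ) (x : M) :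
    x ∈ (maximalIdeal ℤ_[l]) ^ n • (⊤ : Submodule ℤ_[l] M) ↔ ∃ y, (l : ℤ_[l]) ^ n • y = x := by
  rw [PadicInt.maximalIdeal_eq_span_p, Ideal.span_singleton_pow,
    Submodule.ideal_span_singleton_smul, Submodule.mem_smul_pointwise_iff_exists]
  simp

/-- An element infinitely divisible by `l` in a finite module is zero. -/
theorem eq_zero_of_forall_pow_smul {M : Type} [AddCommGroup M] [Module ℤ_[l] M]
    [Module.Finite ℤ_[l] M] {x : M} (h : ∀ n : ℕ, ∃ y, (l : ℤ_[l]) ^ n • y = x) : x = 0 := by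
  haveI := isAdicComplete_padic l M
  refine IsHausdorff.haus (I := maximalIdeal ℤ_[l]) inferInstance x fun n => ?_
  rw [SModEq.zero, mem_maximalIdeal_pow_smul]
  exact h n

/-- A sequence with differences divisible by growing powers of `l` converges. -/
theorem exists_limit {M : Type} [AddCommGroup M] [Module ℤ_[l] M] [Module.Finite ℤ_[l] M]
    (x : ℕ → M) (hx : ∀ n, ∃ y, (l : ℤ_[l]) ^ n • y = x (n + 1) - x n) :
    ∃ L : M, ∀ n, ∃ y, (l : ℤ_[l]) ^ n • y = x n - L := by
  haveI := isAdicComplete_padic l M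
  obtain ⟨L, hL⟩ := IsPrecomplete.prec (I := maximalIdeal ℤ_[l]) inferInstance (f := x)
    fun {a b} hab => by
      rw [SModEq.sub_mem, mem_maximalIdeal_pow_smul]
      induction b, hab using Nat.le_induction with
      | base => exact ⟨0, by rw [smul_zero, sub_self]⟩
      | succ b hab ih =>
        obtain ⟨y, hy⟩ := ih
        obtain ⟨z, hz⟩ := hx b
        refine ⟨y - (l : ℤ_[l]) ^ (b - a) • z, ?_⟩
        rw [smul_sub, smul_smul, ← pow_add, Nat.add_sub_cancel' hab, hy, hz]
        abel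
  exact ⟨L, fun n => (mem_maximalIdeal_pow_smul l n _).1 (SModEq.sub_mem.1 (hL n))⟩

theorem pow_smul_eq_mul {A : Type} [CommRing A] [Algebra ℤ_[l] A] (n : ℕ) (x : A) :
    (l : ℤ_[l]) ^ n • x = (l : A) ^ n * x := by
  rw [Algebra.smul_def, map_pow, map_natCast]

/-- Every element of the `l`-adic algebra is congruent to an element of the Hecke algebra. -/
theorem exists_approx (x : TAdic p l) (k : ℕ) :
    ∃ t : TAlg p, ∃ y, x - (1 : ℤ_[l]) ⊗ₜ[ℤ] t = (l : TAdic p l) ^ k * y := by
  induction x using TensorProduct.induction_on with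
  | zero => exact ⟨0, 0, by simp⟩
  | tmul c t =>
    obtain ⟨b, hb⟩ := Ideal.mem_span_singleton'.mp (PadicInt.appr_spec k c)
    refine ⟨(c.appr k) • t, b ⊗ₜ[ℤ] t, ?_⟩
    rw [← pow_smul_eq_mul, TensorProduct.smul_tmul', smul_eq_mul, mul_comm, hb,
      TensorProduct.tmul_smul, TensorProduct.smul_tmul', nsmul_one, TensorProduct.sub_tmul]
  | add a b ha hb =>
    obtain ⟨s, y, hy⟩ := ha
    obtain ⟨t, z, hz⟩ := hb
    exact ⟨s + t, y + z, by rw [TensorProduct.tmul_add, mul_add, ← hy, ← hz]; abel⟩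

/-- The inclusion of the Hecke algebra. -/
abbrev incT : TAlg p →+* TAdic p l := Algebra.TensorProduct.includeRight.toRingHom

theorem incT_apply (t : TAlg p) : incT p l t = (1 : ℤ_[l]) ⊗ₜ[ℤ] t := rfl

/-- The starting element. -/
def eis0 : TAlg p := (exists_idem_mod p l hn).choose

theorem psi0_eis0 : psi0 p l hn (eis0 p l hn) = 1 := (exists_idem_mod p l hn).choose_spec.1

theorem eis0_mem (h : l = 2) : eis0 p l hn ∈ goodSub p :=
  (exists_idem_mod p l hn).choose_spec.2.1 h

theorem eis0_idem : ∃ b, eis0 p l hn * eis0 p l hn - eis0 p l hn = (l : TAlg p) * b :=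
  (exists_idem_mod p l hn).choose_spec.2.2.1

theorem eis0_nil {y : TAlg p} (hy : psi0 p l hn y = 0) :
    ∃ (K : ℕ) (b : TAlg p), (y * eis0 p l hn) ^ K = (l : TAlg p) * b :=
  (exists_idem_mod p l hn).choose_spec.2.2.2 y hy

/-- Approximations of the idempotent inside the Hecke algebra. -/
def idemSeq : ℕ → TAlg p
  | 0 => eis0 p l hn
  | n + 1 => 3 * idemSeq n ^ 2 - 2 * idemSeq n ^ 3

theorem idemSeq_mem (h : l = 2) : ∀ n, idemSeq p l hn n ∈ goodSub p
  | 0 => eis0_mem p l hn h
  | n + 1 => sub_mem (mul_mem (natCast_mem _ 3) (pow_mem (idemSeq_mem h n) 2))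
      (mul_mem (natCast_mem _ 2) (pow_mem (idemSeq_mem h n) 3))

theorem idemSeq_sq : ∀ n, ∃ b, idemSeq p l hn n * idemSeq p l hn n - idemSeq p l hn n =
    (l : TAlg p) ^ (n + 1) * b
  | 0 => by
    obtain ⟨b, hb⟩ := eis0_idem p l hn
    exact ⟨b, by rw [idemSeq, hb, zero_add, pow_one]⟩
  | n + 1 => by
    obtain ⟨b, hb⟩ := idemSeq_sq n
    set a := idemSeq p l hn n
    refine ⟨(l : TAlg p) ^ n * b ^ 2 * (4 * (a * a - a) - 3), ?_⟩
    have e : idemSeq p l hn (n + 1) * idemSeq p l hn (n + 1) - idemSeq p l hn (n + 1) =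
        (a * a - a) ^ 2 * (4 * (a * a - a) - 3) := by
      show (3 * a ^ 2 - 2 * a ^ 3) * (3 * a ^ 2 - 2 * a ^ 3) - (3 * a ^ 2 - 2 * a ^ 3) = _
      ring
    rw [e, hb]
    ring

theorem idemSeq_step (n : ℕ) : ∃ b, idemSeq p l hn (n + 1) - idemSeq p l hn n =
    (l : TAlg p) ^ (n + 1) * b := by
  obtain ⟨b, hb⟩ := idemSeq_sq p l hn n
  refine ⟨b * (1 - 2 * idemSeq p l hn n), ?_⟩
  rw [← mul_assoc, ← hb]
  show (3 * idemSeq p l hn n ^ 2 - 2 * idemSeq p l hn n ^ 3) - idemSeq p l hn n = _
  ring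

theorem exists_idem : ∃ e : TAdic p l,
    ∀ n, ∃ y, incT p l (idemSeq p l hn n) - e = (l : TAdic p l) ^ n * y := by
  obtain ⟨L, hL⟩ := exists_limit l (fun n => incT p l (idemSeq p l hn n)) fun n => by
    obtain ⟨b, hb⟩ := idemSeq_step p l hn n
    refine ⟨(l : TAdic p l) * incT p l b, (pow_smul_eq_mul l n ((l : TAdic p l) * incT p l b)).trans ?_⟩
    rw [← map_sub, hb, map_mul, map_pow, map_natCast, pow_succ]; ring
  refine ⟨L, fun n => ?_⟩
  obtain ⟨y, hy⟩ := hL n
  exact ⟨y, hy.symm.trans (pow_smul_eq_mul l n y)⟩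

/-- The idempotent. -/
def eisE : TAdic p l := (exists_idem p l hn).choose

theorem eisE_spec (n : ℕ) :
    ∃ y, incT p l (idemSeq p l hn n) - eisE p l hn = (l : TAdic p l) ^ n * y :=
  (exists_idem p l hn).choose_spec n

theorem eisE_idem : eisE p l hn * eisE p l hn = eisE p l hn := by
  rw [← sub_eq_zero]
  refine eq_zero_of_forall_pow_smul l fun n => ?_
  obtain ⟨y, hy⟩ := eisE_spec p l hn n
  obtain ⟨b, hb⟩ := idemSeq_sq p l hn n
  set A := incT p l (idemSeq p l hn n)
  have hA : A * A - A = (l : TAdic p l) ^ n * ((l : TAdic p l) * incT p l b) := by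
    rw [← map_mul, ← map_sub, hb, map_mul, map_pow, map_natCast, pow_succ]; ring
  refine ⟨(l : TAdic p l) * incT p l b - y * (2 * A - 1 - (l : TAdic p l) ^ n * y), ?_⟩
  refine (pow_smul_eq_mul (A := TAdic p l) l n _).trans ?_
  rw [show eisE p l hn = A - (l : TAdic p l) ^ n * y from by rw [← hy]; ring]
  linear_combination -hA

/-- The residual system on the `l`-adic algebra. -/
def psiAdic : TAdic p l →+* ZMod l :=
  (Algebra.TensorProduct.productMap (PadicInt.toZMod (p := l)).toIntAlgHom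
    (psi0 p l hn).toIntAlgHom).toRingHom

theorem psiAdic_tmul (c : ℤ_[l]) (t : TAlg p) :
    psiAdic p l hn (c ⊗ₜ[ℤ] t) = PadicInt.toZMod c * psi0 p l hn t := rfl

theorem psiAdic_incT (t : TAlg p) : psiAdic p l hn (incT p l t) = psi0 p l hn t := by
  rw [incT_apply, psiAdic_tmul, map_one, one_mul]

theorem psi0_idemSeq : ∀ n, psi0 p l hn (idemSeq p l hn n) = 1
  | 0 => psi0_eis0 p l hn
  | n + 1 => by
    rw [idemSeq, map_sub, map_mul, map_mul, map_pow, map_pow, psi0_idemSeq n, map_ofNat, map_ofNat]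
    ring

theorem psiAdic_eisE : psiAdic p l hn (eisE p l hn) = 1 := by
  obtain ⟨y, hy⟩ := eisE_spec p l hn 1
  have h := congrArg (psiAdic p l hn) hy
  rw [map_sub, psiAdic_incT, psi0_idemSeq, map_mul, map_pow, map_natCast, ZMod.natCast_self,
    zero_pow one_ne_zero, zero_mul, sub_eq_zero] at h
  exact h.symm

/-- The kernel of the projection to the Eisenstein factor. -/
def eisIdeal : Ideal (TAdic p l) := Ideal.span {1 - eisE p l hn}

/-- The Eisenstein factor. -/
def EisR : Type := TAdic p l ⧸ eisIdeal p l hn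

instance eisR_commRing : CommRing (EisR p l hn) :=
  inferInstanceAs (CommRing (TAdic p l ⧸ eisIdeal p l hn))

instance eisR_algebra : Algebra ℤ_[l] (EisR p l hn) :=
  inferInstanceAs (Algebra ℤ_[l] (TAdic p l ⧸ eisIdeal p l hn))

/-- The projection. -/
def projAlg : TAdic p l →ₐ[ℤ_[l]] EisR p l hn := Ideal.Quotient.mkₐ ℤ_[l] (eisIdeal p l hn)

/-- The projection. -/
abbrev projR : TAdic p l →+* EisR p l hn := (projAlg p l hn).toRingHom

theorem projR_surjective : Function.Surjective (projR p l hn) := Ideal.Quotient.mk_surjective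

theorem projR_eq_zero {x : TAdic p l} : projR p l hn x = 0 ↔ x ∈ eisIdeal p l hn :=
  Ideal.Quotient.eq_zero_iff_mem

theorem mem_eisIdeal {x : TAdic p l} : x ∈ eisIdeal p l hn ↔ eisE p l hn * x = 0 := by
  rw [eisIdeal, Ideal.mem_span_singleton']
  constructor
  · rintro ⟨a, rfl⟩
    linear_combination (-a) * eisE_idem p l hn
  · intro h
    exact ⟨x, by linear_combination -h⟩

theorem projR_eisE : projR p l hn (eisE p l hn) = 1 := by
  rw [← map_one (projR p l hn), eq_comm, ← sub_eq_zero, ← map_sub]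
  exact (projR_eq_zero p l hn).mpr (Ideal.mem_span_singleton_self _)

/-- The residual system on the Eisenstein factor. -/
def psiR : EisR p l hn →+* ZMod l :=
  Ideal.Quotient.lift _ (psiAdic p l hn) fun x hx => by
    rw [mem_eisIdeal] at hx
    have h := congrArg (psiAdic p l hn) hx
    rwa [map_mul, psiAdic_eisE, one_mul, map_zero] at h

theorem psiR_projR (x : TAdic p l) : psiR p l hn (projR p l hn x) = psiAdic p l hn x := rfl

instance eisR_nontrivial : Nontrivial (EisR p l hn) :=
  (psiR p l hn).domain_nontrivial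

/-- The map from the Hecke algebra. -/
def heckeR : TAlg p →+* EisR p l hn := (projR p l hn).comp (incT p l)

theorem psiR_heckeR (t : TAlg p) : psiR p l hn (heckeR p l hn t) = psi0 p l hn t := psiAdic_incT p l hn t

theorem exists_heckeR_approx (x : EisR p l hn) (k : ℕ) :
    ∃ t : TAlg p, ∃ y, x - heckeR p l hn t = (l : EisR p l hn) ^ k * y := by
  obtain ⟨x, rfl⟩ := projR_surjective p l hn x
  obtain ⟨t, y, hy⟩ := exists_approx p l x k
  exact ⟨t, projR p l hn y, by
    rw [heckeR, RingHom.comp_apply, incT_apply, ← map_sub, hy, map_mul, map_pow, map_natCast]⟩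

theorem heckeR_idemSeq (n : ℕ) :
    ∃ y, heckeR p l hn (idemSeq p l hn n) - 1 = (l : EisR p l hn) ^ n * y := by
  obtain ⟨y, hy⟩ := eisE_spec p l hn n
  exact ⟨projR p l hn y, by
    rw [← projR_eisE, heckeR, RingHom.comp_apply, ← map_sub, hy, map_mul, map_pow, map_natCast]⟩

instance eisR_finite : Module.Finite ℤ_[l] (EisR p l hn) :=
  Module.Finite.of_surjective (projAlg p l hn).toLinearMap (projR_surjective p l hn)

theorem eq_zero_of_smul_eq_zero {c : ℤ_[l]} (hc : c ≠ 0) {x : EisR p l hn} (h : c • x = 0) :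
    x = 0 := by
  obtain ⟨x, rfl⟩ := projR_surjective p l hn x
  have e : projR p l hn (c • x) = 0 := (map_smul (projAlg p l hn) c x).trans h
  rw [projR_eq_zero, mem_eisIdeal, mul_smul_comm, smul_eq_zero] at e
  exact (projR_eq_zero p l hn).mpr ((mem_eisIdeal p l hn).mpr (e.resolve_left hc))

instance eisR_free : Module.Free ℤ_[l] (EisR p l hn) := by
  haveI : Module.IsTorsionFree ℤ_[l] (EisR p l hn) :=
    Module.isTorsionFree_iff_smul_eq_zero.mpr fun c x h => by
      by_contra hno
      push Not at hno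
      exact hno.2 (eq_zero_of_smul_eq_zero p l hn hno.1 h)
  exact Module.free_of_finite_type_torsion_free'

/-- **Residually trivial elements are nilpotent modulo `l`.** -/
theorem exists_pow_eq_mul {x : EisR p l hn} (hx : psiR p l hn x = 0) :
    ∃ (K : ℕ) (r : EisR p l hn), x ^ K = (l : EisR p l hn) * r := by
  obtain ⟨t, y, hy⟩ := exists_heckeR_approx p l hn x 1
  have ht : psi0 p l hn t = 0 := by
    have h := congrArg (psiR p l hn) hy
    rwa [map_sub, hx, psiR_heckeR, map_mul, map_pow, map_natCast, ZMod.natCast_self,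
      zero_pow one_ne_zero, zero_mul, zero_sub, neg_eq_zero] at h
  obtain ⟨K, b, hb⟩ := eis0_nil p l hn ht
  have ha : ∃ z, heckeR p l hn (eis0 p l hn) - 1 = (l : EisR p l hn) * z := by
    obtain ⟨z, hz⟩ := heckeR_idemSeq p l hn 1
    obtain ⟨c, hc⟩ := idemSeq_step p l hn 0
    refine ⟨z - heckeR p l hn c, ?_⟩
    have h0 : eis0 p l hn = idemSeq p l hn 1 - (l : TAlg p) * c := by
      rw [show idemSeq p l hn 0 = eis0 p l hn from rfl, zero_add, pow_one] at hc
      rw [← hc]; ring
    rw [pow_one] at hz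
    rw [h0, map_sub, map_mul, map_natCast, mul_sub, ← hz]
    ring
  obtain ⟨z, hz⟩ := ha
  set J : Ideal (EisR p l hn) := Ideal.span {(l : EisR p l hn)}
  set q := Ideal.Quotient.mk J
  have hl0 : q (l : EisR p l hn) = 0 :=
    Ideal.Quotient.eq_zero_iff_mem.mpr (Ideal.mem_span_singleton_self _)
  have h1 : q x = q (heckeR p l hn (t * eis0 p l hn)) := by
    have e1 : q x = q (heckeR p l hn t) := by
      rw [← sub_eq_zero, ← map_sub, hy, map_mul, map_pow, hl0, zero_pow one_ne_zero, zero_mul]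
    have e2 : q (heckeR p l hn (eis0 p l hn)) = 1 := by
      rw [← map_one q, ← sub_eq_zero, ← map_sub, hz, map_mul, hl0, zero_mul]
    rw [map_mul, map_mul, e1, e2, mul_one]
  have h2 : q (x ^ K) = 0 := by
    rw [map_pow, h1, ← map_pow, ← map_pow, hb, map_mul, map_mul, map_natCast, hl0, zero_mul]
  obtain ⟨r, hr⟩ := Ideal.mem_span_singleton'.mp (Ideal.Quotient.eq_zero_iff_mem.mp h2)
  exact ⟨K, r, by rw [← hr, mul_comm]⟩

end FA.Mazur

end
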