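import Mathlib.RingTheory.Valuation.Basic
import Mathlib.Algebra.BigOperators.Intervals
import Mathlib.Data.Fintype.Prod
import Mathlib.Tactic.LinearCombination

/-!
# Periodic sequences with small second and third differences
-/

set_option autoImplicit false
set_option linter.style.haveILetI false

noncomputable section

namespace FA.Mazur

variable {K Γ : Type*} [Field K] [LinearOrderedCommGroupWithZero Γ] (v : Valuation K Γ)
  {ι : Type*} [Fintype ι]

/-- A sequence of period an odd integer `l`, with steps divisible by `l`, whose differences of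
order two and three are of the second and third order, is constant. -/
theorem seq_odd [Nonempty ι] {l : ℕ} (hodd : Odd l) (hl : v (l : K) < 1) (hl0 : (l : K) ≠ 0)
    (hint : ∀ n : ℕ, v (n : K) ≤ 1) (α : ℕ → ι → K) (hper : α l = α 0)
    (hd : ∀ n i, v (α (n + 1) i - α n i) ≤ v (l : K))
    (h2 : ∀ n γ, (∀ i, v (α (n + 1) i - α n i) ≤ γ) → (∀ i, v (α (n + 2) i - α (n + 1) i) ≤ γ) →
      ∀ i, v (α (n + 2) i + α n i - 2 * α (n + 1) i) ≤ γ * γ)
    (h3 : ∀ n γ, γ ≤ 1 → (∀ i, v (α (n + 1) i - α n i) ≤ γ) →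
      (∀ i, v (α (n + 2) i + α n i - 2 * α (n + 1) i) ≤ γ * γ) →
      (∀ i, v (α (n + 3) i + α (n + 1) i - 2 * α (n + 2) i) ≤ γ * γ) →
      ∀ i, v (α (n + 3) i - 3 * α (n + 2) i + 3 * α (n + 1) i - α n i) ≤ γ * γ * γ) :
    α 1 = α 0 := by
  classical
  obtain ⟨k, hk⟩ := hodd
  set δ : ℕ → ι → K := fun n i => α (n + 1) i - α n i with hδ
  set Δ : ℕ → ι → K := fun n i => δ (n + 1) i - δ n i with hΔ
  haveI : Nonempty (Fin l) := ⟨⟨0, by omega⟩⟩
  obtain ⟨⟨n₀, i₀⟩, -, hmax⟩ := Finset.exists_max_image (Finset.univ : Finset (Fin l × ι))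
    (fun p => v (δ p.1 p.2)) Finset.univ_nonempty
  set ε := v (δ n₀ i₀)
  have hεl : ε ≤ v (l : K) := hd _ _
  have hε1 : ε ≤ 1 := hεl.trans hl.le
  have hle : ∀ n < l, ∀ i, v (δ n i) ≤ ε := fun n hn i => hmax (⟨n, hn⟩, i) (Finset.mem_univ _)
  have hΔle : ∀ n, n + 1 < l → ∀ i, v (Δ n i) ≤ ε * ε := fun n hn i => by
    have := h2 n ε (hle n (by omega)) (hle (n + 1) hn) i
    rwa [show Δ n i = α (n + 2) i + α n i - 2 * α (n + 1) i by simp only [hΔ, hδ]; ring]
  have hΔ0 : ∀ n, n + 1 < l → ∀ i, v (Δ n i - Δ 0 i) ≤ ε * ε * ε := by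
    intro n
    induction n with
    | zero => intro _ i; simp
    | succ n ih =>
      intro hn i
      have h := h3 n ε hε1 (hle n (by omega))
        (fun i => by
          have := hΔle n (by omega) i
          rwa [show Δ n i = α (n + 2) i + α n i - 2 * α (n + 1) i by
            simp only [hΔ, hδ]; ring] at this)
        (fun i => by
          have := hΔle (n + 1) hn i
          rwa [show Δ (n + 1) i = α (n + 3) i + α (n + 1) i - 2 * α (n + 2) i by
            simp only [hΔ, hδ]; ring] at this) i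
      rw [show α (n + 3) i - 3 * α (n + 2) i + 3 * α (n + 1) i - α n i = Δ (n + 1) i - Δ n i by
        simp only [hΔ, hδ]; ring] at h
      have := Valuation.map_add_le v h (ih (by omega) i)
      rwa [sub_add_sub_cancel] at this
  have herr : ∀ n < l, ∀ i, v (δ n i - δ 0 i - (n : K) * Δ 0 i) ≤ ε * ε * ε := by
    intro n
    induction n with
    | zero => intro _ i; simp
    | succ n ih =>
      intro hn i
      have := Valuation.map_add_le v (ih (by omega) i) (hΔ0 n hn i)
      rwa [show δ n i - δ 0 i - (n : K) * Δ 0 i + (Δ n i - Δ 0 i) =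
        δ (n + 1) i - δ 0 i - ((n + 1 : ℕ) : K) * Δ 0 i by
          push_cast; simp only [hΔ]; ring] at this
  have h0 : ∀ i, v (δ 0 i) ≤ ε * ε := fun i => by
    have htel : ∑ n ∈ Finset.range l, δ n i = 0 := by
      simp only [hδ]
      rw [Finset.sum_range_sub (fun n => α n i), hper, sub_self]
    have hsum : ((∑ n ∈ Finset.range l, n : ℕ) : K) = (l : K) * (k : K) := by
      rw [← Nat.cast_mul, Finset.sum_range_id, show l - 1 = 2 * k by omega,
        show l * (2 * k) / 2 = l * k by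
          rw [mul_left_comm, Nat.mul_div_cancel_left _ (by omega : 0 < 2)]]
    have hs : (l : K) * δ 0 i = -(∑ n ∈ Finset.range l, (δ n i - δ 0 i - (n : K) * Δ 0 i)) -
        (l : K) * (k : K) * Δ 0 i := by
      rw [Finset.sum_sub_distrib, Finset.sum_sub_distrib, htel, Finset.sum_const,
        Finset.card_range, nsmul_eq_mul, ← Finset.sum_mul, ← Nat.cast_sum, hsum]
      ring
    have h1 : v ((l : K) * δ 0 i) ≤ v (l : K) * (ε * ε) := by
      rw [hs]
      refine Valuation.map_sub_le v ?_ ?_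
      · rw [Valuation.map_neg]
        refine Valuation.map_sum_le v fun n hn => ?_
        refine (herr n (Finset.mem_range.1 hn) i).trans ?_
        rw [mul_comm (v (l : K))]
        exact mul_le_mul' le_rfl hεl
      · rw [map_mul, map_mul, mul_assoc]
        refine mul_le_mul' le_rfl ?_
        rcases Nat.eq_zero_or_pos k with h | h
        · exact absurd (show v (l : K) = 1 by simp [hk, h]) hl.ne
        · exact le_trans (mul_le_mul' (hint k) (hΔle 0 (by omega) i)) (one_mul _).le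
    rw [map_mul] at h1
    exact le_of_mul_le_mul_left h1 (zero_lt_iff.2 ((Valuation.ne_zero_iff v).2 hl0))
  have hall : ∀ n < l, ∀ i, v (δ n i) ≤ ε * ε := by
    intro n
    induction n with
    | zero => intro _ i; exact h0 i
    | succ n ih =>
      intro hn i
      have := Valuation.map_add_le v (hΔle n hn i) (ih (by omega) i)
      rwa [show Δ n i + δ n i = δ (n + 1) i by simp only [hΔ]; ring] at this
  have hε0 : ε = 0 := by
    by_contra h
    have h1 : ε ≤ ε * ε := hall n₀ n₀.2 i₀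
    have h2 : ε * ε < ε * 1 := mul_lt_mul_of_pos_left (lt_of_le_of_lt hεl hl) (zero_lt_iff.2 h)
    rw [mul_one] at h2
    exact lt_irrefl _ (h1.trans_lt h2)
  funext i
  have := hle 0 (by omega) i
  rw [hε0, le_zero_iff, Valuation.zero_iff] at this
  exact sub_eq_zero.1 this

/-- A sequence of period `4` with steps divisible by two has period `2`. -/
theorem seq_four [Nonempty ι] (h2v : v (2 : K) < 1) (h20 : (2 : K) ≠ 0) (a₀ a₁ a₂ : ι → K)
    (hd₁ : ∀ i, v (a₁ i - a₀ i) ≤ v (2 : K)) (hd₂ : ∀ i, v (a₂ i - a₁ i) ≤ v (2 : K))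
    (h₁ : ∀ γ, (∀ i, v (a₁ i - a₀ i) ≤ γ) → (∀ i, v (a₂ i - a₁ i) ≤ γ) →
      ∀ i, v (a₂ i + a₀ i - 2 * a₁ i) ≤ γ * γ)
    (h₂ : ∀ γ, (∀ i, v (a₂ i - a₀ i) ≤ γ) → ∀ i, v (2 * (a₂ i - a₀ i)) ≤ γ * γ) :
    a₂ = a₀ := by
  classical
  obtain ⟨i', -, hmax'⟩ := Finset.exists_max_image (Finset.univ : Finset ι)
    (fun i => v (a₂ i - a₀ i)) Finset.univ_nonempty
  set ε := v (a₂ i' - a₀ i')
  have hε : ε ≤ v (2 : K) * v (2 : K) := by
    refine le_trans ?_ le_rfl
    show v (a₂ i' - a₀ i') ≤ _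
    rw [show a₂ i' - a₀ i' = 2 * (a₁ i' - a₀ i') + (a₂ i' + a₀ i' - 2 * a₁ i') by ring]
    refine Valuation.map_add_le v ?_ (h₁ _ hd₁ hd₂ i')
    rw [map_mul]
    exact mul_le_mul' le_rfl (hd₁ i')
  have h := h₂ ε (fun i => hmax' i (Finset.mem_univ _)) i'
  rw [map_mul] at h
  have hε0 : ε = 0 := by
    by_contra hne
    have h1 : v (2 : K) ≤ ε := le_of_mul_le_mul_right h (zero_lt_iff.2 hne)
    have h3 : v (2 : K) * v (2 : K) < v (2 : K) * 1 :=
      mul_lt_mul_of_pos_left h2v (zero_lt_iff.2 ((Valuation.ne_zero_iff v).2 h20))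
    rw [mul_one] at h3
    exact lt_irrefl _ ((h1.trans hε).trans_lt h3)
  funext i
  have := hmax' i (Finset.mem_univ _)
  have : v (a₂ i - a₀ i) ≤ 0 := this.trans hε0.le
  rw [le_zero_iff, Valuation.zero_iff] at this
  exact sub_eq_zero.1 this

end FA.Mazur

end
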