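import Fermat.Agent.Mazur.ThirdOrder
import Fermat.Agent.Mazur.RSeq
import Fermat.Prelude.Def_AlgebraicCurve_BaseChangeGalois

/-!
# Fixed torsion classes with principal reduction at the residue characteristic

Over a field of fixed points in which `l` generates the maximal ideal, a torsion class of order
a power of an odd `l` with principal reduction is zero; for `l = 2` it is killed by two.
-/

set_option autoImplicit false
set_option linter.style.haveILetI false
set_option linter.unusedSectionVars false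
set_option maxHeartbeats 1000000

noncomputable section

namespace FA.CurveRed.Reduction

open AlgebraicCurve FA.ModField FA.Curve FA.Mazur

variable {K F k Fk : Type*} [Field K] [Field F] [Algebra K F] [Field k] [Field Fk] [Algebra k Fk]
  {A : ValuationSubring K} {R : Reduction K F k Fk A} [IsAlgClosed K] [IsAlgClosed k]
  (hF : IsFunctionField K F) (hk : IsFunctionField k Fk)

include hF hk

theorem ell_le_ell_push (D : Divisor K F) : ell D ≤ ell (R.push D) := by
  haveI := finite_riemannRochSpace hk (R.push D)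
  obtain ⟨e, r, he, hred, hli⟩ := exists_lift_basis hF hk (R := R) D _ (riemannRochSpace D) le_rfl rfl
  have hle : Submodule.span k (Set.range r) ≤ riemannRochSpace (R.push D) :=
    Submodule.span_le.2 (Set.range_subset_iff.2 fun i => red_mem_riemannRochSpace hF (hred i) (he i))
  have h := Submodule.finrank_mono hle
  rw [finrank_span_eq_card hli, Fintype.card_fin] at h
  exact Int.ofNat_le.2 h

variable {S : Finset (Place k Fk)}
  (hcard : (S.card : ℤ) = genus K F) (hell : ell (∑ Q : S, Finsupp.single Q.1 (1 : ℤ)) = 1)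
  {P₀ : S → Place K F} (hP₀ : ∀ Q, R.spl (P₀ Q) = Q.1)

omit hF hk in
theorem push_sum_single {P : S → Place K F} (hP : ∀ Q, R.spl (P Q) = Q.1) :
    R.push (∑ Q, Finsupp.single (P Q) (1 : ℤ)) = ∑ Q : S, Finsupp.single Q.1 (1 : ℤ) := by
  simp [push, Finsupp.mapDomain_finsetSum, hP]

include hcard hell hP₀ in
/-- The effective divisors in linear progression along a class with principal reduction. -/
theorem exists_progression {D : Divisor K F} (hD : Divisor.degree D = 0)
    (hred : (R.push D).IsPrincipal) (n : ℕ) :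
    ∃ P : S → Place K F, (∀ Q, R.spl (P Q) = Q.1) ∧
      (∑ Q, Finsupp.single (P Q) (1 : ℤ)) -
        ((∑ Q, Finsupp.single (P₀ Q) (1 : ℤ)) + n • D) ∈ Divisor.principal (K := K) (F := F) := by
  classical
  obtain ⟨rb, hrb0, hrb⟩ := hred
  set Eb : Divisor k Fk := ∑ Q : S, Finsupp.single Q.1 (1 : ℤ) with hEb
  have hEb0 : 0 ≤ Eb := Finset.sum_nonneg fun j _ => Finsupp.single_nonneg.2 zero_le_one
  have hdegEb : Divisor.degree Eb = genus K F := by
    simp [hEb, map_sum, hk.deg_eq_one, ← hcard]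
  set E₀ : Divisor K F := ∑ Q : S, Finsupp.single (P₀ Q) (1 : ℤ) with hE₀
  have hpushE₀ : R.push E₀ = Eb := push_sum_single hP₀
  suffices h : ∃ (P : S → Place K F) (f : F), (∀ Q, R.spl (P Q) = Q.1) ∧ f ≠ 0 ∧
      (∑ Q, Finsupp.single (P Q) (1 : ℤ)) = E₀ + n • D + divOf hF f by
    obtain ⟨P, f, hP, hf, he⟩ := h
    refine ⟨P, hP, f, hf, fun v => ?_⟩
    rw [he, add_sub_cancel_left, divOf_apply]
  have hQinj : Function.Injective (fun Q : S => Q.1) := Subtype.val_injective
  have hdeg : Divisor.degree (E₀ + n • D) = genus K F := by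
    rw [map_add, map_nsmul, hD, smul_zero, add_zero, ← degree_push hF hk (R := R), hpushE₀,
      hdegEb]
  have hpos : 0 < ell (E₀ + n • D) := by
    have := riemann_inequality hF (E₀ + n • D)
    omega
  obtain ⟨f, hf0, hle⟩ := exists_effective_of_ell_pos hF hpos
  set E := E₀ + n • D + divOf hF f
  obtain ⟨c, g, gb, hc, hfg, hgb, hgb0⟩ := exists_scale' (R := R) hf0
  have hdg : divOf hF f = divOf hF g := Finsupp.ext fun X => by
    rw [divOf_apply, divOf_apply, hfg, X.ord_mul (by simpa using hc) (hgb.ne_zero hgb0),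
      place_ord_algebraMap, zero_add]
  have hpushE : R.push E = Eb + divOf hk (rb ^ n * gb) := by
    ext Q
    have h1 : R.push (n • D) Q = n * Q.ord rb := by
      rw [push, ← Finsupp.mapDomain.addMonoidHom_apply, map_nsmul,
        Finsupp.mapDomain.addMonoidHom_apply, Finsupp.smul_apply, nsmul_eq_mul]
      have := hrb Q
      rw [push] at this
      rw [this]
    simp only [E, push_add, Finsupp.add_apply, hpushE₀, hdg, push_divOf hF hgb hgb0, h1,
      divOf_apply]
    rw [Q.ord_mul (pow_ne_zero _ hrb0) hgb0, place_ord_pow]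
    ring
  have hz0 : rb ^ n * gb ≠ 0 := mul_ne_zero (pow_ne_zero _ hrb0) hgb0
  have hz : rb ^ n * gb ∈ riemannRochSpace Eb := by
    rw [FA.Curve.mem_riemannRochSpace]
    intro Q
    refine Or.inr ?_
    have := Finsupp.le_def.1 (push_nonneg (R := R) hle) Q
    rw [hpushE] at this
    simp only [Finsupp.coe_zero, Pi.zero_apply, Finsupp.add_apply, divOf_apply] at this
    omega
  have hpushE' : R.push E = Eb := by
    rw [hpushE, add_eq_left]
    ext Q
    rw [divOf_apply, Finsupp.zero_apply]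
    haveI := finite_riemannRochSpace hk Eb
    have h1 : (1 : Fk) ∈ riemannRochSpace Eb := by
      rw [FA.Curve.mem_riemannRochSpace]
      intro Q'
      refine Or.inr ?_
      have := Finsupp.le_def.1 hEb0 Q'
      simp only [Finsupp.coe_zero, Pi.zero_apply] at this
      rw [Q'.ord_one]; omega
    have heq : Submodule.span k ({1} : Set Fk) = riemannRochSpace Eb := by
      refine Submodule.eq_of_le_of_finrank_le
        ((Submodule.span_singleton_le_iff_mem _ _).2 h1) ?_
      rw [finrank_span_singleton one_ne_zero]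
      exact Int.ofNat_le.1 (le_of_eq hell)
    rw [← heq, Submodule.mem_span_singleton] at hz
    obtain ⟨b, hb⟩ := hz
    rw [← hb, Algebra.smul_def, mul_one, place_ord_algebraMap]
  -- one place in each disc
  have hone : ∀ Q : S, ∃ P, R.spl P = Q.1 ∧ E P = 1 ∧
      ∀ P', R.spl P' = Q.1 → P' ≠ P → E P' = 0 := by
    intro Q
    have hsum : ∑ P ∈ E.support.filter (fun P => R.spl P = Q.1), E P = 1 := by
      rw [Finset.sum_filter, ← push_apply (R := R) E Q.1, hpushE', hEb, sum_single_apply,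
        Finset.card_eq_one.2 ⟨Q, ?_⟩]
      · rfl
      · ext x; simp
    obtain ⟨P, hP, hPne⟩ := Finset.exists_ne_zero_of_sum_ne_zero (hsum.symm ▸ one_ne_zero)
    rw [Finset.mem_filter] at hP
    have hnn : ∀ X, 0 ≤ E X := fun X => by simpa using Finsupp.le_def.1 hle X
    refine ⟨P, hP.2, ?_, fun P' hP' hne => ?_⟩
    · have h1 := Finset.single_le_sum (f := fun P => E P)
        (s := E.support.filter (fun P => R.spl P = Q.1)) (fun X _ => hnn X)
        (Finset.mem_filter.2 hP)
      rw [hsum] at h1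
      have := hnn P
      omega
    · by_contra h
      have h2 := Finset.sum_le_sum_of_subset_of_nonneg (f := fun P => E P)
        (show ({P, P'} : Finset _) ⊆ E.support.filter (fun P => R.spl P = Q.1) by
          intro x hx
          rcases Finset.mem_insert.1 hx with rfl | hx
          · exact Finset.mem_filter.2 hP
          · rw [Finset.mem_singleton.1 hx]
            exact Finset.mem_filter.2 ⟨Finsupp.mem_support_iff.2 h, hP'⟩)
        (fun X _ _ => hnn X)
      rw [Finset.sum_pair (Ne.symm hne), hsum] at h2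
      have := hnn P
      have := hnn P'
      omega
  choose P hP hP1 hP0 using hone
  refine ⟨P, f, hP, hf0, Finsupp.ext fun X => ?_⟩
  by_cases hX : ∃ Q : S, Q.1 = R.spl X
  · obtain ⟨Q, hQ⟩ := hX
    rw [sum_single_apply_over hQinj hP hQ.symm]
    split_ifs with h
    · rw [h]; exact (hP1 Q).symm
    · exact (hP0 Q X hQ.symm h).symm
  · push Not at hX
    rw [Finset.sum_apply', Finset.sum_eq_zero fun Q _ =>
      Finsupp.single_eq_of_ne fun h => hX Q (by rw [h, hP]) , eq_comm]
    by_contra hne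
    have hzero : R.push E (R.spl X) = 0 := by
      rw [hpushE', hEb, Finset.sum_apply']
      exact Finset.sum_eq_zero fun Q _ => Finsupp.single_eq_of_ne (hX Q).symm
    rw [push_apply, ← Finset.sum_filter, Finset.sum_eq_zero_iff_of_nonneg
      fun P _ => by simpa using Finsupp.le_def.1 hle P] at hzero
    exact hne (hzero X (Finset.mem_filter.2 ⟨Finsupp.mem_support_iff.2 hne, rfl⟩))

include hell in
/-- Effective divisors with one place in each disc are unique in their classes. -/
theorem unique_progression {P P' : S → Place K F} (hP : ∀ Q, R.spl (P Q) = Q.1)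
    (hP' : ∀ Q, R.spl (P' Q) = Q.1)
    (h : (∑ Q, Finsupp.single (P' Q) (1 : ℤ)) - (∑ Q, Finsupp.single (P Q) (1 : ℤ)) ∈
      Divisor.principal (K := K) (F := F)) : P' = P := by
  classical
  set E : Divisor K F := ∑ Q, Finsupp.single (P Q) (1 : ℤ) with hE
  set E' : Divisor K F := ∑ Q, Finsupp.single (P' Q) (1 : ℤ) with hE'
  obtain ⟨f, hf, hfd⟩ := h
  have hle : ell E ≤ 1 := by
    have := ell_le_ell_push hF hk (R := R) E
    rwa [hE, push_sum_single hP, hell] at this
  have hE0 : 0 ≤ E := Finset.sum_nonneg fun j _ => Finsupp.single_nonneg.2 zero_le_one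
  have hE0' : 0 ≤ E' := Finset.sum_nonneg fun j _ => Finsupp.single_nonneg.2 zero_le_one
  haveI := finite_riemannRochSpace hF E
  have hfm : f ∈ riemannRochSpace E := by
    rw [FA.Curve.mem_riemannRochSpace]
    intro w
    refine Or.inr ?_
    have h1 := hfd w
    have h2 := Finsupp.le_def.1 hE0' w
    simp only [Finsupp.coe_zero, Pi.zero_apply] at h2
    rw [Finsupp.sub_apply] at h1
    omega
  have h1 : (1 : F) ∈ riemannRochSpace E := by
    rw [FA.Curve.mem_riemannRochSpace]
    intro w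
    refine Or.inr ?_
    have := Finsupp.le_def.1 hE0 w
    simp only [Finsupp.coe_zero, Pi.zero_apply] at this
    rw [w.ord_one]; omega
  have heq : Submodule.span K ({1} : Set F) = riemannRochSpace E := by
    refine Submodule.eq_of_le_of_finrank_le ((Submodule.span_singleton_le_iff_mem _ _).2 h1) ?_
    rw [finrank_span_singleton one_ne_zero]
    exact Int.ofNat_le.1 hle
  rw [← heq, Submodule.mem_span_singleton] at hfm
  obtain ⟨b, rfl⟩ := hfm
  have heq' : E' = E := Finsupp.ext fun w => by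
    have := hfd w
    rw [Algebra.smul_def, mul_one, place_ord_algebraMap, Finsupp.sub_apply] at this
    omega
  funext Q
  by_contra hne
  have h2 := congrArg (fun G : Divisor K F => G (P' Q)) heq'
  simp only [hE, hE', sum_single_apply_over (Q := fun Q : S => Q.1) Subtype.val_injective hP' (hP' Q),
    sum_single_apply_over (Q := fun Q : S => Q.1) Subtype.val_injective hP (hP' Q),
    if_neg hne, if_pos] at h2
  exact one_ne_zero h2

omit hk [IsAlgClosed k] in
theorem hasValue_smul (g : SemilinearAut K F) {P : Place K F} {f : F} {c : K}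
    (h : HasValue P f c) : HasValue (g • P) (g • f) (SemilinearAut.baseAut g c) := by
  have e : g • f - algebraMap K F (SemilinearAut.baseAut g c) = g • (f - algebraMap K F c) := by
    rw [smul_sub, SemilinearAut.smul_algebraMap]
  show AtLeast _ _ _
  rw [e]
  rcases h with h0 | h1
  · exact Or.inl (by rw [h0]; exact smul_zero _)
  · exact Or.inr (by rw [SemilinearAut.ord_smul]; exact h1)

variable {t : S → F} (ht : ∀ Q : S, IsCoord R Q.1 (t Q)) {G : Set (SemilinearAut K F)}
  (hGt : ∀ g ∈ G, ∀ Q, g • t Q = t Q) (hGP : ∀ g ∈ G, ∀ Q, g • P₀ Q = P₀ Q)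
  (hGQ : ∀ g ∈ G, ∀ (Q : S) (P : Place K F), R.spl P = Q.1 → R.spl (g • P) = Q.1)
  {D : Divisor K F} (hD : Divisor.degree D = 0) (hred : (R.push D).IsPrincipal)
  (hfix : ∀ g ∈ G, g • D - D ∈ Divisor.principal (K := K) (F := F))

include hcard hell hP₀ ht hGt hGP hGQ hD hred hfix in
/-- The progression with its coordinates, fixed by `G`. -/
theorem exists_fixed_progression :
    ∃ (P : ℕ → S → Place K F) (α : ℕ → S → K), P 0 = P₀ ∧ (∀ n Q, R.spl (P n Q) = Q.1) ∧
      (∀ n, (∑ Q, Finsupp.single (P n Q) (1 : ℤ)) -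
        ((∑ Q, Finsupp.single (P₀ Q) (1 : ℤ)) + n • D) ∈ Divisor.principal (K := K) (F := F)) ∧
      (∀ n Q, HasValue (P n Q) (t Q) (α n Q) ∧ A.valuation (α n Q) < 1) ∧
      ∀ n Q, ∀ g ∈ G, SemilinearAut.baseAut g (α n Q) = α n Q := by
  classical
  choose P hP hPD using exists_progression hF hk hcard hell hP₀ hD hred
  have h0 : P 0 = P₀ := unique_progression hF hk hell hP₀ (hP 0) (by simpa using hPD 0)
  choose α hα hαlt hα1 hα2 using fun n Q => (ht Q).exists_value hF (hP n Q)
  refine ⟨P, α, h0, hP, hPD, fun n Q => ⟨hα n Q, hαlt n Q⟩, fun n Q g hg => ?_⟩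
  have hsum : ∀ (Z : S → Place K F), g • (∑ Q, Finsupp.single (Z Q) (1 : ℤ)) =
      ∑ Q, Finsupp.single (g • Z Q) (1 : ℤ) := fun Z => by
    rw [Finset.smul_sum]
    exact Finset.sum_congr rfl fun Q _ => SemilinearAut.smul_single g _ _
  have hgP : (fun Q => g • P n Q) = P n := by
    refine unique_progression hF hk hell (hP n) (fun Q => hGQ g hg Q _ (hP n Q)) ?_
    have h1 : g • ((∑ Q, Finsupp.single (P n Q) (1 : ℤ)) -
        ((∑ Q, Finsupp.single (P₀ Q) (1 : ℤ)) + n • D)) ∈ Divisor.principal (K := K) (F := F) :=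
      SemilinearAut.smul_mem_principal g (hPD n)
    have e0 : (∑ Q, Finsupp.single (g • P₀ Q) (1 : ℤ)) = ∑ Q, Finsupp.single (P₀ Q) (1 : ℤ) :=
      Finset.sum_congr rfl fun Q _ => by rw [hGP g hg Q]
    rw [smul_sub, smul_add, hsum, hsum, e0,
      show g • (n • D) = n • (g • D) from map_nsmul (DistribSMul.toAddMonoidHom _ g) n D] at h1
    have h2 := AddSubgroup.sub_mem _ (AddSubgroup.add_mem _ h1 (AddSubgroup.nsmul_mem _ (hfix g hg) n))
      (hPD n)
    rw [show ((∑ Q, Finsupp.single (g • P n Q) (1 : ℤ)) - ((∑ Q, Finsupp.single (P₀ Q) (1 : ℤ)) +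
        n • (g • D)) + n • (g • D - D)) - ((∑ Q, Finsupp.single (P n Q) (1 : ℤ)) -
        ((∑ Q, Finsupp.single (P₀ Q) (1 : ℤ)) + n • D)) =
      (∑ Q, Finsupp.single (g • P n Q) (1 : ℤ)) - ∑ Q, Finsupp.single (P n Q) (1 : ℤ) by
        rw [smul_sub]; abel] at h2
    exact h2
  have hv := hasValue_smul hF g (hα n Q)
  rw [hGt g hg Q, congrFun hgP Q] at hv
  exact hv.unique (hα n Q)

variable (hdisc : ∀ x : K, (∀ g ∈ G, SemilinearAut.baseAut g x = x) → A.valuation x < 1 →
  ∀ l : ℕ, l.Prime → A.valuation (l : K) < 1 → A.valuation x ≤ A.valuation (l : K))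

include ht in
theorem eq_of_value_eq {Q : S} {P P' : Place K F} (hP : R.spl P = Q.1) (hP' : R.spl P' = Q.1)
    {a : K} (ha : HasValue P (t Q) a) (ha' : HasValue P' (t Q) a) : P' = P := by
  by_contra hne
  obtain ⟨b, hb, -, -, hb2⟩ := (ht Q).exists_value hF hP
  obtain ⟨b', hb', -, hb1', -⟩ := (ht Q).exists_value hF hP'
  have h1 := hb2 P' hP' hne
  rw [← ha'.unique hb'] at hb1'
  rw [← ha.unique hb] at h1
  omega

omit hF hk in
theorem natCast_valuation_le (n : ℕ) : A.valuation (n : K) ≤ 1 :=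
  (A.valuation_le_one_iff _).2 (natCast_mem A n)

include hcard hell hP₀ ht hGt hGP hGQ hD hred hfix hdisc in
/-- An odd prime torsion class with principal reduction, fixed by `G`, is zero. -/
theorem mem_principal_of_fixed_odd {l : ℕ} (hl : l.Prime) (hl2 : l ≠ 2)
    (hlA : A.valuation (l : K) < 1) (hl0 : (l : K) ≠ 0)
    (hlD : l • D ∈ Divisor.principal (K := K) (F := F)) :
    D ∈ Divisor.principal (K := K) (F := F) := by
  classical
  obtain ⟨P, α, hP0, hP, hPD, hα, hαfix⟩ :=
    exists_fixed_progression hF hk hcard hell hP₀ ht hGt hGP hGQ hD hred hfix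
  rcases isEmpty_or_nonempty S with hempty | hne
  · have := hPD 1
    simp only [Finset.univ_eq_empty, Finset.sum_empty, zero_add, one_smul, zero_sub] at this
    exact (AddSubgroup.neg_mem_iff _).1 this
  have hper : P l = P 0 := unique_progression hF hk hell (hP 0) (hP l) (by
    have := AddSubgroup.add_mem _ (hPD l) (AddSubgroup.sub_mem _ hlD (hPD 0))
    rw [zero_smul, add_zero] at this
    convert this using 1; abel)
  have hαper : α l = α 0 := funext fun Q => (hα l Q).1.unique (hper ▸ (hα 0 Q).1)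
  have hd : ∀ n Q, A.valuation (α (n + 1) Q - α n Q) ≤ A.valuation (l : K) := fun n Q =>
    hdisc _ (fun g hg => by rw [map_sub, hαfix (n + 1) Q g hg, hαfix n Q g hg])
      (lt_of_le_of_lt (Valuation.map_sub _ _ _) (max_lt (hα _ Q).2 (hα _ Q).2)) l hl hlA
  have hEP : ∀ n, ∃ f : F, f ≠ 0 ∧ divOf hF f = (∑ Q, Finsupp.single (P n Q) (1 : ℤ)) -
      ((∑ Q, Finsupp.single (P₀ Q) (1 : ℤ)) + n • D) := fun n => by
    obtain ⟨f, hf, hfd⟩ := hPD n
    exact ⟨f, hf, Finsupp.ext fun v => by rw [divOf_apply, hfd]⟩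
  choose f hf0 hfd using hEP
  have hord : ∀ n v, v.ord (f n) = ((∑ Q, Finsupp.single (P n Q) (1 : ℤ)) -
      ((∑ Q, Finsupp.single (P₀ Q) (1 : ℤ)) + n • D) : Divisor K F) v := fun n v => by
    rw [← hfd, divOf_apply]
  have hQinj : Function.Injective (fun Q : S => Q.1) := Subtype.val_injective
  have h1 : α 1 = α 0 := by
    refine seq_odd A.valuation (hl.odd_of_ne_two hl2) hlA hl0 natCast_valuation_le α hαper hd
      (fun n γ hγ₁ hγ₂ => ?_) (fun n γ hγ hγ₁ hγ₂ hγ₃ => ?_)
    · refine second_order hF hk hQinj hell ht (hP (n + 1)) (hP (n + 2)) (hP n)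
        (fun Q => (hα (n + 1) Q).1) (fun Q => (hα (n + 2) Q).1) (fun Q => (hα n Q).1)
        (f := f (n + 2) * f n * (f (n + 1) * f (n + 1))⁻¹)
        (mul_ne_zero (mul_ne_zero (hf0 _) (hf0 _)) (inv_ne_zero (mul_ne_zero (hf0 _) (hf0 _)))) ?_
        hγ₂ (fun Q => by rw [← Valuation.map_neg, neg_sub]; exact hγ₁ Q)
      ext v
      rw [divOf_apply, v.ord_mul (mul_ne_zero (hf0 _) (hf0 _))
        (inv_ne_zero (mul_ne_zero (hf0 _) (hf0 _))), v.ord_inv, v.ord_mul (hf0 _) (hf0 _),
        v.ord_mul (hf0 _) (hf0 _), hord, hord, hord]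
      simp only [Finsupp.sub_apply, Finsupp.add_apply, Finsupp.smul_apply, nsmul_eq_mul]
      push_cast; ring
    · refine third_order hF hk hQinj hell ht (hP n) (hP (n + 1)) (hP (n + 2)) (hP (n + 3))
        (fun Q => (hα n Q).1) (fun Q => (hα (n + 1) Q).1) (fun Q => (hα (n + 2) Q).1)
        (fun Q => (hα (n + 3) Q).1) (f := f (n + 3) * f (n + 1) ^ 3 * (f (n + 2) ^ 3 * f n)⁻¹)
        (mul_ne_zero (mul_ne_zero (hf0 _) (pow_ne_zero _ (hf0 _)))
          (inv_ne_zero (mul_ne_zero (pow_ne_zero _ (hf0 _)) (hf0 _)))) ?_ hγ hγ₁ hγ₂ hγ₃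
      ext v
      rw [divOf_apply, v.ord_mul (mul_ne_zero (hf0 _) (pow_ne_zero _ (hf0 _)))
        (inv_ne_zero (mul_ne_zero (pow_ne_zero _ (hf0 _)) (hf0 _))), v.ord_inv,
        v.ord_mul (hf0 _) (pow_ne_zero _ (hf0 _)), v.ord_mul (pow_ne_zero _ (hf0 _)) (hf0 _),
        place_ord_pow, place_ord_pow, hord, hord, hord, hord]
      simp only [Finsupp.sub_apply, Finsupp.add_apply, Finsupp.smul_apply, nsmul_eq_mul]
      push_cast; ring
  have h10 : P 1 = P₀ := funext fun Q => eq_of_value_eq hF hk ht (hP₀ Q) (hP 1 Q)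
    (hP0 ▸ (hα 0 Q).1) (by rw [← congrFun h1 Q]; exact (hα 1 Q).1)
  have := hPD 1
  rw [h10, one_smul, sub_add_cancel_left] at this
  exact (AddSubgroup.neg_mem_iff _).1 this

include hcard hell hP₀ ht hGt hGP hGQ hD hred hfix hdisc in
/-- At `2` a class of order four with principal reduction, fixed by `G`, has order two. -/
theorem two_nsmul_mem_principal_of_fixed (h2A : A.valuation ((2 : ℕ) : K) < 1) (h20 : (2 : K) ≠ 0)
    (h4D : 4 • D ∈ Divisor.principal (K := K) (F := F)) :
    2 • D ∈ Divisor.principal (K := K) (F := F) := by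
  classical
  obtain ⟨P, α, hP0, hP, hPD, hα, hαfix⟩ :=
    exists_fixed_progression hF hk hcard hell hP₀ ht hGt hGP hGQ hD hred hfix
  rcases isEmpty_or_nonempty S with hempty | hne
  · have := hPD 2
    simp only [Finset.univ_eq_empty, Finset.sum_empty, zero_add, zero_sub] at this
    exact (AddSubgroup.neg_mem_iff _).1 this
  have hd : ∀ n Q, A.valuation (α (n + 1) Q - α n Q) ≤ A.valuation (2 : K) := fun n Q => by
    have := hdisc _ (fun g hg => by rw [map_sub, hαfix (n + 1) Q g hg, hαfix n Q g hg])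
      (lt_of_le_of_lt (Valuation.map_sub _ _ _) (max_lt (hα (n + 1) Q).2 (hα n Q).2)) 2
      Nat.prime_two h2A
    rwa [Nat.cast_ofNat] at this
  have hEP : ∀ n, ∃ f : F, f ≠ 0 ∧ divOf hF f = (∑ Q, Finsupp.single (P n Q) (1 : ℤ)) -
      ((∑ Q, Finsupp.single (P₀ Q) (1 : ℤ)) + n • D) := fun n => by
    obtain ⟨f, hf, hfd⟩ := hPD n
    exact ⟨f, hf, Finsupp.ext fun v => by rw [divOf_apply, hfd]⟩
  choose f hf0 hfd using hEP
  have hord : ∀ n v, v.ord (f n) = ((∑ Q, Finsupp.single (P n Q) (1 : ℤ)) -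
      ((∑ Q, Finsupp.single (P₀ Q) (1 : ℤ)) + n • D) : Divisor K F) v := fun n v => by
    rw [← hfd, divOf_apply]
  have hQinj : Function.Injective (fun Q : S => Q.1) := Subtype.val_injective
  have hper : P 4 = P 0 := unique_progression hF hk hell (hP 0) (hP 4) (by
    have := AddSubgroup.add_mem _ (hPD 4) (AddSubgroup.sub_mem _ h4D (hPD 0))
    rw [zero_smul, add_zero] at this
    convert this using 1; abel)
  have hαper : α 4 = α 0 := funext fun Q => (hα 4 Q).1.unique (hper ▸ (hα 0 Q).1)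
  have hord3 : ∀ a b c : ℕ, a + c = 2 * b →
      divOf hF (f a * f c * (f b * f b)⁻¹) = (∑ Q, Finsupp.single (P a Q) (1 : ℤ)) +
        (∑ Q, Finsupp.single (P c Q) (1 : ℤ)) - (∑ Q, Finsupp.single (P b Q) (1 : ℤ)) -
        ∑ Q, Finsupp.single (P b Q) (1 : ℤ) := fun a b c habc => by
    ext v
    rw [divOf_apply, v.ord_mul (mul_ne_zero (hf0 _) (hf0 _))
      (inv_ne_zero (mul_ne_zero (hf0 _) (hf0 _))), v.ord_inv, v.ord_mul (hf0 _) (hf0 _),
      v.ord_mul (hf0 _) (hf0 _), hord, hord, hord]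
    simp only [Finsupp.sub_apply, Finsupp.add_apply, Finsupp.smul_apply, nsmul_eq_mul]
    have : ((a : ℤ) + c) = 2 * b := by exact_mod_cast habc
    linear_combination (-(D v)) * this
  have h2 : α 2 = α 0 := by
    refine seq_four A.valuation (by rwa [Nat.cast_ofNat] at h2A) h20 (α 0) (α 1) (α 2) (hd 0) (hd 1)
      (fun γ hγ₁ hγ₂ => ?_) (fun γ hγ Q => ?_)
    · exact second_order hF hk hQinj hell ht (hP 1) (hP 2) (hP 0) (fun Q => (hα 1 Q).1)
        (fun Q => (hα 2 Q).1) (fun Q => (hα 0 Q).1)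
        (mul_ne_zero (mul_ne_zero (hf0 _) (hf0 _)) (inv_ne_zero (mul_ne_zero (hf0 _) (hf0 _))))
        (hord3 2 1 0 rfl) hγ₂ (fun Q => by rw [← Valuation.map_neg, neg_sub]; exact hγ₁ Q)
    · have := second_order hF hk hQinj hell ht (hP 2) (hP 4) (hP 0) (fun Q => (hα 2 Q).1)
        (fun Q => (hα 4 Q).1) (fun Q => (hα 0 Q).1)
        (mul_ne_zero (mul_ne_zero (hf0 _) (hf0 _)) (inv_ne_zero (mul_ne_zero (hf0 _) (hf0 _))))
        (hord3 4 2 0 rfl) (γ := γ)
        (fun Q => by rw [hαper, ← Valuation.map_neg, neg_sub]; exact hγ Q)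
        (fun Q => by rw [← Valuation.map_neg, neg_sub]; exact hγ Q) Q
      rwa [hαper, ← Valuation.map_neg,
        show -(α 0 Q + α 0 Q - 2 * α 2 Q) = 2 * (α 2 Q - α 0 Q) by ring] at this
  have h20' : P 2 = P₀ := funext fun Q => eq_of_value_eq hF hk ht (hP₀ Q) (hP 2 Q)
    (hP0 ▸ (hα 0 Q).1) (by rw [← congrFun h2 Q]; exact (hα 2 Q).1)
  have := hPD 2
  rw [h20', sub_add_cancel_left] at this
  exact (AddSubgroup.neg_mem_iff _).1 this

end FA.CurveRed.Reduction
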