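import Fermat.Agent.Mazur.FixedVector
import Fermat.Agent.Mazur.RLemma
import Fermat.Agent.ModField.Congruence.Fibre
import Mathlib.Data.Finset.Finsupp

/-!
# Classes fixed by a Frobenius-semilinear automorphism are finite in number
-/

set_option autoImplicit false
set_option linter.style.haveILetI false
set_option linter.unusedSectionVars false
set_option maxHeartbeats 800000

noncomputable section

namespace FA.Mazur

open AlgebraicCurve FA.ModField FA.Curve FA.CurveRed

variable {K F : Type*} [Field K] [Field F] [Algebra K F] [IsAlgClosed K]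

theorem hasValue_gpow (g : SemilinearAut K F) {q : ℕ}
    (hg : ∀ a, SemilinearAut.baseAut g a = a ^ q) {x : F} (hgx : g • x = x)
    (hF : IsFunctionField K F) {P : Place K F} {c : K} (h : HasValue P x c) (i : ℕ) :
    HasValue (g ^ i • P) x (c ^ q ^ i) := by
  induction i with
  | zero => simpa using h
  | succ i ih =>
    have := Reduction.hasValue_smul hF g ih
    rw [hgx, hg, ← pow_mul, ← pow_succ] at this
    rw [pow_succ' g, mul_smul]
    exact this

/-- **Finitely many fixed classes.** -/
theorem finite_fixed_classes (hF : IsFunctionField K F) (g : SemilinearAut K F) {q : ℕ} (hq : 2 ≤ q)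
    (hg : ∀ a, SemilinearAut.baseAut g a = a ^ q) {x : F} (hx : Transcendental K x)
    (hgx : g • x = x) : {z : Pic0 K F | g • z = z}.Finite := by
  classical
  haveI := hF.finiteDimensional hx
  set Dp := poleDiv hF x
  have hgDp : g • Dp = Dp := Finsupp.ext fun P => by
    obtain ⟨P', rfl⟩ : ∃ P', g • P' = P := ⟨g⁻¹ • P, smul_inv_smul g P⟩
    rw [SemilinearAut.divisor_smul_apply_smul, poleDiv_apply, poleDiv_apply]
    conv_rhs => rw [← hgx, SemilinearAut.ord_smul]
  set m : ℕ := genus K F + 1
  set d : ℕ := m * Module.finrank (IntermediateField.adjoin K {x}) F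
  have hdeg : Divisor.degree (m • Dp) = d := by
    rw [map_nsmul, degree_poleDiv hF hx, nsmul_eq_mul]; simp [d]
  -- the finitely many places
  set Pl : Set (Place K F) := {P | ∃ i, 0 < i ∧ i ≤ d ∧ g ^ i • P = P}
  have hPl : Pl.Finite := by
    have hroots : ∀ i : ℕ, 0 < i → {c : K | c ^ q ^ i = c}.Finite := fun i hi => by
      have h2 : 1 < q ^ i := Nat.one_lt_pow hi.ne' (by omega)
      refine (Polynomial.finite_setOf_isRoot (p := (Polynomial.X ^ q ^ i - Polynomial.X : Polynomial K))
        (fun h => ?_)).subset fun c hc => by simpa [sub_eq_zero] using hc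
      have := congrArg Polynomial.natDegree h
      rw [Polynomial.natDegree_sub_eq_left_of_natDegree_lt (by
        rw [Polynomial.natDegree_X, Polynomial.natDegree_X_pow]; exact h2),
        Polynomial.natDegree_X_pow, Polynomial.natDegree_zero] at this
      omega
    have hfib : ∀ c : K, {P : Place K F | HasValue P x c}.Finite := fun c => by
      have hne : x - algebraMap K F c ≠ 0 := fun h =>
        hx (by rw [sub_eq_zero.1 h]; exact isAlgebraic_algebraMap c)
      refine (divOf hF (x - algebraMap K F c)).support.finite_toSet.subset fun P hP => ?_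
      rw [Finset.mem_coe, Finsupp.mem_support_iff, divOf_apply]
      have := (atLeast_iff hne).1 (hP : AtLeast P 1 _)
      omega
    refine ((finite_not_mem hF x).union ((Set.finite_Icc 1 d).biUnion fun i hi =>
      (hroots i hi.1).biUnion fun c _ => hfib c)).subset fun P hP => ?_
    obtain ⟨i, hi0, hid, hiP⟩ := hP
    by_cases hmem : x ∈ P.toValuationSubring
    · obtain ⟨c, hc⟩ := exists_hasValue hF (atLeast_zero_of_mem hmem)
      have h1 := hasValue_gpow g hg hgx hF hc i
      rw [hiP] at h1
      exact Or.inr (Set.mem_biUnion (x := i) ⟨hi0, hid⟩ (Set.mem_biUnion (x := c) (h1.unique hc) hc))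
    · exact Or.inl hmem
  -- the finitely many divisors
  set Es : Finset (Place K F →₀ ℤ) := hPl.toFinset.finsupp fun _ => Finset.Icc (0 : ℤ) d
  set toClass : (Place K F →₀ ℤ) → Pic0 K F := fun E =>
    if h : (E - m • Dp : Divisor K F) ∈ Divisor.degZero (K := K) (F := F) then Pic0.mk ⟨_, h⟩ else 0
  refine (Es.finite_toSet.image toClass).subset fun z hz => ?_
  obtain ⟨D, rfl⟩ := Pic0.mk_surjective z
  set D' : Divisor K F := (D : Divisor K F) + m • Dp
  have hD'deg : Divisor.degree D' = d := by
    rw [map_add, Divisor.mem_degZero.1 D.2, zero_add, hdeg]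
  have hz' : g • D' - D' ∈ Divisor.principal (K := K) (F := F) := by
    have h1 : g • Pic0.mk D = Pic0.mk D := hz
    rw [SemilinearAut.pic0_smul_mk] at h1
    have h2 := (QuotientAddGroup.eq_iff_sub_mem.1 h1 :)
    rw [AddSubgroup.mem_addSubgroupOf] at h2
    have e : g • D' - D' = g • (D : Divisor K F) - (D : Divisor K F) := by
      simp only [D', smul_add,
        show g • (m • Dp) = m • (g • Dp) from map_nsmul (DistribSMul.toAddMonoidHom _ g) m Dp, hgDp]
      abel
    rw [e]
    exact h2
  obtain ⟨h, hh0, hh⟩ := hz'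
  have hgD' : g • D' = D' + divOf hF h := Finsupp.ext fun P => by
    rw [Finsupp.add_apply, divOf_apply, ← hh P, Finsupp.sub_apply]; ring
  set V := riemannRochSpace D'
  haveI : Module.Finite K V := finite_riemannRochSpace hF D'
  have hellpos : 0 < ell D' := by
    have := riemann_inequality hF D'
    have h1 : m ≤ d := Nat.le_mul_of_pos_right m Module.finrank_pos
    omega
  haveI : Nontrivial V := Module.nontrivial_of_finrank_pos (R := K) (Int.natCast_pos.1 hellpos)
  have hmap : ∀ f ∈ V, (g • f) * h ∈ V := fun f hf => by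
    refine (mem_add_divOf hF hh0).1 ?_
    rw [← hgD', FA.Curve.mem_riemannRochSpace]
    intro P
    obtain ⟨P', rfl⟩ : ∃ P', g • P' = P := ⟨g⁻¹ • P, smul_inv_smul g P⟩
    rw [SemilinearAut.divisor_smul_apply_smul]
    rcases (FA.Curve.mem_riemannRochSpace.1 hf P') with h0 | h1
    · exact Or.inl (by rw [h0]; exact smul_zero _)
    · exact Or.inr (by rw [SemilinearAut.ord_smul]; exact h1)
  let φ : V →+ V := AddMonoidHom.mk' (fun f => ⟨(g • (f : F)) * h, hmap f f.2⟩) fun a b =>
    Subtype.ext (by simp [smul_add, add_mul])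
  obtain ⟨f, hf, hfix⟩ := exists_fixed_vector (k := K) hq φ (fun a f => Subtype.ext (by
    show g • ((a • f : V) : F) * h = ((a ^ q • _ : V) : F)
    rw [Submodule.coe_smul, Submodule.coe_smul, Algebra.smul_def, Algebra.smul_def, smul_mul',
      SemilinearAut.smul_algebraMap, hg, mul_assoc]
    rfl)) (fun a b hab => Subtype.ext (MulAction.injective g
      (mul_right_cancel₀ hh0 (congrArg Subtype.val hab))))
  have hf0 : (f : F) ≠ 0 := fun h => hf (Subtype.ext h)
  have hgf0 : g • (f : F) ≠ 0 := fun h =>
    hf0 (MulAction.injective g (h.trans (smul_zero g).symm))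
  set E : Divisor K F := D' + divOf hF (f : F) with hE
  have hEdeg : Divisor.degree E = d := by rw [map_add, hD'deg, degree_divOf, add_zero]
  have hE0 : ∀ P, 0 ≤ E P := fun P => by
    have := (atLeast_iff hf0).1 (FA.Curve.mem_riemannRochSpace.1 f.2 P)
    simp only [hE, Finsupp.add_apply, divOf_apply]
    omega
  have hgE : g • E = E := Finsupp.ext fun P => by
    obtain ⟨P', rfl⟩ : ∃ P', g • P' = P := ⟨g⁻¹ • P, smul_inv_smul g P⟩
    have e1 := congrArg (fun G : Divisor K F => G (g • P')) hgD'
    have e2 := congrArg Subtype.val hfix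
    change g • (f : F) * h = f at e2
    simp only [Finsupp.add_apply, divOf_apply, SemilinearAut.divisor_smul_apply_smul] at e1
    rw [SemilinearAut.divisor_smul_apply_smul]
    simp only [hE, Finsupp.add_apply, divOf_apply]
    rw [e1]
    conv_rhs => rw [← e2, (g • P').ord_mul hgf0 hh0, SemilinearAut.ord_smul]
    ring
  have hdegsum : Divisor.degree E = E.sum fun _ n => n := degree_eq_sum hF E
  have hgpow : ∀ (i : ℕ) P, E (g ^ i • P) = E P := by
    intro i
    induction i with
    | zero => intro P; simp
    | succ i ih =>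
      intro P
      rw [pow_succ', mul_smul]
      conv_lhs => rw [← hgE, SemilinearAut.divisor_smul_apply_smul, ih]
  have hsumle : ∀ s : Finset (Place K F), ∑ P ∈ s, E P ≤ d := fun s => by
    rw [← hEdeg, hdegsum, Finsupp.sum]
    refine le_trans (Finset.sum_le_sum_of_subset_of_nonneg Finset.subset_union_left fun P _ _ => hE0 P)
      (le_of_eq ((Finset.sum_subset (Finset.subset_union_right : E.support ⊆ s ∪ E.support) fun P _ hP => by
        simpa using hP)).symm)
  have hmemE : E ∈ Es := by
    rw [Finset.mem_finsupp_iff]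
    refine ⟨fun P hP => ?_, fun P _ => Finset.mem_Icc.2 ⟨hE0 P, ?_⟩⟩
    · rw [Set.Finite.mem_toFinset]
      by_contra hno
      have hinj : Set.InjOn (fun i : ℕ => g ^ i • P) (Finset.range (d + 1)) := by
        intro a ha b hb hab
        rw [Finset.coe_range, Set.mem_Iio] at ha hb
        have key : ∀ a b : ℕ, a < b → b < d + 1 → g ^ a • P = g ^ b • P → False :=
          fun a b hab hb h => hno ⟨b - a, by omega, by omega, MulAction.injective (g ^ a) (by
            simp only [← mul_smul, ← pow_add, Nat.add_sub_cancel' hab.le]; exact h.symm)⟩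
        rcases lt_trichotomy a b with h | h | h
        · exact (key a b h hb hab).elim
        · exact h
        · exact (key b a h ha hab.symm).elim
      have h1 := hsumle ((Finset.range (d + 1)).image fun i => g ^ i • P)
      rw [Finset.sum_image hinj] at h1
      simp only [hgpow, Finset.sum_const, Finset.card_range, nsmul_eq_mul] at h1
      rw [Finsupp.mem_support_iff] at hP
      have h2 : (1 : ℤ) ≤ E P := by have := hE0 P; omega
      push_cast at h1
      nlinarith
    · simpa using hsumle {P}
  refine ⟨E, hmemE, ?_⟩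
  have hd0 : (E - m • Dp : Divisor K F) ∈ Divisor.degZero (K := K) (F := F) := by
    rw [Divisor.mem_degZero, map_sub, hEdeg, hdeg, sub_self]
  simp only [toClass, dif_pos hd0]
  refine QuotientAddGroup.eq_iff_sub_mem.2 ?_
  rw [AddSubgroup.mem_addSubgroupOf]
  refine ⟨f, hf0, fun P => ?_⟩
  simp [hE, D']; ring

end FA.Mazur

end
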