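import Fermat.Agent.Mazur.NoLine
import Fermat.Agent.Mazur.BadPrime
import Fermat.Agent.Mazur.EisPrime
import Fermat.Agent.Local.Reducible
import Fermat.Agent.Switch.Frey

/-!
# The Frey curve has no cofixed line at a large prime
-/

set_option autoImplicit false
set_option linter.style.haveILetI false
set_option linter.unusedSectionVars false

noncomputable section

namespace FA.Mazur

open WeierstrassCurve WeierstrassCurve.Affine ModularCurve FA.Local FA.LocalDef

local notation "Qb" => AlgebraicClosure ℚ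
local notation "GQ" => AlgebraicClosure ℚ ≃ₐ[ℚ] AlgebraicClosure ℚ

set_option maxHeartbeats 1000000

theorem norm_intCast_local (l : ℕ) [Fact l.Prime] (n : ℤ) :
    ‖((n : ℤ) : Cl l)‖ = ‖((n : ℤ) : ℚ_[l])‖ := by
  rw [← map_intCast (algebraMap ℚ_[l] (Cl l)), show algebraMap ℚ_[l] (Cl l) (n : ℚ_[l]) =
    ((((n : ℚ_[l]) : PadicAlgCl l)) : Cl l) from rfl, PadicComplex.norm_extends']

theorem norm_intCast_eq_one_local (l : ℕ) [hl : Fact l.Prime] {n : ℤ} (h : ¬ (l : ℤ) ∣ n) :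
    ‖((n : ℤ) : Cl l)‖ = 1 := by
  rw [norm_intCast_local]
  refine le_antisymm (Padic.norm_int_le_one n) (not_lt.1 fun h1 => h ?_)
  exact Padic.norm_intCast_lt_one_iff.1 h1

variable (P : FreyPackage)

theorem frey_j : P.freyCurve.j = (P.freyCurveInt.c₄ : ℚ) ^ 3 / (P.freyCurveInt.Δ : ℚ) := by
  rw [WeierstrassCurve.j, Units.val_inv_eq_inv_val, coe_Δ', ← div_eq_inv_mul]
  rw [← FA.Switch.freyInt_map P, map_c₄, map_Δ]
  simp

/-- At a bad prime the norm of `1 / j` is that of the discriminant. -/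
theorem norm_frey_inv_j (l : ℕ) [hl : Fact l.Prime] (h : (l : ℤ) ∣ P.freyCurveInt.Δ) :
    ‖((P.freyCurve.j⁻¹ : ℚ) : Cl l)‖ = ‖((P.freyCurveInt.Δ : ℤ) : Cl l)‖ := by
  have h4 := norm_intCast_eq_one_local l (FA.Switch.freyInt_semistable P l hl.out h)
  rw [frey_j, inv_div, Rat.cast_div, Rat.cast_intCast, Rat.cast_pow, Rat.cast_intCast, norm_div,
    norm_pow, h4, one_pow, div_one]

theorem norm_frey_Δ_two [Fact (Nat.Prime 2)] :
    ∃ e : ℕ, 2 ≤ e ∧ e ≠ P.p ∧
      ‖((P.freyCurveInt.Δ : ℤ) : Cl 2)‖ = ‖((2 : ℕ) : Cl 2)‖ ^ e := by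
  have hne : P.a * P.b * P.c ≠ 0 := P.habc0
  obtain ⟨k, m, hm, hkm⟩ : ∃ (k : ℕ) (m : ℤ), ¬ (2 : ℤ) ∣ m ∧ P.a * P.b * P.c = 2 ^ k * m := by
    obtain ⟨k, m, hm, hkm⟩ := (Nat.exists_eq_pow_mul_and_not_dvd
      (Int.natAbs_ne_zero.2 hne) 2 (by norm_num) : ∃ k m, ¬ 2 ∣ m ∧ (P.a * P.b * P.c).natAbs = 2 ^ k * m)
    rcases Int.natAbs_eq (P.a * P.b * P.c) with h | h
    · exact ⟨k, m, by exact_mod_cast hm, by rw [h, hkm]; push_cast; ring⟩
    · exact ⟨k, -m, by rw [dvd_neg]; exact_mod_cast hm, by rw [h, hkm]; push_cast; ring⟩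
  have hk : 1 ≤ k := by
    by_contra h0
    rw [show k = 0 by omega, pow_zero, one_mul] at hkm
    exact hm (hkm ▸ P.two_dvd_abc)
  have h2 : ‖((2 : ℕ) : Cl 2)‖ ≠ 0 := (norm_natCast_pos 2).ne'
  refine ⟨2 * P.p * k - 8, ?_, fun h => ?_, ?_⟩
  · have := P.hp5
    have : 2 * P.p * 1 ≤ 2 * P.p * k := Nat.mul_le_mul_left _ hk
    omega
  · have := P.hp5
    have h8 : P.p ∣ 8 := by
      have h1 : P.p ∣ 2 * P.p * k := ⟨2 * k, by ring⟩
      have h3 := Nat.dvd_sub h1 (dvd_refl P.p)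
      rwa [show 2 * P.p * k - P.p = 8 by omega] at h3
    have := (Nat.prime_dvd_prime_iff_eq P.pp Nat.prime_two).1
      (P.pp.dvd_of_dvd_pow (show P.p ∣ 2 ^ 3 by simpa using h8))
    omega
  · have h : ‖((256 * P.freyCurveInt.Δ : ℤ) : Cl 2)‖ =
        ‖(((P.a ^ P.p * P.b ^ P.p * P.c ^ P.p) ^ 2 : ℤ) : Cl 2)‖ := by rw [FA.Switch.freyInt_Δ P]
    rw [← mul_pow, ← mul_pow, ← pow_mul, hkm, mul_pow, ← pow_mul, Int.cast_mul, Int.cast_mul,
      Int.cast_pow, Int.cast_pow, norm_mul, norm_mul, norm_pow, norm_pow,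
      norm_intCast_eq_one_local 2 hm, one_pow, mul_one,
      show ((256 : ℤ) : Cl 2) = ((2 : ℕ) : Cl 2) ^ 8 by norm_num, norm_pow,
      show ((2 : ℤ) : Cl 2) = ((2 : ℕ) : Cl 2) by norm_num] at h
    rw [show 2 * P.p * k - 8 = k * (P.p * 2) - 8 by ring_nf]
    have hle : 8 ≤ k * (P.p * 2) := by
      have := P.hp5
      have : 1 * (P.p * 2) ≤ k * (P.p * 2) := Nat.mul_le_mul_right _ hk
      omega
    refine mul_left_cancel₀ (pow_ne_zero 8 h2) ?_
    rw [← pow_add, Nat.add_sub_cancel' hle]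
    exact h

theorem one_lt_norm_of_not_mem {l : ℕ} [Fact l.Prime] [Algebra Qb (PadicComplex l)] {x : ℚ}
    (h : 1 < (placeAt l).valuation (algebraMap ℚ Qb x)) : ‖((x⁻¹ : ℚ) : Cl l)‖ < 1 := by
  rw [← not_le, ValuationSubring.valuation_le_one_iff, mem_placeAt, not_le, eq_ratCast,
    map_ratCast] at h
  rw [Rat.cast_inv, norm_inv]
  exact inv_lt_one_of_one_lt₀ h

/-- A cofixed line gives a nonzero torsion point fixed by any given element. -/
theorem exists_fixed_of_cofixed {N : Submodule (ZMod P.p) (FreyTors P)} (hN : N ≠ ⊤)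
    (hco : ∀ σ : GQ, ∀ x, σ • x - x ∈ N) (σ : GQ) :
    ∃ x : FreyTors P, x ≠ 0 ∧ σ • x = x := by
  haveI := Fact.mk P.pp
  haveI : FiniteDimensional (ZMod P.p) (FreyTors P) :=
    Module.finite_of_finrank_eq_succ (finrank_freyTors P)
  let φ : FreyTors P →ₗ[ZMod P.p] N :=
    { toFun := fun x => ⟨σ • x - x, hco σ x⟩
      map_add' := fun x y => Subtype.ext (by
        show σ • (x + y) - (x + y) = (σ • x - x) + (σ • y - y)
        rw [smul_add]; abel)
      map_smul' := fun c x => Subtype.ext (by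
        show σ • (c • x) - c • x = c • (σ • x - x)
        rw [gal_zmod_smul, smul_sub]) }
  have hker : LinearMap.ker φ ≠ ⊥ := by
    intro h
    have h1 := LinearMap.finrank_le_finrank_of_injective (LinearMap.ker_eq_bot.1 h)
    have h2 := Submodule.finrank_lt hN
    omega
  obtain ⟨x, hx, hx0⟩ := (Submodule.ne_bot_iff _).1 hker
  exact ⟨x, hx0, sub_eq_zero.1 (congrArg Subtype.val hx)⟩

/-- **No cofixed line for `p ≥ 17`.** -/
theorem frey_no_cofixed_of_stableLinePlace (hp : 17 ≤ P.p)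
    (hPl : ∀ [Algebra (AlgebraicClosure ℚ) ℂ] [Fact P.p.Prime], StableLinePlace P.p) :
    ¬ Affine.Point.HasGaloisStableCofixedLine (K := AlgebraicClosure ℚ) ℚ P.freyCurve P.p := by
  rintro ⟨N, hst, hb, ht, hco⟩
  haveI := Fact.mk P.pp
  haveI : Algebra.IsAlgebraic ℚ Qb := AlgebraicClosure.isAlgebraic ℚ
  letI : Algebra Qb ℂ := (IsAlgClosed.lift (R := ℚ) (S := Qb) (M := ℂ)).toRingHom.toAlgebra
  set C : AddSubgroup (P.freyCurve.toAffine⁄Qb).Point :=
    N.toAddSubgroup.map (Submodule.torsionBy ℤ _ (P.p : ℤ)).subtype.toAddMonoidHom with hC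
  have hcard : Nat.card C = P.p := by
    haveI : FiniteDimensional (ZMod P.p) (FreyTors P) :=
      Module.finite_of_finrank_eq_succ (finrank_freyTors P)
    have h2 : Module.finrank (ZMod P.p) (FreyTors P) = 2 := finrank_freyTors P
    have h1 : Module.finrank (ZMod P.p) N = 1 := by
      have hlt : Module.finrank (ZMod P.p) N < 2 := lt_of_lt_of_eq (Submodule.finrank_lt ht) h2
      have hpos : Module.finrank (ZMod P.p) N ≠ 0 := mt Submodule.finrank_eq_zero.mp hb
      omega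
    have hN : Nat.card N = P.p := by
      rw [Module.natCard_eq_pow_finrank (K := ZMod P.p), h1, Nat.card_zmod, pow_one]
    exact (Nat.card_congr ((AddSubgroup.equivMapOfInjective _ _ Subtype.val_injective).toEquiv).symm).trans hN
  have hstC : ∀ σ : GQ, ∀ x ∈ C, σ • x ∈ C := by
    rintro σ _ ⟨x, hx, rfl⟩
    exact ⟨σ • x, hst σ x hx, rfl⟩
  obtain ⟨l, hl, hln, hlp, hl2p⟩ :=
    exists_prime_dvd_eisensteinNumerator P.pp (by omega) (by omega)
  haveI := Fact.mk hl
  obtain ⟨inst⟩ := exists_algebra_local l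
  letI := inst
  have hΔ0 : P.freyCurveInt.Δ ≠ 0 := FA.Switch.freyInt_Δ_ne_zero P
  have hj0 : P.freyCurve.j ≠ 0 := by
    intro h
    have h4 : P.freyCurveInt.c₄ ≠ 0 := by
      intro h4
      have hd : ((2 : ℕ) : ℤ) ∣ P.freyCurveInt.Δ := by
        obtain ⟨m, hm⟩ := FA.Switch.freyInt_Δ_square P
        exact ⟨2 * m ^ 2, by rw [hm]; push_cast; ring⟩
      exact FA.Switch.freyInt_semistable P 2 Nat.prime_two hd (h4 ▸ dvd_zero _)
    rw [frey_j, div_eq_zero_iff] at h
    rcases h with h | h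
    · exact h4 (by exact_mod_cast (pow_eq_zero_iff (by norm_num : (3 : ℕ) ≠ 0)).1 h)
    · exact hΔ0 (by exact_mod_cast h)
  have hbad : (l : ℤ) ∣ P.freyCurveInt.Δ → ‖((P.freyCurve.j⁻¹ : ℚ) : Cl l)‖ < 1 := by
    intro h
    rw [norm_frey_inv_j P l h, norm_intCast_local]
    exact Padic.norm_intCast_lt_one_iff.2 h
  have hjlt : ‖((P.freyCurve.j⁻¹ : ℚ) : Cl l)‖ < 1 := by
    obtain ⟨F, hF, hFrob⟩ := exists_frobenius hl (placeAt_liesOver l)
    obtain ⟨x, hx0, hxF⟩ := exists_fixed_of_cofixed P ht hco F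
    have hX : (x.1 : FreyPt P) ≠ 0 := fun h => hx0 (Subtype.ext h)
    have hXF : F • (x.1 : FreyPt P) = x.1 := congrArg Subtype.val hxF
    rcases lt_or_ge l 5 with h5 | h5
    · refine hbad ?_
      by_contra hd
      have hl3 : l = 3 := by
        interval_cases l
        · exact absurd hl (by norm_num)
        · exact absurd hl (by norm_num)
        · obtain ⟨m, hm⟩ := FA.Switch.freyInt_Δ_square P
          exact absurd ⟨2 * m ^ 2, by rw [hm]; push_cast; ring⟩ hd
        · rfl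
        · exact absurd hl (by norm_num)
      subst hl3
      have habc : ¬ ((3 : ℕ) : ℤ) ∣ P.a * P.b * P.c := by
        intro h
        refine hd ((Nat.prime_iff_prime_int.1 Nat.prime_three).dvd_or_dvd
          (show ((3 : ℕ) : ℤ) ∣ 256 * P.freyCurveInt.Δ by
            rw [FA.Switch.freyInt_Δ, ← mul_pow, ← mul_pow]
            exact dvd_pow (dvd_pow h P.hp0) two_ne_zero) |>.resolve_left (by norm_num))
      haveI := res_charP Nat.prime_three (placeAt_liesOver 3)
      have hdeg : ((Polynomial.X : Polynomial (Res (placeAt 3))) ^ 3 - Polynomial.X).natDegree = 3 := by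
        compute_degree!
      have := le_of_residue_roots (freyBar_intCoeff P (placeAt 3))
        (freyBar_good Nat.prime_three (placeAt_liesOver 3) (by norm_num) habc) P.pp P.hp_odd
        (natCast_p_eq_one Nat.prime_three (placeAt_liesOver 3) (by omega)) hX (tors_nsmul x)
        (f := Polynomial.X ^ 3 - Polynomial.X)
        (fun h => by rw [h, Polynomial.natDegree_zero] at hdeg; omega)
        fun m a b hab hm ha => by
          have hn : F • (m • (x.1 : FreyPt P)) = m • (x.1 : FreyPt P) := by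
            rw [← Nat.cast_smul_eq_nsmul ℤ, Affine.Point.algEquiv_smul_zsmul, hXF]
          have hn : F • (Affine.Point.some a b hab : FreyPt P) = Affine.Point.some a b hab :=
            ((congrArg (F • ·) hm).symm.trans hn).trans hm
          rw [Polynomial.IsRoot.def, Polynomial.eval_sub, Polynomial.eval_pow, Polynomial.eval_X,
            ← hFrob a ha, (fixed_coords hn).1, sub_self]
      rw [hdeg] at this
      omega
    · exact one_lt_norm_of_not_mem
        (one_lt_valuation_j P.freyCurve hl h5 P.pp hlp hl2p (placeAt_liesOver l) hF hFrob hX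
          (tors_nsmul x) hXF)
  refine false_of_stable_line hPl P.freyCurve C hcard hstC hlp hln hj0 hjlt fun hl2 => ?_
  subst hl2
  obtain ⟨e, he2, hep, he⟩ := norm_frey_Δ_two P
  refine ⟨e, he2, hep, ?_⟩
  rw [norm_frey_inv_j P 2 ?_, he]
  obtain ⟨m, hm⟩ := FA.Switch.freyInt_Δ_square P
  exact ⟨2 * m ^ 2, by rw [hm]; push_cast; ring⟩

end FA.Mazur

end
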