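import Fermat.Agent.Mazur.Disc
import Fermat.Agent.Mazur.Dwork
import Fermat.Prelude.Def_ModularCurve_X0ModL
import Mathlib.RingTheory.RootsOfUnity.PrimitiveRoots

/-!
# Series on the disc pulled back along `q ↦ q ^ r`
-/

set_option autoImplicit false
set_option linter.style.haveILetI false
set_option linter.unusedSectionVars false
set_option synthInstance.maxHeartbeats 200000

noncomputable section

namespace FA.Mazur

open HahnSeries ModularCurve
open scoped PowerSeries

variable {K : Type} [NormedField K] [IsUltrametricDist K] [CompleteSpace K]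

theorem evalHom_X (a : unitBall K) (ha : ‖(a : K)‖ < 1) :
    evalHom a ha (PowerSeries.X : PowerSeries (unitBall K)) = a := by
  rw [← Polynomial.coe_X, evalHom_coe, Polynomial.eval_X]

theorem evalHom_C (a : unitBall K) (ha : ‖(a : K)‖ < 1) (c : unitBall K) :
    evalHom a ha (PowerSeries.C c) = c := by
  rw [← Polynomial.coe_C, evalHom_coe, Polynomial.eval_C]

theorem norm_pow_lt_one {b : unitBall K} (hb : ‖(b : K)‖ < 1) {r : ℕ} (hr : r ≠ 0) :
    ‖((b ^ r : unitBall K) : K)‖ < 1 := by
  rw [SubmonoidClass.coe_pow, norm_pow]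
  exact pow_lt_one₀ (norm_nonneg _) hb hr

theorem evalHom_expand {r : ℕ} (hr : r ≠ 0) (b : unitBall K) (hb : ‖(b : K)‖ < 1)
    (f : PowerSeries (unitBall K)) :
    evalHom b hb (PowerSeries.expand r hr f) = evalHom (b ^ r) (norm_pow_lt_one hb hr) f := by
  have h1 := hasSum_evalHom (b ^ r) (norm_pow_lt_one hb hr) f
  have h2 := hasSum_evalHom b hb (PowerSeries.expand r hr f)
  have h3 : Function.Injective fun d : ℕ => r * d := mul_right_injective₀ hr
  refine (h2.unique ((h3.hasSum_iff ?_).mp ?_))
  · intro x hx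
    rw [PowerSeries.coeff_expand_of_not_dvd r hr f fun ⟨d, hd⟩ => hx ⟨d, hd.symm⟩, zero_mul]
  · refine h1.congr_fun fun d => ?_
    simp only [Function.comp_apply, PowerSeries.coeff_expand_mul, pow_mul]

theorem evalHom_rescale (c b : unitBall K) (hb : ‖(b : K)‖ < 1) (hcb : ‖((c * b : unitBall K) : K)‖ < 1)
    (f : PowerSeries (unitBall K)) :
    evalHom b hb (PowerSeries.rescale c f) = evalHom (c * b) hcb f := by
  refine (hasSum_evalHom b hb _).unique ((hasSum_evalHom (c * b) hcb f).congr_fun fun d => ?_)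
  rw [PowerSeries.coeff_rescale, mul_pow]
  ring

theorem shiftPS_coeff (a : unitBall K) (ha : ‖(a : K)‖ < 1) (p : PowerSeries (unitBall K)) (n : ℕ) :
    (shiftPS a ha p).coeff (n : ℤ) = ((PowerSeries.coeff n (shiftHom a ha p) : unitBall K) : K) := by
  rw [shiftPS, RingHom.comp_apply, RingHom.comp_apply, ofPowerSeries_apply_coeff,
    PowerSeries.coeff_map]
  rfl

theorem order_shiftPS_of_ne {a : unitBall K} (ha : ‖(a : K)‖ < 1) {u : PowerSeries (unitBall K)}
    (hu : evalHom a ha u ≠ 0) : (shiftPS a ha u).order = 0 := by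
  have h : (shiftPS a ha u).coeff ((0 : ℕ) : ℤ) ≠ 0 := by
    rw [shiftPS_coeff, PowerSeries.coeff_zero_eq_constantCoeff_apply, constantCoeff_shiftHom, Ne,
      ZeroMemClass.coe_eq_zero]
    exact hu
  refine le_antisymm (by simpa using order_le_of_coeff_ne_zero h) ?_
  have hne : shiftPS a ha u ≠ 0 := fun h0 => h (by rw [h0, coeff_zero])
  by_contra hlt
  exact HahnSeries.coeff_order_eq_zero.not.mpr hne
    (by simp only [shiftPS, RingHom.comp_apply]; exact ofPowerSeries_coeff_of_neg _ (not_le.mp hlt))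

theorem exists_factor_order (a : unitBall K) (ha : ‖(a : K)‖ < 1) {p : PowerSeries (unitBall K)}
    (hp : p ≠ 0) : ∃ (n : ℕ) (u : PowerSeries (unitBall K)),
      p = (PowerSeries.X - PowerSeries.C a) ^ n * u ∧ evalHom a ha u ≠ 0 := by
  have hne : shiftHom a ha p ≠ 0 := fun h => hp (shiftHom_injective a ha (h.trans (map_zero _).symm))
  set n := (shiftHom a ha p).order.toNat
  obtain ⟨g, hg⟩ := PowerSeries.X_pow_order_dvd (φ := shiftHom a ha p)
  have ha' : ‖((-a : unitBall K) : K)‖ < 1 := by simpa using ha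
  have hp' : p = (PowerSeries.X - PowerSeries.C a) ^ n * shiftHom (-a) ha' g := by
    conv_lhs => rw [← shiftHom_neg_shiftHom a ha p, hg]
    rw [map_mul, map_pow, shiftHom_X, map_neg]
    ring
  refine ⟨n, shiftHom (-a) ha' g, hp', fun h => ?_⟩
  obtain ⟨g', hg'⟩ := exists_factor_of_evalHom_eq_zero a ha h
  have h1 := congrArg (shiftHom a ha) hp'
  rw [hg', map_mul, map_pow, map_mul, map_sub, shiftHom_X, shiftHom_C, add_sub_cancel_left,
    ← mul_assoc, ← pow_succ] at h1
  have h2 : (n + 1 : ℕ∞) ≤ (shiftHom a ha p).order := by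
    refine PowerSeries.le_order _ _ fun i hi => ?_
    rw [h1, PowerSeries.coeff_X_pow_mul', if_neg]
    have : i < n + 1 := by exact_mod_cast hi
    omega
  have h3 : (shiftHom a ha p).order = (n : ℕ∞) := (ENat.natCast_toNat fun h0 => hne
    (PowerSeries.order_eq_top.mp h0)).symm
  rw [h3] at h2
  have : n + 1 ≤ n := by exact_mod_cast h2
  omega

theorem order_shiftPS_factor {a : unitBall K} (ha : ‖(a : K)‖ < 1) {n : ℕ}
    {u : PowerSeries (unitBall K)} (hu : evalHom a ha u ≠ 0) :
    (shiftPS a ha ((PowerSeries.X - PowerSeries.C a) ^ n * u)).order = (n : ℤ) := by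
  have hne : shiftPS a ha u ≠ 0 := fun h0 => hu (by
    have h := shiftPS_injective a ha (h0.trans (map_zero _).symm)
    rw [h, map_zero])
  have e : shiftPS a ha (PowerSeries.X - PowerSeries.C a) = single (1 : ℤ) 1 := by
    rw [shiftPS, RingHom.comp_apply, RingHom.comp_apply, map_sub (shiftHom a ha), shiftHom_X,
      shiftHom_C, add_sub_cancel_left, PowerSeries.map_X, ofPowerSeries_X]
  rw [map_mul, map_pow, e, single_pow, one_pow,
    order_mul (by simp) hne, order_single one_ne_zero, order_shiftPS_of_ne ha hu]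
  simp

/-- The ramification of `q ↦ q ^ r` at a point. -/
def ramC (r : ℕ) (b : unitBall K) : ℕ := by
  classical
  exact if b = 0 then r else 1

theorem ramC_zero (r : ℕ) : ramC r (0 : unitBall K) = r := if_pos rfl

theorem ramC_of_ne {r : ℕ} {b : unitBall K} (hb : b ≠ 0) : ramC r b = 1 := if_neg hb

theorem ramC_pos {r : ℕ} (hr : r ≠ 0) (b : unitBall K) : 0 < ramC r b := by
  rcases eq_or_ne b 0 with rfl | h
  · rw [ramC_zero]; exact Nat.pos_of_ne_zero hr
  · rw [ramC_of_ne h]; exact one_pos

theorem ofPowerSeries_expand (R : Type) [CommRing R] {r : ℕ} [NeZero r] (p : PowerSeries R) :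
    ofPowerSeries ℤ R (PowerSeries.expand r (NeZero.ne r) p) =
      qExpand R r (ofPowerSeries ℤ R p) := by
  ext i
  have hr : (0 : ℤ) < r := by exact_mod_cast Nat.pos_of_ne_zero (NeZero.ne r)
  by_cases h : (r : ℤ) ∣ i
  · obtain ⟨m, rfl⟩ := h
    rw [qExpand_coeff_mul]
    rcases lt_or_ge m 0 with hm | hm
    · rw [ofPowerSeries_coeff_of_neg _ hm, ofPowerSeries_coeff_of_neg _ (mul_neg_of_pos_of_neg hr hm)]
    · lift m to ℕ using hm
      rw [← Nat.cast_mul, ofPowerSeries_apply_coeff, ofPowerSeries_apply_coeff,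
        PowerSeries.coeff_expand_mul]
  · rw [qExpand_coeff_of_not_dvd r _ h]
    rcases lt_or_ge i 0 with hi | hi
    · rw [ofPowerSeries_coeff_of_neg _ hi]
    · lift i to ℕ using hi
      rw [ofPowerSeries_apply_coeff, PowerSeries.coeff_expand_of_not_dvd]
      exact fun h' => h (Int.natCast_dvd_natCast.mpr h')

variable [CharZero K]

theorem order_shiftPS_expand {r : ℕ} (hr : r ≠ 0) {a b : unitBall K} (ha : ‖(a : K)‖ < 1)
    (hb : ‖(b : K)‖ < 1) (hab : b ^ r = a) (p : PowerSeries (unitBall K)) :
    (shiftPS b hb (PowerSeries.expand r hr p)).order = (ramC r b : ℤ) * (shiftPS a ha p).order := by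
  rcases eq_or_ne p 0 with rfl | hp
  · simp
  obtain ⟨n, u, rfl, hu⟩ := exists_factor_order a ha hp
  rw [order_shiftPS_factor ha hu, map_mul, map_pow, map_sub, PowerSeries.expand_X,
    PowerSeries.expand_C]
  have hu' : evalHom b hb (PowerSeries.expand r hr u) ≠ 0 := by
    rw [evalHom_expand]
    subst hab
    exact hu
  set c := ramC r b
  obtain ⟨h, hh, hh0⟩ : ∃ h : PowerSeries (unitBall K),
      PowerSeries.X ^ r - PowerSeries.C a = (PowerSeries.X - PowerSeries.C b) ^ c * h ∧
        evalHom b hb h ≠ 0 := by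
    rcases eq_or_ne b 0 with hb0 | hb0
    · refine ⟨1, ?_, by rw [map_one]; exact one_ne_zero⟩
      simp only [c, hb0, ramC_zero, ← hab, zero_pow hr, map_zero, sub_zero, mul_one]
    · refine ⟨∑ i ∈ Finset.range r, PowerSeries.X ^ i * PowerSeries.C b ^ (r - 1 - i), ?_, ?_⟩
      · simp only [c, ramC_of_ne hb0, pow_one, ← hab, map_pow]
        rw [mul_comm, geom_sum₂_mul]
      · rw [map_sum, Finset.sum_congr rfl (g := fun _ => b ^ (r - 1)) fun i hi => by
          rw [map_mul, map_pow, map_pow, evalHom_X, evalHom_C, ← _root_.pow_add]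
          congr 1
          have := Finset.mem_range.mp hi
          omega]
        rw [Finset.sum_const, Finset.card_range]
        intro h0
        have h1 := congrArg (fun z : unitBall K => (z : K)) h0
        rw [nsmul_eq_mul] at h1
        simp only [MulMemClass.coe_mul, SubmonoidClass.coe_pow, ZeroMemClass.coe_zero,
          SubringClass.coe_natCast, mul_eq_zero, Nat.cast_eq_zero, hr, false_or] at h1
        exact hb0 (Subtype.ext (pow_eq_zero_iff'.mp h1).1)
  rw [hh, mul_pow, ← pow_mul, mul_assoc, order_shiftPS_factor hb]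
  · push_cast; ring
  · rw [map_mul, map_pow]
    exact mul_ne_zero (pow_ne_zero _ hh0) hu'

theorem order_shiftL_qExpand {r : ℕ} [NeZero r] {a b : unitBall K} (ha : ‖(a : K)‖ < 1)
    (hb : ‖(b : K)‖ < 1) (hab : b ^ r = a) (s : LaurentSeries (unitBall K)) :
    (shiftL b hb (qExpand (unitBall K) r s)).order = (ramC r b : ℤ) * (shiftL a ha s).order := by
  rcases eq_or_ne s 0 with rfl | hs
  · simp
  obtain ⟨m, p, hp⟩ : ∃ (m : ℕ) (p : PowerSeries (unitBall K)),
      s * ofPowerSeries ℤ (unitBall K) (PowerSeries.X ^ m) = ofPowerSeries ℤ (unitBall K) p := by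
    refine ⟨(-s.order).toNat, PowerSeries.mk fun n => s.coeff ((n : ℤ) - (-s.order).toNat), ?_⟩
    ext i
    rw [show i = (i - ((-s.order).toNat : ℤ)) + ((-s.order).toNat : ℤ) by ring,
      map_pow, ofPowerSeries_X, single_pow, one_pow, nsmul_eq_mul, mul_one,
      HahnSeries.coeff_mul_single_add, mul_one, sub_add_cancel]
    rcases lt_or_ge i 0 with hi | hi
    · rw [ofPowerSeries_coeff_of_neg _ hi, coeff_eq_zero_of_lt_order (by omega)]
    · lift i to ℕ using hi
      rw [ofPowerSeries_apply_coeff, PowerSeries.coeff_mk]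
  have h1 := congrArg (fun x => (shiftL b hb (qExpand (unitBall K) r x)).order) hp
  have h2 := congrArg (fun x => (shiftL a ha x).order) hp
  simp only [map_mul, ← ofPowerSeries_expand, shiftL_ofPowerSeries] at h1 h2
  have hne : ∀ (c : unitBall K) (hc : ‖(c : K)‖ < 1) (x : LaurentSeries (unitBall K)),
      x ≠ 0 → shiftL c hc x ≠ 0 := fun c hc x hx h =>
    hx (shiftL_injective c hc (h.trans (map_zero _).symm))
  have hneX : ∀ (c : unitBall K) (hc : ‖(c : K)‖ < 1) (x : PowerSeries (unitBall K)),
      x ≠ 0 → shiftPS c hc x ≠ 0 := fun c hc x hx h =>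
    hx (shiftPS_injective c hc (h.trans (map_zero _).symm))
  rw [order_mul (hne b hb _ fun h => hs (qExpand_injective r (h.trans (map_zero _).symm)))
      (hneX b hb _ fun h => by
        have := congrArg (fun x : PowerSeries (unitBall K) => x.order) h
        simp at this),
    order_shiftPS_expand (NeZero.ne r) ha hb hab, order_shiftPS_expand (NeZero.ne r) ha hb hab] at h1
  rw [order_mul (hne a ha _ hs) (hneX a ha _ (pow_ne_zero _ PowerSeries.X_ne_zero))] at h2
  linear_combination h1 + (ramC r b : ℤ) * (h2.symm)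

theorem IsExpOf.rescale {G E : PowerSeries K} (hE : IsExpOf G E) (c : K) :
    IsExpOf (PowerSeries.rescale c G) (PowerSeries.rescale c E) := by
  have hd : ∀ S : PowerSeries K, d⁄dX K (PowerSeries.rescale c S) =
      PowerSeries.C c * PowerSeries.rescale c (d⁄dX K S) := fun S => by
    ext n
    simp only [PowerSeries.coeff_derivative, PowerSeries.coeff_rescale, PowerSeries.coeff_C_mul]
    ring
  refine ⟨?_, by rw [hd, hd, hE.2, map_mul]; ring⟩
  rw [← PowerSeries.coeff_zero_eq_constantCoeff_apply, PowerSeries.coeff_rescale,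
    PowerSeries.coeff_zero_eq_constantCoeff_apply, hE.1, pow_zero, one_mul]

theorem IsExpOf.prod {ι : Type*} (s : Finset ι) {G E : ι → PowerSeries K}
    (h : ∀ i ∈ s, IsExpOf (G i) (E i)) : IsExpOf (∑ i ∈ s, G i) (∏ i ∈ s, E i) := by
  classical
  induction s using Finset.induction_on with
  | empty => rw [Finset.sum_empty, Finset.prod_empty]; exact isExpOf_zero
  | insert j t hj ih =>
    rw [Finset.sum_insert hj, Finset.prod_insert hj]
    exact (h j (Finset.mem_insert_self _ _)).mul (ih fun i hi => h i (Finset.mem_insert_of_mem hi))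

/-- The exponential of the transform of `G` under `T_r`, as a product of values. -/
theorem evalHom_exp_hecke {r : ℕ} (hr : r ≠ 0) {G G' : PowerSeries K}
    {E E' : PowerSeries (unitBall K)}
    (hE : IsExpOf G (PowerSeries.map (unitBall K).subtype E))
    (hE' : IsExpOf G' (PowerSeries.map (unitBall K).subtype E'))
    (hrel : ∀ n, PowerSeries.coeff n G' =
      (if r ∣ n then PowerSeries.coeff (n / r) G else 0) + r * PowerSeries.coeff (r * n) G)
    {ζ : unitBall K} (hζ : IsPrimitiveRoot (ζ : K) r) (b : unitBall K) (hb : ‖(b : K)‖ < 1) :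
    evalHom (b ^ r) (norm_pow_lt_one hb hr) E' =
      evalHom ((b ^ r) ^ r) (norm_pow_lt_one (norm_pow_lt_one hb hr) hr) E *
        ∏ i : Fin r, evalHom (ζ ^ (i : ℕ) * b) (by
          rw [MulMemClass.coe_mul, SubmonoidClass.coe_pow, norm_mul, norm_pow]
          exact (mul_le_of_le_one_left (norm_nonneg _) (pow_le_one₀ (norm_nonneg _) ζ.2)).trans_lt hb)
          E := by
  have hid : PowerSeries.expand r hr E' =
      PowerSeries.expand r hr (PowerSeries.expand r hr E) *
        ∏ i : Fin r, PowerSeries.rescale (ζ ^ (i : ℕ)) E := by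
    refine PowerSeries.map_injective (unitBall K).subtype Subtype.val_injective ?_
    rw [map_mul, map_prod, PowerSeries.map_expand, PowerSeries.map_expand, PowerSeries.map_expand]
    have hrs : ∀ i : Fin r, PowerSeries.map (unitBall K).subtype (PowerSeries.rescale (ζ ^ (i : ℕ)) E)
        = PowerSeries.rescale ((ζ : K) ^ (i : ℕ)) (PowerSeries.map (unitBall K).subtype E) := fun i => by
      ext n
      simp only [PowerSeries.coeff_map, PowerSeries.coeff_rescale, map_mul, map_pow]
      rfl
    simp only [hrs]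
    have hG : PowerSeries.expand r hr G' = PowerSeries.expand r hr (PowerSeries.expand r hr G) +
        ∑ i : Fin r, PowerSeries.rescale ((ζ : K) ^ (i : ℕ)) G := by
      ext n
      rw [map_add, map_sum]
      simp only [PowerSeries.coeff_rescale]
      rw [← Finset.sum_mul, PowerSeries.coeff_expand, PowerSeries.coeff_expand]
      have hsum : ∑ i : Fin r, ((ζ : K) ^ (i : ℕ)) ^ n = if r ∣ n then (r : K) else 0 := by
        rw [Fin.sum_univ_eq_sum_range (fun i => ((ζ : K) ^ i) ^ n) r]
        simp_rw [← pow_mul, mul_comm _ n, pow_mul]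
        split_ifs with hn
        · rw [(hζ.pow_eq_one_iff_dvd n).mpr hn]; simp
        · have h1 : (ζ : K) ^ n ≠ 1 := fun h => hn ((hζ.pow_eq_one_iff_dvd n).mp h)
          refine eq_zero_of_ne_zero_of_mul_left_eq_zero (sub_ne_zero.mpr h1) ?_
          rw [mul_geom_sum, ← pow_mul, mul_comm, pow_mul, hζ.pow_eq_one, one_pow, sub_self]
      rw [hsum]
      split_ifs with hn
      · rw [hrel, PowerSeries.coeff_expand, Nat.mul_div_cancel' hn]
      · simp
    have h1 := hE'.expand hr
    rw [hG] at h1
    exact h1.unique (((hE.expand hr).expand hr).mul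
      (IsExpOf.prod Finset.univ fun i _ => hE.rescale _))
  have h := congrArg (evalHom b hb) hid
  rw [map_mul, map_prod, evalHom_expand, evalHom_expand, evalHom_expand] at h
  rw [h]
  congr 1
  exact Finset.prod_congr rfl fun i _ => evalHom_rescale _ _ _ _ _

end FA.Mazur
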