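import Fermat.Agent.Mazur.Bounded
import Fermat.Agent.Mazur.RModular
import Fermat.Agent.Deform.Frobenius
import Mathlib.NumberTheory.Padics.Complex
import Mathlib.Topology.Algebra.UniformRing

/-!
# A place over `l` from an embedding in `ℂ_l`, and the automorphisms it carries

The algebraic numbers are dense in `ℂ_l`; an element of the decomposition group extends to an
isometric endomorphism `galExt`.
-/

set_option autoImplicit false
set_option linter.style.haveILetI false
set_option linter.unusedSectionVars false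

noncomputable section

namespace FA.Mazur

open ModularCurve Filter Topology
open scoped Pointwise

set_option maxHeartbeats 1000000

local notation "Qb" => AlgebraicClosure ℚ
local notation "GQ" => AlgebraicClosure ℚ ≃ₐ[ℚ] AlgebraicClosure ℚ

variable (l : ℕ) [hl : Fact l.Prime]

/-- The field `ℂ_l`. -/
abbrev Cl : Type := PadicComplex l

theorem exists_algebra_local : Nonempty (Algebra Qb (Cl l)) := by
  haveI : Algebra.IsAlgebraic ℚ Qb := AlgebraicClosure.isAlgebraic ℚ
  exact ⟨(IsAlgClosed.lift (R := ℚ) (S := Qb) (M := Cl l)).toRingHom.toAlgebra⟩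

theorem norm_natCast_self : ‖((l : ℕ) : Cl l)‖ = (l : ℝ)⁻¹ := by
  rw [← map_natCast (algebraMap ℚ_[l] (Cl l)), show algebraMap ℚ_[l] (Cl l) (l : ℚ_[l]) =
    ((((l : ℚ_[l]) : PadicAlgCl l)) : Cl l) from rfl, PadicComplex.norm_extends',
    Padic.norm_p]

theorem norm_natCast_pos : 0 < ‖((l : ℕ) : Cl l)‖ := by
  rw [norm_natCast_self]; exact inv_pos.2 (Nat.cast_pos.2 hl.out.pos)

theorem norm_natCast_lt_one : ‖((l : ℕ) : Cl l)‖ < 1 := by
  rw [norm_natCast_self]; exact inv_lt_one_of_one_lt₀ (Nat.one_lt_cast.2 hl.out.one_lt)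

theorem norm_natCast_le_one (m : ℕ) : ‖(m : Cl l)‖ ≤ 1 :=
  IsUltrametricDist.norm_natCast_le_one _ m

variable [Algebra (AlgebraicClosure ℚ) (PadicComplex l)]

/-- The inclusion of the algebraic numbers. -/
abbrev emb : Qb →+* Cl l := algebraMap Qb (Cl l)

/-- The place given by the embedding. -/
def placeAt : ValuationSubring Qb :=
  ValuationSubring.ofSubring ((unitBall (Cl l)).comap (emb l)) fun x => by
    rcases le_total ‖emb l x‖ 1 with h | h
    · exact Or.inl h
    · refine Or.inr (show ‖emb l x⁻¹‖ ≤ 1 from ?_)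
      rw [map_inv₀, norm_inv]
      exact inv_le_one_of_one_le₀ h

theorem mem_placeAt {x : Qb} : x ∈ placeAt l ↔ ‖emb l x‖ ≤ 1 := Iff.rfl

theorem isEmbAt_placeAt : IsEmbAt (placeAt l) (Cl l) := fun _ => Iff.rfl

theorem valuation_le_iff {x y : Qb} :
    (placeAt l).valuation x ≤ (placeAt l).valuation y ↔ ‖emb l x‖ ≤ ‖emb l y‖ := by
  rcases eq_or_ne y 0 with rfl | hy
  · simp
  rw [← div_le_one₀ (zero_lt_iff.mpr ((placeAt l).valuation.ne_zero_iff.mpr hy)), ← map_div₀,
    ValuationSubring.valuation_le_one_iff, mem_placeAt, map_div₀, norm_div,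
    div_le_one₀ (norm_pos_iff.2 ((map_ne_zero _).2 hy))]

theorem valuation_lt_iff {x y : Qb} :
    (placeAt l).valuation x < (placeAt l).valuation y ↔ ‖emb l x‖ < ‖emb l y‖ := by
  rw [← not_le, ← not_le, valuation_le_iff]

theorem valuation_lt_one_iff' {x : Qb} :
    (placeAt l).valuation x < 1 ↔ ‖emb l x‖ < 1 := by
  rw [← map_one (placeAt l).valuation, valuation_lt_iff, map_one, norm_one]

theorem placeAt_liesOver : (placeAt l).LiesOverPrime l := by
  show (l : Qb) ∈ (placeAt l).nonunits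
  rw [ValuationSubring.mem_nonunits_iff, valuation_lt_one_iff', map_natCast]
  exact norm_natCast_lt_one l

/-- A rational monic polynomial with a small value at an algebraic point. -/
theorem exists_monic_small (α : PadicAlgCl l) {ε : ℝ} (hε : 0 < ε) :
    ∃ g : Polynomial ℚ, g.Monic ∧ 0 < g.natDegree ∧
      ‖((g.map (algebraMap ℚ Qb)).map (emb l)).eval (α : Cl l)‖ < ε ^ g.natDegree := by
  classical
  set f := minpoly ℚ_[l] α
  have hint : IsIntegral ℚ_[l] α := Algebra.IsIntegral.isIntegral α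
  set n := f.natDegree
  have hn : 0 < n := minpoly.natDegree_pos hint
  set C : ℝ := max 1 ‖(α : Cl l)‖ ^ n
  have hC : 0 < C := pow_pos (lt_of_lt_of_le one_pos (le_max_left _ _)) n
  choose c hc using fun i : ℕ => Padic.rat_dense l (f.coeff i)
    (ε := ε ^ n / C) (div_pos (pow_pos hε n) hC)
  set g : Polynomial ℚ := Polynomial.X ^ n + ∑ i ∈ Finset.range n, Polynomial.C (c i) * Polynomial.X ^ i
  have hdeg : (∑ i ∈ Finset.range n, Polynomial.C (c i) * Polynomial.X ^ i).degree < (n : WithBot ℕ) := by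
    refine (Polynomial.degree_sum_le _ _).trans_lt ?_
    refine lt_of_le_of_lt (Finset.sup_le (a := ((n - 1 : ℕ) : WithBot ℕ)) fun i hi =>
      (Polynomial.degree_C_mul_X_pow_le i (c i)).trans ?_) (by exact_mod_cast Nat.sub_one_lt hn.ne')
    have := Finset.mem_range.1 hi
    exact_mod_cast (by omega : i ≤ n - 1)
  have hmon : g.Monic := Polynomial.monic_X_pow_add hdeg
  have hgn : g.natDegree = n := by
    refine Polynomial.natDegree_eq_of_degree_eq_some ?_
    rw [Polynomial.degree_add_eq_left_of_degree_lt (by rwa [Polynomial.degree_X_pow]),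
      Polynomial.degree_X_pow]
  refine ⟨g, hmon, hgn ▸ hn, ?_⟩
  rw [hgn]
  have he : ∀ r : ℚ, emb l (algebraMap ℚ Qb r) = algebraMap ℚ_[l] (Cl l) (r : ℚ_[l]) := fun r => by
    rw [eq_ratCast, map_ratCast, map_ratCast]
  have hzero : (α : Cl l) ^ n +
      ∑ i ∈ Finset.range n, algebraMap ℚ_[l] (Cl l) (f.coeff i) * (α : Cl l) ^ i = 0 := by
    have h0 : Polynomial.aeval (α : Cl l) f = 0 := by
      rw [show (α : Cl l) = algebraMap (PadicAlgCl l) (Cl l) α from rfl,
        Polynomial.aeval_algebraMap_apply, minpoly.aeval, map_zero]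
    rw [Polynomial.aeval_eq_sum_range, Finset.sum_range_succ, add_comm] at h0
    rw [show f.coeff f.natDegree = 1 from minpoly.monic hint, one_smul] at h0
    simpa [Algebra.smul_def] using h0
  have heval : ((g.map (algebraMap ℚ Qb)).map (emb l)).eval (α : Cl l) =
      ∑ i ∈ Finset.range n,
        algebraMap ℚ_[l] (Cl l) ((c i : ℚ_[l]) - f.coeff i) * (α : Cl l) ^ i := by
    simp only [g, Polynomial.map_add, Polynomial.map_pow, Polynomial.map_X, Polynomial.map_sum,
      Polynomial.map_mul, Polynomial.map_C, Polynomial.eval_add, Polynomial.eval_pow,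
      Polynomial.eval_X, Polynomial.eval_finsetSum, Polynomial.eval_mul, Polynomial.eval_C, he,
      map_sub, sub_mul, Finset.sum_sub_distrib]
    linear_combination hzero
  rw [heval]
  refine lt_of_le_of_lt (IsUltrametricDist.norm_sum_le_of_forall_le_of_nonempty
    ⟨0, Finset.mem_range.2 hn⟩ (C := (Finset.range n).sup' ⟨0, Finset.mem_range.2 hn⟩
      fun i => ‖(c i : ℚ_[l]) - f.coeff i‖ * C) fun i hi => ?_) ?_
  · refine le_trans ?_ (Finset.le_sup' (fun i => ‖(c i : ℚ_[l]) - f.coeff i‖ * C) hi)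
    rw [norm_mul, norm_pow, show algebraMap ℚ_[l] (Cl l) ((c i : ℚ_[l]) - f.coeff i) =
      ((((c i : ℚ_[l]) - f.coeff i : ℚ_[l]) : PadicAlgCl l) : Cl l) from rfl,
      PadicComplex.norm_extends']
    refine mul_le_mul_of_nonneg_left ?_ (norm_nonneg _)
    exact (pow_le_pow_left₀ (norm_nonneg _) (le_max_right _ _) i).trans
      (pow_le_pow_right₀ (le_max_left _ _) (Finset.mem_range.1 hi).le)
  · rw [Finset.sup'_lt_iff]
    intro i _
    rw [← lt_div_iff₀ hC, norm_sub_rev]
    exact hc i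

/-- **The algebraic numbers are dense.** -/
theorem denseRange_emb : DenseRange (emb l) := by
  rw [Metric.denseRange_iff]
  intro x ε hε
  obtain ⟨α, hα⟩ := Metric.denseRange_iff.1 (UniformSpace.Completion.denseRange_coe) x ε hε
  obtain ⟨g, hg, hdeg, hsmall⟩ := exists_monic_small l α hε
  have hsplit : (g.map (algebraMap ℚ Qb)).Splits := IsAlgClosed.splits _
  have hprod := hsplit.eq_prod_roots_of_monic (hg.map _)
  rw [hprod, Polynomial.map_multiset_prod, Polynomial.eval_multiset_prod, Multiset.map_map,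
    Multiset.map_map] at hsmall
  simp only [Function.comp_def, Polynomial.map_sub, Polynomial.map_X, Polynomial.map_C,
    Polynomial.eval_sub, Polynomial.eval_X, Polynomial.eval_C] at hsmall
  have hcard : Multiset.card (g.map (algebraMap ℚ Qb)).roots = g.natDegree := by
    rw [← hsplit.natDegree_eq_card_roots, Polynomial.natDegree_map]
  obtain ⟨β, -, hβ⟩ : ∃ β ∈ (g.map (algebraMap ℚ Qb)).roots, ‖(α : Cl l) - emb l β‖ < ε := by
    by_contra hno
    push Not at hno
    refine absurd hsmall (not_lt.2 ?_)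
    rw [show ‖(Multiset.map (fun y => (α : Cl l) - emb l y) (g.map (algebraMap ℚ Qb)).roots).prod‖ =
      (Multiset.map (fun y => ‖(α : Cl l) - emb l y‖) (g.map (algebraMap ℚ Qb)).roots).prod from
        (map_multiset_prod (normHom : Cl l →*₀ ℝ) _).trans (by rw [Multiset.map_map]; rfl),
      ← hcard]
    have key : ∀ s : Multiset Qb, (∀ b ∈ s, ε ≤ ‖(α : Cl l) - emb l b‖) →
        ε ^ Multiset.card s ≤ (s.map fun b => ‖(α : Cl l) - emb l b‖).prod := by
      intro s
      induction s using Multiset.induction_on with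
      | empty => intro _; simp
      | cons b s ih =>
        intro hs
        rw [Multiset.card_cons, Multiset.map_cons, Multiset.prod_cons, pow_succ']
        exact mul_le_mul (hs b (Multiset.mem_cons_self b s))
          (ih fun c hc => hs c (Multiset.mem_cons_of_mem hc)) (pow_nonneg hε.le _) (norm_nonneg _)
    exact key _ hno
  refine ⟨β, lt_of_le_of_lt (dist_triangle_max x (α : Cl l) (emb l β)) (max_lt hα ?_)⟩
  rw [dist_eq_norm]
  exact hβ

/-- The decomposition group. -/
abbrev decGp : Subgroup GQ := (placeAt l).decompositionSubgroup ℚ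

/-- The inertia group. -/
abbrev inGp : Subgroup GQ := (placeAt l).inertiaSubgroupIn ℚ

theorem inGp_le : inGp l ≤ decGp l := by
  rintro _ ⟨τ, -, rfl⟩
  exact τ.2

theorem inGp_conj {σ τ : GQ} (hσ : σ ∈ decGp l) (hτ : τ ∈ inGp l) : σ * τ * σ⁻¹ ∈ inGp l := by
  obtain ⟨t, ht, rfl⟩ := hτ
  refine ⟨(⟨σ, hσ⟩ : decGp l) * t * (⟨σ, hσ⟩ : decGp l)⁻¹, ?_, rfl⟩
  exact (MonoidHom.normal_ker _).conj_mem t ht ⟨σ, hσ⟩

variable {l}

theorem mem_placeAt_smul {σ : GQ} (hσ : σ ∈ decGp l) {x : Qb} (hx : x ∈ placeAt l) :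
    σ x ∈ placeAt l := by
  have := ValuationSubring.smul_mem_pointwise_smul σ x (placeAt l) hx
  rwa [show σ • placeAt l = placeAt l from hσ] at this

theorem norm_emb_le_iff {σ : GQ} (hσ : σ ∈ decGp l) {x y : Qb} :
    ‖emb l (σ x)‖ ≤ ‖emb l (σ y)‖ ↔ ‖emb l x‖ ≤ ‖emb l y‖ := by
  have key : ∀ {σ : GQ}, σ ∈ decGp l → ∀ {x y : Qb}, ‖emb l x‖ ≤ ‖emb l y‖ →
      ‖emb l (σ x)‖ ≤ ‖emb l (σ y)‖ := by
    intro σ hσ x y h
    rcases eq_or_ne y 0 with rfl | hy
    · simp only [map_zero, norm_zero, norm_le_zero_iff, map_eq_zero] at h ⊢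
      exact h
    have h2 : x / y ∈ placeAt l := by
      rw [mem_placeAt, map_div₀, norm_div, div_le_one₀ (norm_pos_iff.2 ((map_ne_zero _).2 hy))]
      exact h
    have h3 : ‖emb l (σ (x / y))‖ ≤ 1 := mem_placeAt_smul hσ h2
    rwa [map_div₀, map_div₀, norm_div,
      div_le_one₀ (norm_pos_iff.2 ((map_ne_zero _).2 ((map_ne_zero σ).2 hy)))] at h3
  refine ⟨fun h => ?_, key hσ⟩
  have := key (inv_mem hσ) h
  rwa [show σ⁻¹ (σ x) = x from σ.symm_apply_apply x,
    show σ⁻¹ (σ y) = y from σ.symm_apply_apply y] at this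

/-- **The decomposition group acts isometrically.** -/
theorem norm_emb_smul {σ : GQ} (hσ : σ ∈ decGp l) (x : Qb) : ‖emb l (σ x)‖ = ‖emb l x‖ := by
  set L := ‖((l : ℕ) : Cl l)‖ with hL
  have hL0 : 0 < L := norm_natCast_pos l
  have hL1 : L < 1 := norm_natCast_lt_one l
  have hzp : ∀ (m : ℤ) (y : Qb), (‖emb l (σ y)‖ ≤ L ^ m ↔ ‖emb l y‖ ≤ L ^ m) ∧
      (L ^ m ≤ ‖emb l (σ y)‖ ↔ L ^ m ≤ ‖emb l y‖) := fun m y => by
    have e : ‖emb l ((l : Qb) ^ m)‖ = L ^ m := by rw [map_zpow₀, norm_zpow, map_natCast]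
    have e' : ‖emb l (σ ((l : Qb) ^ m))‖ = L ^ m := by
      rw [map_zpow₀, map_natCast, e]
    rw [← e', norm_emb_le_iff hσ, norm_emb_le_iff hσ, e']
    exact ⟨by rw [e], by rw [e]⟩
  rcases eq_or_ne x 0 with rfl | hx
  · simp
  have hx' : 0 < ‖emb l x‖ := norm_pos_iff.2 ((map_ne_zero _).2 hx)
  have hσx : 0 < ‖emb l (σ x)‖ := norm_pos_iff.2 ((map_ne_zero _).2 ((map_ne_zero σ).2 hx))
  have main : ∀ n : ℕ, (‖emb l (σ x)‖ / ‖emb l x‖) ^ n ≤ L⁻¹ ∧
      (‖emb l x‖ / ‖emb l (σ x)‖) ^ n ≤ L⁻¹ := fun n => by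
    obtain ⟨m, hm1, hm2⟩ := exists_mem_Ioc_zpow (pow_pos hx' n) (one_lt_inv_iff₀.2 ⟨hL0, hL1⟩)
    simp only [inv_zpow'] at hm1 hm2
    have h1 : L ^ (-m) ≤ ‖emb l (σ (x ^ n))‖ :=
      (hzp _ _).2.2 (by rw [map_pow, norm_pow]; exact hm1.le)
    have h2 : ‖emb l (σ (x ^ n))‖ ≤ L ^ (-(m + 1)) :=
      (hzp _ _).1.2 (by rw [map_pow, norm_pow]; exact hm2)
    rw [map_pow, map_pow, norm_pow] at h1 h2
    have e : L ^ (-(m + 1)) = L⁻¹ * L ^ (-m) := by
      rw [neg_add, zpow_add₀ hL0.ne', zpow_neg_one, mul_comm]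
    rw [div_pow, div_pow, div_le_iff₀ (pow_pos hx' n), div_le_iff₀ (pow_pos hσx n)]
    constructor
    · exact h2.trans (e ▸ mul_le_mul_of_nonneg_left hm1.le (inv_nonneg.2 hL0.le))
    · exact hm2.trans (e ▸ mul_le_mul_of_nonneg_left h1 (inv_nonneg.2 hL0.le))
  have hle : ∀ a : ℝ, (∀ n : ℕ, a ^ n ≤ L⁻¹) → a ≤ 1 := fun a ha => by
    by_contra hlt
    obtain ⟨n, hn⟩ := pow_unbounded_of_one_lt L⁻¹ (not_le.1 hlt)
    exact absurd (ha n) (not_le.2 hn)
  refine le_antisymm ?_ ?_
  · exact (div_le_one₀ hx').1 (hle _ fun n => (main n).1)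
  · exact (div_le_one₀ hσx).1 (hle _ fun n => (main n).2)

variable (l)

/-- The algebraic numbers inside `ℂ_l`. -/
abbrev embField : Subfield (Cl l) := (emb l).fieldRange

/-- The inverse of the inclusion. -/
def embEquiv : Qb ≃+* embField l :=
  RingEquiv.ofBijective (emb l).rangeRestrictField
    ⟨fun _ _ h => (emb l).injective (congrArg Subtype.val h), (emb l).rangeRestrictField_bijective.2⟩

theorem coe_embEquiv (x : Qb) : ((embEquiv l x : embField l) : Cl l) = emb l x := rfl

theorem coe_embEquiv_symm (a : embField l) : emb l ((embEquiv l).symm a) = (a : Cl l) := by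
  rw [← coe_embEquiv, RingEquiv.apply_symm_apply]

/-- An element of the decomposition group on the algebraic numbers in `ℂ_l`. -/
def galSub (σ : GQ) : embField l →+* Cl l :=
  (emb l).comp ((σ : Qb ≃+* Qb).toRingHom.comp (embEquiv l).symm.toRingHom)

theorem denseRange_embField : DenseRange (embField l).subtype := by
  refine (denseRange_emb l).mono ?_
  rintro _ ⟨x, rfl⟩
  exact ⟨embEquiv l x, rfl⟩

variable {l}

theorem isometry_galSub {σ : GQ} (hσ : σ ∈ decGp l) : Isometry (galSub l σ) := by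
  refine Isometry.of_dist_eq fun a b => ?_
  rw [dist_eq_norm, ← map_sub, Subtype.dist_eq, dist_eq_norm]
  show ‖emb l (σ ((embEquiv l).symm (a - b)))‖ = _
  rw [norm_emb_smul hσ, coe_embEquiv_symm]
  rfl

/-- The extension to `ℂ_l`. -/
def galExt {σ : GQ} (hσ : σ ∈ decGp l) : Cl l →+* Cl l :=
  IsDenseInducing.extendRingHom (i := (embField l).subtype) (f := galSub l σ)
    isometry_subtype_coe.isUniformInducing (denseRange_embField l)
    (isometry_galSub hσ).uniformContinuous

theorem continuous_galExt {σ : GQ} (hσ : σ ∈ decGp l) : Continuous (galExt hσ) :=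
  (uniformContinuous_uniformly_extend
    (isometry_subtype_coe (s := (embField l : Set (Cl l)))).isUniformInducing
    (denseRange_embField l) (isometry_galSub hσ).uniformContinuous).continuous

theorem galExt_emb {σ : GQ} (hσ : σ ∈ decGp l) (x : Qb) :
    galExt hσ (emb l x) = emb l (σ x) := by
  refine (IsDenseInducing.extend_eq
    ((isometry_subtype_coe (s := (embField l : Set (Cl l)))).isUniformInducing.isDenseInducing
      (denseRange_embField l)) (isometry_galSub hσ).continuous (embEquiv l x)).trans ?_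
  show emb l (σ ((embEquiv l).symm (embEquiv l x))) = _
  rw [RingEquiv.symm_apply_apply]

theorem norm_galExt {σ : GQ} (hσ : σ ∈ decGp l) (x : Cl l) : ‖galExt hσ x‖ = ‖x‖ :=
  (denseRange_emb l).induction_on x
    (isClosed_eq (continuous_norm.comp (continuous_galExt hσ)) continuous_norm)
    fun a => by rw [galExt_emb, norm_emb_smul hσ]

theorem galExt_mul {σ τ : GQ} (hσ : σ ∈ decGp l) (hτ : τ ∈ decGp l) (x : Cl l) :
    galExt (mul_mem hσ hτ) x = galExt hσ (galExt hτ x) :=
  (denseRange_emb l).induction_on x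
    (isClosed_eq (continuous_galExt _) ((continuous_galExt hσ).comp (continuous_galExt hτ)))
    fun a => by rw [galExt_emb, galExt_emb, galExt_emb, AlgEquiv.mul_apply]

theorem galExt_one (x : Cl l) : galExt (one_mem (decGp l)) x = x :=
  (denseRange_emb l).induction_on x (isClosed_eq (continuous_galExt _) continuous_id)
    fun a => by rw [galExt_emb, AlgEquiv.one_apply]

theorem galExt_congr {σ τ : GQ} (h : σ = τ) (hσ : σ ∈ decGp l) (hτ : τ ∈ decGp l) (x : Cl l) :
    galExt hσ x = galExt hτ x := by subst h; rfl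

theorem galExt_inv_apply {σ : GQ} (hσ : σ ∈ decGp l) (x : Cl l) :
    galExt hσ (galExt (inv_mem hσ) x) = x := by
  rw [← galExt_mul, galExt_congr (mul_inv_cancel σ) _ (one_mem _), galExt_one]

theorem galExt_apply_inv {σ : GQ} (hσ : σ ∈ decGp l) (x : Cl l) :
    galExt (inv_mem hσ) (galExt hσ x) = x := by
  rw [← galExt_mul, galExt_congr (inv_mul_cancel σ) _ (one_mem _), galExt_one]

/-- The extension on the unit ball. -/
def galBall {σ : GQ} (hσ : σ ∈ decGp l) : unitBall (Cl l) →+* unitBall (Cl l) :=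
  ((galExt hσ).comp (unitBall (Cl l)).subtype).codRestrict (unitBall (Cl l))
    fun x => (norm_galExt hσ (x : Cl l)).trans_le x.2

theorem coe_galBall {σ : GQ} (hσ : σ ∈ decGp l) (x : unitBall (Cl l)) :
    ((galBall hσ x : unitBall (Cl l)) : Cl l) = galExt hσ x := rfl

theorem continuous_galBall {σ : GQ} (hσ : σ ∈ decGp l) : Continuous (galBall hσ) :=
  ((continuous_galExt hσ).comp continuous_subtype_val).subtype_mk _

theorem galExt_natCast {σ : GQ} (hσ : σ ∈ decGp l) (m : ℕ) : galExt hσ (m : Cl l) = m :=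
  map_natCast _ m

/-- The `l`-adic integers in `ℂ_l`. -/
def padicEmb (l : ℕ) [Fact l.Prime] : ℤ_[l] →+* Cl l :=
  (algebraMap ℚ_[l] (Cl l)).comp PadicInt.Coe.ringHom

theorem norm_padicEmb (x : ℤ_[l]) : ‖padicEmb l x‖ = ‖x‖ := by
  show ‖((((x : ℚ_[l]) : PadicAlgCl l)) : Cl l)‖ = _
  rw [PadicComplex.norm_extends']
  rfl

theorem isometry_padicEmb : Isometry (padicEmb l) :=
  AddMonoidHomClass.isometry_of_norm (padicEmb l) norm_padicEmb

theorem galExt_padicEmb {σ : GQ} (hσ : σ ∈ decGp l) (x : ℤ_[l]) :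
    galExt hσ (padicEmb l x) = padicEmb l x :=
  PadicInt.denseRange_natCast.induction_on x
    (isClosed_eq ((continuous_galExt hσ).comp isometry_padicEmb.continuous)
      isometry_padicEmb.continuous)
    fun n => by rw [map_natCast, galExt_natCast]

end FA.Mazur

end
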