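import Fermat.Agent.Mazur.Counting

/-!
# Cocycles on the levels are bounded multiples away from coboundaries on inertia at `p`

The Frobenius element at `p` and the tame generator force the value of a cocycle at the generator
into the fixed vectors up to a bounded factor, and the fixed vectors are the moved ones up to a
bounded power of `l`.
-/

set_option autoImplicit false
set_option linter.style.haveILetI false
set_option linter.unusedSectionVars false

noncomputable section

namespace FA.Mazur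

open ModularCurve AlgebraicCurve FA.Curve FA.CurveRed FA.ModField FA.Level FA.JTorsion

set_option synthInstance.maxHeartbeats 400000
set_option maxHeartbeats 2000000

local notation "Qb" => AlgebraicClosure ℚ
local notation "GQ" => AlgebraicClosure ℚ ≃ₐ[ℚ] AlgebraicClosure ℚ

section Affine

variable {B : Type} [AddCommGroup B] [DistribMulAction GQ B]

/-- The affine action of a cocycle. -/
def affineRep (c : GQ → B) (hc : ∀ σ τ, c (σ * τ) = c σ + σ • c τ) : GQ →* Function.End B where
  toFun σ := fun b : B => σ • b + c σ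
  map_one' := funext fun b => by
    have h := hc 1 1
    rw [one_mul, one_smul, left_eq_add] at h
    show (1 : GQ) • b + c 1 = b
    rw [one_smul, h, add_zero]
  map_mul' σ τ := funext fun b => by
    show (σ * τ) • b + c (σ * τ) = σ • (τ • b + c τ) + c σ
    rw [hc, mul_smul, smul_add]; abel

theorem affineRep_apply (c : GQ → B) (hc : ∀ σ τ, c (σ * τ) = c σ + σ • c τ) (σ : GQ) (b : B) :
    affineRep c hc σ b = σ • b + c σ := rfl

/-- Equal affine actions have equal values and actions. -/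
theorem eq_of_affineRep {c : GQ → B} {hc : ∀ σ τ, c (σ * τ) = c σ + σ • c τ} {σ τ : GQ}
    (h : affineRep c hc σ = affineRep c hc τ) : c σ = c τ ∧ ∀ b : B, σ • b = τ • b := by
  have h0 : c σ = c τ := by simpa [affineRep_apply] using congrFun h 0
  refine ⟨h0, fun b => ?_⟩
  have hb := congrFun h b
  rw [affineRep_apply, affineRep_apply, h0] at hb
  exact add_right_cancel hb

/-- Powers of a unipotent element. -/
theorem pow_smul_unip {s : GQ} (hs : ∀ b : B, s • (s • b - b) = s • b - b) (n : ℕ) (b : B) :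
    s ^ n • b = b + n • (s • b - b) := by
  induction n with
  | zero => rw [pow_zero, one_smul, zero_nsmul, add_zero]
  | succ n ih =>
    rw [pow_succ', mul_smul, ih, smul_add, smul_comm s n (s • b - b), hs, succ_nsmul]; abel

/-- The values at powers of a unipotent element. -/
theorem cocycle_pow_unip {c : GQ → B} (hc : ∀ σ τ, c (σ * τ) = c σ + σ • c τ) {s : GQ}
    (hs : ∀ b : B, s • (s • b - b) = s • b - b) (n : ℕ) :
    c (s ^ n) = n • c s + n.choose 2 • (s • c s - c s) := by
  induction n with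
  | zero =>
    have h := hc 1 1
    rw [one_mul, one_smul, left_eq_add] at h
    rw [pow_zero, h, zero_nsmul, Nat.choose_zero_succ, zero_nsmul, add_zero]
  | succ n ih =>
    rw [pow_succ, hc, ih, pow_smul_unip hs, Nat.choose_succ_succ', Nat.choose_one_right, succ_nsmul,
      add_nsmul]
    abel

/-- Unipotent elements have `l`-power order in the affine action. -/
theorem affineRep_order {c : GQ → B} (hc : ∀ σ τ, c (σ * τ) = c σ + σ • c τ) {s : GQ}
    (hs : ∀ b : B, s • (s • b - b) = s • b - b) {l k : ℕ} (hk : ∀ b : B, l ^ k • b = 0) :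
    affineRep c hc s ^ l ^ (k + k) = 1 := by
  set a := s ^ l ^ k
  have ha : ∀ b : B, a • b = b := fun b => by rw [pow_smul_unip hs, hk, add_zero]
  have hm : ∀ m : ℕ, c (a ^ m) = m • c a := fun m => by
    rw [cocycle_pow_unip hc (fun b => by rw [ha b, sub_self, smul_zero]), ha, sub_self, nsmul_zero,
      add_zero]
  rw [← map_pow, pow_add, pow_mul]
  refine funext fun b => ?_
  show a ^ l ^ k • b + c (a ^ l ^ k) = b
  rw [hm, hk, add_zero, pow_smul_unip (fun b => by rw [ha b, sub_self, smul_zero]), ha, sub_self,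
    nsmul_zero, add_zero]

end Affine

variable [Algebra (AlgebraicClosure ℚ) ℂ]
variable {p : ℕ} [Fact p.Prime] {l : ℕ} [hl : Fact l.Prime]
  [Algebra (AlgebraicClosure ℚ) (PadicComplex l)]
variable (hn : l ∣ eisensteinNumerator p) (hlp : ¬ l ∣ p)
include hlp

/-- The affine action on a level has open kernel. -/
theorem isOpen_ker_affine (j : ℕ) {c : GQ → tauG hn j} (hc : IsCocycle c) :
    IsOpen ((affineRep c hc.map_mul).ker : Set GQ) := by
  haveI : NeZero (l ^ j) := ⟨pow_ne_zero _ hl.out.ne_zero⟩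
  obtain ⟨E, hE, hEact⟩ := exists_field_galMod p (∅ : Set ℕ) (l ^ j)
  obtain ⟨E', hE', hEc⟩ := hc.cts
  haveI := hE
  haveI := hE'
  refine Subgroup.isOpen_mono (H₁ := (E ⊔ E').fixingSubgroup) (fun τ hτ => ?_)
    (IntermediateField.fixingSubgroup_isOpen _)
  have hfix := (IntermediateField.mem_fixingSubgroup_iff _ _).1 hτ
  refine MonoidHom.mem_ker.2 (funext fun b => ?_)
  show τ • b + c τ = b
  rw [hEc τ fun x hx => hfix x ((le_sup_right : E' ≤ E ⊔ E') hx), add_zero]
  refine Subtype.ext ?_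
  obtain ⟨q, hq⟩ := exists_toTors_of_nsmul (congrArg Subtype.val (pow_nsmul_tauG hn j b))
  rw [coe_tauG_smul, ← hq, ← toTors_galMod, hEact τ fun x hx => hfix x ((le_sup_left : E ≤ E ⊔ E') hx),
    Module.End.one_apply]

theorem affine_inertia_order {Ap : ValuationSubring Qb} (hAp : Ap.LiesOverPrime p) (j : ℕ)
    {c : GQ → tauG hn j} (hc : IsCocycle c) :
    ∀ σ ∈ Ap.inertiaSubgroupIn ℚ, ∃ m : ℕ, affineRep c hc.map_mul σ ^ l ^ m = 1 := fun σ hσ =>
  ⟨j + j, affineRep_order hc.map_mul ((isAdm_tauG hn hlp hAp j).unip σ hσ) (pow_nsmul_tauG hn j)⟩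

/-- The relation of Frobenius and the generator on a level. -/
theorem affine_tame {Ap : ValuationSubring Qb} (hAp : Ap.LiesOverPrime p) {φ : GQ}
    (hφ : Ap.IsFrobeniusAt φ p) (j : ℕ) {c : GQ → tauG hn j} (hc : IsCocycle c) :
    c (φ * sigP (l := l) hlp hAp) = c (sigP (l := l) hlp hAp ^ p * φ) ∧
      ∀ b : tauG hn j, (φ * sigP (l := l) hlp hAp) • b = (sigP (l := l) hlp hAp ^ p * φ) • b := by
  refine eq_of_affineRep (hc := hc.map_mul) ?_
  rw [map_mul, map_mul, map_pow]
  exact FA.RT.tame_relation (affineRep c hc.map_mul) hl.out Fact.out (fun h => hlp (h ▸ dvd_rfl)) hAp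
    (isOpen_ker_affine hn hlp j hc) (affine_inertia_order hn hlp hAp j hc) hφ
    (sigP_mem hlp hAp)

/-- Frobenius and the generator on the lattice. -/
theorem rhoM_frob_moved {Ap : ValuationSubring Qb} (hAp : Ap.LiesOverPrime p) {φ : GQ}
    (hφ : Ap.IsFrobeniusAt φ p) (v : EisM p l hn) :
    rhoM p l hn φ (rhoM p l hn φ (rhoM p l hn (sigP (l := l) hlp hAp) v - v)) =
      p ^ 2 • (rhoM p l hn (sigP (l := l) hlp hAp) v - v) := by
  set s := sigP (l := l) hlp hAp
  set ρs := rhoM p l hn s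
  set F := rhoM p l hn φ
  set Fi := rhoM p l hn φ⁻¹
  have hpl : p ≠ l := fun h => hlp (h ▸ dvd_rfl)
  have hNN : ∀ x, ρs (ρs x - x) = ρs x - x := fun x =>
    (mem_kerP hn hlp hAp).1 (range_le_kerP hn hlp hAp x)
  -- moving past Frobenius
  have hA : ∀ x, F (ρs x - x) = p • (ρs (F x) - F x) := fun x => by
    refine sub_eq_zero.1 (eq_zero_of_forall_pow_smul l fun k => ?_)
    have h := congrArg Subtype.val
      ((affine_tame hn hlp hAp hφ k (c := 0) IsCocycle.zero).2 ⟨tauM p l hn k x, x, rfl⟩)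
    rw [mul_smul, mul_smul, pow_smul_unip ((isAdm_tauG hn hlp hAp k).unip s (sigP_mem hlp hAp))]
      at h
    simp only [coe_tauG_smul, AddSubgroup.coe_add, AddSubgroupClass.coe_nsmul,
      AddSubgroupClass.coe_sub, ← tauM_rhoM, ← map_sub, ← map_nsmul, ← map_add] at h
    obtain ⟨u, hu⟩ := (tauM_eq_zero_iff p l hn (k := k)
      (v := F (ρs x - x) - p • (ρs (F x) - F x))).1 (by
        simp only [ρs, F]
        rw [map_sub (rhoM p l hn φ), map_sub, map_sub, h, map_add, add_sub_cancel_left, sub_self])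
    exact ⟨u, hu.symm⟩
  have hinv : ∀ x, F (Fi x) = x ∧ Fi (F x) = x := fun x => by
    constructor <;>
      rw [← Module.End.mul_apply, ← map_mul] <;>
      simp only [mul_inv_cancel, inv_mul_cancel, map_one, Module.End.one_apply]
  have hsi : ∀ x, rhoM p l hn s⁻¹ x = x - (ρs x - x) := fun x => by
    have e : ρs (x - (ρs x - x)) = x := by rw [map_sub, hNN]; abel
    conv_lhs => rw [← e]
    rw [← Module.End.mul_apply, ← map_mul, inv_mul_cancel, map_one, Module.End.one_apply]
  have hB : ∀ x, ρs (Fi x) - Fi x = p • Fi (ρs x - x) := fun x => by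
    have h := congrArg Fi (hA (Fi x))
    rw [(hinv x).1, (hinv (ρs (Fi x) - Fi x)).2, map_nsmul] at h
    exact h
  -- the relations
  have hcs : (cycP l s : ℤ_[l]) = 1 := by
    rw [cycP_inertia l Fact.out hpl hAp (sigP_mem hlp hAp), Units.val_one]
  have hcF : (cycP l φ : ℤ_[l]) = (p : ℤ_[l]) := cycP_frobenius l Fact.out hpl hAp hφ
  have hchi : ∀ (g : GQ) (y : EisM p l hn), (chiR p l hn g : EisR p l hn) • y =
      (cycP l g : ℤ_[l]) • y := fun g y => algebraMap_smul _ _ _
  set δ := tR p l hn (φ * s) - tR p l hn φ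
  have hδ1 : ∀ x : EisM p l hn, δ • x = F (ρs x - x) - p • (ρs (Fi x) - Fi x) := fun x => by
    have h1 := LinearMap.congr_fun (relOp_eq p l hn (φ * s)) x
    have h0 := LinearMap.congr_fun (relOp_eq p l hn φ) x
    simp only [LinearMap.add_apply, LinearMap.smul_apply, Module.End.one_apply, mul_inv_rev,
      map_mul (rhoM p l hn), Module.End.mul_apply, hsi] at h1 h0
    rw [hchi, map_mul, Units.val_mul, hcs, mul_one, hcF, Nat.cast_smul_eq_nsmul] at h1
    rw [hchi, hcF, Nat.cast_smul_eq_nsmul] at h0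
    simp only [δ, sub_smul, ← h1, ← h0, map_sub, nsmul_sub, F, Fi, ρs]
    abel
  have hδ2 : ∀ x : EisM p l hn, δ • x = (ρs (F x) - F x) - p • Fi (ρs x - x) := fun x => by
    have hc : tR p l hn (φ * s) • x = ρs (tR p l hn (φ * s) • rhoM p l hn s⁻¹ x) := by
      rw [map_smul, ← Module.End.mul_apply ρs, ← map_mul, mul_inv_cancel, map_one,
        Module.End.one_apply]
    have h1 := LinearMap.congr_fun (relOp_eq p l hn (φ * s)) (rhoM p l hn s⁻¹ x)
    have h0 := LinearMap.congr_fun (relOp_eq p l hn φ) x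
    simp only [LinearMap.add_apply, LinearMap.smul_apply, Module.End.one_apply, mul_inv_rev,
      map_mul (rhoM p l hn), Module.End.mul_apply] at h1 h0
    rw [hchi, map_mul, Units.val_mul, hcs, mul_one, hcF, Nat.cast_smul_eq_nsmul] at h1
    rw [hchi, hcF, Nat.cast_smul_eq_nsmul] at h0
    have e1 : ρs (rhoM p l hn s⁻¹ x) = x := by
      rw [← Module.End.mul_apply, ← map_mul, mul_inv_cancel, map_one, Module.End.one_apply]
    have e2 : ∀ y, ρs (rhoM p l hn s⁻¹ y) = y := fun y => by
      rw [← Module.End.mul_apply, ← map_mul, mul_inv_cancel, map_one, Module.End.one_apply]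
    rw [e1] at h1
    rw [← h1, map_add, map_nsmul, e2, hsi x, map_sub] at hc
    simp only [δ, sub_smul, hc, ← h0, map_sub, nsmul_sub, F, Fi, ρs]
    abel
  have hδ0 : ∀ x : EisM p l hn, δ • x = 0 := fun x => by
    have e1 := hδ1 x
    rw [hA, ← nsmul_sub] at e1
    have e2 := hδ2 x
    rw [← hB] at e2
    rw [← e2] at e1
    have h : ((p : ℤ_[l]) - 1) • (δ • x) = 0 := by
      rw [sub_smul, one_smul, Nat.cast_smul_eq_nsmul, ← e1, sub_self]
    refine (smul_eq_zero.1 h).resolve_left (sub_ne_zero.2 ?_)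
    exact_mod_cast (Fact.out : p.Prime).ne_one
  have hNF : ρs (F (F v)) - F (F v) = ρs v - v := by
    have h := hδ2 (F v)
    rw [hδ0, ← hB, (hinv v).2, eq_comm, sub_eq_zero] at h
    exact h
  rw [hA, map_nsmul, hA, hNF, ← mul_nsmul', ← pow_two]

/-- The fixed vectors are moved ones up to a bounded power of `l`. -/
theorem exists_kerP_le_range {Ap : ValuationSubring Qb} (hAp : Ap.LiesOverPrime p) :
    ∃ e : ℕ, ∀ k ∈ kerP hn hlp hAp, ∃ w : EisM p l hn,
      (l : ℤ_[l]) ^ e • k = rhoM p l hn (sigP (l := l) hlp hAp) w - w := by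
  classical
  set s := sigP (l := l) hlp hAp
  set N := (rhoM p l hn s - 1).restrictScalars ℤ_[l]
  have hle : LinearMap.range N ≤ kerP hn hlp hAp := by
    rintro _ ⟨v, rfl⟩
    exact range_le_kerP hn hlp hAp v
  have hrk := (exists_count_bound hn hlp hAp).1
  have h2 := N.quotKerEquivRange.finrank_eq
  have h3 := Submodule.finrank_quotient_add_finrank (LinearMap.ker N)
  rw [finrank_eisM, h2] at h3
  change _ + Module.finrank ℤ_[l] (kerP hn hlp hAp) = _ at h3
  set S := (LinearMap.range N).comap (kerP hn hlp hAp).subtype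
  have hS : Module.finrank ℤ_[l] S = Module.finrank ℤ_[l] (LinearMap.range N) :=
    (Submodule.comapSubtypeEquivOfLe hle).finrank_eq
  haveI : Module.Finite ℤ_[l] (kerP hn hlp hAp) := Module.Finite.of_fg (IsNoetherian.noetherian _)
  have h4 := Submodule.finrank_quotient_add_finrank S
  have h5 : Module.finrank ℤ_[l] (kerP hn hlp hAp ⧸ S) = 0 := by omega
  rw [Module.finrank_eq_zero_iff] at h5
  obtain ⟨gens, hgens⟩ := (Module.finite_def.1 (inferInstance :
    Module.Finite ℤ_[l] (kerP hn hlp hAp)))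
  choose a ha hag using fun g : kerP hn hlp hAp => h5 (Submodule.Quotient.mk g)
  set A := ∏ g ∈ gens, a g
  have hA : A ≠ 0 := Finset.prod_ne_zero_iff.2 fun g _ => ha g
  have hAk : ∀ k : kerP hn hlp hAp, A • k ∈ S := by
    intro k
    have hk : k ∈ Submodule.span ℤ_[l] (gens : Set (kerP hn hlp hAp)) := hgens.symm ▸ Submodule.mem_top
    induction hk using Submodule.span_induction with
    | mem g hg =>
      rw [show A = (∏ x ∈ gens.erase g, a x) * a g from (Finset.prod_erase_mul _ _ hg).symm, mul_smul]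
      refine Submodule.smul_mem _ _ ((Submodule.Quotient.mk_eq_zero S).1 ?_)
      rw [Submodule.Quotient.mk_smul]
      exact hag g
    | zero => rw [smul_zero]; exact zero_mem _
    | add x y _ _ hx hy => rw [smul_add]; exact add_mem hx hy
    | smul c x _ hx => rw [smul_comm]; exact Submodule.smul_mem _ _ hx
  refine ⟨A.valuation, fun k hk => ?_⟩
  obtain ⟨w, hw⟩ := hAk ⟨k, hk⟩
  refine ⟨(↑(PadicInt.unitCoeff hA)⁻¹ : ℤ_[l]) • w, ?_⟩
  rw [LinearMap.map_smul_of_tower, ← smul_sub]
  change rhoM p l hn s w - w = A • k at hw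
  rw [hw, smul_smul]
  refine congrArg (· • k) ?_
  have hspec := PadicInt.unitCoeff_spec hA
  exact (Units.inv_mul_eq_iff_eq_mul _).2 hspec |>.symm

set_option maxHeartbeats 4000000 in
/-- **Bounded multiples of cocycles are coboundaries on inertia at `p`.** -/
theorem exists_local_bound {Ap : ValuationSubring Qb} (hAp : Ap.LiesOverPrime p) :
    ∃ E : ℕ, E ≠ 0 ∧ ∀ (j : ℕ) (c : GQ → tauG hn j), IsCocycle c →
      ∃ g : tauG hn j, ∀ σ ∈ Ap.inertiaSubgroupIn ℚ, E • c σ + (σ • g - g) = 0 := by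
  classical
  obtain ⟨φ, hφ⟩ := FA.Deform.exists_isFrobeniusAt (Fact.out : p.Prime) hAp
  obtain ⟨e', he'⟩ := exists_kerP_le_range hn hlp hAp
  have hp2 := (Fact.out : p.Prime).two_le
  set e := p ^ 4 - p ^ 2
  have hee : e + p ^ 2 = p ^ 4 := Nat.sub_add_cancel (Nat.pow_le_pow_right (by omega) (by omega))
  refine ⟨l ^ (e' + e') * e, mul_ne_zero (pow_ne_zero _ hl.out.ne_zero) (Nat.sub_ne_zero_of_lt
    (Nat.pow_lt_pow_right (by omega) (by omega))), fun j c hc => ?_⟩
  set s := sigP (l := l) hlp hAp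
  have hun := (isAdm_tauG hn hlp hAp j).unip s (sigP_mem hlp hAp)
  set a := c s
  obtain ⟨hc1, hc2⟩ := affine_tame hn hlp hAp hφ j hc
  have hFN : ∀ b : tauG hn j, φ • (s • b - b) = p • (s • (φ • b) - φ • b) := fun b => by
    have h := hc2 b
    rw [mul_smul, mul_smul, pow_smul_unip hun] at h
    rw [smul_sub, h, add_sub_cancel_left]
  rw [hc.map_mul, hc.map_mul, cocycle_pow_unip hc.map_mul hun, pow_smul_unip hun] at hc1
  have hFa : φ • a = p • a + p.choose 2 • (s • a - a) + p • (s • c φ - c φ) := by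
    linear_combination (norm := abel) hc1
  have hN0 : ∀ b : tauG hn j, s • (s • b - b) - (s • b - b) = 0 := fun b => by rw [hun, sub_self]
  have hNFa : s • (φ • a) - φ • a = p • (s • a - a) := by
    rw [hFa, smul_add, smul_add, smul_comm s p a, smul_comm s (p.choose 2), smul_comm s p, hun, hun,
      nsmul_sub (s • a) a p]
    abel
  have hFFN : φ • φ • (s • a - a) = p ^ 4 • (s • a - a) := by
    rw [hFN, hNFa, ← mul_nsmul', smul_comm φ, hFN, hNFa, ← mul_nsmul', ← mul_nsmul',
      ]
    exact congrArg (· • _) (by ring)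
  have hmoved : φ • φ • (s • a - a) = p ^ 2 • (s • a - a) := by
    refine Subtype.ext ?_
    obtain ⟨v, hv⟩ := a.2
    simp only [coe_tauG_smul, AddSubgroupClass.coe_sub, AddSubgroupClass.coe_nsmul, ← hv,
      ← tauM_rhoM, ← map_sub, ← map_nsmul]
    exact congrArg _ (rhoM_frob_moved hn hlp hAp hφ v)
  have hea : e • (s • a - a) = 0 := by
    have h := hFFN.symm.trans hmoved
    rwa [← hee, add_nsmul, add_eq_right] at h
  -- into the fixed vectors
  obtain ⟨v, hv⟩ := (e • a).2
  have hNv : tauM p l hn j (rhoM p l hn s v - v) = 0 := by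
    rw [map_sub, tauM_rhoM, hv, ← coe_tauG_smul, ← AddSubgroupClass.coe_sub, smul_comm s,
      ← nsmul_sub, hea, ZeroMemClass.coe_zero]
  obtain ⟨u, hu⟩ := (tauM_eq_zero_iff p l hn).1 hNv
  have hlj : (l : ℤ_[l]) ^ j ≠ 0 := pow_ne_zero _ (Nat.cast_ne_zero.2 hl.out.ne_zero)
  have huk : u ∈ kerP hn hlp hAp :=
    isSat_kerP hn hlp hAp hlj (hu ▸ range_le_kerP hn hlp hAp v)
  obtain ⟨w, hw⟩ := he' u huk
  set v' := (l : ℤ_[l]) ^ e' • v - (l : ℤ_[l]) ^ j • w
  have hv'k : v' ∈ kerP hn hlp hAp := by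
    rw [mem_kerP, map_sub, LinearMap.map_smul_of_tower, LinearMap.map_smul_of_tower]
    rw [eq_add_of_sub_eq hu, eq_add_of_sub_eq hw.symm, smul_add, smul_add, smul_smul, smul_smul,
      mul_comm]
    simp only [v']
    abel
  obtain ⟨w', hw'⟩ := he' v' hv'k
  have hτv' : tauM p l hn j v' = l ^ e' • ((e • a : tauG hn j) : JZero p) := by
    rw [map_sub, (tauM_eq_zero_iff p l hn (v := (l : ℤ_[l]) ^ j • w)).2 ⟨w, rfl⟩, sub_zero, ← hv,
      ← map_nsmul, ← Nat.cast_smul_eq_nsmul ℤ_[l] (l ^ e'), Nat.cast_pow]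
  set E := l ^ (e' + e') * e
  let g : tauG hn j := -⟨tauM p l hn j w', w', rfl⟩
  refine ⟨g, fun σ hσ => ?_⟩
  have h0 : E • a + (s • g - g) = 0 := by
    refine Subtype.ext ?_
    simp only [g, smul_neg, AddSubgroup.coe_add, AddSubgroupClass.coe_sub, AddSubgroupClass.coe_nsmul,
      NegMemClass.coe_neg, coe_tauG_smul, ZeroMemClass.coe_zero]
    have h1 := congrArg (tauM p l hn j) hw'
    rw [← Nat.cast_pow, Nat.cast_smul_eq_nsmul, map_nsmul, hτv', map_sub, tauM_rhoM,
      AddSubgroupClass.coe_nsmul, ← mul_nsmul', ← mul_nsmul'] at h1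
    simp only [E, pow_add]
    rw [h1]
    abel
  obtain ⟨i, hi⟩ := sigP_gen hlp hAp _ (affineRep c hc.map_mul) (isOpen_ker_affine hn hlp j hc)
    (affine_inertia_order hn hlp hAp j hc) σ hσ
  rw [← map_pow] at hi
  obtain ⟨h1, h2⟩ := eq_of_affineRep hi
  rw [h1, h2]
  clear hi h1 h2
  induction i with
  | zero =>
    have h := hc.map_mul 1 1
    rw [one_mul, one_smul, left_eq_add] at h
    rw [pow_zero, h, nsmul_zero, one_smul, sub_self, add_zero]
  | succ i ih =>
    have h2 : E • (s ^ i • a) + (s ^ i • s • g - s ^ i • g) = 0 := by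
      rw [← smul_comm (s ^ i) E, ← smul_sub, ← smul_add, h0, smul_zero]
    show E • c (s ^ (i + 1)) + (s ^ (i + 1) • g - g) = 0
    clear_value E
    rw [pow_succ, hc.map_mul, mul_smul, nsmul_add]
    show E • c (s ^ i) + E • (s ^ i • a) + (s ^ i • s • g - g) = 0
    have ih' : E • c (s ^ i) + (s ^ i • g - g) = 0 := ih
    linear_combination (norm := abel) ih' + h2

end FA.Mazur

end
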