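import Fermat.Agent.Local.Torsion
import Fermat.Agent.Local.Inertia
import Fermat.Agent.LocalDef.Qbar
import Fermat.Agent.CurveRed.Residue
import Fermat.Prelude.Def_FLTPrelim_GaloisRep

/-!
# Counting the reductions of torsion points

The multiples of a point of order `p` reduce to distinct nonsingular points, so there are at least
`p - 1` pairs of residues, two at most for each abscissa.
-/

set_option autoImplicit false

noncomputable section

namespace FA.Mazur

open WeierstrassCurve FA.Local FA.LocalDef Polynomial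

local notation "Qb" => AlgebraicClosure ℚ

/-- A point of order `p` with the residues of the abscissae of its multiples among the roots of a
polynomial bounds `p`. -/
theorem le_of_residue_roots {A : ValuationSubring Qb} {W : Affine Qb} [WeierstrassCurve.IsElliptic W]
    (hI : IntCoeff A.valuation W) (hΔ : A.valuation W.Δ = 1) {p : ℕ} (hp : p.Prime) (hodd : Odd p)
    (hpv : A.valuation (p : Qb) = 1) {P : W.Point} (hP : P ≠ 0) (hpP : p • P = 0)
    {f : (Res A)[X]} (hf : f ≠ 0)
    (hroots : ∀ (m : ℕ) (x y : Qb) (h : W.Nonsingular x y), m • P = .some x y h →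
      A.valuation x ≤ 1 → f.IsRoot (res A x)) :
    p ≤ 2 * f.natDegree + 1 := by
  classical
  have hord : addOrderOf P = p := by
    rcases (Nat.dvd_prime hp).1 (addOrderOf_dvd_of_nsmul_eq_zero hpP) with h | h
    · exact absurd (AddMonoid.addOrderOf_eq_one_iff.1 h) hP
    · exact h
  have hpt : ∀ i : Fin (p - 1), ∃ (x y : Qb) (h : W.Nonsingular x y),
      ((i : ℕ) + 1) • P = .some x y h ∧ A.valuation x ≤ 1 ∧ A.valuation y ≤ 1 := by
    intro i
    have hne : ((i : ℕ) + 1) • P ≠ 0 := fun h => by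
      have h1 := addOrderOf_dvd_of_nsmul_eq_zero h
      rw [hord] at h1
      have := Nat.le_of_dvd (Nat.succ_pos _) h1
      omega
    rcases hQ : ((i : ℕ) + 1) • P with _ | ⟨x, y, h⟩
    · exact absurd hQ hne
    have hx : A.valuation x ≤ 1 := not_lt.1 fun h1 => by
      refine hne (eq_zero_of_e1_of_nsmul hI hodd hpv ?_ (by rw [smul_comm, hpP, smul_zero]))
      rw [hQ]
      exact h1
    exact ⟨x, y, h, rfl, hx, le_y_of_le_x hI h.1 hx⟩
  choose x y h hxy hx hy using hpt
  set F : Fin (p - 1) → Res A × Res A := fun i => (res A (x i), res A (y i))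
  have hinj : Function.Injective F := by
    intro i j hij
    obtain ⟨h1, h2⟩ := Prod.mk.injEq _ _ _ _ ▸ hij
    have hlt : ∀ {a b : Qb}, A.valuation a ≤ 1 → A.valuation b ≤ 1 → res A a = res A b →
        A.valuation (a - b) < 1 := by
      intro a b ha hb hab
      rw [res_eq ha, res_eq hb, ← sub_eq_zero, ← map_sub, IsLocalRing.residue_eq_zero_iff,
        A.valuation_lt_one_iff] at hab
      exact hab
    have h3 := eq_zero_of_e1_of_nsmul hI hodd hpv
      (e1_sub_of_congr hI (h i) (h j) (hx i) (nsRed_of_unit_Δ hI hΔ (h i).1 (hx i))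
        (hlt (hx i) (hx j) h1) (hlt (hy i) (hy j) h2))
      (by rw [← hxy, ← hxy, nsmul_sub, smul_comm, hpP, smul_zero, smul_comm, hpP, smul_zero,
        sub_zero])
    rw [sub_eq_zero, ← hxy, ← hxy, nsmul_eq_nsmul_iff_modEq, hord] at h3
    have h4 : ((i : ℕ) + 1) % p = ((j : ℕ) + 1) % p := h3
    rw [Nat.mod_eq_of_lt (by omega), Nat.mod_eq_of_lt (by omega)] at h4
    exact Fin.ext (by omega)
  let α₁ : A := ⟨W.a₁, mem_of_map_le hI.h₁⟩
  let α₂ : A := ⟨W.a₂, mem_of_map_le hI.h₂⟩
  let α₃ : A := ⟨W.a₃, mem_of_map_le hI.h₃⟩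
  let α₄ : A := ⟨W.a₄, mem_of_map_le hI.h₄⟩
  let α₆ : A := ⟨W.a₆, mem_of_map_le hI.h₆⟩
  let r := IsLocalRing.residue A
  let quad : Res A → (Res A)[X] := fun a => X ^ 2 + C (r α₁ * a + r α₃) * X -
    C (a ^ 3 + r α₂ * a ^ 2 + r α₄ * a + r α₆)
  have hquad : ∀ a, (quad a).Monic ∧ (quad a).natDegree = 2 := fun a => by
    refine ⟨?_, ?_⟩
    · simp only [quad]; monicity!
    · simp only [quad]; compute_degree!
  set S : Finset (Res A × Res A) :=
    f.roots.toFinset.biUnion fun a => (quad a).roots.toFinset.image (Prod.mk a)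
  have hsub : Finset.univ.image F ⊆ S := by
    intro z hz
    obtain ⟨i, -, rfl⟩ := Finset.mem_image.1 hz
    refine Finset.mem_biUnion.2 ⟨_, Multiset.mem_toFinset.2
      ((mem_roots hf).2 (hroots _ _ _ _ (hxy i) (hx i))), Finset.mem_image.2 ⟨_,
      Multiset.mem_toFinset.2 ((mem_roots (hquad _).1.ne_zero).2 ?_), rfl⟩⟩
    set X₀ : A := ⟨x i, mem_of_map_le (hx i)⟩
    set Y₀ : A := ⟨y i, mem_of_map_le (hy i)⟩
    have he : Y₀ ^ 2 + (α₁ * X₀ + α₃) * Y₀ - (X₀ ^ 3 + α₂ * X₀ ^ 2 + α₄ * X₀ + α₆) = 0 := by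
      refine Subtype.ext ?_
      have := (Affine.equation_iff _ _).1 (h i).1
      push_cast [X₀, Y₀, α₁, α₂, α₃, α₄, α₆]
      linear_combination this
    have he' := congrArg r he
    simp only [map_sub, map_add, map_mul, map_pow, map_zero] at he'
    simp only [IsRoot.def, quad, eval_sub, eval_add, eval_mul, eval_pow, eval_C, eval_X,
      res_eq (hx i), res_eq (hy i)]
    exact he'
  have h1 : p - 1 ≤ 2 * f.natDegree := by
    calc p - 1 = (Finset.univ.image F).card := by
          rw [Finset.card_image_of_injective _ hinj, Finset.card_univ, Fintype.card_fin]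
      _ ≤ S.card := Finset.card_le_card hsub
      _ ≤ ∑ a ∈ f.roots.toFinset, ((quad a).roots.toFinset.image (Prod.mk a)).card :=
          Finset.card_biUnion_le
      _ ≤ ∑ _a ∈ f.roots.toFinset, 2 := Finset.sum_le_sum fun a _ =>
          (Finset.card_image_le.trans ((Multiset.toFinset_card_le _).trans
            ((card_roots' _).trans (hquad a).2.le)))
      _ ≤ 2 * f.natDegree := by
          rw [Finset.sum_const, smul_eq_mul, mul_comm]
          exact Nat.mul_le_mul_left 2 ((Multiset.toFinset_card_le _).trans (card_roots' f))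
  omega

/-- A cubic does not have values with a prescribed `(l - 1) / 2`-th power at all roots of
`X ^ l - b X`. -/
theorem false_of_cubic_pow_eq {k : Type*} [Field k] {l m : ℕ} [CharP k l] (hm : l = 2 * m + 1)
    (hm2 : 2 ≤ m) {b e : k} (hb : b ≠ 0) (he : e ≠ 0) {g : k[X]} (hg : g.natDegree = 3)
    (h : X ^ l - C b * X ∣ g ^ m - C e) : False := by
  obtain ⟨q, hq⟩ := h
  set F : k[X] := X ^ l - C b * X
  have hl : (l : k) = 0 := CharP.cast_eq_zero k l
  have hFd : F.derivative = -C b := by
    simp only [F, derivative_sub, derivative_X_pow, derivative_C_mul, derivative_X, hl, map_zero,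
      zero_mul, mul_one, zero_sub]
  have hFdeg : F.natDegree = l := by
    simp only [F]
    rw [natDegree_sub_eq_left_of_natDegree_lt, natDegree_X_pow]
    rw [natDegree_C_mul_X _ hb, natDegree_X_pow]
    omega
  have hgm : (g ^ m - C e).natDegree = 3 * m := by
    rw [natDegree_sub_C, natDegree_pow, hg, mul_comm]
  have hq0 : q ≠ 0 := by
    rintro rfl
    rw [mul_zero] at hq
    rw [hq, natDegree_zero] at hgm
    omega
  have hF0 : F ≠ 0 := ne_zero_of_natDegree_gt (n := 0) (by omega)
  have hg0 : g ≠ 0 := ne_zero_of_natDegree_gt (n := 0) (by omega)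
  have hqd : q.natDegree + l = 3 * m := by
    rw [← hgm, hq, natDegree_mul hF0 hq0, hFdeg, add_comm]
  have hder := congrArg derivative hq
  rw [derivative_sub, derivative_C, sub_zero, derivative_pow, derivative_mul, hFd] at hder
  set L : k[X] := C (m : k) * C e * derivative g + C b * q * g
  have hdvd : F ∣ L := by
    refine ⟨derivative q * g - C (m : k) * derivative g * q, ?_⟩
    have h1 : g ^ (m - 1) * g = g ^ m := by rw [← pow_succ]; congr 1; omega
    have h2 : C (m : k) * derivative g * g ^ m = (-C b * q + F * derivative q) * g := by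
      rw [← hder, ← h1]
      ring
    simp only [L]
    linear_combination h2 - C (m : k) * derivative g * hq
  have hLd : L.natDegree < F.natDegree := by
    rw [hFdeg]
    refine (natDegree_add_le _ _).trans_lt (max_lt ?_ ?_)
    · refine lt_of_le_of_lt (natDegree_mul_le.trans (add_le_add natDegree_mul_le le_rfl)) ?_
      have := natDegree_derivative_le g
      simp only [natDegree_C]
      omega
    · refine lt_of_le_of_lt (natDegree_mul_le.trans (add_le_add natDegree_mul_le le_rfl)) ?_
      simp only [natDegree_C]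
      omega
  have hL : L = 0 := eq_zero_of_dvd_of_natDegree_lt hdvd hLd
  simp only [L] at hL
  rw [add_eq_zero_iff_eq_neg] at hL
  have h3 := congrArg natDegree hL
  rw [natDegree_neg, natDegree_mul (mul_ne_zero (C_ne_zero.2 hb) hq0) hg0,
    natDegree_C_mul hb, hg] at h3
  have h4 : (C (m : k) * C e * derivative g).natDegree ≤ 2 := by
    refine natDegree_mul_le.trans ?_
    rw [← map_mul, natDegree_C, zero_add]
    exact (natDegree_derivative_le g).trans (by omega)
  omega

/-- **The bound from a Frobenius element.** -/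
theorem lt_of_residue_twist {A : ValuationSubring Qb} {W : Affine Qb}
    [WeierstrassCurve.IsElliptic W] (hI : IntCoeff A.valuation W) (hΔ : A.valuation W.Δ = 1)
    {p : ℕ} (hp : p.Prime) (hodd : Odd p) (hpv : A.valuation (p : Qb) = 1) {P : W.Point}
    (hP : P ≠ 0) (hpP : p • P = 0) {l : ℕ} [CharP (Res A) l] (hl : l.Prime) (hl5 : 5 ≤ l)
    {b e : Res A} (hb : b ≠ 0) (he : e ≠ 0)
    (hroots : ∀ (m : ℕ) (x y : Qb) (h : W.Nonsingular x y), m • P = .some x y h →
      A.valuation x ≤ 1 → res A x ^ l = b * res A x ∧ res A (fy W x y) ^ l = e * res A (fy W x y)) :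
    p < 2 * l + 1 := by
  classical
  obtain ⟨m, hm⟩ : Odd l := hl.odd_of_ne_two (by omega)
  set F : (Res A)[X] := X ^ l - C b * X
  have hFdeg : F.natDegree = l := by
    simp only [F]
    rw [natDegree_sub_eq_left_of_natDegree_lt, natDegree_X_pow]
    rw [natDegree_C_mul_X _ hb, natDegree_X_pow]
    omega
  have hF0 : F ≠ 0 := ne_zero_of_natDegree_gt (n := 0) (by omega)
  have hFroot : ∀ (n : ℕ) (x y : Qb) (h : W.Nonsingular x y), n • P = .some x y h →
      A.valuation x ≤ 1 → F.IsRoot (res A x) := fun n x y h e hx => by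
    simp only [F, IsRoot.def, eval_sub, eval_pow, eval_X, eval_mul, eval_C]
    rw [(hroots n x y h e hx).1, sub_self]
  have hle := le_of_residue_roots hI hΔ hp hodd hpv hP hpP hF0 hFroot
  rw [hFdeg] at hle
  refine lt_of_le_of_ne hle fun heq => ?_
  have hex : ∀ a, F.IsRoot a → ∃ (n : ℕ) (x y : Qb) (h : W.Nonsingular x y),
      n • P = .some x y h ∧ A.valuation x ≤ 1 ∧ res A x = a := by
    intro a ha
    by_contra hno
    push Not at hno
    obtain ⟨F', hF'⟩ := dvd_iff_isRoot.2 ha
    have hF'0 : F' ≠ 0 := by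
      rintro rfl
      exact hF0 (by rw [hF', mul_zero])
    have hdeg : F'.natDegree + 1 = l := by
      rw [← hFdeg, hF', natDegree_mul (X_sub_C_ne_zero a) hF'0, natDegree_X_sub_C, add_comm]
    have := le_of_residue_roots hI hΔ hp hodd hpv hP hpP hF'0 fun n x y h e hx => by
      have h1 := hFroot n x y h e hx
      rw [hF', IsRoot.def, eval_mul, eval_sub, eval_X, eval_C, mul_eq_zero, sub_eq_zero] at h1
      exact h1.resolve_left (hno n x y h e hx)
    omega
  let r := IsLocalRing.residue A
  let α₁ : A := ⟨W.a₁, mem_of_map_le hI.h₁⟩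
  let α₂ : A := ⟨W.a₂, mem_of_map_le hI.h₂⟩
  let α₃ : A := ⟨W.a₃, mem_of_map_le hI.h₃⟩
  let α₄ : A := ⟨W.a₄, mem_of_map_le hI.h₄⟩
  let α₆ : A := ⟨W.a₆, mem_of_map_le hI.h₆⟩
  have h4 : (4 : Res A) ≠ 0 := by
    rw [show (4 : Res A) = ((4 : ℕ) : Res A) by norm_num, Ne, CharP.cast_eq_zero_iff (Res A) l]
    exact fun h => by have := Nat.le_of_dvd (by norm_num) h; omega
  set g : (Res A)[X] := C 4 * X ^ 3 + C (r (α₁ ^ 2 + 4 * α₂)) * X ^ 2 +
    C (r (2 * α₁ * α₃ + 4 * α₄)) * X + C (r (α₃ ^ 2 + 4 * α₆)) with hgdef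
  have hgdeg : g.natDegree = 3 := by simp only [g]; exact natDegree_cubic h4
  have hval : ∀ a, F.IsRoot a → (g ^ m - C e).IsRoot a := by
    intro a ha
    obtain ⟨n, x, y, h, hn, hx, rfl⟩ := hex a ha
    have hy := le_y_of_le_x hI h.1 hx
    set X₀ : A := ⟨x, mem_of_map_le hx⟩
    set Y₀ : A := ⟨y, mem_of_map_le hy⟩
    set Z₀ : A := 2 * Y₀ + α₁ * X₀ + α₃
    have hfy : res A (fy W x y) = r Z₀ := by
      rw [res_eq (x := fy W x y) (fy_le hI hx hy)]
      congr 1
    have hsq : Z₀ ^ 2 = 4 * X₀ ^ 3 + (α₁ ^ 2 + 4 * α₂) * X₀ ^ 2 +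
        (2 * α₁ * α₃ + 4 * α₄) * X₀ + (α₃ ^ 2 + 4 * α₆) := by
      refine Subtype.ext ?_
      have := (Affine.equation_iff _ _).1 h.1
      simp only [Z₀, X₀, Y₀, α₁, α₂, α₃, α₄, α₆, AddMemClass.coe_add, MulMemClass.coe_mul,
        SubmonoidClass.coe_pow, show ((2 : A) : Qb) = 2 from rfl, show ((4 : A) : Qb) = 4 from rfl]
      linear_combination (4 : Qb) * this
    have hsq' : g.eval (res A x) = r Z₀ ^ 2 := by
      rw [← map_pow, hsq, res_eq hx]
      simp only [g, eval_add, eval_mul, eval_pow, eval_C, eval_X, map_add, map_mul, map_pow,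
        map_ofNat, eval_ofNat, r, X₀]
    have hne : r Z₀ ≠ 0 := by
      intro hz
      have hneg : n • (-P) = Affine.Point.some x (W.negY x y) ((Affine.nonsingular_neg x y).2 h) := by
        rw [neg_nsmul, hn, Affine.Point.neg_some]
      have hd : A.valuation (y - W.negY x y) < 1 := by
        rw [show y - W.negY x y = fy W x y by simp only [fy, Affine.negY]; ring]
        rw [← res_eq_zero_iff (fy_le hI hx hy), hfy, hz]
      have h1 := eq_zero_of_e1_of_nsmul hI hodd hpv
        (e1_sub_of_congr hI h ((Affine.nonsingular_neg x y).2 h) hx (nsRed_of_unit_Δ hI hΔ h.1 hx)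
          (by rw [sub_self, map_zero]; exact zero_lt_one) hd)
        (by rw [← hn, ← hneg, neg_nsmul, sub_neg_eq_add, ← add_nsmul, smul_comm, hpP, smul_zero])
      rw [← hn, ← hneg, neg_nsmul, sub_neg_eq_add, ← add_nsmul, ← two_mul] at h1
      have h2 := addOrderOf_dvd_of_nsmul_eq_zero h1
      have hord : addOrderOf P = p := by
        rcases (Nat.dvd_prime hp).1 (addOrderOf_dvd_of_nsmul_eq_zero hpP) with h | h
        · exact absurd (AddMonoid.addOrderOf_eq_one_iff.1 h) hP
        · exact h
      rw [hord] at h2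
      rcases hp.dvd_mul.1 h2 with h3 | h3
      · have := (Nat.prime_dvd_prime_iff_eq hp Nat.prime_two).1 h3
        omega
      · obtain ⟨k, rfl⟩ := h3
        rw [mul_comm, mul_smul, hpP, nsmul_zero] at hn
        exact (Affine.Point.some_ne_zero h) hn.symm
    have hpow : r Z₀ ^ (l - 1) = e := by
      refine mul_right_cancel₀ hne ?_
      rw [← pow_succ, show l - 1 + 1 = l by omega, ← hfy]
      exact (hroots n x y h hn hx).2
    simp only [IsRoot.def, eval_sub, eval_pow, eval_C, hsq']
    rw [← pow_mul, show 2 * m = l - 1 by omega, hpow, sub_self]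
  haveI : IsAlgClosed (Res A) := FA.CurveRed.isAlgClosed_residueField A
  refine false_of_cubic_pow_eq hm (by omega) hb he hgdeg ?_
  have hsep : F.Separable := by
    refine (separable_def' F).2 ⟨0, -C b⁻¹, ?_⟩
    have hl0 : (l : Res A) = 0 := CharP.cast_eq_zero _ l
    simp only [F, derivative_sub, derivative_X_pow, derivative_C_mul, derivative_X, hl0, map_zero,
      zero_mul, mul_one, zero_sub, zero_add]
    rw [neg_mul_neg, ← map_mul, inv_mul_cancel₀ hb, map_one]
  refine Polynomial.Splits.dvd_of_roots_le_roots (IsAlgClosed.splits F) hF0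
    ((Multiset.le_iff_subset (nodup_roots hsep)).2 fun a ha => ?_)
  have h1 := hval a ((mem_roots hF0).1 ha)
  refine (mem_roots fun h0 => ?_).2 h1
  have h2 := congrArg natDegree h0
  rw [natDegree_sub_C, natDegree_pow, hgdeg, natDegree_zero] at h2
  omega

end FA.Mazur

end
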