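import Fermat.Agent.Eisenstein.LevelP
import Fermat.Agent.ModField.Elliptic

/-!
# The constant term of a weakly holomorphic function times a cusp form of weight two

If `ψ` is invariant under a group of finite index, holomorphic on `ℍ` and bounded at every cusp
other than `∞`, then `ψ f dq/q` has no residue at `∞` for every weight two cusp form `f`.
-/

set_option autoImplicit false

noncomputable section

open UpperHalfPlane hiding I
open Complex Filter Function Topology ModularForm CongruenceSubgroup Derivative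
open scoped Manifold Real MatrixGroups ModularForm
open FA.ModField

namespace FA.Mazur

/-- A weight two invariant function with an expansion has constant term zero. -/
theorem coeff_zero_of_levelOne {G : ℍ → ℂ} (hinv : ∀ γ : SL(2, ℤ), G ∣[(2 : ℤ)] γ = G)
    (hd : MDiff G) {L : LaurentSeries ℂ} (hL : HasExp (qp 1) G L) : L.coeff 0 = 0 := by
  obtain ⟨M, hM⟩ : ∃ M : ℕ, OrdGE (-(M : ℤ)) L :=
    ⟨(-L.order).toNat, (ordGE_order L).mono (by omega)⟩
  induction M generalizing G L with
  | zero =>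
    have hlv : FA.Eis.IsLv 1 2 G := ⟨fun γ _ => hinv γ, hd, fun A => by
      rw [hinv A]; exact isBoundedAtImInfty_of_hasExp hL (by simpa using hM)⟩
    have h0 : G = 0 := hlv.levelOne_weight_two
    rw [h0] at hL
    rw [hL.unique (covers_qp 1) hasExp_zero]
    rfl
  | succ M ih =>
    set n := M + 1
    set d := L.coeff (-(n : ℤ)) * (n : ℂ)⁻¹
    let J : ℍ → ℂ := fun z => jfun z ^ n
    have hJd : MDiff J := mdiff_jfun.pow n
    have hDJ : ∀ z, normalizedDerivOfComplex J z =
        (n : ℂ) * jfun z ^ M * normalizedDerivOfComplex jfun z := fun z => by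
      have h := congrFun (normalizedDerivOfComplex_pow jfun n mdiff_jfun) z
      rw [show jfun ^ n = J from rfl] at h
      simpa [n, Pi.mul_apply, Pi.pow_apply] using h
    have hinv' : ∀ γ : SL(2, ℤ), normalizedDerivOfComplex J ∣[(2 : ℤ)] γ =
        normalizedDerivOfComplex J := fun γ => by
      refine (slash_eq_iff_smul γ).2 fun z => ?_
      rw [hDJ, hDJ, D_jfun, D_jfun, jfun_smul, E4_smul, discriminant_smul,
        (slash_eq_iff_smul γ).1 ((FA.Eis.IsLv.of_modularForm ModularForm.E₆).inv' γ) z]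
      have hd0 : denom (γ : GL (Fin 2) ℝ) z ≠ 0 := denom_ne_zero _ _
      have hΔ := ModularForm.discriminant_ne_zero z
      field_simp
    have hDd : MDiff (normalizedDerivOfComplex J) := normalizedDerivOfComplex_mdifferentiable hJd
    have hE := (hasExp_jfun.pow (qp_ne_zero 1) n).congr
      (g := J) (funext fun z => by simp [J, Pi.pow_apply])
    have hDE := hE.normalizedDeriv
    rw [Nat.cast_one, inv_one, map_one, one_mul] at hDE
    have hnew : HasExp (qp 1) (G + fun z => d * normalizedDerivOfComplex J z)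
        (L + HahnSeries.C d * thetaFun (ModularCurve.jqModC ℂ ^ n)) :=
      hL.add ((hasExp_C d).mul (qp_ne_zero 1) hDE)
    have h0 : (L + HahnSeries.C d * thetaFun (ModularCurve.jqModC ℂ ^ n)).coeff 0 = 0 := by
      refine ih (fun γ => ?_) (hd.add (mdifferentiable_const.mul hDd)) hnew fun i hi => ?_
      · rw [SlashAction.add_slash, hinv γ]
        congr 1
        show (d • normalizedDerivOfComplex J) ∣[(2 : ℤ)] γ = d • normalizedDerivOfComplex J
        rw [ModularForm.SL_smul_slash, hinv']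
      · rw [HahnSeries.coeff_add, HahnSeries.C_apply, HahnSeries.coeff_single_zero_mul,
          thetaFun_coeff]
        have hpw : OrdGE (-(n : ℤ)) (ModularCurve.jqModC ℂ ^ n) := by
          simpa using (ordGE_jqModC (R := ℂ)).pow n
        rcases lt_or_eq_of_le (show i ≤ -(n : ℤ) by omega) with hlt | heq
        · rw [hM i (by omega), hpw i hlt, mul_zero, mul_zero, add_zero]
        · rw [heq, jqModC_pow_coeff, mul_one]
          have hn0 : (n : ℂ) ≠ 0 := Nat.cast_ne_zero.mpr (Nat.succ_ne_zero M)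
          push_cast
          rw [mul_neg, inv_mul_cancel_right₀ hn0, add_neg_cancel]
    rwa [HahnSeries.coeff_add, HahnSeries.C_apply, HahnSeries.coeff_single_zero_mul,
      thetaFun_coeff, Int.cast_zero, zero_mul, mul_zero, add_zero] at h0

/-- The constant term of `ψ f` vanishes. -/
theorem coeff_zero_mul_cusp {Γ : Subgroup SL(2, ℤ)} [Γ.FiniteIndex] (hT : ModularGroup.T ∈ Γ)
    {ψ f : ℍ → ℂ} {Lψ Lf : LaurentSeries ℂ}
    (hψd : MDiff ψ) (hψi : ∀ γ ∈ Γ, ∀ z, ψ (γ • z) = ψ z)
    (hψb : ∀ γ : SL(2, ℤ), γ ∉ Γ → IsBoundedAtImInfty fun z => ψ (γ • z))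
    (hψe : HasExp (qp 1) ψ Lψ) (hfd : MDiff f) (hfi : ∀ γ ∈ Γ, f ∣[(2 : ℤ)] γ = f)
    (hfz : ∀ γ : SL(2, ℤ), IsZeroAtImInfty (f ∣[(2 : ℤ)] γ))
    (hfe : HasExp (qp 1) f Lf) : (Lψ * Lf).coeff 0 = 0 := by
  classical
  set F : ℍ → ℂ := ψ * f
  have hFd : MDiff F := hψd.mul hfd
  have hslash : ∀ γ : SL(2, ℤ), F ∣[(2 : ℤ)] γ = fun z => ψ (γ • z) * (f ∣[(2 : ℤ)] γ) z :=
    fun γ => funext fun z => by
      rw [ModularForm.SL_slash_apply, ModularForm.SL_slash_apply]
      simp only [F, Pi.mul_apply]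
      ring
  have hFi : ∀ γ ∈ Γ, F ∣[(2 : ℤ)] γ = F := fun γ hγ => by
    rw [hslash, hfi γ hγ]
    exact funext fun z => by simp only [F, Pi.mul_apply, hψi γ hγ z]
  let tm : SL(2, ℤ) ⧸ Γ → ℍ → ℂ := fun x => Quotient.liftOn' x (fun g => F ∣[(2 : ℤ)] g⁻¹)
    fun a b hab => by
      rw [QuotientGroup.leftRel_apply] at hab
      show F ∣[(2 : ℤ)] a⁻¹ = F ∣[(2 : ℤ)] b⁻¹
      conv_lhs => rw [show a⁻¹ = (a⁻¹ * b) * b⁻¹ by group]
      rw [SlashAction.slash_mul, hFi _ hab]
  have : Fintype (SL(2, ℤ) ⧸ Γ) := Fintype.ofFinite _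
  let G : ℍ → ℂ := ∑ x, tm x
  have htm : ∀ (γ : SL(2, ℤ)) x, tm x ∣[(2 : ℤ)] γ = tm (γ⁻¹ • x) := fun γ x => by
    induction x using QuotientGroup.induction_on with
    | _ g =>
      show (F ∣[(2 : ℤ)] g⁻¹) ∣[(2 : ℤ)] γ = F ∣[(2 : ℤ)] (γ⁻¹ * g)⁻¹
      rw [← SlashAction.slash_mul, mul_inv_rev, inv_inv]
  have hGi : ∀ γ : SL(2, ℤ), G ∣[(2 : ℤ)] γ = G := fun γ => by
    rw [SlashAction.sum_slash, Finset.sum_congr rfl fun x _ => htm γ x]
    exact Equiv.sum_comp (MulAction.toPerm γ⁻¹) tm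
  have htmd : ∀ x, MDiff (tm x) := fun x => by
    induction x using QuotientGroup.induction_on with
    | _ g => exact hFd.slash 2 _
  set x₀ : SL(2, ℤ) ⧸ Γ := ((1 : SL(2, ℤ)) : SL(2, ℤ) ⧸ Γ)
  have htm0 : tm x₀ = F := by
    show F ∣[(2 : ℤ)] (1 : SL(2, ℤ))⁻¹ = F
    rw [inv_one, SlashAction.slash_one]
  set R : ℍ → ℂ := ∑ x ∈ Finset.univ.erase x₀, tm x
  have hsplit : G = F + R := by
    rw [← htm0]; exact (Finset.add_sum_erase _ tm (Finset.mem_univ x₀)).symm
  have hRd : MDiff R := MDifferentiable.sum fun x _ => htmd x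
  have hRz : IsZeroAtImInfty R := by
    refine Finset.sum_induction _ IsZeroAtImInfty (fun a b ha hb => ?_) ?_ fun x hx => ?_
    · have := Filter.Tendsto.add ha hb; rwa [zero_add] at this
    · exact tendsto_const_nhds
    · revert hx
      induction x using QuotientGroup.induction_on with
      | _ g =>
        intro hx
        have hg : g⁻¹ ∉ Γ := fun h => (Finset.mem_erase.mp hx).1
          (QuotientGroup.eq.mpr (by simpa using h))
        show IsZeroAtImInfty (F ∣[(2 : ℤ)] g⁻¹)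
        rw [hslash]
        exact Filter.BoundedAtFilter.mul_zeroAtFilter (hψb _ hg) (hfz _)
  have hRT : R ∣[(2 : ℤ)] ModularGroup.T = R := by
    have h := hGi ModularGroup.T
    rw [hsplit, SlashAction.add_slash, hFi _ hT] at h
    exact add_left_cancel h
  have hRQ : FA.Eis.HasQ 1 R (UpperHalfPlane.qExpansion 1 R) :=
    FA.Eis.HasQ.of_periodic one_pos (by simpa using FA.Eis.periodic_of_slash_T hRT) hRd
      hRz.isBoundedAtImInfty
  have hRe : HasExp (qp 1) R
      (HahnSeries.ofPowerSeries ℤ ℂ (UpperHalfPlane.qExpansion 1 R)) :=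
    hasExp_ofPowerSeries fun z => by simpa [qp] using hRQ z
  have h0 : PowerSeries.coeff 0 (UpperHalfPlane.qExpansion 1 R) = 0 :=
    tendsto_nhds_unique (hRQ.tendsto one_pos) hRz
  have hGd : MDiff G := MDifferentiable.sum fun x _ => htmd x
  have h := coeff_zero_of_levelOne hGi hGd
    (((hψe.mul (qp_ne_zero 1) hfe).add hRe).congr hsplit.symm)
  rw [HahnSeries.coeff_add, show (0 : ℤ) = ((0 : ℕ) : ℤ) from rfl,
    ofPowerSeries_coeff_natCast, h0, add_zero] at h
  exact h

end FA.Mazur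

end
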