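import Fermat.Agent.CurveRed.Torsion

/-!
# The third order relation on residue discs
-/

set_option autoImplicit false
set_option linter.style.haveILetI false
set_option maxHeartbeats 1000000

noncomputable section

namespace FA.CurveRed.Reduction

open AlgebraicCurve FA.ModField FA.Curve

variable {K F k Fk : Type*} [Field K] [Field F] [Algebra K F] [Field k] [Field Fk] [Algebra k Fk]
  {A : ValuationSubring K} {R : Reduction K F k Fk A} [IsAlgClosed K] [IsAlgClosed k]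
  (hF : IsFunctionField K F) (hk : IsFunctionField k Fk)

include hF hk in
/-- The third order relation between the coordinates of four divisors in linear progression. -/
theorem third_order {ι : Type*} [Fintype ι] [Nonempty ι] {Q : ι → Place k Fk}
    (hQ : Function.Injective Q) (hell : ell (∑ i, Finsupp.single (Q i) (1 : ℤ)) = 1)
    {t : ι → F} (ht : ∀ i, IsCoord R (Q i) (t i))
    {P₀ P₁ P₂ P₃ : ι → Place K F} (hP₀ : ∀ i, R.spl (P₀ i) = Q i) (hP₁ : ∀ i, R.spl (P₁ i) = Q i)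
    (hP₂ : ∀ i, R.spl (P₂ i) = Q i) (hP₃ : ∀ i, R.spl (P₃ i) = Q i) {a₀ a₁ a₂ a₃ : ι → K}
    (ha₀ : ∀ i, HasValue (P₀ i) (t i) (a₀ i)) (ha₁ : ∀ i, HasValue (P₁ i) (t i) (a₁ i))
    (ha₂ : ∀ i, HasValue (P₂ i) (t i) (a₂ i)) (ha₃ : ∀ i, HasValue (P₃ i) (t i) (a₃ i))
    {f : F} (hf : f ≠ 0) (hdiv : divOf hF f = (∑ i, Finsupp.single (P₃ i) (1 : ℤ)) +
      3 • (∑ i, Finsupp.single (P₁ i) (1 : ℤ)) - 3 • (∑ i, Finsupp.single (P₂ i) (1 : ℤ)) -
      ∑ i, Finsupp.single (P₀ i) (1 : ℤ))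
    {γ : A.ValueGroup} (hγ : γ ≤ 1) (hγ₁ : ∀ i, A.valuation (a₁ i - a₀ i) ≤ γ)
    (hγ₂ : ∀ i, A.valuation (a₂ i + a₀ i - 2 * a₁ i) ≤ γ * γ)
    (hγ₃ : ∀ i, A.valuation (a₃ i + a₁ i - 2 * a₂ i) ≤ γ * γ) (i : ι) :
    A.valuation (a₃ i - 3 * a₂ i + 3 * a₁ i - a₀ i) ≤ γ * γ * γ := by
  classical
  -- the facts about coordinates
  have hcoord : ∀ (j : ι) (X : Place K F) (x : K), R.spl X = Q j → HasValue X (t j) x →
      A.valuation x < 1 ∧ X.ord (t j - algebraMap K F x) = 1 ∧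
        ∀ P', R.spl P' = Q j → P' ≠ X → P'.ord (t j - algebraMap K F x) = 0 := by
    intro j X x hX hx
    obtain ⟨y, hy, h1, h2, h3⟩ := (ht j).exists_value hF hX
    rw [hx.unique hy]
    exact ⟨h1, h2, h3⟩
  choose r hr hr1 hnp using ht
  have hr0 : ∀ j, r j ≠ 0 := fun j h => by simpa [h] using hr1 j
  have hsmall : ∀ (x : K), A.valuation x < 1 → ∃ h : x ∈ A, R.π ⟨x, h⟩ = 0 := fun x hx =>
    ⟨(A.valuation_le_one_iff x).1 hx.le, (R.π_eq_zero _).2 hx⟩
  have hredsub : ∀ (j : ι) (x : K), A.valuation x < 1 →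
      R.Red (t j - algebraMap K F x) (r j) := fun j x hx => by
    obtain ⟨h, h0⟩ := hsmall x hx
    have := (hr j).sub (red_const (R := R) ⟨x, h⟩)
    rw [h0, map_zero, sub_zero] at this
    exact this
  -- normalise `f`
  obtain ⟨c₀, f₁, b₁, hc₀, hff₁, hf₁, hb₁⟩ := exists_scale' (R := R) hf
  have hf₁0 : f₁ ≠ 0 := hf₁.ne_zero hb₁
  have hordf₁ : ∀ X : Place K F, X.ord f₁ = divOf hF f X := fun X => by
    rw [divOf_apply, hff₁, X.ord_mul (by simpa using hc₀) hf₁0, place_ord_algebraMap, zero_add]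
  have hdiv₁ : divOf hF f₁ = divOf hF f := Finsupp.ext fun X => by
    rw [divOf_apply, hordf₁]
  obtain ⟨β, rfl⟩ : ∃ b : k, b₁ = algebraMap k Fk b := by
    refine eq_const_of_ord_eq_zero hk fun Q' => ?_
    rw [← push_divOf hF hf₁ hb₁ Q', hdiv₁, hdiv]
    rw [push, ← Finsupp.mapDomain.addMonoidHom_apply]
    simp only [map_sub, map_add, map_nsmul, map_sum, Finsupp.mapDomain.addMonoidHom_apply,
      Finsupp.mapDomain_single, hP₀, hP₁, hP₂, hP₃]
    simp
  haveI := infinite_places hk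
  obtain ⟨Qs, hQs⟩ := (Set.finite_range Q).infinite_compl.nonempty
  obtain ⟨Ps, hPs⟩ := spl_surjective hF hk (R := R) Qs
  have hQs' : ∀ j, Q j ≠ Qs := fun j h => hQs ⟨j, h⟩
  have hdiv0 : ∀ X : Place K F, R.spl X = Qs → divOf hF f X = 0 := by
    intro X hX
    have hne : ∀ (Z : ι → Place K F), (∀ j, R.spl (Z j) = Q j) →
        (∑ j, Finsupp.single (Z j) (1 : ℤ)) X = 0 := fun Z hZ => by
      rw [Finset.sum_apply']
      exact Finset.sum_eq_zero fun j _ => Finsupp.single_eq_of_ne fun h =>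
        hQs' j (by rw [← hZ j, ← h, hX])
    simp only [hdiv, Finsupp.sub_apply, Finsupp.add_apply, Finsupp.smul_apply, hne P₀ hP₀, hne P₁ hP₁,
      hne P₂ hP₂, hne P₃ hP₃]
    simp
  have hnpf : NoPole R Qs f₁ := fun X hX => Or.inr (by rw [hordf₁, hdiv0 X hX])
  obtain ⟨e, he⟩ := exists_hasValue hF (hnpf Ps hPs)
  obtain ⟨heA, heQ⟩ := hasValue_red hF hf₁ hnpf hPs he
  have hπe : R.π ⟨e, heA⟩ = β := heQ.unique (hasValue_algebraMap Qs β)
  have hβ : β ≠ 0 := fun h => hb₁ (by rw [h, map_zero])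
  have he1 : A.valuation e = 1 := (π_ne_zero_iff (R := R) _).1 (hπe ▸ hβ)
  have he0 : e ≠ 0 := fun h => by simp [h] at he1
  have heinv : e⁻¹ ∈ A := (A.valuation_le_one_iff _).1 (by rw [map_inv₀, he1, inv_one])
  set s : F := algebraMap K F e⁻¹ * f₁ with hs
  have hreds : R.Red s 1 := by
    have h := (red_const (R := R) ⟨e⁻¹, heinv⟩).mul hf₁
    rw [← map_mul, show R.π ⟨e⁻¹, heinv⟩ * β = 1 by
      rw [← hπe, ← map_mul, ← map_one R.π]
      exact congrArg R.π (Subtype.ext (inv_mul_cancel₀ he0)), map_one] at h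
    exact h
  have hvals : HasValue Ps s 1 := by
    have := he.smul e⁻¹
    rwa [inv_mul_cancel₀ he0] at this
  have hs0 : s ≠ 0 := hreds.ne_zero one_ne_zero
  have hords : ∀ X : Place K F, X.ord s = divOf hF f X := fun X => by
    rw [hs, X.ord_mul (by simpa using he0) hf₁0, place_ord_algebraMap, zero_add, hordf₁]
  -- the scale of `s - 1`
  obtain ⟨c₁, u, ub, hu, hub, hub0⟩ : ∃ (c : K) (u : F) (ub : Fk),
      s - 1 = algebraMap K F c * u ∧ R.Red u ub ∧ (c ≠ 0 → ub ≠ 0) := by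
    rcases eq_or_ne (s - 1) 0 with h | h
    · exact ⟨0, 0, 0, by rw [h, mul_zero], red_zero, fun h => absurd rfl h⟩
    · obtain ⟨c, u, ub, -, h1, h2, h3⟩ := exists_scale' (R := R) h
      exact ⟨c, u, ub, h1, h2, fun _ => h3⟩
  set cand : Option ι → K := fun o => o.elim c₁ fun j => a₃ j - 3 * a₂ j + 3 * a₁ j - a₀ j
  obtain ⟨o, -, ho⟩ := Finset.exists_max_image (Finset.univ : Finset (Option ι))
    (fun o => A.valuation (cand o)) Finset.univ_nonempty
  by_contra hbig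
  rw [not_le] at hbig
  have hlarge : γ * γ * γ < A.valuation (cand o) :=
    lt_of_lt_of_le hbig (ho (some i) (Finset.mem_univ _))
  set c := cand o with hcdef
  have hc0 : c ≠ 0 := fun h => by simp [h] at hlarge
  have hvc : 0 < A.valuation c := zero_lt_iff.2 ((Valuation.ne_zero_iff _).2 hc0)
  have hdivle : ∀ x : K, A.valuation x ≤ A.valuation c → x / c ∈ A := fun x hx =>
    (A.valuation_le_one_iff _).1 (by
      rw [map_div₀]; exact div_le_one_of_le₀ hx zero_le)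
  set w : F := algebraMap K F c⁻¹ * (s - 1) with hw
  have hc1 : c₁ / c ∈ A := hdivle c₁ (ho none (Finset.mem_univ _))
  have hredw : R.Red w (algebraMap k Fk (R.π ⟨c₁ / c, hc1⟩) * ub) := by
    have h := (red_const (R := R) ⟨c₁ / c, hc1⟩).mul hub
    have heq : algebraMap K F ((⟨c₁ / c, hc1⟩ : A) : K) * u = w := by
      rw [hw, hu]
      show algebraMap K F (c₁ / c) * u = _
      rw [map_div₀, map_inv₀]; ring
    rw [heq] at h
    exact h
  set wb := algebraMap k Fk (R.π ⟨c₁ / c, hc1⟩) * ub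
  -- the identity on each disc
  have hdisc : ∀ j : ι, ∃ Xb : Fk, AtLeast (Q j) 0 Xb ∧
      ∃ σA : (a₃ j - 3 * a₂ j + 3 * a₁ j - a₀ j) / c ∈ A,
      r j * r j * Xb =
        -(wb * (r j * r j)) - algebraMap k Fk (R.π ⟨_, σA⟩) * r j := by
    intro j
    obtain ⟨hv0, ho0, ho0'⟩ := hcoord j (P₀ j) (a₀ j) (hP₀ j) (ha₀ j)
    obtain ⟨hv1, ho1, ho1'⟩ := hcoord j (P₁ j) (a₁ j) (hP₁ j) (ha₁ j)
    obtain ⟨hv2, ho2, ho2'⟩ := hcoord j (P₂ j) (a₂ j) (hP₂ j) (ha₂ j)
    obtain ⟨hv3, ho3, ho3'⟩ := hcoord j (P₃ j) (a₃ j) (hP₃ j) (ha₃ j)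
    set τ₀ := t j - algebraMap K F (a₀ j) with hτ₀
    set τ₁ := t j - algebraMap K F (a₁ j) with hτ₁
    set τ₂ := t j - algebraMap K F (a₂ j) with hτ₂
    set τ₃ := t j - algebraMap K F (a₃ j) with hτ₃
    have hr₀ := hredsub j _ hv0
    have hr₁ := hredsub j _ hv1
    have hr₂ := hredsub j _ hv2
    have hr₃ := hredsub j _ hv3
    have h₀ := hr₀.ne_zero (hr0 j)
    have h₁ := hr₁.ne_zero (hr0 j)
    have h₂ := hr₂.ne_zero (hr0 j)
    have h₃ := hr₃.ne_zero (hr0 j)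
    have hN0 : τ₃ * τ₁ ^ 3 ≠ 0 := mul_ne_zero h₃ (pow_ne_zero _ h₁)
    have hD0 : τ₂ ^ 3 * τ₀ ≠ 0 := mul_ne_zero (pow_ne_zero _ h₂) h₀
    have hr4 : r j * r j ^ 3 ≠ 0 := mul_ne_zero (hr0 j) (pow_ne_zero _ (hr0 j))
    set U := s * (τ₂ ^ 3 * τ₀) / (τ₃ * τ₁ ^ 3) with hU
    have hU0 : U ≠ 0 := div_ne_zero (mul_ne_zero hs0 hD0) hN0
    have hUid : τ₃ * τ₁ ^ 3 * U = s * (τ₂ ^ 3 * τ₀) := by
      rw [hU, mul_comm, div_mul_cancel₀ _ hN0]
    have hrU : R.Red U 1 := by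
      have h : R.Red (τ₃ * τ₁ ^ 3 * U) (r j * r j ^ 3) := by
        rw [hUid, mul_comm (r j)]
        simpa using hreds.mul ((hr₂.pow 3).mul hr₀)
      obtain ⟨y, hy, hyr⟩ := mem_of_mul_mem (hr₃.mul (hr₁.pow 3)) hr4 h
      rwa [mul_eq_left₀ hr4 |>.1 hyr] at hy
    have hUnp : NoPole R (Q j) U := by
      intro X hX
      refine Or.inr (le_of_eq ?_)
      have e0 : X.ord τ₀ = if X = P₀ j then 1 else 0 := by
        split_ifs with h
        · rw [h]; exact ho0
        · exact ho0' X hX h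
      have e1 : X.ord τ₁ = if X = P₁ j then 1 else 0 := by
        split_ifs with h
        · rw [h]; exact ho1
        · exact ho1' X hX h
      have e2 : X.ord τ₂ = if X = P₂ j then 1 else 0 := by
        split_ifs with h
        · rw [h]; exact ho2
        · exact ho2' X hX h
      have e3 : X.ord τ₃ = if X = P₃ j then 1 else 0 := by
        split_ifs with h
        · rw [h]; exact ho3
        · exact ho3' X hX h
      rw [hU, div_eq_mul_inv, X.ord_mul (mul_ne_zero hs0 hD0) (inv_ne_zero hN0), X.ord_inv,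
        X.ord_mul hs0 hD0, X.ord_mul (pow_ne_zero _ h₂) h₀, X.ord_mul h₃ (pow_ne_zero _ h₁),
        place_ord_pow, place_ord_pow, hords, hdiv, e0, e1, e2, e3]
      simp only [Finsupp.sub_apply, Finsupp.add_apply, Finsupp.smul_apply,
        sum_single_apply_over hQ hP₀ hX, sum_single_apply_over hQ hP₁ hX,
        sum_single_apply_over hQ hP₂ hX, sum_single_apply_over hQ hP₃ hX, nsmul_eq_mul]
      push_cast; ring
    have hσA : (a₃ j - 3 * a₂ j + 3 * a₁ j - a₀ j) / c ∈ A := hdivle _ (ho (some j) (Finset.mem_univ _))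
    set e₁ := a₁ j - a₀ j with he₁
    set e₂ := a₂ j - a₀ j with he₂
    set e₃ := a₃ j - a₀ j with he₃
    have hlow : ∀ x : K, A.valuation x ≤ γ * γ * γ → A.valuation (x / c) < 1 := fun x hx => by
      rw [map_div₀, div_lt_one₀ hvc]; exact lt_of_le_of_lt hx hlarge
    set b := e₂ - 2 * e₁ with hb
    set g := e₃ - 3 * e₁ with hg
    have hb' : A.valuation b ≤ γ * γ := by
      rw [hb, he₁, he₂, show a₂ j - a₀ j - 2 * (a₁ j - a₀ j) = a₂ j + a₀ j - 2 * a₁ j by ring]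
      exact hγ₂ j
    have hg' : A.valuation g ≤ γ * γ := by
      rw [hg, he₁, he₃, show a₃ j - a₀ j - 3 * (a₁ j - a₀ j) =
        (a₃ j + a₁ j - 2 * a₂ j) + 2 * (a₂ j + a₀ j - 2 * a₁ j) by ring]
      refine Valuation.map_add_le _ (hγ₃ j) ?_
      rw [two_mul]
      exact Valuation.map_add_le _ (hγ₂ j) (hγ₂ j)
    have hn : ∀ n : ℤ, A.valuation (n : K) ≤ 1 := fun n =>
      (A.valuation_le_one_iff _).2 (intCast_mem A n)
    have hv3' : ∀ (n : ℤ) (x y z : K), A.valuation (x * y * z) ≤ γ * γ * γ →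
        A.valuation (n * x * y * z) ≤ γ * γ * γ := fun n x y z h => by
      rw [mul_assoc (n : K) x y, mul_assoc (n : K), map_mul]
      exact le_trans (mul_le_mul' (hn n) h) (one_mul _).le
    have hp1 : A.valuation e₁ ≤ γ := hγ₁ j
    have hq1 : ∀ {x : K}, A.valuation x ≤ γ * γ → A.valuation x ≤ γ := fun h =>
      h.trans (mul_le_of_le_one_left' hγ)
    have k3 : ∀ {x y z : K}, A.valuation x ≤ γ → A.valuation y ≤ γ → A.valuation z ≤ γ →
        A.valuation (x * y * z) ≤ γ * γ * γ := fun hx hy hz => by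
      rw [map_mul, map_mul]; exact mul_le_mul' (mul_le_mul' hx hy) hz
    have k2 : ∀ {x y : K}, A.valuation x ≤ γ → A.valuation y ≤ γ * γ →
        A.valuation (x * y) ≤ γ * γ * γ := fun hx hy => by
      rw [map_mul, mul_assoc γ]; exact mul_le_mul' hx hy
    have hc2 : A.valuation ((3 * e₁ * e₃ + 3 * e₁ ^ 2 - 3 * e₂ ^ 2) / c) < 1 := hlow _ (by
      rw [show 3 * e₁ * e₃ + 3 * e₁ ^ 2 - 3 * e₂ ^ 2 =
        e₁ * ((3 : ℤ) * g) + e₁ * ((-12 : ℤ) * b) + b * ((-3 : ℤ) * b) by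
          simp only [hb, hg]; push_cast; ring]
      refine Valuation.map_add_le _ (Valuation.map_add_le _ (k2 hp1 ?_) (k2 hp1 ?_))
        (k2 (hq1 hb') ?_) <;>
      · rw [map_mul]; exact le_trans (mul_le_mul' (hn _) (by assumption)) (one_mul _).le)
    have hc1' : A.valuation ((e₂ ^ 3 - 3 * e₁ ^ 2 * e₃ - e₁ ^ 3) / c) < 1 := hlow _ (by
      rw [show e₂ ^ 3 - 3 * e₁ ^ 2 * e₃ - e₁ ^ 3 =
        (-2 : ℤ) * e₁ * e₁ * e₁ + (-3 : ℤ) * e₁ * e₁ * g + (12 : ℤ) * e₁ * e₁ * b +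
          (6 : ℤ) * e₁ * b * b + (1 : ℤ) * b * b * b by simp only [hb, hg]; push_cast; ring]
      exact Valuation.map_add_le _ (Valuation.map_add_le _ (Valuation.map_add_le _
        (Valuation.map_add_le _ (hv3' _ _ _ _ (k3 hp1 hp1 hp1))
        (hv3' _ _ _ _ (k3 hp1 hp1 (hq1 hg')))) (hv3' _ _ _ _ (k3 hp1 hp1 (hq1 hb'))))
        (hv3' _ _ _ _ (k3 hp1 (hq1 hb') (hq1 hb'))))
        (hv3' _ _ _ _ (k3 (hq1 hb') (hq1 hb') (hq1 hb'))))
    have hc0' : A.valuation ((e₃ * e₁ ^ 3) / c) < 1 := hlow _ (by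
      rw [map_mul, map_pow]
      refine le_trans (mul_le_of_le_one_left' ((A.valuation_le_one_iff _).2 ?_)) ?_
      · exact A.toSubring.sub_mem ((A.valuation_le_one_iff _).1 hv3.le)
          ((A.valuation_le_one_iff _).1 hv0.le)
      · rw [pow_succ, pow_two]; exact mul_le_mul' (mul_le_mul' hp1 hp1) hp1)
    obtain ⟨hc2A, hc20⟩ := hsmall _ hc2
    obtain ⟨hc1A, hc10⟩ := hsmall _ hc1'
    obtain ⟨hc0A, hc00⟩ := hsmall _ hc0'
    set X' := algebraMap K F c⁻¹ * (1 - U) with hX'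
    have hXid : τ₂ ^ 3 * τ₀ * X' = -(w * (τ₂ ^ 3 * τ₀)) +
        U * (-(algebraMap K F ((a₃ j - 3 * a₂ j + 3 * a₁ j - a₀ j) / c) * τ₀ ^ 3) +
          algebraMap K F ((3 * e₁ * e₃ + 3 * e₁ ^ 2 - 3 * e₂ ^ 2) / c) * τ₀ ^ 2 +
          algebraMap K F ((e₂ ^ 3 - 3 * e₁ ^ 2 * e₃ - e₁ ^ 3) / c) * τ₀ +
          algebraMap K F (e₃ * e₁ ^ 3 / c)) := by
      have hcF : algebraMap K F c ≠ 0 := by simpa using hc0
      have hUid' : τ₃ * τ₁ ^ 3 * U = s * (τ₂ ^ 3 * τ₀) := hUid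
      have h1' : τ₁ = τ₀ - (algebraMap K F (a₁ j) - algebraMap K F (a₀ j)) := by
        rw [hτ₁, hτ₀]; ring
      have h2' : τ₂ = τ₀ - (algebraMap K F (a₂ j) - algebraMap K F (a₀ j)) := by
        rw [hτ₂, hτ₀]; ring
      have h3' : τ₃ = τ₀ - (algebraMap K F (a₃ j) - algebraMap K F (a₀ j)) := by
        rw [hτ₃, hτ₀]; ring
      rw [h1', h2', h3'] at hUid'
      rw [h2']
      simp only [hX', hw, he₁, he₂, he₃, map_div₀, map_inv₀, map_sub, map_add, map_mul, map_pow,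
        map_ofNat]
      field_simp
      linear_combination (-1 : F) * hUid'
    have hrX : R.Red (τ₂ ^ 3 * τ₀ * X') (-(wb * (r j ^ 3 * r j)) +
        1 * (-(algebraMap k Fk (R.π ⟨_, hσA⟩) * r j ^ 3) + algebraMap k Fk (R.π ⟨_, hc2A⟩) * r j ^ 2 +
          algebraMap k Fk (R.π ⟨_, hc1A⟩) * r j + algebraMap k Fk (R.π ⟨_, hc0A⟩))) := by
      rw [hXid]
      exact (hredw.mul ((hr₂.pow 3).mul hr₀)).neg.add
        (hrU.mul (((((red_const ⟨_, hσA⟩).mul (hr₀.pow 3)).neg.add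
          ((red_const ⟨_, hc2A⟩).mul (hr₀.pow 2))).add ((red_const ⟨_, hc1A⟩).mul hr₀)).add
            (red_const ⟨_, hc0A⟩)))
    obtain ⟨Xb, hXb, hXeq⟩ := mem_of_mul_mem ((hr₂.pow 3).mul hr₀)
      (mul_ne_zero (pow_ne_zero _ (hr0 j)) (hr0 j)) hrX
    refine ⟨Xb, ?_, hσA, ?_⟩
    · rcases eq_or_ne Xb 0 with rfl | hne
      · exact atLeast_zero
      · have hnpX : NoPole R (Q j) X' := fun X hX =>
          ((AtLeast.sub (Or.inr (by simp)) (hUnp X hX))).smul c⁻¹
        have h1 := sum_le_ord hF hXb hne hnpX ∅ (by simp)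
        exact Or.inr (by simpa using h1)
    · rw [hc20, hc10, hc00, map_zero] at hXeq
      apply mul_left_cancel₀ (pow_ne_zero 2 (hr0 j))
      linear_combination hXeq
  choose Xb hXb σA hid using hdisc
  have hwQ : ∀ j, AtLeast (Q j) (-1) wb := by
    intro j
    have h2 : wb = -Xb j - algebraMap k Fk (R.π ⟨_, σA j⟩) * (r j)⁻¹ := by
      apply mul_right_cancel₀ (mul_ne_zero (hr0 j) (hr0 j))
      rw [sub_mul, neg_mul, mul_comm (Xb j), hid j]
      field_simp [hr0 j]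
      ring
    rw [h2]
    refine ((hXb j).neg.mono (by norm_num)).sub (AtLeast.smul (Or.inr ?_) _)
    rw [(Q j).ord_inv, hr1 j]
  have hwb0 : wb = 0 := by
    set E : Divisor k Fk := ∑ j, Finsupp.single (Q j) (1 : ℤ)
    have hE0 : 0 ≤ E := Finset.sum_nonneg fun j _ => Finsupp.single_nonneg.2 zero_le_one
    -- `wb` has at most simple poles, all at the `Q j`
    have hmem : wb ∈ riemannRochSpace E := by
      rw [FA.Curve.mem_riemannRochSpace]
      intro Q'
      by_cases hQ' : ∃ j, Q j = Q'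
      · obtain ⟨j, rfl⟩ := hQ'
        have : E (Q j) = 1 := by
          rw [sum_single_apply, Finset.card_eq_one.2 ⟨j, ?_⟩]
          · rfl
          · ext x
            simp [hQ.eq_iff]
        rw [this]
        exact hwQ j
      · push Not at hQ'
        have : E Q' = 0 := by
          rw [Finset.sum_apply']
          exact Finset.sum_eq_zero fun j _ => Finsupp.single_eq_of_ne (hQ' j).symm
        rw [this, neg_zero]
        rcases eq_or_ne wb 0 with h | h
        · rw [h]; exact atLeast_zero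
        have hnpw : NoPole R Q' w := fun X hX => by
          refine (AtLeast.sub ?_ (Or.inr (by simp))).smul _
          refine Or.inr ?_
          have hne : ∀ (Z : ι → Place K F), (∀ j, R.spl (Z j) = Q j) →
              (∑ j, Finsupp.single (Z j) (1 : ℤ)) X = 0 := fun Z hZ => by
            rw [Finset.sum_apply']
            exact Finset.sum_eq_zero fun j _ => Finsupp.single_eq_of_ne fun h =>
              hQ' j (by rw [← hZ j, ← h, hX])
          simp only [hords, hdiv, Finsupp.sub_apply, Finsupp.add_apply, Finsupp.smul_apply,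
            hne P₀ hP₀, hne P₁ hP₁, hne P₂ hP₂, hne P₃ hP₃]
          simp
        have := sum_le_ord hF hredw h hnpw ∅ (by simp)
        exact Or.inr (by simpa using this)
    have hnpw : NoPole R Qs w := fun X hX =>
      (AtLeast.sub (Or.inr (by rw [hords, hdiv0 X hX])) (Or.inr (by simp))).smul _
    have hv : HasValue Ps w 0 := by
      have := ((hvals.sub (hasValue_algebraMap Ps 1)).smul c⁻¹)
      rwa [map_one, sub_self, mul_zero] at this
    obtain ⟨h0, hv'⟩ := hasValue_red hF hredw hnpw hPs hv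
    rw [show (⟨(0 : K), h0⟩ : A) = 0 from rfl, map_zero] at hv'
    exact eq_zero_of_mem_of_hasValue hk hell hE0 hmem hv'
  -- `c` is attained
  rcases o with - | j
  · have hc₁ : c₁ ≠ 0 := hc0
    have hone : R.π ⟨c₁ / c, hc1⟩ = 1 := by
      rw [← map_one R.π]
      exact congrArg R.π (Subtype.ext (div_self hc₁))
    have : wb = ub := by simp only [wb, hone, map_one, one_mul]
    exact hub0 hc₁ (this ▸ hwb0)
  · have hone : R.π ⟨_, σA j⟩ = 1 := by
      rw [← map_one R.π]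
      exact congrArg R.π (Subtype.ext (div_self hc0))
    have h2 := hid j
    rw [hwb0, hone, map_one, zero_mul, neg_zero, zero_sub, one_mul, mul_assoc,
      ← mul_neg_one, mul_right_inj' (hr0 j)] at h2
    have hX0 : Xb j ≠ 0 := fun h => by rw [h, mul_zero] at h2; exact one_ne_zero (neg_eq_zero.1 h2.symm)
    have h3 := congrArg (Q j).ord h2
    rw [(Q j).ord_mul (hr0 j) hX0, hr1 j, place_ord_neg, (Q j).ord_one] at h3
    have h4 := (atLeast_iff hX0).1 (hXb j)
    omega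

end FA.CurveRed.Reduction
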