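import Fermat.Agent.Mazur.LocalP

/-!
# The values of the twists at rational classes in the disc

At every level the division of a rational class gives a pair of the Selmer count, so a bounded
multiple of it is a coboundary, and the values of the twists at the rational class are powers of
principal units fixed by inertia to the order of the level, hence roots of unity.
-/

set_option autoImplicit false
set_option linter.style.haveILetI false
set_option linter.unusedSectionVars false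

noncomputable section

namespace FA.Mazur

open ModularCurve AlgebraicCurve FA.Curve FA.CurveRed FA.ModField FA.Level FA.JTorsion

set_option synthInstance.maxHeartbeats 400000
set_option maxHeartbeats 2000000

local notation "Qb" => AlgebraicClosure ℚ
local notation "GQ" => AlgebraicClosure ℚ ≃ₐ[ℚ] AlgebraicClosure ℚ

variable [Algebra (AlgebraicClosure ℚ) ℂ]
variable {p : ℕ} [Fact p.Prime] {l : ℕ} [hl : Fact l.Prime]
  [Algebra (AlgebraicClosure ℚ) (PadicComplex l)]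
variable (hn : l ∣ eisensteinNumerator p) (hlp : ¬ l ∣ p)
include hlp

omit hn in
/-- A bounded multiple of a class moved inside the disc by Frobenius is in the disc. -/
theorem exists_nsmul_mem_discJ : ∃ m : ℕ, m ≠ 0 ∧ ∀ x : JZero p,
    frobEl l • x - x ∈ discJ (p := p) (l := l) hlp → m • x ∈ discJ (p := p) (l := l) hlp := by
  classical
  have hiff : ∀ x : JZero p, frobEl l • x - x ∈ discJ (p := p) (l := l) hlp ↔
      reductionModL (placeAt l) p (frobEl l • x) = reductionModL (placeAt l) p x := fun x => by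
    rw [mem_discClasses_iff, map_sub, sub_eq_zero]
  let F : AddSubgroup (JZero p) :=
    (discJ (p := p) (l := l) hlp).comap
      (DistribSMul.toAddMonoidHom (JZero p) (frobEl l) - AddMonoidHom.id (JZero p))
  set I := F.map (reductionModL (placeAt l) p)
  haveI : Finite I := by
    refine Set.Finite.to_subtype
      ((finite_reduction_frobStable p hlp (placeAt_liesOver l) (frobEl_spec l)).subset ?_)
    rintro _ ⟨x, hx, rfl⟩
    exact ⟨x, (hiff x).1 hx, rfl⟩
  refine ⟨Nat.card I, Nat.card_pos.ne', fun x hx => (mem_discClasses_iff l p hlp _).2 ?_⟩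
  rw [map_nsmul]
  exact congrArg Subtype.val (card_nsmul_eq_zero' (x := (⟨_, x, hx, rfl⟩ : I)))

omit [Algebra (AlgebraicClosure ℚ) ℂ] [Fact p.Prime] hn hlp in
theorem fixSub_le_fixSub {s t : Finset Qb} (hst : s ⊆ t) : fixSub (l := l) s ≤ fixSub t := by
  refine Subfield.topologicalClosure_minimal _ ?_ (isClosed_fixSub t)
  rintro _ ⟨a, ha, rfl⟩
  exact emb_mem_fixSub fun σ hσ h => ha σ hσ fun b hb => h b (hst hb)

omit [Algebra (AlgebraicClosure ℚ) ℂ] [Fact p.Prime] hn hlp in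
/-- A principal unit fixed by inertia is congruent to one modulo `l`. -/
theorem norm_sub_one_le_of_fixed {ts : Finset Qb} {U : Cl l} (hts : U ∈ fixSub ts)
    (hlt : ‖U - 1‖ < 1) (hfix : ∀ σ (hσ : σ ∈ inGp l), galExt (inGp_le l hσ) U = U) :
    ‖U - 1‖ ≤ ‖(l : Cl l)‖ := by
  have hmem : U ∈ intO l := mem_intO_of_fixed hts (norm_eq_one_of_sub norm_one hlt).le hfix
  obtain ⟨y, hy, he⟩ := exists_eq_mul_of_lt (sub_mem hmem (one_mem _)) hlt
  rw [he, norm_mul]
  exact mul_le_of_le_one_right (norm_nonneg _) (norm_le_one_of_intO hy)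

/-- The action of inertia on the values, additively. -/
theorem discExp_inertia_add (L : twistSub p l hn) {σ : GQ} (hσ : σ ∈ inGp l)
    {x : JZero p} (hx : x ∈ discJ (l := l) hlp) :
    MonoidHom.toAdditive (Units.map (galExt (inGp_le l hσ)).toMonoidHom)
        (discExp hn hlp L ⟨x, hx⟩) =
      discExp hn hlp L ⟨σ • x - x, smul_sub_mem_discJ hlp hσ x⟩ + discExp hn hlp L ⟨x, hx⟩ := by
  rw [← discExp_inertia hn hlp L hσ hx, ← map_add]
  exact congrArg _ (Subtype.ext (sub_add_cancel _ _).symm)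

/-- **The cocycle of a division on a level.** -/
theorem exists_level_cocycle {M : ℕ} (j : ℕ) (hMt : (M : TAlg p) * idemSeq p l hn j ∈ goodSub p)
    {w : JZero p} (hc0 : ∀ σ : GQ, l ^ j • (σ • w - w) = 0) :
    ∃ c : GQ → tauG hn j, IsCocycle c ∧ (∀ σ : GQ, σ • w = w → c σ = 0) ∧
      (∀ φ : JZero p →+ JZero p, (∀ (n : ℕ) [NeZero n] (x : ModN p (∅ : Set ℕ) n),
          φ (toTors p ∅ n x) = toTors p ∅ n (((M : TAlg p) * idemSeq p l hn j) • x)) →
        ∀ σ : GQ, ((c σ : tauG hn j) : JZero p) = φ (σ • w - w)) ∧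
      ∀ (σ : GQ) (h : σ • w - w ∈ discJ (l := l) hlp),
        ∃ h' : ((c σ : tauG hn j) : JZero p) ∈ discJ (l := l) hlp,
          ∀ X : twistSub p l hn, discExp hn hlp X ⟨_, h'⟩ =
            discExp hn hlp (twistMul hn (heckeR p l hn ((M : TAlg p) * idemSeq p l hn j)) X) ⟨_, h⟩ := by
  classical
  haveI : NeZero (l ^ j) := ⟨pow_ne_zero _ hl.out.ne_zero⟩
  choose q hq using fun σ : GQ => exists_toTors_of_nsmul (hc0 σ)
  set t : TAlg p := (M : TAlg p) * idemSeq p l hn j with ht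
  have htg : t ∈ goodSub p := hMt
  have hmem : ∀ σ, toTors p (∅ : Set ℕ) (l ^ j) (t • q σ) ∈ tauG hn j := fun σ => by
    obtain ⟨v, hv⟩ := redM_range p l hn j (q σ)
    refine ⟨M • v, ?_⟩
    show toTors _ _ _ (redM p l hn j (M • v)) = _
    rw [map_nsmul, hv, ht, mul_smul, Nat.cast_smul_eq_nsmul]
  let c : GQ → tauG hn j := fun σ => ⟨_, hmem σ⟩
  have hq0 : ∀ σ : GQ, σ • w = w → c σ = 0 := fun σ h => by
    have h1 : q σ = 0 := toTors_injective p (∅ : Set ℕ) (l ^ j) (by rw [hq, h, sub_self, map_zero])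
    exact Subtype.ext (by show toTors _ _ _ (t • q σ) = 0; rw [h1, smul_zero, map_zero])
  have hqmul : ∀ σ τ, q (σ * τ) = q σ + galMod p (∅ : Set ℕ) (l ^ j) σ (q τ) := fun σ τ =>
    toTors_injective p (∅ : Set ℕ) (l ^ j) (by
      rw [map_add, toTors_galMod, hq, hq, hq, smul_sub, mul_smul]; abel)
  refine ⟨c, ⟨fun σ τ => Subtype.ext ?_, ?_⟩, hq0,
    fun φ hφ σ => by rw [← hq, hφ], fun σ h => ?_⟩
  · show toTors _ _ _ (t • q (σ * τ)) = toTors _ _ _ (t • q σ) + σ • toTors _ _ _ (t • q τ)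
    rw [hqmul, smul_add, map_add, ← map_smul (galMod p (∅ : Set ℕ) (l ^ j) σ), toTors_galMod]
  · obtain ⟨E, hE, hEfix⟩ := FA.JTorsion.exists_field_fix p {w} (Set.finite_singleton w)
    exact ⟨E, hE, fun σ hσ => hq0 σ (hEfix σ hσ w rfl)⟩
  · have hq' : toTors p (∅ : Set ℕ) (l ^ j) (q σ) ∈ discJ (l := l) hlp := (hq σ).symm ▸ h
    refine ⟨(discExp_toTors hn hlp htg (0 : twistSub p l hn) hq').1, fun X => ?_⟩
    refine (discExp_toTors hn hlp htg X hq').2.trans ?_
    exact congrArg _ (Subtype.ext (hq σ))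

omit hn in
/-- Powers of a principal unit. -/
theorem norm_pow_sub_one_lt {U : Cl l} (h : ‖U - 1‖ < 1) (n : ℕ) : ‖U ^ n - 1‖ < 1 := by
  have := norm_add_one_pow_sub_one_le (x := U - 1) h.le n
  rw [sub_add_cancel] at this
  exact this.trans_lt h

/-- **A bounded multiple of the cocycle gives a pair of the count.** -/
theorem level_mem_selPairs {Ap : ValuationSubring Qb} {cb d Ep : ℕ}
    (hcb : ∀ k, ∀ v ∈ discStep hn hlp k, ∃ h ∈ discInf hn hlp,
      l ^ cb • tauM p l hn k v = tauM p l hn k h)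
    (hd : ∀ (j : ℕ) (f : tauG hn j →+ Additive Qbˣ),
      ∃ L : twistSub p l hn, ∀ x : discInf hn hlp,
        emb l ((f ⟨tauM p l hn j (x : EisM p l hn), (x : EisM p l hn), rfl⟩).toMul : Qb) ^ l ^ d =
          discVal hn hlp L x j)
    (T : ℕ → TAlg p) (j : ℕ) {w : JZero p} (hw : w ∈ discJ (l := l) hlp)
    (hc0 : ∀ σ : GQ, l ^ j • (σ • w - w) = 0) {c : GQ → tauG hn j} (hcoc : IsCocycle c)
    (hq0 : ∀ σ : GQ, σ • w = w → c σ = 0)
    (hdisc : ∀ (σ : GQ) (h : σ • w - w ∈ discJ (l := l) hlp),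
      ∃ h' : ((c σ : tauG hn j) : JZero p) ∈ discJ (l := l) hlp,
        ∀ X : twistSub p l hn, discExp hn hlp X ⟨_, h'⟩ =
          discExp hn hlp (twistMul hn (heckeR p l hn (T j)) X) ⟨_, h⟩)
    {g : tauG hn j} (hg : ∀ σ ∈ Ap.inertiaSubgroupIn ℚ, Ep • c σ + (σ • g - g) = 0) :
    ((fun σ => (l ^ cb * (l ^ d * Ep)) • c σ), (l ^ cb * l ^ d) • g) ∈
      selPairs l p (placeAt l) Ap (discG hn hlp j) := by
  classical
  set E₁ := l ^ cb * (l ^ d * Ep) with hE₁
  have hlev : ∀ σ ∈ inGp l, ∃ x : discInf hn hlp, l ^ cb • c σ =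
      ⟨tauM p l hn j (x : EisM p l hn), (x : EisM p l hn), rfl⟩ := by
    intro σ hσ
    obtain ⟨h', -⟩ := hdisc σ (smul_sub_mem_discJ hlp hσ w)
    obtain ⟨v, hv⟩ := (c σ).2
    obtain ⟨x, hx, hxe⟩ := hcb j v ((mem_discStep hn hlp).2 (hv.symm ▸ h'))
    refine ⟨⟨x, hx⟩, Subtype.ext ?_⟩
    rw [AddSubgroupClass.coe_nsmul, ← hv, hxe]
  refine ⟨⟨fun σ τ => ?_, ?_⟩, fun r hr hrl hrp A hA σ hσ => ?_, ⟨fun σ hσ => ?_, fun f => ?_⟩,
    fun σ hσ => ?_⟩
  · show E₁ • c (σ * τ) = E₁ • c σ + σ • (E₁ • c τ)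
    rw [hcoc.map_mul, nsmul_add, smul_comm σ]
  · obtain ⟨E, hE, hEc⟩ := hcoc.cts
    refine ⟨E, hE, fun σ hσ => ?_⟩
    show E₁ • c σ = 0
    rw [hEc σ hσ, nsmul_zero]
  · show E₁ • c σ = 0
    rw [hq0 σ ?_, nsmul_zero]
    haveI : Fact r.Prime := ⟨hr⟩
    have hrp' : ¬ r ∣ p := fun h => hrp ((Nat.prime_dvd_prime_iff_eq hr Fact.out).1 h)
    refine sub_eq_zero.1 (eq_zero_of_reductionModL p hrp' hA
      (FA.CurveRed.Modular.reductionInputsModL p hr hrp' A hA) (m := l ^ j)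
      (fun h => hrl ((Nat.prime_dvd_prime_iff_eq hr hl.out).1 (hr.dvd_of_dvd_pow h))) (hc0 σ) ?_)
    rw [map_sub, reductionModL_inertia p hrp' hA
      (FA.CurveRed.Modular.reductionInputsModL p hr hrp' A hA) hσ, sub_self]
  · obtain ⟨x, hx⟩ := hlev σ hσ
    show E₁ • c σ ∈ _
    rw [hE₁, mul_comm (l ^ cb), mul_nsmul', hx]
    refine AddSubgroup.nsmul_mem _ ?_ _
    exact AddSubgroup.mem_addSubgroupOf.2 ⟨_, x.2, rfl⟩
  · obtain ⟨L', hL'⟩ := hd j f
    obtain ⟨ts, hts, hlt⟩ := exists_discExp_mem hn hlp (twistMul hn (heckeR p l hn (T j)) L') hw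
    set A := discExp hn hlp (twistMul hn (heckeR p l hn (T j)) L') ⟨w, hw⟩
    have hlt' := norm_pow_sub_one_lt (p := p) hlp hlt (l ^ cb * Ep)
    refine exists_unit_of_near hlp (pow_mem hts (l ^ cb * Ep)) hlt'
      (fun σ => ((f (E₁ • c σ)).toMul : Qb)) fun σ hσ => ?_
    obtain ⟨x, hx⟩ := hlev σ hσ
    obtain ⟨h', hX⟩ := hdisc σ (smul_sub_mem_discJ hlp hσ w)
    have h1 := congrArg (fun a : Additive (Cl l)ˣ => (((l ^ cb * Ep) • a).toMul : Cl l))
      (discExp_inertia_add hn hlp (twistMul hn (heckeR p l hn (T j)) L') hσ hw)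
    simp only [nsmul_add, toMul_add, Units.val_mul, toMul_nsmul, Units.val_pow_eq_pow_val] at h1
    refine Eq.trans ?_ (h1.trans (congrArg (· * _) ?_))
    · rw [map_pow]; rfl
    · have h2 : ((discExp hn hlp (twistMul hn (heckeR p l hn (T j)) L')
          ⟨σ • w - w, smul_sub_mem_discJ hlp hσ w⟩).toMul : Cl l) ^ l ^ cb =
          discVal hn hlp L' x j := by
        rw [← hX L', discVal, ← Units.val_pow_eq_pow_val, ← toMul_nsmul, ← map_nsmul]
        exact congrArg (fun a => ((discExp hn hlp L' a).toMul : Cl l))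
          (Subtype.ext (congrArg Subtype.val hx :))
      rw [pow_mul, h2, ← hL', hE₁, mul_comm (l ^ cb), mul_nsmul', hx, map_nsmul, toMul_nsmul,
        Units.val_pow_eq_pow_val, map_pow, pow_mul]
  · show E₁ • c σ + (σ • ((l ^ cb * l ^ d) • g) - (l ^ cb * l ^ d) • g) = 0
    rw [hE₁, ← mul_assoc, mul_nsmul', smul_comm σ, ← nsmul_sub, ← nsmul_add, hg σ hσ, nsmul_zero]

set_option maxHeartbeats 16000000 in
/-- **The coboundary gives the congruence.** -/
theorem level_congruence {z w h' : JZero p} {j M M₀ K : ℕ} (hz : z ∈ discJ (l := l) hlp)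
    (hrat : ∀ σ : GQ, σ • z = z) (hw : w ∈ discJ (l := l) hlp) (hh' : h' ∈ discJ (l := l) hlp)
    (hlw : l ^ j • w = M₀ • z) (hlh : l ^ j • h' = 0) {c : GQ → JZero p}
    (hKc : ∀ σ : GQ, σ • h' - h' = K • c σ)
    (hdisc : ∀ (σ : GQ) (h : σ • w - w ∈ discJ (l := l) hlp),
      ∃ h'' : c σ ∈ discJ (l := l) hlp, ∀ X : twistSub p l hn, discExp hn hlp X ⟨_, h''⟩ =
        discExp hn hlp (twistMul hn (heckeR p l hn ((M : TAlg p) * idemSeq p l hn j)) X) ⟨_, h⟩)
    (L : twistSub p l hn) :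
    ‖((discExp hn hlp L ⟨z, hz⟩).toMul : Cl l) ^ (M * (M₀ * K)) - 1‖ ≤ ‖(l : Cl l)‖ ^ (j + 1) := by
  classical
  set t : TAlg p := (M : TAlg p) * idemSeq p l hn j with ht
  -- a principal unit fixed by inertia
  set tL := twistMul hn (heckeR p l hn t) L
  set r := K • discExp hn hlp tL ⟨w, hw⟩ - discExp hn hlp L ⟨h', hh'⟩ with hr
  have hrfix : ∀ σ (hσ : σ ∈ inGp l), galExt (inGp_le l hσ) (r.toMul : Cl l) = (r.toMul : Cl l) := by
    intro σ hσ
    obtain ⟨hcσ, hX⟩ := hdisc σ (smul_sub_mem_discJ hlp hσ w)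
    have e : discExp hn hlp L ⟨σ • h' - h', smul_sub_mem_discJ hlp hσ h'⟩ =
        K • discExp hn hlp tL ⟨σ • w - w, smul_sub_mem_discJ hlp hσ w⟩ := by
      rw [← hX L, ← map_nsmul]
      exact congrArg _ (Subtype.ext (hKc σ))
    have h1 : MonoidHom.toAdditive (Units.map (galExt (inGp_le l hσ)).toMonoidHom) r = r := by
      rw [hr, map_sub, map_nsmul, discExp_inertia_add hn hlp tL hσ hw,
        discExp_inertia_add hn hlp L hσ hh', e, nsmul_add]
      abel
    exact congrArg (fun a : Additive (Cl l)ˣ => (a.toMul : Cl l)) h1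
  clear_value r
  obtain ⟨t1, ht1, hn1⟩ := exists_discExp_mem hn hlp tL hw
  obtain ⟨t2, ht2, hn2⟩ := exists_discExp_mem hn hlp L hh'
  set U1 := ((discExp hn hlp tL ⟨w, hw⟩).toMul : Cl l)
  set U2 := ((discExp hn hlp L ⟨h', hh'⟩).toMul : Cl l)
  have hU2 : ‖U2‖ = 1 := norm_eq_one_of_sub norm_one hn2
  have hrv : (r.toMul : Cl l) = U1 ^ K / U2 := by
    rw [hr, toMul_sub, Units.val_div_eq_div_val, toMul_nsmul, Units.val_pow_eq_pow_val]
  have hrmem : (r.toMul : Cl l) ∈ fixSub (t1 ∪ t2) := by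
    rw [hrv]
    exact div_mem (pow_mem (fixSub_le_fixSub Finset.subset_union_left ht1) K)
      (fixSub_le_fixSub Finset.subset_union_right ht2)
  have hrlt : ‖(r.toMul : Cl l) - 1‖ < 1 := by
    have hU20 : U2 ≠ 0 := Units.ne_zero _
    have h1 : ‖U1 ^ K - 1‖ < 1 := norm_pow_sub_one_lt (p := p) hlp hn1 K
    rw [hrv, div_sub_one hU20, norm_div, hU2, div_one,
      show U1 ^ K - U2 = (U1 ^ K - 1) + (1 - U2) by ring]
    exact (IsUltrametricDist.norm_add_le_max _ _).trans_lt (max_lt h1 (by rwa [norm_sub_rev]))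
  have hpow := norm_pow_prime_pow_sub_one_le hl.out (norm_natCast_lt_one l).le
    (norm_sub_one_le_of_fixed hrmem hrlt hrfix) j
  -- the power is a value at the rational class
  set Z : discJ (p := p) (l := l) hlp := ⟨z, hz⟩
  have hlr : l ^ j • r = (M₀ * K) • discExp hn hlp tL Z := by
    have e1 : l ^ j • discExp hn hlp tL ⟨w, hw⟩ = M₀ • discExp hn hlp tL Z := by
      rw [← map_nsmul, ← map_nsmul]
      exact congrArg _ (Subtype.ext hlw)
    have e2 : l ^ j • discExp hn hlp L ⟨h', hh'⟩ = 0 := by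
      rw [← map_nsmul, ← map_zero (discExp hn hlp L)]
      exact congrArg _ (Subtype.ext hlh)
    rw [hr, nsmul_sub, e2, sub_zero, smul_comm (l ^ j) K, e1, ← mul_nsmul', mul_comm K]
  obtain ⟨y, hy⟩ := heckeR_idemSeq p l hn j
  set X := M • twistMul hn y L
  have eL : tL = M • L + l ^ j • X := by
    refine Subtype.ext (LinearMap.ext fun x => ?_)
    rw [Submodule.coe_add, Submodule.coe_smul_of_tower, Submodule.coe_smul_of_tower,
      Submodule.coe_smul_of_tower, LinearMap.add_apply, LinearMap.smul_apply, LinearMap.smul_apply,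
      LinearMap.smul_apply, twistMul_apply, twistMul_apply, map_mul (heckeR p l hn), map_natCast,
      sub_eq_iff_eq_add'.1 hy, mul_assoc (M : EisR p l hn), ← nsmul_eq_mul, map_nsmul, add_mul,
      one_mul, map_add, nsmul_add, mul_assoc, ← Nat.cast_pow, ← nsmul_eq_mul, map_nsmul,
      smul_comm M (l ^ j)]
  have hfixz : ∀ σ (hσ : σ ∈ inGp l), galExt (inGp_le l hσ)
      (((discExp hn hlp X Z).toMul : Cl l) ^ (M₀ * K)) =
        ((discExp hn hlp X Z).toMul : Cl l) ^ (M₀ * K) := by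
    intro σ hσ
    have h1 := discExp_inertia_add hn hlp X hσ hz
    have h2 : (⟨σ • z - z, smul_sub_mem_discJ hlp hσ z⟩ : discJ (p := p) (l := l) hlp) = 0 :=
      Subtype.ext (sub_eq_zero.2 (hrat σ))
    rw [h2, map_zero, zero_add] at h1
    have h3 := congrArg (fun a : Additive (Cl l)ˣ => (a.toMul : Cl l)) h1
    rw [map_pow]
    exact congrArg (· ^ (M₀ * K)) h3
  obtain ⟨-, hXn⟩ := discExp_near_one hn hlp X hz hfixz
  have hQ := norm_pow_prime_pow_sub_one_le hl.out (norm_natCast_lt_one l).le hXn j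
  set P := ((discExp hn hlp L Z).toMul : Cl l) ^ (M * (M₀ * K))
  set Q := (((discExp hn hlp X Z).toMul : Cl l) ^ (M₀ * K)) ^ l ^ j
  have hPQ : (r.toMul : Cl l) ^ l ^ j = P * Q := by
    have e3 : discExp hn hlp tL Z = M • discExp hn hlp L Z + l ^ j • discExp hn hlp X Z := by
      have e4 := congrArg ((discExp hn hlp).flip Z) eL
      rw [map_add, map_nsmul, map_nsmul] at e4
      exact e4
    rw [← Units.val_pow_eq_pow_val, ← toMul_nsmul, hlr, e3, nsmul_add, toMul_add, Units.val_mul]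
    simp only [P, Q, toMul_nsmul, Units.val_pow_eq_pow_val, ← pow_mul]
    rw [mul_comm (l ^ j)]
  rw [hPQ] at hpow
  have hlt1 : ‖(l : Cl l)‖ ^ (j + 1) < 1 :=
    pow_lt_one₀ (norm_nonneg _) (norm_natCast_lt_one l) (Nat.succ_ne_zero j)
  have hQ1 : ‖Q‖ = 1 := norm_eq_one_of_sub norm_one (hQ.trans_lt hlt1)
  have e : ‖P - 1‖ = ‖(P * Q - 1) + (1 - Q)‖ := by
    rw [show (P * Q - 1) + (1 - Q) = (P - 1) * Q by ring, norm_mul, hQ1, mul_one]
  rw [e]
  exact (IsUltrametricDist.norm_add_le_max _ _).trans (max_le hpow (by rwa [norm_sub_rev]))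

/-- **The values of the twists at rational classes in the disc are roots of unity.** -/
theorem exists_pow_discExp_eq_one {Ap : ValuationSubring Qb} (hAp : Ap.LiesOverPrime p)
    {z : JZero p} (hz : z ∈ discJ (l := l) hlp) (hrat : ∀ σ : GQ, σ • z = z) :
    ∃ m : ℕ, m ≠ 0 ∧ ∀ L : twistSub p l hn,
      ((discExp hn hlp L ⟨z, hz⟩).toMul : Cl l) ^ m = 1 := by
  classical
  obtain ⟨M₀, hM₀, hdiv⟩ := exists_disc_division (p := p) (l := l) hlp
  obtain ⟨M, hM, hMt⟩ := exists_nat_mul_mem_goodSub (p := p)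
  obtain ⟨cb, hcb⟩ := exists_discStep_bound hn hlp
  obtain ⟨d, hd⟩ := exists_twist_hom hn hlp
  obtain ⟨Ep, hEp, hloc⟩ := exists_local_bound hn hlp hAp
  obtain ⟨-, μ, hμ, hcount⟩ := exists_count_bound hn hlp hAp
  obtain ⟨m₂, hm₂, hkill⟩ := exists_nsmul_mem_discJ (p := p) (l := l) hlp
  have hl0 := hl.out.ne_zero
  set E₁ := l ^ cb * (l ^ d * Ep) with hE₁
  set K := m₂ * (μ * E₁) with hK
  refine ⟨M * (M₀ * K), mul_ne_zero hM (mul_ne_zero hM₀ (mul_ne_zero hm₂ (mul_ne_zero hμ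
    (mul_ne_zero (pow_ne_zero _ hl0) (mul_ne_zero (pow_ne_zero _ hl0) hEp))))), fun L => ?_⟩
  suffices hsmall : ∀ j, ‖((discExp hn hlp L ⟨z, hz⟩).toMul : Cl l) ^ (M * (M₀ * K)) - 1‖ ≤
      ‖(l : Cl l)‖ ^ (j + 1) by
    exact sub_eq_zero.1 (norm_le_zero_iff.1 (ge_of_tendsto'
      ((tendsto_pow_atTop_nhds_zero_of_lt_one (norm_nonneg _)
        (norm_natCast_lt_one l)).comp (Filter.tendsto_add_atTop_nat 1)) hsmall))
  intro j
  set H := discJ (p := p) (l := l) hlp
  -- the division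
  obtain ⟨y', hy'⟩ := exists_pow_nsmul_eq (p := p) (l := l) j z
  obtain ⟨u, hu, hw⟩ := hdiv j z y' (hrat _) hy'
  set w := M₀ • y' - u
  have hlw : l ^ j • w = M₀ • z := by rw [nsmul_sub, hu, sub_zero, smul_comm, hy']
  have hc0 : ∀ σ : GQ, l ^ j • (σ • w - w) = 0 := fun σ => by
    rw [nsmul_sub, nsmul_gal, hlw, ← nsmul_gal, hrat σ, sub_self]
  clear_value w
  obtain ⟨c, hcoc, hq0, -, hdisc⟩ := exists_level_cocycle hn hlp j (hMt _) hc0
  obtain ⟨g, hg⟩ := hloc j c hcoc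
  obtain ⟨h, hh⟩ := hcount j _ (level_mem_selPairs hn hlp hcb hd
    (fun j => (M : TAlg p) * idemSeq p l hn j) j hw hc0 hcoc hq0 hdisc hg)
  -- the coboundary reaches the disc
  set h' : JZero p := m₂ • ((h : tauG hn j) : JZero p)
  have hKc : ∀ σ : GQ, σ • h' - h' = K • ((c σ : tauG hn j) : JZero p) := fun σ => by
    have h1 := congrArg Subtype.val (hh σ)
    simp only [AddSubgroupClass.coe_nsmul, AddSubgroupClass.coe_sub, coe_tauG_smul] at h1
    show σ • (m₂ • _) - m₂ • _ = _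
    rw [← nsmul_gal, ← nsmul_sub, ← h1]
    simp only [hK, hE₁, mul_nsmul']
  have hh' : h' ∈ H := by
    refine hkill _ ?_
    obtain ⟨hcφ, -⟩ := hdisc (frobEl l)
      (sub_mem (smul_mem_discClasses l p hlp (frobEl_mem l) hw) hw)
    have h1 := congrArg Subtype.val (hh (frobEl l))
    simp only [AddSubgroupClass.coe_nsmul, AddSubgroupClass.coe_sub, coe_tauG_smul] at h1
    rw [← h1]
    exact AddSubgroup.nsmul_mem _ (AddSubgroup.nsmul_mem _ hcφ _) _
  refine level_congruence hn hlp hz hrat hw hh' hlw ?_ hKc hdisc L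
  show l ^ j • (m₂ • ((h : tauG hn j) : JZero p)) = 0
  rw [smul_comm, ← AddSubgroupClass.coe_nsmul, pow_nsmul_tauG, ZeroMemClass.coe_zero, nsmul_zero]

end FA.Mazur

end
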